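/-
Programme K (S52, the 3-5 switch), PART C: the dictionary (helper3, prefix `s52c_`).

Everything here is stated for an arbitrary odd prime `lam`; the S52 uses are `lam = 5` (C1) and
`lam = 3` (C2).  `s58_Pt W = W(ℚ̄)` with the Prelude Galois action, `s58_G = G_ℚ`.

* `s52c_ellFrob`      : `s58_EllFrob` (the quadratic relation of a Frobenius on `W[lamⁿ]`), re-exported.
* `s52c_ap_congr`     : **(C1)** `φ : W'(ℚ̄) → W(ℚ̄)` additive and `G_ℚ`-equivariant ON THE `lam`-TORSION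
  with `φ P ≠ 0` for some `P ∈ W'[lam]`; then `lam ∣ a_ℓ(W') − a_ℓ(W)` for every prime `ℓ ≠ lam` of good
  reduction for both models.
* `s52c_ap_congr_symm`: the same with `φ : W(ℚ̄) → W'(ℚ̄)`.
* `s52c_ap_congr_of_injOn` : variant with `φ` injective on `W'[lam]` (and `W'.Δ ≠ 0`).
* `s52c_ap_congr_five` : `lam = 5`, in the literal shape of the last clause of S52.
* `s52c_ap_congr_of_models` : the same through `ℚ`-models `E = C • W_ℚ`, `E' = C' • W'_ℚ`.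
* `s52c_irred`        : **(C2)** `W.Δ ≠ 0`, `ℓ ≠ lam` a good prime such that `X² − a_ℓ X + ℓ` has no root
  in `ZMod lam`; then `W.ModRepIsIrreducible lam`.
* `s52c_irred_three`  : the case `lam = 3`.
-/
import Fermat.Agent.Lib.S58.FCore
import Fermat.Agent.Lib.S58.OExact
import Fermat.Agent.Lib.Frobenius.Exists
import Fermat.Agent.Lib.Frey.VarChangeMap

set_option autoImplicit false
set_option linter.unusedSectionVars false
set_option linter.style.haveILetI false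

noncomputable section

namespace Fermat.Agent.Lib.S52

open WeierstrassCurve WeierstrassCurve.Affine WeierstrassCurve.Affine.Point
open Fermat.Agent.Lib.S58 Fermat.Agent.Lib.EN Fermat.Agent.Lib.Frey

local notation "Kb" => AlgebraicClosure ℚ

/-- the quadratic relation of a Frobenius element on `W[λⁿ]` (`s58_EllFrob`, proved in Lib/S58). -/
theorem s52c_ellFrob : s58_EllFrob := s58o_ellFrob_of_core s58f_frobCore

/-- a point of prime order `lam` killed by the integer `d`: then `lam ∣ d`. -/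
theorem s52c_dvd_of_zsmul_eq_zero {M : Type*} [AddGroup M] {lam : ℕ} (hlam : lam.Prime) {Q : M}
    (hQ : lam • Q = 0) (hQ0 : Q ≠ 0) {d : ℤ} (hd : d • Q = 0) : (lam : ℤ) ∣ d := by
  have h5 : addOrderOf Q = lam := by
    have h := addOrderOf_dvd_of_nsmul_eq_zero hQ
    rcases (Nat.dvd_prime hlam).mp h with h1 | h1
    · exact absurd (AddMonoid.addOrderOf_eq_one_iff.mp h1) hQ0
    · exact h1
  rw [← h5]
  exact addOrderOf_dvd_iff_zsmul_eq_zero.mpr hd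

/-- **(C1)** a map `φ : W'(ℚ̄) → W(ℚ̄)` which, on the `lam`-torsion, is additive and commutes with
`G_ℚ`, and which does not kill `W'[lam]`: then `a_ℓ(W') ≡ a_ℓ(W) (mod lam)` at every prime `ℓ ≠ lam`
of good reduction for both models. -/
theorem s52c_ap_congr (W W' : WeierstrassCurve ℤ) (lam : ℕ) (hlam : lam.Prime) (hlam2 : lam ≠ 2)
    (φ : s58_Pt W' → s58_Pt W)
    (hadd : ∀ P Q : s58_Pt W', lam • P = 0 → lam • Q = 0 → φ (P + Q) = φ P + φ Q)
    (hequiv : ∀ (σ : s58_G) (P : s58_Pt W'), lam • P = 0 → φ (σ • P) = σ • φ P)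
    (hne : ∃ P : s58_Pt W', lam • P = 0 ∧ φ P ≠ 0)
    (ℓ : ℕ) (hℓ : ℓ.Prime) (hℓlam : ℓ ≠ lam) (hg : ¬ (ℓ : ℤ) ∣ W.Δ) (hg' : ¬ (ℓ : ℤ) ∣ W'.Δ) :
    (lam : ℤ) ∣ W'.apOfModel ℓ - W.apOfModel ℓ := by
  obtain ⟨A, σ, hA, hσ⟩ := Fermat.Agent.Lib.Frobenius.exists_isFrobeniusAt ℓ hℓ
  obtain ⟨P, hP, hφP⟩ := hne
  -- the `lam`-torsion subgroup of `W'` and `φ` as a homomorphism on it
  have h0 : φ 0 = 0 := by
    have h := hadd 0 0 (nsmul_zero _) (nsmul_zero _)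
    rw [add_zero] at h
    exact left_eq_add.mp h
  let T : AddSubgroup (s58_Pt W') :=
    { carrier := {P | lam • P = 0}
      zero_mem' := nsmul_zero _
      add_mem' := fun {a b} ha hb => by
        show lam • (a + b) = 0
        rw [nsmul_add, show lam • a = 0 from ha, show lam • b = 0 from hb, add_zero]
      neg_mem' := fun {a} ha => by
        show lam • (-a) = 0
        rw [neg_nsmul, show lam • a = 0 from ha, _root_.neg_zero] }
  have hT : ∀ x : T, lam • (x : s58_Pt W') = 0 := fun x => x.2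
  let ψ : T →+ s58_Pt W :=
    { toFun := fun x => φ x
      map_zero' := h0
      map_add' := fun x y => hadd x y (hT x) (hT y) }
  have hσT : ∀ Q : s58_Pt W', lam • Q = 0 → lam • (σ • Q) = 0 := by
    intro Q hQ
    rw [← natCast_zsmul, ← algEquiv_smul_zsmul, natCast_zsmul, hQ, smul_zero]
  -- the relation on `W'`
  have h1 := s52c_ellFrob W' ℓ hℓ hg' lam hlam hlam2 (Ne.symm hℓlam) 1 A hA σ hσ P
    (by rw [pow_one]; exact hP)
  let Q0 : T := ⟨P, hP⟩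
  let Q1 : T := ⟨σ • P, hσT P hP⟩
  let Q2 : T := ⟨σ • σ • P, hσT _ (hσT P hP)⟩
  have h1T : Q2 - W'.apOfModel ℓ • Q1 + ℓ • Q0 = 0 := by
    apply Subtype.ext
    rw [AddSubgroup.coe_add, AddSubgroup.coe_sub, AddSubgroup.coe_zsmul, AddSubgroup.coe_nsmul]
    exact h1
  have h1ψ := congrArg ψ h1T
  rw [map_add, map_sub, map_zsmul, map_nsmul, _root_.map_zero] at h1ψ
  have e0 : ψ Q0 = φ P := rfl
  have e1 : ψ Q1 = σ • φ P := hequiv σ P hP
  have e2 : ψ Q2 = σ • σ • φ P := by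
    show φ (σ • σ • P) = _
    rw [hequiv σ (σ • P) (hσT P hP), hequiv σ P hP]
  rw [e0, e1, e2] at h1ψ
  -- the relation on `W`
  have hφT : lam • φ P = 0 := by
    have h := map_nsmul ψ lam Q0
    rw [e0] at h
    rw [← h]
    have : lam • Q0 = 0 := Subtype.ext hP
    rw [this, _root_.map_zero]
  have h2 := s52c_ellFrob W ℓ hℓ hg lam hlam hlam2 (Ne.symm hℓlam) 1 A hA σ hσ (φ P)
    (by rw [pow_one]; exact hφT)
  -- subtract
  have h3 : (W'.apOfModel ℓ - W.apOfModel ℓ) • (σ • φ P) = 0 := by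
    have h := congrArg₂ (· - ·) h2 h1ψ
    simp only [sub_zero] at h
    rw [sub_smul]
    rw [← h]
    abel
  rw [← algEquiv_smul_zsmul] at h3
  exact s52c_dvd_of_zsmul_eq_zero hlam hφT hφP ((smul_eq_zero_iff_eq σ).mp h3)

/-- **(C1)**, with the map going from `W` to `W'`. -/
theorem s52c_ap_congr_symm (W W' : WeierstrassCurve ℤ) (lam : ℕ) (hlam : lam.Prime)
    (hlam2 : lam ≠ 2) (φ : s58_Pt W → s58_Pt W')
    (hadd : ∀ P Q : s58_Pt W, lam • P = 0 → lam • Q = 0 → φ (P + Q) = φ P + φ Q)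
    (hequiv : ∀ (σ : s58_G) (P : s58_Pt W), lam • P = 0 → φ (σ • P) = σ • φ P)
    (hne : ∃ P : s58_Pt W, lam • P = 0 ∧ φ P ≠ 0)
    (ℓ : ℕ) (hℓ : ℓ.Prime) (hℓlam : ℓ ≠ lam) (hg : ¬ (ℓ : ℤ) ∣ W.Δ) (hg' : ¬ (ℓ : ℤ) ∣ W'.Δ) :
    (lam : ℤ) ∣ W'.apOfModel ℓ - W.apOfModel ℓ := by
  have h := s52c_ap_congr W' W lam hlam hlam2 φ hadd hequiv hne ℓ hℓ hℓlam hg' hg
  rw [← neg_sub]
  exact (dvd_neg).mpr h

/-- **(C1)**, with `φ` injective on `W'[lam]` (`W'.Δ ≠ 0` provides a non-zero point of `W'[lam]`). -/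
theorem s52c_ap_congr_of_injOn (W W' : WeierstrassCurve ℤ) (hΔ' : W'.Δ ≠ 0) (lam : ℕ)
    (hlam : lam.Prime) (hlam2 : lam ≠ 2) (φ : s58_Pt W' → s58_Pt W)
    (hadd : ∀ P Q : s58_Pt W', lam • P = 0 → lam • Q = 0 → φ (P + Q) = φ P + φ Q)
    (hequiv : ∀ (σ : s58_G) (P : s58_Pt W'), lam • P = 0 → φ (σ • P) = σ • φ P)
    (hinj : ∀ P : s58_Pt W', lam • P = 0 → φ P = 0 → P = 0)
    (ℓ : ℕ) (hℓ : ℓ.Prime) (hℓlam : ℓ ≠ lam) (hg : ¬ (ℓ : ℤ) ∣ W.Δ) (hg' : ¬ (ℓ : ℤ) ∣ W'.Δ) :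
    (lam : ℤ) ∣ W'.apOfModel ℓ - W.apOfModel ℓ := by
  obtain ⟨P, hP1, hP0⟩ := s58o_ellExact W' hΔ' lam hlam 0
  rw [zero_add, pow_one] at hP1
  rw [pow_zero, one_smul] at hP0
  exact s52c_ap_congr W W' lam hlam hlam2 φ hadd hequiv ⟨P, hP1, fun h => hP0 (hinj P hP1 h)⟩
    ℓ hℓ hℓlam hg hg'

/-- **(C1)** in the literal shape of the conclusion of S52 (`lam = 5`). -/
theorem s52c_ap_congr_five (W W' : WeierstrassCurve ℤ) (φ : s58_Pt W' → s58_Pt W)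
    (hadd : ∀ P Q : s58_Pt W', 5 • P = 0 → 5 • Q = 0 → φ (P + Q) = φ P + φ Q)
    (hequiv : ∀ (σ : s58_G) (P : s58_Pt W'), 5 • P = 0 → φ (σ • P) = σ • φ P)
    (hne : ∃ P : s58_Pt W', 5 • P = 0 ∧ φ P ≠ 0) :
    ∀ ℓ : ℕ, ℓ.Prime → W.IsGoodPrimeFor ℓ → W'.IsGoodPrimeFor ℓ → ℓ ≠ 5 →
      (5 : ℤ) ∣ (W'.apOfModel ℓ - W.apOfModel ℓ) := by
  intro ℓ hℓ hg hg' hℓ5
  have h := s52c_ap_congr W W' 5 Nat.prime_five (by norm_num) φ hadd hequiv hne ℓ hℓ hℓ5 hg hg'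
  exact_mod_cast h

/-- **(C1)** through `ℚ`-models: `E`, `E'` are Weierstrass curves over `ℚ` obtained from `W_ℚ`, `W'_ℚ`
by changes of variables over `ℚ` (e.g. the short models `s52m_shortOf c₄ c₆`), and
`φ : E'(ℚ̄) → E(ℚ̄)` is additive and `G_ℚ`-equivariant on the `lam`-torsion and does not kill it. -/
theorem s52c_ap_congr_of_models (W W' : WeierstrassCurve ℤ) (E E' : WeierstrassCurve ℚ)
    (C C' : WeierstrassCurve.VariableChange ℚ)
    (hC : C • (W.map (Int.castRingHom ℚ)) = E) (hC' : C' • (W'.map (Int.castRingHom ℚ)) = E')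
    (lam : ℕ) (hlam : lam.Prime) (hlam2 : lam ≠ 2)
    (φ : (E'.baseChange Kb).toAffine.Point → (E.baseChange Kb).toAffine.Point)
    (hadd : ∀ P Q : (E'.baseChange Kb).toAffine.Point, lam • P = 0 → lam • Q = 0 →
      φ (P + Q) = φ P + φ Q)
    (hequiv : ∀ (σ : s58_G) (P : (E'.baseChange Kb).toAffine.Point), lam • P = 0 →
      φ (σ • P) = σ • φ P)
    (hne : ∃ P : (E'.baseChange Kb).toAffine.Point, lam • P = 0 ∧ φ P ≠ 0)
    (ℓ : ℕ) (hℓ : ℓ.Prime) (hℓlam : ℓ ≠ lam) (hg : ¬ (ℓ : ℤ) ∣ W.Δ) (hg' : ¬ (ℓ : ℤ) ∣ W'.Δ) :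
    (lam : ℤ) ∣ W'.apOfModel ℓ - W.apOfModel ℓ := by
  let e₁ : (E.baseChange Kb).toAffine.Point ≃+ s58_Pt W :=
    fvc_baseChangeEquiv (K := Kb) E (W.map (Int.castRingHom ℚ)) C hC
  let e₂ : (E'.baseChange Kb).toAffine.Point ≃+ s58_Pt W' :=
    fvc_baseChangeEquiv (K := Kb) E' (W'.map (Int.castRingHom ℚ)) C' hC'
  have he₁ : ∀ (σ : s58_G) (P : (E.baseChange Kb).toAffine.Point), e₁ (σ • P) = σ • e₁ P :=
    fun σ P => fvc_baseChangeEquiv_smul (K := Kb) (S := ℚ) E (W.map (Int.castRingHom ℚ)) C hC σ P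
  have he₂ : ∀ (σ : s58_G) (P : (E'.baseChange Kb).toAffine.Point), e₂ (σ • P) = σ • e₂ P :=
    fun σ P => fvc_baseChangeEquiv_smul (K := Kb) (S := ℚ) E' (W'.map (Int.castRingHom ℚ)) C' hC' σ P
  have he₂s : ∀ (σ : s58_G) (P : s58_Pt W'), e₂.symm (σ • P) = σ • e₂.symm P := by
    intro σ P
    apply e₂.injective
    rw [he₂, AddEquiv.apply_symm_apply, AddEquiv.apply_symm_apply]
  have htor : ∀ P : s58_Pt W', lam • P = 0 → lam • e₂.symm P = 0 := by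
    intro P hP
    rw [← map_nsmul, hP, _root_.map_zero]
  refine s52c_ap_congr W W' lam hlam hlam2 (fun P => e₁ (φ (e₂.symm P))) ?_ ?_ ?_ ℓ hℓ hℓlam hg hg'
  · intro P Q hP hQ
    show e₁ (φ (e₂.symm (P + Q))) = e₁ (φ (e₂.symm P)) + e₁ (φ (e₂.symm Q))
    rw [map_add, hadd _ _ (htor P hP) (htor Q hQ), map_add]
  · intro σ P hP
    show e₁ (φ (e₂.symm (σ • P))) = σ • e₁ (φ (e₂.symm P))
    rw [he₂s, hequiv σ _ (htor P hP), he₁]
  · obtain ⟨P₀, hP₀, hφ₀⟩ := hne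
    refine ⟨e₂ P₀, ?_, ?_⟩
    · rw [← map_nsmul, hP₀, _root_.map_zero]
    · show e₁ (φ (e₂.symm (e₂ P₀))) ≠ 0
      rw [AddEquiv.symm_apply_apply]
      intro h
      exact hφ₀ (e₁.injective (by rw [h, _root_.map_zero]))

/-- **(C2)** `W.Δ ≠ 0`, `lam` an odd prime, `ℓ ≠ lam` a prime of good reduction such that the
polynomial `X² − a_ℓ(W) X + ℓ` has no root in `ZMod lam`: then `W[lam]` is an irreducible
`G_ℚ`-module. -/
theorem s52c_irred (W : WeierstrassCurve ℤ) (hΔ : W.Δ ≠ 0) (lam : ℕ) (hlam : lam.Prime)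
    (hlam2 : lam ≠ 2) (ℓ : ℕ) (hℓ : ℓ.Prime) (hℓlam : ℓ ≠ lam) (hg : ¬ (ℓ : ℤ) ∣ W.Δ)
    (hroot : ∀ c : ZMod lam, c ^ 2 - (W.apOfModel ℓ : ZMod lam) * c + (ℓ : ZMod lam) ≠ 0) :
    W.ModRepIsIrreducible lam := by
  haveI := s58o_isElliptic W hΔ
  haveI : Fact lam.Prime := ⟨hlam⟩
  set E : WeierstrassCurve ℚ := W.map (Int.castRingHom ℚ) with hE
  obtain ⟨A, σ, hA, hσ⟩ := Fermat.Agent.Lib.Frobenius.exists_isFrobeniusAt ℓ hℓ
  have hcard : Nat.card (Submodule.torsionBy ℤ (E.toAffine⁄Kb).Point (lam : ℤ)) = lam ^ 2 :=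
    ent_natCard_torsionBy (E.toAffine⁄Kb) lam hlam.one_le
  haveI hfin : Finite (Submodule.torsionBy ℤ (E.toAffine⁄Kb).Point (lam : ℤ)) :=
    Nat.finite_of_card_ne_zero (by rw [hcard]; exact pow_ne_zero 2 hlam.ne_zero)
  have hrank : Module.finrank (ZMod lam)
      (Submodule.torsionBy ℤ (E.toAffine⁄Kb).Point (lam : ℤ)) = 2 := by
    have h := Module.natCard_eq_pow_finrank (K := ZMod lam)
      (V := Submodule.torsionBy ℤ (E.toAffine⁄Kb).Point (lam : ℤ))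
    rw [hcard, Nat.card_zmod] at h
    exact (Nat.pow_right_injective hlam.two_le h).symm
  show Affine.Point.GaloisRepIsIrreducible (K := Kb) ℚ E lam
  refine ⟨?_, ?_⟩
  · apply Module.nontrivial_of_finrank_pos (R := ZMod lam)
    rw [hrank]
    norm_num
  · intro N hN
    by_contra hcon
    push Not at hcon
    obtain ⟨hbot, htop⟩ := hcon
    obtain ⟨x, hxN, hx0⟩ := Submodule.exists_mem_ne_zero_of_ne_bot hbot
    have hN1 : Module.finrank (ZMod lam) N = 1 := by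
      have h1 : Module.finrank (ZMod lam) N < 2 := hrank ▸ Submodule.finrank_lt htop
      have h2 : 0 < Module.finrank (ZMod lam) N := by
        haveI : Nontrivial N := ⟨⟨⟨x, hxN⟩, 0, fun h => hx0 (congrArg Subtype.val h)⟩⟩
        exact Module.finrank_pos
      omega
    have hx0' : (⟨x, hxN⟩ : N) ≠ 0 := fun h => hx0 (congrArg Subtype.val h)
    obtain ⟨c, hc⟩ := (finrank_eq_one_iff_of_nonzero' (⟨x, hxN⟩ : N) hx0').mp hN1
      ⟨σ • x, hN σ x hxN⟩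
    -- down to points
    set P : (E.toAffine⁄Kb).Point := (x : (E.toAffine⁄Kb).Point) with hP
    have hP0 : P ≠ 0 := fun h => hx0 (Subtype.ext h)
    have hPt : lam • P = 0 := by
      have h := x.2
      rw [Submodule.mem_torsionBy_iff, natCast_zsmul] at h
      exact h
    obtain ⟨k, rfl⟩ := ZMod.intCast_surjective c
    have hσP : σ • P = k • P := by
      have h := congrArg (fun y : N => ((y : Submodule.torsionBy ℤ (E.toAffine⁄Kb).Point (lam : ℤ)) :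
        (E.toAffine⁄Kb).Point)) hc
      simp only [Int.cast_smul_eq_zsmul] at h
      exact h.symm
    have h1 := s52c_ellFrob W ℓ hℓ hg lam hlam hlam2 (Ne.symm hℓlam) 1 A hA σ hσ P
      (by rw [pow_one]; exact hPt)
    rw [hσP, algEquiv_smul_zsmul, hσP] at h1
    have h2 : (k ^ 2 - W.apOfModel ℓ * k + (ℓ : ℤ)) • P = 0 := by
      rw [← h1]
      module
    have h3 := s52c_dvd_of_zsmul_eq_zero hlam hPt hP0 h2
    apply hroot (k : ZMod lam)
    have h4 := (ZMod.intCast_zmod_eq_zero_iff_dvd _ lam).mpr h3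
    push_cast at h4
    exact h4

/-- **(C2)**, the case `lam = 3`. -/
theorem s52c_irred_three (W : WeierstrassCurve ℤ) (hΔ : W.Δ ≠ 0) (ℓ : ℕ) (hℓ : ℓ.Prime)
    (hℓ3 : ℓ ≠ 3) (hg : ¬ (ℓ : ℤ) ∣ W.Δ)
    (hroot : ∀ c : ZMod 3, c ^ 2 - (W.apOfModel ℓ : ZMod 3) * c + (ℓ : ZMod 3) ≠ 0) :
    W.ModRepIsIrreducible 3 :=
  s52c_irred W hΔ 3 Nat.prime_three (by norm_num) ℓ hℓ hℓ3 hg hroot

end Fermat.Agent.Lib.S52

end
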