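/-
Programme K (S52, the 3-5 switch), PART D1 (helper3, prefix `s52m_`): Klein's icosahedral forms as
functions on an arbitrary commutative ring, the syzygy `T² + H³ = 1728 f⁵`, and the explicit Bezout
certificates for `(H, f)`:

  `a(U,V) · H + b(U,V) · f = 5⁵ · V³¹`,   `a(V,−U) · H + b(V,−U) · f = −5⁵ · U³¹`

with `a = −3125 V¹¹ + 33022 U⁵V⁶ + 3003 U¹⁰V`,
`b = 679478 U⁴V¹⁵ + 1485989 U⁹V¹⁰ − 684695 U¹⁴V⁵ + 3003 U¹⁹` (computed by an exact extended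
Euclidean algorithm over `ℚ[u]`; `5⁵` is the minimal constant).  Consequences:

* `s52m_kH_kf_no_common_zero` : over a field with `5 ≠ 0`, `H(U,V) = 0 = f(U,V)` forces `U = V = 0`;
* `s52m_kH_kf_mem`           : in a commutative ring, for a PRIME ideal `𝔭` with `5 ∉ 𝔭`:
  `H(U,V) ∈ 𝔭`, `f(U,V) ∈ 𝔭` (or `f(U,V)⁵ ∈ 𝔭`) ⇒ `U ∈ 𝔭 ∧ V ∈ 𝔭`.
-/
import Mathlib

set_option autoImplicit false

namespace Fermat.Agent.Lib.S52

section forms

variable {R : Type*} [CommRing R]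

/-- Klein's form `f = UV(U¹⁰ + 11U⁵V⁵ − V¹⁰)` (degree 12). -/
def s52m_kf (U V : R) : R := U * V * (U ^ 10 + 11 * U ^ 5 * V ^ 5 - V ^ 10)

/-- Klein's form `H = −(U²⁰ + V²⁰) + 228(U¹⁵V⁵ − U⁵V¹⁵) − 494U¹⁰V¹⁰` (degree 20). -/
def s52m_kH (U V : R) : R :=
  -(U ^ 20 + V ^ 20) + 228 * (U ^ 15 * V ^ 5 - U ^ 5 * V ^ 15) - 494 * U ^ 10 * V ^ 10

/-- Klein's form `T = (U³⁰ + V³⁰) + 522(U²⁵V⁵ − U⁵V²⁵) − 10005(U²⁰V¹⁰ + U¹⁰V²⁰)` (degree 30). -/
def s52m_kT (U V : R) : R :=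
  (U ^ 30 + V ^ 30) + 522 * (U ^ 25 * V ^ 5 - U ^ 5 * V ^ 25)
    - 10005 * (U ^ 20 * V ^ 10 + U ^ 10 * V ^ 20)

/-- the Bezout cofactor of `H`. -/
def s52m_bzA (U V : R) : R := -3125 * V ^ 11 + 33022 * U ^ 5 * V ^ 6 + 3003 * U ^ 10 * V

/-- the Bezout cofactor of `f`. -/
def s52m_bzB (U V : R) : R :=
  679478 * U ^ 4 * V ^ 15 + 1485989 * U ^ 9 * V ^ 10 - 684695 * U ^ 14 * V ^ 5 + 3003 * U ^ 19

/-- **Klein's syzygy** `T² + H³ = 1728 f⁵`. -/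
theorem s52m_klein_syzygy (U V : R) :
    s52m_kT U V ^ 2 + s52m_kH U V ^ 3 = 1728 * s52m_kf U V ^ 5 := by
  unfold s52m_kT s52m_kH s52m_kf
  ring

/-- homogeneity of the three forms. -/
theorem s52m_kf_smul (c U V : R) : s52m_kf (c * U) (c * V) = c ^ 12 * s52m_kf U V := by
  unfold s52m_kf
  ring

theorem s52m_kH_smul (c U V : R) : s52m_kH (c * U) (c * V) = c ^ 20 * s52m_kH U V := by
  unfold s52m_kH
  ring

theorem s52m_kT_smul (c U V : R) : s52m_kT (c * U) (c * V) = c ^ 30 * s52m_kT U V := by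
  unfold s52m_kT
  ring

/-- the symmetry `(U, V) ↦ (V, −U)`. -/
theorem s52m_kf_swap (U V : R) : s52m_kf V (-U) = s52m_kf U V := by
  unfold s52m_kf
  ring

theorem s52m_kH_swap (U V : R) : s52m_kH V (-U) = s52m_kH U V := by
  unfold s52m_kH
  ring

theorem s52m_kT_swap (U V : R) : s52m_kT V (-U) = s52m_kT U V := by
  unfold s52m_kT
  ring

/-- **Bezout certificate** `a · H + b · f = 5⁵ · V³¹`. -/
theorem s52m_bezout_V (U V : R) :
    s52m_bzA U V * s52m_kH U V + s52m_bzB U V * s52m_kf U V = 3125 * V ^ 31 := by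
  unfold s52m_bzA s52m_bzB s52m_kH s52m_kf
  ring

/-- **Bezout certificate**, the twin `a(V,−U) · H + b(V,−U) · f = −5⁵ · U³¹`. -/
theorem s52m_bezout_U (U V : R) :
    s52m_bzA V (-U) * s52m_kH U V + s52m_bzB V (-U) * s52m_kf U V = -(3125 * U ^ 31) := by
  have h := s52m_bezout_V V (-U)
  rw [s52m_kH_swap, s52m_kf_swap] at h
  rw [h]
  ring

/-- the discriminant of the universal curve: `c₄ = −H`, `c₆ = −T` gives `c₄³ − c₆² = −1728 f⁵`. -/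
theorem s52m_klein_disc (U V : R) :
    (-s52m_kH U V) ^ 3 - (-s52m_kT U V) ^ 2 = 1728 * (-(s52m_kf U V ^ 5)) := by
  have h := s52m_klein_syzygy U V
  linear_combination -h

/-- in a commutative ring, for a prime ideal `𝔭` not containing `5`: `H(U,V), f(U,V) ∈ 𝔭` forces
`U, V ∈ 𝔭`. -/
theorem s52m_kH_kf_mem (𝔭 : Ideal R) [𝔭.IsPrime] (h5 : (5 : R) ∉ 𝔭) (U V : R)
    (hH : s52m_kH U V ∈ 𝔭) (hf : s52m_kf U V ∈ 𝔭) : U ∈ 𝔭 ∧ V ∈ 𝔭 := by
  have h3125 : (3125 : R) ∉ 𝔭 := by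
    have : (3125 : R) = 5 ^ 5 := by norm_num
    rw [this]
    exact fun h => h5 (Ideal.IsPrime.mem_of_pow_mem inferInstance 5 h)
  have hV : (3125 : R) * V ^ 31 ∈ 𝔭 := by
    rw [← s52m_bezout_V U V]
    exact 𝔭.add_mem (𝔭.mul_mem_left _ hH) (𝔭.mul_mem_left _ hf)
  have hU : (3125 : R) * U ^ 31 ∈ 𝔭 := by
    have h : -(3125 * U ^ 31) ∈ 𝔭 := by
      rw [← s52m_bezout_U U V]
      exact 𝔭.add_mem (𝔭.mul_mem_left _ hH) (𝔭.mul_mem_left _ hf)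
    simpa using 𝔭.neg_mem h
  refine ⟨?_, ?_⟩
  · rcases Ideal.IsPrime.mem_or_mem inferInstance hU with h | h
    · exact absurd h h3125
    · exact Ideal.IsPrime.mem_of_pow_mem inferInstance 31 h
  · rcases Ideal.IsPrime.mem_or_mem inferInstance hV with h | h
    · exact absurd h h3125
    · exact Ideal.IsPrime.mem_of_pow_mem inferInstance 31 h

/-- the same with `f(U,V)⁵ ∈ 𝔭` (the discriminant). -/
theorem s52m_kH_kf5_mem (𝔭 : Ideal R) [𝔭.IsPrime] (h5 : (5 : R) ∉ 𝔭) (U V : R)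
    (hH : s52m_kH U V ∈ 𝔭) (hf : s52m_kf U V ^ 5 ∈ 𝔭) : U ∈ 𝔭 ∧ V ∈ 𝔭 :=
  s52m_kH_kf_mem 𝔭 h5 U V hH (Ideal.IsPrime.mem_of_pow_mem inferInstance 5 hf)

/-- the forms commute with ring homomorphisms. -/
theorem s52m_kf_map {R' : Type*} [CommRing R'] (φ : R →+* R') (U V : R) :
    φ (s52m_kf U V) = s52m_kf (φ U) (φ V) := by
  simp only [s52m_kf, map_mul, map_add, map_sub, map_pow, map_ofNat]

theorem s52m_kH_map {R' : Type*} [CommRing R'] (φ : R →+* R') (U V : R) :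
    φ (s52m_kH U V) = s52m_kH (φ U) (φ V) := by
  simp only [s52m_kH, map_mul, map_add, map_sub, map_neg, map_pow, map_ofNat]

theorem s52m_kT_map {R' : Type*} [CommRing R'] (φ : R →+* R') (U V : R) :
    φ (s52m_kT U V) = s52m_kT (φ U) (φ V) := by
  simp only [s52m_kT, map_mul, map_add, map_sub, map_pow, map_ofNat]

end forms

/-- over a field with `5 ≠ 0`, the forms `H` and `f` have no common zero except `(0, 0)`. -/
theorem s52m_kH_kf_no_common_zero {K : Type*} [Field K] (h5 : (5 : K) ≠ 0) (U V : K)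
    (hH : s52m_kH U V = 0) (hf : s52m_kf U V = 0) : U = 0 ∧ V = 0 := by
  have h := s52m_kH_kf_mem (⊥ : Ideal K) (by simpa using h5) U V (by simp [hH]) (by simp [hf])
  simpa using h

/-- over a field with `5 ≠ 0`: if `f(U,V) ≠ 0`... the contrapositive form used for the universal
curve: `(U, V) ≠ (0, 0)` and `H(U,V) = 0` imply `f(U,V) ≠ 0`. -/
theorem s52m_kf_ne_zero_of_kH {K : Type*} [Field K] (h5 : (5 : K) ≠ 0) (U V : K)
    (hUV : U ≠ 0 ∨ V ≠ 0) (hH : s52m_kH U V = 0) : s52m_kf U V ≠ 0 := by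
  intro hf
  obtain ⟨hU, hV⟩ := s52m_kH_kf_no_common_zero h5 U V hH hf
  rcases hUV with h | h
  · exact h hU
  · exact h hV

end Fermat.Agent.Lib.S52
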