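/-
Programme K (S52, the 3–5 switch).  INTERFACE FILE v2 (helper8, architect).

Klein's forms are `s52m_kf, s52m_kH, s52m_kT` (helper3, `Lib/S52/MBezout.lean`); universal curve
`𝓔_ω : y² = x³ + 27 H(ω) x + 54 T(ω)`; for `H(ω) = -c₄`, `T(ω) = -c₆` this is `s52_sh c₄ c₆`.
Row vectors `w : Fin 2 → ℚ̄`, action `w ᵥ* g` (conventions of helper7's `Lib/S52/H90Orbit.lean`).

This file fixes (1) the group `s52_Ghat = ⟨S, T₅, ζ·I⟩ ⊆ GL₂(ℚ(ζ₅))` and the four contracts of the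
Klein package (helper8): [KLEIN-GROUP], [KLEIN-ORBIT], [KLEIN-ISO], [KLEIN-FIX];
(2) the auxiliary algebra contracts [KF-EXIST], [KF-COUNT], [SL25], [C4C6], [SHORT-ISO];
(3) the package [TWIST] exported to the D-side, and [INERTIA3].
The D-side contracts are the statements posted by their owners (helper1 `s52d_`, helper3 `s52m_`,
`s52c_`, helper9 `s52p_`, `s52q_`).
-/
import Mathlib
import Fermat.Agent.Lib.S58.Iface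
import Fermat.Agent.Lib.S52.MBezout

set_option autoImplicit false

open scoped WeierstrassCurve.Affine

noncomputable section

namespace Fermat.Agent.Lib.S52

open Fermat.Agent.Lib.S58 Matrix

local notation "Kb" => AlgebraicClosure ℚ

/-! ### curves and torsion isomorphisms -/

/-- the short integral model `y² = x³ − 27 c₄ x − 54 c₆`. -/
def s52_sh (c4 c6 : ℤ) : WeierstrassCurve ℤ := ⟨0, 0, 0, -27 * c4, -54 * c6⟩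

/-- the short model of an integral model (isomorphic to it over `ℤ[1/6]`). -/
def s52_short (W : WeierstrassCurve ℤ) : WeierstrassCurve ℤ := s52_sh W.c₄ W.c₆

/-- the curve `11a1` (`c₄ = 496 = -H(1,1)`, `c₆ = 20008 = -T(1,1)`, `Δ = −11⁵`): it is `𝓔_{(1,1)}`. -/
def s52_E11 : WeierstrassCurve ℤ := ⟨0, -1, 1, -10, -20⟩

/-- a `G_ℚ`-equivariant isomorphism `W₁(ℚ̄)[n] ≃ W₂(ℚ̄)[n]`. -/
def s52_TorsIso (W₁ W₂ : WeierstrassCurve ℤ) (n : ℕ) : Prop :=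
  ∃ e : Submodule.torsionBy ℤ (s58_Pt W₁) n ≃+ Submodule.torsionBy ℤ (s58_Pt W₂) n,
    ∀ (σ : s58_G) (P : Submodule.torsionBy ℤ (s58_Pt W₁) n), e (σ • P) = σ • e P

/-! ### the binary icosahedral group (extended by `μ₅`) -/

theorem s52_exists_zeta : ∃ z : Kb, z ^ 4 + z ^ 3 + z ^ 2 + z + 1 = 0 := by
  have h : (Polynomial.cyclotomic 5 Kb).degree ≠ 0 := by
    rw [Polynomial.degree_cyclotomic]; decide
  obtain ⟨z, hz⟩ := IsAlgClosed.exists_root _ h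
  refine ⟨z, ?_⟩
  have : Fact (Nat.Prime 5) := ⟨by norm_num⟩
  rw [Polynomial.cyclotomic_prime, Polynomial.IsRoot.def, Polynomial.eval_finsetSum] at hz
  simpa [Finset.sum_range_succ, add_comm, add_left_comm, add_assoc] using hz

/-- a fixed primitive 5-th root of unity of `ℚ̄`. -/
def s52_zeta : Kb := Classical.choose s52_exists_zeta

theorem s52_zeta_spec : s52_zeta ^ 4 + s52_zeta ^ 3 + s52_zeta ^ 2 + s52_zeta + 1 = 0 :=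
  Classical.choose_spec s52_exists_zeta

/-- `S = (1/√5)·[[−(ζ−ζ⁴), ζ²−ζ³], [ζ²−ζ³, ζ−ζ⁴]]`, `√5 = ζ+ζ⁴−ζ²−ζ³` (`det = 1`, `S² = −1`). -/
def s52_Smat : Matrix (Fin 2) (Fin 2) Kb :=
  ((s52_zeta + s52_zeta ^ 4 - s52_zeta ^ 2 - s52_zeta ^ 3) / 5) •
    !![-(s52_zeta - s52_zeta ^ 4), s52_zeta ^ 2 - s52_zeta ^ 3;
       s52_zeta ^ 2 - s52_zeta ^ 3, s52_zeta - s52_zeta ^ 4]

/-- `T₅ = diag(ζ³, ζ²)`. -/
def s52_Tmat : Matrix (Fin 2) (Fin 2) Kb := !![s52_zeta ^ 3, 0; 0, s52_zeta ^ 2]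

/-- the scalar `ζ`. -/
def s52_Zmat : Matrix (Fin 2) (Fin 2) Kb := !![s52_zeta, 0; 0, s52_zeta]

/-- `Ĝ = ⟨S, T₅, ζ⟩` (as a submonoid of `M₂(ℚ̄)`; it is a group of order 600). -/
def s52_Ghat : Submonoid (Matrix (Fin 2) (Fin 2) Kb) :=
  Submonoid.closure {s52_Smat, s52_Tmat, s52_Zmat}

/-- the three Klein forms at a row vector. -/
abbrev s52_fv (w : Fin 2 → Kb) : Kb := s52m_kf (w 0) (w 1)
abbrev s52_Hv (w : Fin 2 → Kb) : Kb := s52m_kH (w 0) (w 1)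
abbrev s52_Tv (w : Fin 2 → Kb) : Kb := s52m_kT (w 0) (w 1)

/-- `w` lies on the fibre of `(H, T)` over `(-c₄, -c₆)`, i.e. `𝓔_w = s52_sh c₄ c₆`. -/
def s52_OnFibre (c4 c6 : ℤ) (w : Fin 2 → Kb) : Prop :=
  s52_Hv w = -((c4 : ℤ) : Kb) ∧ s52_Tv w = -((c6 : ℤ) : Kb)

/-! ### the Klein package (helper8) -/

/-- **[KLEIN-GROUP]** `Ĝ` is Galois-stable and leaves `H`, `T` invariant. -/
def s52_KleinGroup : Prop :=
  (∀ g ∈ s52_Ghat, ∀ σ : s58_G, g.map σ ∈ s52_Ghat) ∧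
  (∀ g ∈ s52_Ghat, ∀ w : Fin 2 → Kb, s52_Hv (w ᵥ* g) = s52_Hv w ∧ s52_Tv (w ᵥ* g) = s52_Tv w) ∧
  (∀ g ∈ s52_Ghat, IsUnit g.det)

/-- **[KLEIN-ORBIT]** `Ĝ` acts simply transitively on the fibre (used for its Galois conjugates). -/
def s52_KleinOrbit : Prop :=
  ∀ c4 c6 : ℤ, c4 ≠ 0 → c6 ≠ 0 → c4 ^ 3 ≠ c6 ^ 2 → ∀ w : Fin 2 → Kb, s52_OnFibre c4 c6 w →
    (∀ g ∈ s52_Ghat, ∀ h ∈ s52_Ghat, w ᵥ* g = w ᵥ* h → g = h) ∧
    (∀ σ : s58_G, ∃ g ∈ s52_Ghat, (fun i => σ (w i)) = w ᵥ* g)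

/-- **[KLEIN-ISO]** two fibre points with the same cocycle have isomorphic mod-5 Galois modules. -/
def s52_KleinIso : Prop :=
  ∀ (c4 c6 c4' c6' : ℤ), c4 ^ 3 ≠ c6 ^ 2 → c4' ^ 3 ≠ c6' ^ 2 →
    ∀ w w' : Fin 2 → Kb, s52_OnFibre c4 c6 w → s52_OnFibre c4' c6' w' →
    (∀ σ : s58_G, ∃ g ∈ s52_Ghat, (fun i => σ (w i)) = w ᵥ* g ∧ (fun i => σ (w' i)) = w' ᵥ* g) →
    s52_TorsIso (s52_sh c4' c6') (s52_sh c4 c6) 5

/-- **[KLEIN-FIX]** the field of definition of a fibre point: `ℚ(ζ₅, f(w), 𝓔_w[5])`. -/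
def s52_KleinFix : Prop :=
  ∀ c4 c6 : ℤ, c4 ≠ 0 → c6 ≠ 0 → c4 ^ 3 ≠ c6 ^ 2 → ∀ w : Fin 2 → Kb, s52_OnFibre c4 c6 w →
    ∀ σ : s58_G, σ s52_zeta = s52_zeta → σ (s52_fv w) = s52_fv w →
      (∀ P : s58_Pt (s52_sh c4 c6), 5 • P = 0 → σ • P = P) → ∀ i, σ (w i) = w i

/-! ### auxiliary algebra -/

/-- **[KF-EXIST]** the fibre of `(H, T)` over `(-c₄, -c₆)` is non-empty. -/
def s52_KleinExist : Prop :=
  ∀ c4 c6 : Kb, c4 ≠ 0 → c6 ≠ 0 → c4 ^ 3 ≠ c6 ^ 2 →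
    ∃ u v : Kb, s52m_kH u v = -c4 ∧ s52m_kT u v = -c6

/-- **[KF-COUNT]** the fibre of `(H, T)` over `(-c₄, -c₆)` has at most `600` points. -/
def s52_KleinCount : Prop :=
  ∀ c4 c6 : Kb, c4 ≠ 0 → c6 ≠ 0 → c4 ^ 3 ≠ c6 ^ 2 →
    ∃ F : Finset (Kb × Kb), F.card ≤ 600 ∧
      ∀ u v : Kb, s52m_kH u v = -c4 → s52m_kT u v = -c6 → (u, v) ∈ F

/-- **[SL25]** `|SL₂(𝔽₅)| = 120` and `SL₂(𝔽₅)` is generated by `[[0,-1],[1,0]]` and one non-trivial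
elementary matrix. -/
def s52_SL25 : Prop :=
  Nat.card (Matrix.SpecialLinearGroup (Fin 2) (ZMod 5)) = 120 ∧
  ∀ s t : Matrix.SpecialLinearGroup (Fin 2) (ZMod 5),
    (s : Matrix (Fin 2) (Fin 2) (ZMod 5)) = !![0, -1; 1, 0] →
    (∃ e : ZMod 5, e ≠ 0 ∧ ((t : Matrix (Fin 2) (Fin 2) (ZMod 5)) = !![1, e; 0, 1] ∨
      (t : Matrix (Fin 2) (Fin 2) (ZMod 5)) = !![1, 0; e, 1])) →
    Subgroup.closure {s, t} = ⊤

/-- **[C4C6]** a semistable integral model with `Δ ≠ 0` has `c₄ ≠ 0` and `c₆ ≠ 0`. -/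
def s52_C4C6Ne : Prop :=
  ∀ W : WeierstrassCurve ℤ, W.Δ ≠ 0 → W.IsSemistableModel → W.c₄ ≠ 0 ∧ W.c₆ ≠ 0

/-- **[SHORT-ISO]** `W(ℚ̄) ≃ (short W)(ℚ̄)`, Galois-equivariantly. -/
def s52_ShortIso : Prop :=
  ∀ W : WeierstrassCurve ℤ, W.Δ ≠ 0 →
    ∃ e : s58_Pt W ≃+ s58_Pt (s52_short W), ∀ (σ : s58_G) (P : s58_Pt W), e (σ • P) = σ • e P

/-! ### exported to the D-side -/

/-- **[TWIST]** (helper7's wiring of the Klein package with Hilbert 90): the matrix `A`, the rational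
forms `h = -(H∘A)`, `t = -(T∘A)` with integral base point, the field of definition of `A`, and the
isomorphisms of mod-5 Galois modules. -/
def s52_Twist : Prop :=
  ∀ W : WeierstrassCurve ℤ, W.Δ ≠ 0 → W.c₄ ≠ 0 → W.c₆ ≠ 0 →
    ∃ (A : Matrix (Fin 2) (Fin 2) Kb) (δ : Kb) (h t : MvPolynomial (Fin 2) ℚ) (x₀ y₀ : ℤ),
      IsUnit A.det ∧ δ ^ 5 = ((W.Δ : ℤ) : Kb) ∧
      (∀ σ : s58_G, σ s52_zeta = s52_zeta → σ δ = δ →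
        (∀ P : s58_Pt W, 5 • P = 0 → σ • P = P) → ∀ i j, σ (A i j) = A i j) ∧
      (∀ X Y : ℚ, ((MvPolynomial.eval ![X, Y] h : ℚ) : Kb) = -s52_Hv (![(X : Kb), (Y : Kb)] ᵥ* A)) ∧
      (∀ X Y : ℚ, ((MvPolynomial.eval ![X, Y] t : ℚ) : Kb) = -s52_Tv (![(X : Kb), (Y : Kb)] ᵥ* A)) ∧
      MvPolynomial.eval ![(x₀ : ℚ), (y₀ : ℚ)] h = (W.c₄ : ℚ) ∧
      MvPolynomial.eval ![(x₀ : ℚ), (y₀ : ℚ)] t = (W.c₆ : ℚ) ∧
      ∀ (X Y : ℚ) (c4' c6' : ℤ), MvPolynomial.eval ![X, Y] h = (c4' : ℚ) →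
        MvPolynomial.eval ![X, Y] t = (c6' : ℚ) → c4' ^ 3 ≠ c6' ^ 2 →
        s52_TorsIso (s52_sh c4' c6') (s52_short W) 5

/-- **[INERTIA3]** (semistable at 3 ⇒ inertia at 3 acts on `ℚ(ζ₅, δ, W[5])` through a 5-group, while
`ℚ(√−3)` is ramified at 3): an element fixing `ζ₅`, `δ`, `W[5]` and moving `√−3`. -/
def s52_Inertia3 : Prop :=
  ∀ W : WeierstrassCurve ℤ, W.Δ ≠ 0 → W.IsSemistableModel →
    ∀ ζ δ : Kb, ζ ^ 5 = 1 → δ ^ 5 = ((W.Δ : ℤ) : Kb) →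
      ∃ ρ : s58_G, ρ ζ = ζ ∧ ρ δ = δ ∧ (∀ P : s58_Pt W, 5 • P = 0 → ρ • P = P) ∧
        ∀ z : Kb, z ^ 2 = -3 → ρ z = -z

end Fermat.Agent.Lib.S52

end
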