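/-
Programme K (S52): **[C-AP]** `s52c_apCong` (a `s52_TorsIso W' W 5` gives the congruences
`5 ∣ a_ℓ(W') − a_ℓ(W)`), from the dictionary `Lib/S52/CDict.lean`; calculus of `s52_TorsIso`
(from an equivariant isomorphism of the full point groups, symmetry, transitivity)
(helper3, prefix `s52c_`).  [C-IRR] is `s52c_irred_three` of `CDict.lean`.
-/
import Fermat.Agent.Lib.S52.Iface
import Fermat.Agent.Lib.S52.CDict

set_option autoImplicit false

noncomputable section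

namespace Fermat.Agent.Lib.S52

open Fermat.Agent.Lib.S58

/-- **[C-AP]** isomorphic mod-5 Galois modules have congruent `a_ℓ` at the common good primes
`ℓ ≠ 5` (the v1 contract `s52_ApCong`, as a plain theorem). -/
theorem s52c_apCong (W W' : WeierstrassCurve ℤ) (hΔ' : W'.Δ ≠ 0) (hiso : s52_TorsIso W' W 5) :
    ∀ ℓ : ℕ, ℓ.Prime → W.IsGoodPrimeFor ℓ → W'.IsGoodPrimeFor ℓ → ℓ ≠ 5 →
      (5 : ℤ) ∣ (W'.apOfModel ℓ - W.apOfModel ℓ) := by
  obtain ⟨e, he⟩ := hiso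
  classical
  have hmem : ∀ P : s58_Pt W', 5 • P = 0 → P ∈ Submodule.torsionBy ℤ (s58_Pt W') ((5 : ℕ) : ℤ) := by
    intro P hP
    rw [Submodule.mem_torsionBy_iff, natCast_zsmul]
    exact hP
  have hmem' : ∀ x : Submodule.torsionBy ℤ (s58_Pt W') ((5 : ℕ) : ℤ),
      5 • (x : s58_Pt W') = 0 := by
    intro x
    have h := x.2
    rw [Submodule.mem_torsionBy_iff, natCast_zsmul] at h
    exact h
  let φ : s58_Pt W' → s58_Pt W := fun P =>
    if h : 5 • P = 0 then ((e ⟨P, hmem P h⟩ : Submodule.torsionBy ℤ (s58_Pt W) ((5 : ℕ) : ℤ)) :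
      s58_Pt W) else 0
  have hφ : ∀ (P : s58_Pt W') (h : 5 • P = 0), φ P = (e ⟨P, hmem P h⟩ : s58_Pt W) := by
    intro P h
    simp only [φ, dif_pos h]
  have hadd5 : ∀ P Q : s58_Pt W', 5 • P = 0 → 5 • Q = 0 → 5 • (P + Q) = 0 := by
    intro P Q hP hQ
    rw [nsmul_add, hP, hQ, add_zero]
  have hσ5 : ∀ (σ : s58_G) (P : s58_Pt W'), 5 • P = 0 → 5 • (σ • P) = 0 := by
    intro σ P hP
    rw [← natCast_zsmul, ← WeierstrassCurve.Affine.Point.algEquiv_smul_zsmul, natCast_zsmul, hP]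
    exact smul_zero (A := s58_Pt W') σ
  refine s52c_ap_congr_five W W' φ ?_ ?_ ?_
  · intro P Q hP hQ
    rw [hφ P hP, hφ Q hQ, hφ (P + Q) (hadd5 P Q hP hQ)]
    have : (⟨P + Q, hmem _ (hadd5 P Q hP hQ)⟩ : Submodule.torsionBy ℤ (s58_Pt W') ((5 : ℕ) : ℤ))
        = ⟨P, hmem P hP⟩ + ⟨Q, hmem Q hQ⟩ := rfl
    rw [this, map_add]
    rfl
  · intro σ P hP
    rw [hφ P hP, hφ (σ • P) (hσ5 σ P hP)]
    have : (⟨σ • P, hmem _ (hσ5 σ P hP)⟩ : Submodule.torsionBy ℤ (s58_Pt W') ((5 : ℕ) : ℤ))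
        = σ • ⟨P, hmem P hP⟩ := rfl
    rw [this, he]
    rfl
  · -- a non-zero point of `W'[5]`
    obtain ⟨P, hP1, hP0⟩ := s58o_ellExact W' hΔ' 5 Nat.prime_five 0
    rw [zero_add, pow_one] at hP1
    rw [pow_zero, one_smul] at hP0
    refine ⟨P, hP1, ?_⟩
    rw [hφ P hP1]
    intro h0
    apply hP0
    have h1 : e ⟨P, hmem P hP1⟩ = 0 := Subtype.ext h0
    have h2 : (⟨P, hmem P hP1⟩ : Submodule.torsionBy ℤ (s58_Pt W') ((5 : ℕ) : ℤ)) = 0 := by
      apply e.injective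
      rw [h1, map_zero]
    exact congrArg Subtype.val h2

/-! ### calculus of `s52_TorsIso` -/

/-- an equivariant isomorphism of the full point groups induces one on the `n`-torsion. -/
theorem s52c_torsIso_of_equiv (W₁ W₂ : WeierstrassCurve ℤ) (n : ℕ)
    (e : s58_Pt W₁ ≃+ s58_Pt W₂) (he : ∀ (σ : s58_G) (P : s58_Pt W₁), e (σ • P) = σ • e P) :
    s52_TorsIso W₁ W₂ n := by
  have h1 : ∀ x : s58_Pt W₁, x ∈ Submodule.torsionBy ℤ (s58_Pt W₁) (n : ℤ) →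
      e x ∈ Submodule.torsionBy ℤ (s58_Pt W₂) (n : ℤ) := by
    intro x hx
    rw [Submodule.mem_torsionBy_iff] at hx ⊢
    rw [← map_zsmul, hx, map_zero]
  have h2 : ∀ y : s58_Pt W₂, y ∈ Submodule.torsionBy ℤ (s58_Pt W₂) (n : ℤ) →
      e.symm y ∈ Submodule.torsionBy ℤ (s58_Pt W₁) (n : ℤ) := by
    intro y hy
    rw [Submodule.mem_torsionBy_iff] at hy ⊢
    rw [← map_zsmul, hy, map_zero]
  refine ⟨{ toFun := fun x => ⟨e (x : s58_Pt W₁), h1 x x.2⟩
            invFun := fun y => ⟨e.symm (y : s58_Pt W₂), h2 y y.2⟩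
            left_inv := fun x => Subtype.ext (e.symm_apply_apply (x : s58_Pt W₁))
            right_inv := fun y => Subtype.ext (e.apply_symm_apply (y : s58_Pt W₂))
            map_add' := fun x y => Subtype.ext
              (map_add e (x : s58_Pt W₁) (y : s58_Pt W₁)) }, ?_⟩
  intro σ P
  apply Subtype.ext
  exact he σ P

theorem s52c_torsIso_symm {W₁ W₂ : WeierstrassCurve ℤ} {n : ℕ} (h : s52_TorsIso W₁ W₂ n) :
    s52_TorsIso W₂ W₁ n := by
  obtain ⟨e, he⟩ := h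
  refine ⟨e.symm, fun σ P => ?_⟩
  apply e.injective
  rw [he, AddEquiv.apply_symm_apply, AddEquiv.apply_symm_apply]

theorem s52c_torsIso_trans {W₁ W₂ W₃ : WeierstrassCurve ℤ} {n : ℕ} (h₁ : s52_TorsIso W₁ W₂ n)
    (h₂ : s52_TorsIso W₂ W₃ n) : s52_TorsIso W₁ W₃ n := by
  obtain ⟨e₁, he₁⟩ := h₁
  obtain ⟨e₂, he₂⟩ := h₂
  refine ⟨e₁.trans e₂, fun σ P => ?_⟩
  rw [AddEquiv.trans_apply, AddEquiv.trans_apply, he₁, he₂]

/-- `W'[n] ≅ W[n]` from `(short W')[n] ≅ (short W)[n]` and the isomorphisms with the short models. -/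
theorem s52c_torsIso_of_short (hShort : s52_ShortIso) (W W' : WeierstrassCurve ℤ) (hΔ : W.Δ ≠ 0)
    (hΔ' : W'.Δ ≠ 0) (n : ℕ) (h : s52_TorsIso (s52_short W') (s52_short W) n) :
    s52_TorsIso W' W n := by
  obtain ⟨e, he⟩ := hShort W hΔ
  obtain ⟨e', he'⟩ := hShort W' hΔ'
  exact s52c_torsIso_trans (s52c_torsIso_trans (s52c_torsIso_of_equiv W' _ n e' he') h)
    (s52c_torsIso_symm (s52c_torsIso_of_equiv W _ n e he))

end Fermat.Agent.Lib.S52

end
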