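import Mathlib
import Fermat.Prelude.Def_FLTPrelim_Modularity
import Fermat.Agent.Lib.Frey.VarChange

/-!
# S52 (3–5 switch), part D1: correcting an integral Weierstrass model to prescribed `c₄`, `c₆`

Pure `WeierstrassCurve ℤ` algebra (prefix `s52m_`).

* `s52m_corr W d₄ d₆` : the model with the same `a₁, a₂, a₃` and `a₄ + d₄`, `a₆ + d₆`;
  `c₄` moves by `-48 d₄`, `c₆` by `72 b₂ d₄ - 864 d₆`.
* `s52m_exists_model` : if `576 m ∣ c₄' - c₄(W)` and `864 m ∣ c₆' - c₆(W)` there is an INTEGRAL model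
  `W'` with `c₄(W') = c₄'`, `c₆(W') = c₆'`, the same `a₁, a₂, a₃`, `a₄' ≡ a₄ mod 12 m`, `a₆' ≡ a₆ mod m`.
* `s52m_semistable_of_congr` : semistability transfers: at the primes dividing `M` by congruence with a
  semistable `W`, at the other primes by a hypothesis on `(Δ', c₄')`.
* `s52m_short` : over a field with `6 ≠ 0` every Weierstrass curve is a variable change of
  `y² = x³ - 27 c₄ x - 54 c₆`.
* `s52m_apOfModel_eq_of_c_congr` : for a prime `ℓ ≥ 5`, `apOfModel ℓ` only depends on `(c₄, c₆) mod ℓ`.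
-/

set_option autoImplicit false

namespace Fermat.Agent.Lib.S52

open WeierstrassCurve

/-- The model with the same `a₁, a₂, a₃` and corrected `a₄`, `a₆`. -/
def s52m_corr (W : WeierstrassCurve ℤ) (d₄ d₆ : ℤ) : WeierstrassCurve ℤ :=
  ⟨W.a₁, W.a₂, W.a₃, W.a₄ + d₄, W.a₆ + d₆⟩

section corr

variable (W : WeierstrassCurve ℤ) (d₄ d₆ : ℤ)

@[simp] theorem s52m_corr_a₁ : (s52m_corr W d₄ d₆).a₁ = W.a₁ := rfl
@[simp] theorem s52m_corr_a₂ : (s52m_corr W d₄ d₆).a₂ = W.a₂ := rfl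
@[simp] theorem s52m_corr_a₃ : (s52m_corr W d₄ d₆).a₃ = W.a₃ := rfl
@[simp] theorem s52m_corr_a₄ : (s52m_corr W d₄ d₆).a₄ = W.a₄ + d₄ := rfl
@[simp] theorem s52m_corr_a₆ : (s52m_corr W d₄ d₆).a₆ = W.a₆ + d₆ := rfl

theorem s52m_corr_b₂ : (s52m_corr W d₄ d₆).b₂ = W.b₂ := by
  simp only [b₂, s52m_corr_a₁, s52m_corr_a₂]

theorem s52m_corr_c₄ : (s52m_corr W d₄ d₆).c₄ = W.c₄ - 48 * d₄ := by
  simp only [c₄, b₂, b₄, s52m_corr_a₁, s52m_corr_a₂, s52m_corr_a₃, s52m_corr_a₄]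
  ring

theorem s52m_corr_c₆ : (s52m_corr W d₄ d₆).c₆ = W.c₆ + 72 * W.b₂ * d₄ - 864 * d₆ := by
  simp only [c₆, b₂, b₄, b₆, s52m_corr_a₁, s52m_corr_a₂, s52m_corr_a₃, s52m_corr_a₄,
    s52m_corr_a₆]
  ring

end corr

/-- **Model correction.** If `c₄' ≡ c₄(W) mod 576 m` and `c₆' ≡ c₆(W) mod 864 m`, there is an integral
Weierstrass model with invariants exactly `(c₄', c₆')`, congruent to `W` coefficientwise mod `m`
(even `a₄' ≡ a₄ mod 12 m`). For `m = 1` the hypotheses are `576 ∣ c₄' - c₄`, `864 ∣ c₆' - c₆`. -/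
theorem s52m_exists_model (W : WeierstrassCurve ℤ) (c₄' c₆' m : ℤ)
    (h₄ : 576 * m ∣ c₄' - W.c₄) (h₆ : 864 * m ∣ c₆' - W.c₆) :
    ∃ W' : WeierstrassCurve ℤ, W'.a₁ = W.a₁ ∧ W'.a₂ = W.a₂ ∧ W'.a₃ = W.a₃ ∧
      12 * m ∣ W'.a₄ - W.a₄ ∧ m ∣ W'.a₆ - W.a₆ ∧ W'.c₄ = c₄' ∧ W'.c₆ = c₆' := by
  obtain ⟨k₄, hk₄⟩ := h₄
  obtain ⟨k₆, hk₆⟩ := h₆
  refine ⟨s52m_corr W (-(12 * m * k₄)) (-(W.b₂ * m * k₄) - m * k₆), rfl, rfl, rfl, ?_, ?_, ?_, ?_⟩
  · exact ⟨-k₄, by simp only [s52m_corr_a₄]; ring⟩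
  · exact ⟨-(W.b₂ * k₄) - k₆, by simp only [s52m_corr_a₆]; ring⟩
  · rw [s52m_corr_c₄]; linear_combination (-1 : ℤ) * hk₄
  · rw [s52m_corr_c₆]; linear_combination (-1 : ℤ) * hk₆

/-- The discriminant of a model is determined by `(c₄, c₆)`. -/
theorem s52m_Δ_of_c (W' : WeierstrassCurve ℤ) (c₄' c₆' : ℤ) (h₄ : W'.c₄ = c₄') (h₆ : W'.c₆ = c₆') :
    1728 * W'.Δ = c₄' ^ 3 - c₆' ^ 2 := by
  rw [← h₄, ← h₆]; exact W'.c_relation

/-- Coefficientwise congruence mod `n` gives equal reductions mod `n`. -/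
theorem s52m_map_eq_of_congr (W W' : WeierstrassCurve ℤ) (n : ℕ)
    (h₁ : (n : ℤ) ∣ W'.a₁ - W.a₁) (h₂ : (n : ℤ) ∣ W'.a₂ - W.a₂) (h₃ : (n : ℤ) ∣ W'.a₃ - W.a₃)
    (h₄ : (n : ℤ) ∣ W'.a₄ - W.a₄) (h₆ : (n : ℤ) ∣ W'.a₆ - W.a₆) :
    W'.map (Int.castRingHom (ZMod n)) = W.map (Int.castRingHom (ZMod n)) := by
  have key : ∀ a b : ℤ, (n : ℤ) ∣ a - b → (Int.castRingHom (ZMod n)) a = (Int.castRingHom (ZMod n)) b := by
    intro a b h
    simp only [eq_intCast]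
    exact (ZMod.intCast_eq_intCast_iff_dvd_sub b a n).mpr h |>.symm
  ext
  · exact key _ _ h₁
  · exact key _ _ h₂
  · exact key _ _ h₃
  · exact key _ _ h₄
  · exact key _ _ h₆

/-- Coefficientwise congruence mod `n` gives `Δ' ≡ Δ` and `c₄' ≡ c₄ mod n`. -/
theorem s52m_dvd_sub_of_congr (W W' : WeierstrassCurve ℤ) (n : ℕ)
    (h : W'.map (Int.castRingHom (ZMod n)) = W.map (Int.castRingHom (ZMod n))) :
    (n : ℤ) ∣ W'.Δ - W.Δ ∧ (n : ℤ) ∣ W'.c₄ - W.c₄ ∧ (n : ℤ) ∣ W'.c₆ - W.c₆ := by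
  have hΔ := congrArg WeierstrassCurve.Δ h
  have hc₄ := congrArg WeierstrassCurve.c₄ h
  have hc₆ := congrArg WeierstrassCurve.c₆ h
  rw [map_Δ, map_Δ] at hΔ
  rw [map_c₄, map_c₄] at hc₄
  rw [map_c₆, map_c₆] at hc₆
  simp only [eq_intCast] at hΔ hc₄ hc₆
  refine ⟨?_, ?_, ?_⟩
  · exact (ZMod.intCast_eq_intCast_iff_dvd_sub _ _ n).mp hΔ.symm
  · exact (ZMod.intCast_eq_intCast_iff_dvd_sub _ _ n).mp hc₄.symm
  · exact (ZMod.intCast_eq_intCast_iff_dvd_sub _ _ n).mp hc₆.symm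

/-- **Semistability transfer.** `W` semistable; at every prime `q ∣ M` the model `W'` is congruent to
`W` coefficientwise mod `q`; at every prime `q ∤ M` dividing `Δ'` one knows `q ∤ c₄'`. Then `W'` is a
semistable model. -/
theorem s52m_semistable_of_congr (W W' : WeierstrassCurve ℤ) (M : ℤ) (hW : W.IsSemistableModel)
    (hcong : ∀ q : ℕ, q.Prime → (q : ℤ) ∣ M →
      W'.map (Int.castRingHom (ZMod q)) = W.map (Int.castRingHom (ZMod q)))
    (hout : ∀ q : ℕ, q.Prime → ¬ (q : ℤ) ∣ M → (q : ℤ) ∣ W'.Δ → ¬ (q : ℤ) ∣ W'.c₄) :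
    W'.IsSemistableModel := by
  intro q hq hΔ
  by_cases hqM : (q : ℤ) ∣ M
  · obtain ⟨h1, h2, -⟩ := s52m_dvd_sub_of_congr W W' q (hcong q hq hqM)
    have hΔW : (q : ℤ) ∣ W.Δ := by
      have := dvd_sub hΔ h1
      simpa using this
    intro hc
    apply hW q hq hΔW
    have := dvd_sub hc h2
    simpa using this
  · exact hout q hq hqM hΔ

/-- Good primes transfer along a coefficientwise congruence. -/
theorem s52m_good_iff_of_congr (W W' : WeierstrassCurve ℤ) (q : ℕ)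
    (h : W'.map (Int.castRingHom (ZMod q)) = W.map (Int.castRingHom (ZMod q))) :
    W'.IsGoodPrimeFor q ↔ W.IsGoodPrimeFor q := by
  obtain ⟨h1, -, -⟩ := s52m_dvd_sub_of_congr W W' q h
  unfold IsGoodPrimeFor
  constructor
  · intro hg hd
    exact hg (by have := dvd_add hd h1; simpa using this)
  · intro hg hd
    exact hg (by have := dvd_sub hd h1; simpa using this)

/-- `apOfModel` only depends on the reduction. -/
theorem s52m_apOfModel_eq_of_congr (W W' : WeierstrassCurve ℤ) (q : ℕ)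
    (h : W'.map (Int.castRingHom (ZMod q)) = W.map (Int.castRingHom (ZMod q))) :
    W'.apOfModel q = W.apOfModel q := by
  unfold apOfModel reductionMod
  rw [h]

section short

variable {F : Type*} [Field F]

/-- The short Weierstrass curve `y² = x³ - 27 c₄ x - 54 c₆`. -/
def s52m_shortOf (c₄ c₆ : F) : WeierstrassCurve F := ⟨0, 0, 0, -27 * c₄, -54 * c₆⟩

/-- Over a field with `6 ≠ 0`, every Weierstrass curve is a variable change of its short model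
`y² = x³ - 27 c₄ x - 54 c₆`. -/
theorem s52m_short (h6 : (6 : F) ≠ 0) (W : WeierstrassCurve F) :
    ∃ C : VariableChange F, C • W = s52m_shortOf W.c₄ W.c₆ := by
  have h2 : (2 : F) ≠ 0 := fun h => h6 (by linear_combination (3 : F) * h)
  have h3 : (3 : F) ≠ 0 := fun h => h6 (by linear_combination (2 : F) * h)
  have h6' : ((6 : F)⁻¹) ≠ 0 := inv_ne_zero h6
  refine ⟨⟨Units.mk0 ((6 : F)⁻¹) h6', -W.b₂ / 12, -W.a₁ / 2,
    -(W.a₃ + (-W.b₂ / 12) * W.a₁) / 2⟩, ?_⟩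
  have h12 : (12 : F) ≠ 0 := by
    intro h; exact h6 (by
      have : (2 : F) * 6 = 0 := by linear_combination h
      rcases mul_eq_zero.mp this with h | h
      · exact absurd h h2
      · exact h)
  ext
  · simp only [variableChange_a₁, s52m_shortOf, Units.val_inv_eq_inv_val, Units.val_mk0, inv_inv]
    field_simp
    ring
  · simp only [variableChange_a₂, s52m_shortOf, Units.val_inv_eq_inv_val, Units.val_mk0, inv_inv,
      b₂]
    field_simp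
    ring
  · simp only [variableChange_a₃, s52m_shortOf, Units.val_inv_eq_inv_val, Units.val_mk0, inv_inv]
    field_simp
    ring
  · simp only [variableChange_a₄, s52m_shortOf, Units.val_inv_eq_inv_val, Units.val_mk0, inv_inv,
      c₄, b₂, b₄]
    field_simp
    ring
  · simp only [variableChange_a₆, s52m_shortOf, Units.val_inv_eq_inv_val, Units.val_mk0, inv_inv,
      c₆, b₂, b₄, b₆]
    field_simp
    ring

/-- Point counts are invariant under a change of variables. -/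
theorem s52m_card_smul (W : WeierstrassCurve F) (C : VariableChange F) :
    (C • W).card = W.card := by
  unfold WeierstrassCurve.card
  exact Nat.card_congr (Equiv.ofBijective (Fermat.Agent.Lib.Frey.fvc_pointFun W C)
    ⟨Fermat.Agent.Lib.Frey.fvc_pointFun_injective W C,
      Fermat.Agent.Lib.Frey.fvc_pointFun_surjective W C⟩)

/-- Over a field with `6 ≠ 0` the point count only depends on `(c₄, c₆)`. -/
theorem s52m_card_eq_of_c (h6 : (6 : F) ≠ 0) (W₁ W₂ : WeierstrassCurve F)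
    (h₄ : W₁.c₄ = W₂.c₄) (h₆' : W₁.c₆ = W₂.c₆) : W₁.card = W₂.card := by
  obtain ⟨C₁, hC₁⟩ := s52m_short h6 W₁
  obtain ⟨C₂, hC₂⟩ := s52m_short h6 W₂
  rw [← s52m_card_smul W₁ C₁, ← s52m_card_smul W₂ C₂, hC₁, hC₂, h₄, h₆']

end short

/-- **`a_ℓ` only depends on `(c₄, c₆) mod ℓ`** for a prime `ℓ ≥ 5`. -/
theorem s52m_apOfModel_eq_of_c_congr (W₁ W₂ : WeierstrassCurve ℤ) (ℓ : ℕ) (hℓ : ℓ.Prime)
    (h5 : 5 ≤ ℓ) (h₄ : (ℓ : ℤ) ∣ W₁.c₄ - W₂.c₄) (h₆ : (ℓ : ℤ) ∣ W₁.c₆ - W₂.c₆) :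
    W₁.apOfModel ℓ = W₂.apOfModel ℓ := by
  have : Fact ℓ.Prime := ⟨hℓ⟩
  have h6 : (6 : ZMod ℓ) ≠ 0 := by
    have : ((6 : ℕ) : ZMod ℓ) ≠ 0 := by
      rw [Ne, ZMod.natCast_eq_zero_iff]
      intro hd
      have := Nat.le_of_dvd (by norm_num) hd
      have h23 : ℓ ∣ 2 * 3 := by simpa using hd
      rcases (Nat.Prime.dvd_mul hℓ).mp h23 with h | h
      · have := Nat.le_of_dvd (by norm_num) h; omega
      · have := Nat.le_of_dvd (by norm_num) h; omega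
    simpa using this
  have e₄ : (W₁.reductionMod ℓ).c₄ = (W₂.reductionMod ℓ).c₄ := by
    unfold reductionMod
    rw [map_c₄, map_c₄]
    simp only [eq_intCast]
    exact ((ZMod.intCast_eq_intCast_iff_dvd_sub _ _ ℓ).mpr h₄).symm
  have e₆ : (W₁.reductionMod ℓ).c₆ = (W₂.reductionMod ℓ).c₆ := by
    unfold reductionMod
    rw [map_c₆, map_c₆]
    simp only [eq_intCast]
    exact ((ZMod.intCast_eq_intCast_iff_dvd_sub _ _ ℓ).mpr h₆).symm
  unfold apOfModel traceOfFrobenius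
  rw [s52m_card_eq_of_c h6 _ _ e₄ e₆]

end Fermat.Agent.Lib.S52
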