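/-
Programme K (S52), contract **[C4C6]** `s52_C4C6Ne` of `Lib/S52/Iface.lean` (v2) and the model
correction theorem `s52c_model` (the v1 contract [D1-MODEL], now a plain theorem)
(helper3, prefix `s52c_`).
-/
import Fermat.Agent.Lib.S52.Iface
import Fermat.Agent.Lib.S52.MModel

set_option autoImplicit false

namespace Fermat.Agent.Lib.S52

open WeierstrassCurve

/-- a semistable model with `c₄ = 0` or `c₆ = 0` would have `Δ = ±1`. -/
theorem s52c_unit_of_semistable (W : WeierstrassCurve ℤ) (hW : W.IsSemistableModel)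
    (h : ∀ p : ℕ, p.Prime → (p : ℤ) ∣ W.Δ → (p : ℤ) ∣ W.c₄) : W.Δ = 1 ∨ W.Δ = -1 := by
  have h1 : W.Δ.natAbs = 1 := by
    by_contra hne
    obtain ⟨p, hp, hpd⟩ := Nat.exists_prime_and_dvd hne
    have hpΔ : (p : ℤ) ∣ W.Δ := Int.natCast_dvd.mpr hpd
    exact hW p hp hpΔ (h p hp hpΔ)
  rcases Int.natAbs_eq W.Δ with h2 | h2
  · left; rw [h2, h1]; rfl
  · right; rw [h2, h1]; rfl

/-- `b₂ = a₁² + 4 a₂` is never `≡ 2 mod 4`. -/
theorem s52c_b₂_mod_four (W : WeierstrassCurve ℤ) : W.b₂ % 4 ≠ 2 := by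
  unfold WeierstrassCurve.b₂
  have h : W.a₁ % 4 = 0 ∨ W.a₁ % 4 = 1 ∨ W.a₁ % 4 = 2 ∨ W.a₁ % 4 = 3 := by omega
  have h2 : (W.a₁ ^ 2 + 4 * W.a₂) % 4 = (W.a₁ % 4) ^ 2 % 4 := by
    rw [Int.add_mul_emod_self_left, pow_two, pow_two, Int.mul_emod]
  rw [h2]
  rcases h with h | h | h | h <;> rw [h] <;> norm_num

/-- **[D1-C4C6]** -/
theorem s52c_c4c6Ne : s52_C4C6Ne := by
  intro W hΔ hW
  have hrel := W.c_relation
  constructor
  · intro h4
    have hu := s52c_unit_of_semistable W hW (fun p _ _ => by rw [h4]; exact dvd_zero _)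
    rw [h4] at hrel
    -- `1728 Δ = - c₆²`
    rcases hu with hu | hu
    · rw [hu] at hrel
      nlinarith [sq_nonneg W.c₆]
    · rw [hu] at hrel
      -- `c₆² = 1728`
      have h1 : W.c₆ ^ 2 = 1728 := by linarith
      have h2 : W.c₆.natAbs ^ 2 = 1728 := by
        have := congrArg Int.natAbs h1
        rw [Int.natAbs_pow] at this
        exact this
      have h3 : W.c₆.natAbs < 42 := by
        by_contra hge
        push Not at hge
        have : 42 ^ 2 ≤ W.c₆.natAbs ^ 2 := Nat.pow_le_pow_left hge 2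
        omega
      have h4 : 41 < W.c₆.natAbs := by
        by_contra hle
        push Not at hle
        have : W.c₆.natAbs ^ 2 ≤ 41 ^ 2 := Nat.pow_le_pow_left hle 2
        omega
      omega
  · intro h6
    rw [h6] at hrel
    -- `1728 Δ = c₄³`
    have hdiv : ∀ p : ℕ, p.Prime → (p : ℤ) ∣ W.Δ → (p : ℤ) ∣ W.c₄ := by
      intro p hp hpd
      have h1 : (p : ℤ) ∣ W.c₄ ^ 3 := by
        have : W.c₄ ^ 3 = 1728 * W.Δ := by linarith
        rw [this]
        exact Dvd.dvd.mul_left hpd _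
      exact (Nat.prime_iff_prime_int.mp hp).dvd_of_dvd_pow h1
    have hu := s52c_unit_of_semistable W hW hdiv
    -- `c₄³ = ±1728`, so `c₄ = ±12`
    have h12 : W.c₄ = 12 ∨ W.c₄ = -12 := by
      rcases hu with hu | hu
      · left
        rw [hu] at hrel
        have h1 : W.c₄ ^ 3 = 12 ^ 3 := by linarith
        have hodd : Odd 3 := by decide
        exact hodd.strictMono_pow.injective h1
      · right
        rw [hu] at hrel
        have h1 : W.c₄ ^ 3 = (-12) ^ 3 := by linarith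
        have hodd : Odd 3 := by decide
        exact hodd.strictMono_pow.injective h1
    -- `b₂² = c₄ + 24 b₄` forces `b₂ ≡ 2 mod 4`
    have hc4 : W.c₄ = W.b₂ ^ 2 - 24 * W.b₄ := rfl
    have hb := s52c_b₂_mod_four W
    have key : ∀ b e : ℤ, (b ^ 2 = 12 + 24 * e ∨ b ^ 2 = -12 + 24 * e) → b % 4 = 2 := by
      intro b e hbe
      have h8 : b ^ 2 % 8 = 4 := by
        rcases hbe with h | h
        · rw [h]; omega
        · rw [h]; omega
      have hb8 : b % 8 = 0 ∨ b % 8 = 1 ∨ b % 8 = 2 ∨ b % 8 = 3 ∨ b % 8 = 4 ∨ b % 8 = 5 ∨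
          b % 8 = 6 ∨ b % 8 = 7 := by omega
      have hsq : b ^ 2 % 8 = (b % 8) ^ 2 % 8 := by
        rw [pow_two, pow_two, Int.mul_emod]
      rw [hsq] at h8
      rcases hb8 with h | h | h | h | h | h | h | h <;> rw [h] at h8 <;> omega
    apply hb
    apply key W.b₂ W.b₄
    rcases h12 with h | h
    · left; rw [hc4] at h; linarith
    · right; rw [hc4] at h; linarith

/-- **[D1-MODEL]** (the v1 contract `s52_Model`, as a plain theorem): correcting `a₄, a₆` gives an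
integral model with prescribed `(c₄', c₆')` close to those of `W`; it is semistable with `Δ' ≠ 0` as
soon as `(c₄', c₆')` are coprime outside `N₁`. -/
theorem s52c_model (W : WeierstrassCurve ℤ) (hΔ : W.Δ ≠ 0) (hW : W.IsSemistableModel)
    (N₁ : ℕ) (_h6 : (6 : ℤ) ∣ N₁) (h2Δ : (2 * W.Δ) ∣ (N₁ : ℤ))
    (c4' c6' : ℤ) (hc4 : (1728 * (N₁ : ℤ)) ∣ c4' - W.c₄) (hc6 : (1728 * (N₁ : ℤ)) ∣ c6' - W.c₆)
    (hcop : ∀ q : ℕ, q.Prime → ¬ q ∣ N₁ → ¬ ((q : ℤ) ∣ c4' ∧ (q : ℤ) ∣ c6')) :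
    ∃ W' : WeierstrassCurve ℤ, W'.c₄ = c4' ∧ W'.c₆ = c6' ∧ W'.Δ ≠ 0 ∧ W'.IsSemistableModel := by
  obtain ⟨W', ha₁, ha₂, ha₃, ha₄, ha₆, hW'4, hW'6⟩ := s52m_exists_model W c4' c6' (N₁ : ℤ)
    (dvd_trans ⟨3, by ring⟩ hc4) (dvd_trans ⟨2, by ring⟩ hc6)
  have hmapN : W'.map (Int.castRingHom (ZMod N₁)) = W.map (Int.castRingHom (ZMod N₁)) := by
    apply s52m_map_eq_of_congr W W' N₁
    · rw [ha₁, sub_self]; exact dvd_zero _
    · rw [ha₂, sub_self]; exact dvd_zero _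
    · rw [ha₃, sub_self]; exact dvd_zero _
    · exact dvd_trans (Dvd.intro_left 12 rfl) ha₄
    · exact ha₆
  refine ⟨W', hW'4, hW'6, ?_, ?_⟩
  · -- `Δ' ≡ Δ mod 2Δ`
    obtain ⟨hd, -, -⟩ := s52m_dvd_sub_of_congr W W' N₁ hmapN
    obtain ⟨k, hk⟩ := dvd_trans h2Δ hd
    intro h0
    rw [h0] at hk
    have h1 : W.Δ * (1 + 2 * k) = 0 := by linarith
    rcases mul_eq_zero.mp h1 with h | h
    · exact hΔ h
    · omega
  · apply s52m_semistable_of_congr W W' (N₁ : ℤ) hW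
    · intro q hq hqN
      apply s52m_map_eq_of_congr W W' q
      · rw [ha₁, sub_self]; exact dvd_zero _
      · rw [ha₂, sub_self]; exact dvd_zero _
      · rw [ha₃, sub_self]; exact dvd_zero _
      · exact dvd_trans hqN (dvd_trans (Dvd.intro_left 12 rfl) ha₄)
      · exact dvd_trans hqN ha₆
    · intro q hq hqN hqΔ hq4
      have hqN' : ¬ q ∣ N₁ := fun hd => hqN (Int.natCast_dvd_natCast.mpr hd)
      apply hcop q hq hqN'
      rw [hW'4] at hq4
      refine ⟨hq4, ?_⟩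
      have hrel := s52m_Δ_of_c W' c4' c6' hW'4 hW'6
      have h1 : (q : ℤ) ∣ c6' ^ 2 := by
        have : c6' ^ 2 = c4' ^ 3 - 1728 * W'.Δ := by linarith
        rw [this]
        exact dvd_sub (dvd_pow hq4 (by norm_num)) (Dvd.dvd.mul_left hqΔ _)
      exact (Nat.prime_iff_prime_int.mp hq).dvd_of_dvd_pow h1

end Fermat.Agent.Lib.S52
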