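/-
PROGRAMME K (S52, the 3–5 switch), part D2 (helper1, prefix `s52d_`): **Chebotarev wiring in the compositum
of two linearly disjoint Galois fields.**

All hypotheses are "instance-free" (finite-dimensionality apart): Galois-stability is `∀ σ x, x ∈ L → σ x ∈ L`
and disjointness is `x ∈ K' → x ∈ L → x rational`, so that consumers never meet the `ℚ`-algebra diamond on
subfields of `ℚ̄` (`DivisionRing.toRatAlgebra` versus `IntermediateField.algebra'`).

* `s52d_exists_lift_gen` : `E/F` Galois (possibly infinite), `L/F` finite normal, `K' ⊓ L = ⊥`: every automorphism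
  of `L` lifts to an automorphism of `E` fixing `K'` pointwise (restriction `Gal(E/K') → Gal(L/F)` is onto);
* `s52d_exists_lift` : the same over `ℚ̄/ℚ`, instance-free;
* `s52d_cheb_fix` : core form -- `τ` fixing `K'` pointwise (no disjointness needed): a prime `q ∉ S'` whose
  Frobenius elements are trivial on `K'` and act on `L` as a conjugate of `τ`;
* `s52d_cheb_disjoint` : the same for an ARBITRARY `τ` when `K' ∩ L = ℚ`;
* `s52d_cheb_set`, `s52d_cheb_noFix` : `L` replaced by a finite Galois-stable set `R ⊂ ℚ̄` (e.g. the four roots of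
  the 3-division quartic); `noFix`: `τ` fixed-point-free on `R` ⇒ all Frobenius elements at `q` are;
* `s52d_cheb_rep_fix` : representation form with `τ` fixing `K'`;
* `s52d_cheb_rep` : representation form -- `ρ` of finite level, `K'` disjoint from the field cut out by `ρ`:
  a prime `q ∉ S'` whose Frobenius elements `φ` are trivial on `K'` and have `ρ φ = ρ (g τ g⁻¹)`;
* `s52d_cheb_two` : two-representation form -- `t₁ φ = 1` and `ρ φ = ρ (g τ g⁻¹)`;
* helpers on the field cut out by `ρ`: `s52d_kerField`, `s52d_mem_kerField`, `s52d_kerField_stable`,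
  `s52d_kerField_le`, `s52d_kerField_finiteDimensional`, `s52d_ker_of_fixes_kerField`.
-/
import Fermat.Agent.Lib.S56.HCheb
import Mathlib.FieldTheory.Galois.Infinite

set_option autoImplicit false
set_option linter.style.haveILetI false

noncomputable section

namespace Fermat.Agent.Lib.S52

open Fermat.Agent.Lib.S56

section generic

variable {F E : Type*} [Field F] [Field E] [Algebra F E]

/-- A Galois-stable intermediate field of a normal extension is normal. -/
theorem s52d_normal_of_stable [Normal F E] (M : IntermediateField F E)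
    (h : ∀ σ : E ≃ₐ[F] E, ∀ x ∈ M, σ x ∈ M) : Normal F M := by
  rw [IntermediateField.normal_iff_forall_map_le' (L := E)]
  rintro σ _ ⟨x, hx, rfl⟩
  exact h σ x hx

/-- Restriction to a normal intermediate field (stated generically, which pins down the algebra
instances on `↥M` and so avoids the `ℚ`-algebra diamond on subfields of `ℚ̄`). -/
def s52d_res (M : IntermediateField F E) [Normal F M] : (E ≃ₐ[F] E) →* (M ≃ₐ[F] M) :=
  AlgEquiv.restrictNormalHom M

/-- Two automorphisms have the same restriction to a normal subfield iff they agree on it. -/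
theorem s52d_res_eq_iff (M : IntermediateField F E) [Normal F M] (φ σ : E ≃ₐ[F] E) :
    s52d_res M φ = s52d_res M σ ↔ ∀ x ∈ M, φ x = σ x := by
  unfold s52d_res
  constructor
  · intro h x hx
    have h1 := AlgEquiv.restrictNormalHom_apply M φ ⟨x, hx⟩
    have h2 := AlgEquiv.restrictNormalHom_apply M σ ⟨x, hx⟩
    rw [h] at h1
    exact h1.symm.trans h2
  · intro h
    ext x
    rw [AlgEquiv.restrictNormalHom_apply, AlgEquiv.restrictNormalHom_apply]
    exact h x x.2

/-- **Linear disjointness, Galois form.**  If `E/F` is Galois (possibly infinite), `L/F` is a finite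
normal subextension and `K' ⊓ L = ⊥`, then every automorphism of `L` lifts to an automorphism of `E`
fixing `K'` pointwise. -/
theorem s52d_exists_lift_gen [IsGalois F E] (K' L : IntermediateField F E)
    [FiniteDimensional F L] [Normal F L] (hdisj : K' ⊓ L = ⊥) (τ : L ≃ₐ[F] L) :
    ∃ σ : E ≃ₐ[F] E, (∀ x ∈ K', σ x = x) ∧ AlgEquiv.restrictNormalHom L σ = τ := by
  set H : Subgroup (L ≃ₐ[F] L) := K'.fixingSubgroup.map (AlgEquiv.restrictNormalHom L) with hH
  have hfix : IntermediateField.fixedField H = ⊥ := by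
    rw [eq_bot_iff]
    intro x hx
    rw [IntermediateField.mem_fixedField_iff] at hx
    have hxK : (x : E) ∈ K' := by
      rw [← InfiniteGalois.fixedField_fixingSubgroup K', IntermediateField.mem_fixedField_iff]
      intro σ hσ
      have := hx (AlgEquiv.restrictNormalHom L σ) (Subgroup.mem_map_of_mem _ hσ)
      have h3 := congrArg Subtype.val this
      exact (AlgEquiv.restrictNormalHom_apply L σ x).symm.trans h3
    have : (x : E) ∈ K' ⊓ L := ⟨hxK, x.2⟩
    rw [hdisj] at this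
    rw [IntermediateField.mem_bot] at this ⊢
    obtain ⟨r, hr⟩ := this
    exact ⟨r, Subtype.ext hr⟩
  have hHtop : H = ⊤ := by
    rw [← IntermediateField.fixingSubgroup_fixedField H, hfix, IntermediateField.fixingSubgroup_bot]
  have : τ ∈ H := hHtop ▸ Subgroup.mem_top τ
  obtain ⟨σ, hσ, rfl⟩ := this
  refine ⟨σ, fun x hx => ?_, rfl⟩
  exact (mem_fixingSubgroup_iff _).mp hσ x hx

/-- every finite subextension of a normal extension lies in a finite Galois-stable one (its normal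
closure). -/
theorem s52d_exists_stable_gen [Normal F E] (K : IntermediateField F E) [FiniteDimensional F K] :
    ∃ M : IntermediateField F E, K ≤ M ∧ FiniteDimensional F M ∧
      ∀ σ : E ≃ₐ[F] E, ∀ x ∈ M, σ x ∈ M := by
  refine ⟨IntermediateField.normalClosure F K E, IntermediateField.le_normalClosure K,
    normalClosure.is_finiteDimensional F K E, fun σ x hx => ?_⟩
  haveI : Normal F (IntermediateField.normalClosure F K E) := normalClosure.normal F K E
  have h1 := (IntermediateField.normal_iff_forall_map_le' (L := E)).mp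
    (inferInstance : Normal F (IntermediateField.normalClosure F K E)) σ
  exact h1 ⟨x, hx, rfl⟩

end generic

local notation "Qbar" => AlgebraicClosure ℚ
local notation "GQ" => (AlgebraicClosure ℚ ≃ₐ[ℚ] AlgebraicClosure ℚ)

theorem s52d_isGalois_Qbar : IsGalois ℚ Qbar := by
  have h1 : Algebra.IsAlgebraic ℚ Qbar := AlgebraicClosure.isAlgebraic ℚ
  have h2 : IsAlgClosure ℚ Qbar := ⟨inferInstance, h1⟩
  exact IsAlgClosure.isGalois ℚ Qbar

/-- **Lifting across disjoint fields** (instance-free form).  `L` a finite Galois-stable subfield of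
`ℚ̄`, `K'` any subfield with `K' ∩ L = ℚ`: every `τ ∈ G_ℚ` can be modified, without changing its action
on `L`, so as to fix `K'` pointwise. -/
theorem s52d_exists_lift (K' L : IntermediateField ℚ Qbar) (hLfin : FiniteDimensional ℚ L)
    (hLst : ∀ σ : GQ, ∀ x ∈ L, σ x ∈ L)
    (hdisj : ∀ x : Qbar, x ∈ K' → x ∈ L → ∃ r : ℚ, algebraMap ℚ Qbar r = x) (τ : GQ) :
    ∃ σ : GQ, (∀ x ∈ K', σ x = x) ∧ ∀ x ∈ L, σ x = τ x := by
  haveI hGal : IsGalois ℚ Qbar := s52d_isGalois_Qbar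
  haveI hN := s52d_normal_of_stable (F := ℚ) (E := Qbar) L hLst
  have hF : Module.Finite ℚ L := by convert hLfin
  have hd : K' ⊓ L = ⊥ := by
    rw [eq_bot_iff]
    rintro x ⟨hxK, hxL⟩
    rw [IntermediateField.mem_bot]
    exact hdisj x hxK hxL
  obtain ⟨σ, hσK, hσL⟩ := s52d_exists_lift_gen K' L hd (s52d_res L τ)
  exact ⟨σ, hσK, (s52d_res_eq_iff L σ τ).mp hσL⟩

/-- **Chebotarev in a compositum, core form** (Programme K, part D2).  `K'`, `L` finite Galois-stable
subfields of `ℚ̄`, `τ ∈ G_ℚ` FIXING `K'` pointwise, `S'` a finite set of primes.  There is a prime `q ∉ S'` all of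
whose Frobenius elements are trivial on `K'` and act on `L` as a conjugate of `τ`.  (No disjointness is
needed: `τ` already lives in `Gal(ℚ̄/K')`.) -/
theorem s52d_cheb_fix (K' L : IntermediateField ℚ Qbar)
    (hKfin : FiniteDimensional ℚ K') (hLfin : FiniteDimensional ℚ L)
    (hKst : ∀ σ : GQ, ∀ x ∈ K', σ x ∈ K') (hLst : ∀ σ : GQ, ∀ x ∈ L, σ x ∈ L)
    (τ : GQ) (hτ : ∀ x ∈ K', τ x = x) (S' : Finset ℕ) :
    ∃ q : ℕ, q.Prime ∧ q ∉ S' ∧
      ∀ A : ValuationSubring Qbar, A.LiesOverPrime q →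
        ∀ φ : GQ, A.IsFrobeniusAt φ q →
          (∀ x ∈ K', φ x = x) ∧ ∃ g : GQ, ∀ x ∈ L, φ x = (g * τ * g⁻¹) x := by
  haveI hGal : IsGalois ℚ Qbar := s52d_isGalois_Qbar
  have hMst : ∀ σ : GQ, ∀ x ∈ K' ⊔ L, σ x ∈ K' ⊔ L := by
    intro σ x hx
    have h1 : (K' ⊔ L).map (σ : Qbar →ₐ[ℚ] Qbar) ≤ K' ⊔ L := by
      rw [IntermediateField.map_sup]
      refine sup_le (le_trans ?_ le_sup_left) (le_trans ?_ le_sup_right)
      · rintro _ ⟨y, hy, rfl⟩
        exact hKst σ y hy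
      · rintro _ ⟨y, hy, rfl⟩
        exact hLst σ y hy
    exact h1 ⟨x, hx, rfl⟩
  haveI hN := s52d_normal_of_stable (F := ℚ) (E := Qbar) (K' ⊔ L) hMst
  have hMfin : FiniteDimensional ℚ ↥(K' ⊔ L) := by
    have hF1 : Module.Finite ℚ K' := by convert hKfin
    have hF2 : Module.Finite ℚ L := by convert hLfin
    have := IntermediateField.finiteDimensional_sup K' L
    convert this
  have hfin : GaloisFactorsThroughFiniteLevel (s52d_res (F := ℚ) (E := Qbar) (K' ⊔ L)) := by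
    refine ⟨K' ⊔ L, hMfin, fun σ hσ => ?_⟩
    rw [← map_one (s52d_res (F := ℚ) (E := Qbar) (K' ⊔ L)), s52d_res_eq_iff]
    intro x hx
    rw [hσ x hx, AlgEquiv.one_apply]
  obtain ⟨q, hq, hqS, hfrob⟩ := s56h_cheb _ hfin S' τ
  refine ⟨q, hq, hqS, fun A hA φ hφ => ?_⟩
  obtain ⟨g, hg⟩ := hfrob A hA φ hφ
  rw [s52d_res_eq_iff] at hg
  refine ⟨fun x hx => ?_, g, fun x hx => hg x ((le_sup_right : L ≤ K' ⊔ L) hx)⟩
  rw [hg x ((le_sup_left : K' ≤ K' ⊔ L) hx), AlgEquiv.mul_apply, AlgEquiv.mul_apply,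
    hτ _ (hKst g⁻¹ x hx), ← AlgEquiv.mul_apply, mul_inv_cancel, AlgEquiv.one_apply]

/-- **Chebotarev in the compositum of two disjoint Galois fields.**
`K'`, `L` finite Galois-stable subfields of `ℚ̄` with `K' ∩ L = ℚ`, `τ ∈ G_ℚ` ARBITRARY, `S'` a finite set of
primes.  There is a prime `q ∉ S'` all of whose Frobenius elements are trivial on `K'` and act on `L` as a
conjugate of `τ`. -/
theorem s52d_cheb_disjoint (K' L : IntermediateField ℚ Qbar)
    (hKfin : FiniteDimensional ℚ K') (hLfin : FiniteDimensional ℚ L)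
    (hKst : ∀ σ : GQ, ∀ x ∈ K', σ x ∈ K') (hLst : ∀ σ : GQ, ∀ x ∈ L, σ x ∈ L)
    (hdisj : ∀ x : Qbar, x ∈ K' → x ∈ L → ∃ r : ℚ, algebraMap ℚ Qbar r = x)
    (τ : GQ) (S' : Finset ℕ) :
    ∃ q : ℕ, q.Prime ∧ q ∉ S' ∧
      ∀ A : ValuationSubring Qbar, A.LiesOverPrime q →
        ∀ φ : GQ, A.IsFrobeniusAt φ q →
          (∀ x ∈ K', φ x = x) ∧ ∃ g : GQ, ∀ x ∈ L, φ x = (g * τ * g⁻¹) x := by
  obtain ⟨σ₀, hσK, hσL⟩ := s52d_exists_lift K' L hLfin hLst hdisj τ
  obtain ⟨q, hq, hqS, hfrob⟩ := s52d_cheb_fix K' L hKfin hLfin hKst hLst σ₀ hσK S'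
  refine ⟨q, hq, hqS, fun A hA φ hφ => ?_⟩
  obtain ⟨h1, g, hg⟩ := hfrob A hA φ hφ
  refine ⟨h1, g, fun x hx => ?_⟩
  rw [hg x hx, AlgEquiv.mul_apply, AlgEquiv.mul_apply, hσL _ (hLst g⁻¹ x hx), AlgEquiv.mul_apply,
    AlgEquiv.mul_apply]

/-! ### Finite Galois-stable sets (e.g. the roots of a division polynomial) -/

/-- The field generated by a finite Galois-stable set is finite-dimensional and Galois-stable. -/
theorem s52d_adjoin_finite_stable (R : Set Qbar) (hRfin : R.Finite)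
    (hRst : ∀ σ : GQ, ∀ x ∈ R, σ x ∈ R) :
    FiniteDimensional ℚ (IntermediateField.adjoin ℚ R) ∧
      ∀ σ : GQ, ∀ x ∈ IntermediateField.adjoin ℚ R, σ x ∈ IntermediateField.adjoin ℚ R := by
  constructor
  · haveI : Finite R := hRfin
    have hint : ∀ x ∈ R, IsIntegral ℚ x := fun x _ =>
      ((AlgebraicClosure.isAlgebraic ℚ).isAlgebraic x).isIntegral
    have := IntermediateField.finiteDimensional_adjoin (K := ℚ) (L := Qbar) (S := R) hint
    convert this
  · intro σ x hx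
    have h1 : (IntermediateField.adjoin ℚ R).map (σ : Qbar →ₐ[ℚ] Qbar) ≤
        IntermediateField.adjoin ℚ R := by
      rw [IntermediateField.adjoin_map, IntermediateField.adjoin_le_iff]
      rintro _ ⟨y, hy, rfl⟩
      exact IntermediateField.subset_adjoin ℚ R (hRst σ y hy)
    exact h1 ⟨x, hx, rfl⟩

/-- **Chebotarev for a finite Galois-stable set `R` and a field `K'`**: `τ ∈ G_ℚ` fixing `K'` pointwise;
there is a prime `q ∉ S'` all of whose Frobenius elements are trivial on `K'` and act on `R` as a conjugate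
of `τ`. -/
theorem s52d_cheb_set (K' : IntermediateField ℚ Qbar) (hKfin : FiniteDimensional ℚ K')
    (hKst : ∀ σ : GQ, ∀ x ∈ K', σ x ∈ K')
    (R : Set Qbar) (hRfin : R.Finite) (hRst : ∀ σ : GQ, ∀ x ∈ R, σ x ∈ R)
    (τ : GQ) (hτ : ∀ x ∈ K', τ x = x) (S' : Finset ℕ) :
    ∃ q : ℕ, q.Prime ∧ q ∉ S' ∧
      ∀ A : ValuationSubring Qbar, A.LiesOverPrime q →
        ∀ φ : GQ, A.IsFrobeniusAt φ q →
          (∀ x ∈ K', φ x = x) ∧ ∃ g : GQ, ∀ x ∈ R, φ x = (g * τ * g⁻¹) x := by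
  obtain ⟨hLfin, hLst⟩ := s52d_adjoin_finite_stable R hRfin hRst
  obtain ⟨q, hq, hqS, hfrob⟩ :=
    s52d_cheb_fix K' (IntermediateField.adjoin ℚ R) hKfin hLfin hKst hLst τ hτ S'
  refine ⟨q, hq, hqS, fun A hA φ hφ => ?_⟩
  obtain ⟨h1, g, hg⟩ := hfrob A hA φ hφ
  exact ⟨h1, g, fun x hx => hg x (IntermediateField.subset_adjoin ℚ R hx)⟩

/-- **Fixed-point-free form** (the shape consumed by the "four roots of the 3-division quartic" design):
if `τ` fixes `K'` pointwise and fixes NO element of the finite Galois-stable set `R`, there is a prime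
`q ∉ S'` all of whose Frobenius elements are trivial on `K'` and fix no element of `R`. -/
theorem s52d_cheb_noFix (K' : IntermediateField ℚ Qbar) (hKfin : FiniteDimensional ℚ K')
    (hKst : ∀ σ : GQ, ∀ x ∈ K', σ x ∈ K')
    (R : Set Qbar) (hRfin : R.Finite) (hRst : ∀ σ : GQ, ∀ x ∈ R, σ x ∈ R)
    (τ : GQ) (hτ : ∀ x ∈ K', τ x = x) (hτR : ∀ x ∈ R, τ x ≠ x) (S' : Finset ℕ) :
    ∃ q : ℕ, q.Prime ∧ q ∉ S' ∧
      ∀ A : ValuationSubring Qbar, A.LiesOverPrime q →
        ∀ φ : GQ, A.IsFrobeniusAt φ q → (∀ x ∈ K', φ x = x) ∧ ∀ x ∈ R, φ x ≠ x := by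
  obtain ⟨q, hq, hqS, hfrob⟩ := s52d_cheb_set K' hKfin hKst R hRfin hRst τ hτ S'
  refine ⟨q, hq, hqS, fun A hA φ hφ => ?_⟩
  obtain ⟨h1, g, hg⟩ := hfrob A hA φ hφ
  refine ⟨h1, fun x hx hfix => ?_⟩
  rw [hg x hx, AlgEquiv.mul_apply, AlgEquiv.mul_apply] at hfix
  have h2 : τ (g⁻¹ x) = g⁻¹ x := by
    have := congrArg (fun y => g⁻¹ y) hfix
    simpa [← AlgEquiv.mul_apply] using this
  exact hτR _ (hRst g⁻¹ x hx) h2

/-! ### Representation-level forms -/

section rep

variable {T : Type} [Group T] (ρ : GQ →* T)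

/-- The field cut out by a homomorphism `ρ : G_ℚ → T`. -/
def s52d_kerField : IntermediateField ℚ Qbar := IntermediateField.fixedField ρ.ker

theorem s52d_mem_kerField (x : Qbar) : x ∈ s52d_kerField ρ ↔ ∀ σ : GQ, ρ σ = 1 → σ x = x := by
  unfold s52d_kerField
  rw [IntermediateField.mem_fixedField_iff]
  exact ⟨fun h σ hσ => h σ (MonoidHom.mem_ker.mpr hσ), fun h σ hσ => h σ (MonoidHom.mem_ker.mp hσ)⟩

theorem s52d_kerField_stable (σ : GQ) (x : Qbar) (hx : x ∈ s52d_kerField ρ) :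
    σ x ∈ s52d_kerField ρ := by
  rw [s52d_mem_kerField] at hx ⊢
  intro h hh
  have h1 : ρ (σ⁻¹ * h * σ) = 1 := by
    rw [map_mul, map_mul, hh, mul_one, ← map_mul, inv_mul_cancel, map_one]
  have h2 : σ⁻¹ (h (σ x)) = x := hx _ h1
  have := congrArg σ h2
  rwa [show σ (σ⁻¹ (h (σ x))) = h (σ x) from σ.apply_symm_apply _] at this

theorem s52d_kerField_le {F : IntermediateField ℚ Qbar}
    (hF : ∀ σ : GQ, (∀ x ∈ F, σ x = x) → ρ σ = 1) : s52d_kerField ρ ≤ F := by
  haveI := s52d_isGalois_Qbar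
  have h1 : s52d_kerField ρ ≤ IntermediateField.fixedField F.fixingSubgroup := by
    intro x hx
    rw [s52d_mem_kerField] at hx
    rw [IntermediateField.mem_fixedField_iff]
    intro g hg
    exact hx g (hF g (fun y hy => (IntermediateField.mem_fixingSubgroup_iff _ _).mp hg y hy))
  rwa [InfiniteGalois.fixedField_fixingSubgroup] at h1

theorem s52d_kerField_finiteDimensional (hρ : GaloisFactorsThroughFiniteLevel ρ) :
    FiniteDimensional ℚ (s52d_kerField ρ) := by
  obtain ⟨F, hF, hFρ⟩ := hρ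
  have hle : s52d_kerField ρ ≤ F := s52d_kerField_le ρ hFρ
  have hF' : Module.Finite ℚ F := by convert hF
  have : Module.Finite ℚ (s52d_kerField ρ) :=
    FiniteDimensional.of_injective (IntermediateField.inclusion hle).toLinearMap
      (IntermediateField.inclusion_injective hle)
  convert this

/-- An element of `G_ℚ` fixing the field cut out by a finite-level `ρ` lies in `ker ρ`. -/
theorem s52d_ker_of_fixes_kerField (hρ : GaloisFactorsThroughFiniteLevel ρ) (σ : GQ)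
    (h : ∀ x ∈ s52d_kerField ρ, σ x = x) : ρ σ = 1 := by
  haveI := s52d_isGalois_Qbar
  obtain ⟨F, hF, hFρ⟩ := hρ
  have hF' : Module.Finite ℚ F := by convert hF
  have hle : F.fixingSubgroup ≤ ρ.ker := fun g hg =>
    MonoidHom.mem_ker.mpr (hFρ g (fun y hy => (IntermediateField.mem_fixingSubgroup_iff _ _).mp hg y hy))
  have hopen : IsOpen (ρ.ker : Set GQ) := Subgroup.isOpen_mono hle F.fixingSubgroup_isOpen
  have hclosed : IsClosed (ρ.ker : Set GQ) := Subgroup.isClosed_of_isOpen _ hopen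
  have hfix : (s52d_kerField ρ).fixingSubgroup = ρ.ker :=
    InfiniteGalois.fixingSubgroup_fixedField (⟨ρ.ker, hclosed⟩ : ClosedSubgroup GQ)
  have : σ ∈ (s52d_kerField ρ).fixingSubgroup :=
    (IntermediateField.mem_fixingSubgroup_iff _ _).mpr h
  rw [hfix] at this
  exact MonoidHom.mem_ker.mp this

/-- **Chebotarev for a representation and a field, core form**: `ρ : G_ℚ → T` of finite level, `K'` a
finite Galois-stable subfield of `ℚ̄`, `τ ∈ G_ℚ` FIXING `K'` pointwise.  There is a prime `q ∉ S'` all of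
whose Frobenius elements `φ` are trivial on `K'` and have `ρ φ` conjugate to `ρ τ`. -/
theorem s52d_cheb_rep_fix (hρ : GaloisFactorsThroughFiniteLevel ρ)
    (K' : IntermediateField ℚ Qbar) (hKfin : FiniteDimensional ℚ K')
    (hKst : ∀ σ : GQ, ∀ x ∈ K', σ x ∈ K')
    (τ : GQ) (hτ : ∀ x ∈ K', τ x = x) (S' : Finset ℕ) :
    ∃ q : ℕ, q.Prime ∧ q ∉ S' ∧
      ∀ A : ValuationSubring Qbar, A.LiesOverPrime q →
        ∀ φ : GQ, A.IsFrobeniusAt φ q →
          (∀ x ∈ K', φ x = x) ∧ ∃ g : GQ, ρ φ = ρ (g * τ * g⁻¹) := by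
  haveI hGal : IsGalois ℚ Qbar := s52d_isGalois_Qbar
  haveI hN := s52d_normal_of_stable (F := ℚ) (E := Qbar) K' hKst
  obtain ⟨F, hF, hFρ⟩ := hρ
  have hMfin : FiniteDimensional ℚ ↥(K' ⊔ F) := by
    have hF1 : Module.Finite ℚ K' := by convert hKfin
    have hF2 : Module.Finite ℚ F := by convert hF
    have := IntermediateField.finiteDimensional_sup K' F
    convert this
  have hfin : GaloisFactorsThroughFiniteLevel
      ((s52d_res (F := ℚ) (E := Qbar) K').prod ρ) := by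
    refine ⟨K' ⊔ F, hMfin, fun σ hσ => ?_⟩
    rw [MonoidHom.prod_apply, Prod.mk_eq_one]
    constructor
    · rw [← map_one (s52d_res (F := ℚ) (E := Qbar) K'), s52d_res_eq_iff]
      intro x hx
      rw [hσ x ((le_sup_left : K' ≤ K' ⊔ F) hx), AlgEquiv.one_apply]
    · exact hFρ σ (fun x hx => hσ x ((le_sup_right : F ≤ K' ⊔ F) hx))
  obtain ⟨q, hq, hqS, hfrob⟩ := s56h_cheb _ hfin S' τ
  refine ⟨q, hq, hqS, fun A hA φ hφ => ?_⟩
  obtain ⟨g, hg⟩ := hfrob A hA φ hφ
  rw [MonoidHom.prod_apply, MonoidHom.prod_apply, Prod.mk.injEq, s52d_res_eq_iff] at hg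
  refine ⟨fun x hx => ?_, g, hg.2⟩
  rw [hg.1 x hx, AlgEquiv.mul_apply, AlgEquiv.mul_apply,
    hτ _ (hKst g⁻¹ x hx), ← AlgEquiv.mul_apply, mul_inv_cancel, AlgEquiv.one_apply]

/-- **Chebotarev for a representation and a disjoint field** (Programme K, part D2).
`ρ : G_ℚ → T` of finite level, `K'` a finite Galois-stable subfield of `ℚ̄` meeting the field cut out by
`ρ` only in `ℚ`, `τ ∈ G_ℚ` ARBITRARY, `S'` a finite set of primes.  There is a prime `q ∉ S'` all of whose
Frobenius elements `φ` are trivial on `K'` and have `ρ φ` conjugate to `ρ τ`. -/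
theorem s52d_cheb_rep (hρ : GaloisFactorsThroughFiniteLevel ρ)
    (K' : IntermediateField ℚ Qbar) (hKfin : FiniteDimensional ℚ K')
    (hKst : ∀ σ : GQ, ∀ x ∈ K', σ x ∈ K')
    (hdisj : ∀ x ∈ K', (∀ σ : GQ, ρ σ = 1 → σ x = x) → ∃ r : ℚ, algebraMap ℚ Qbar r = x)
    (τ : GQ) (S' : Finset ℕ) :
    ∃ q : ℕ, q.Prime ∧ q ∉ S' ∧
      ∀ A : ValuationSubring Qbar, A.LiesOverPrime q →
        ∀ φ : GQ, A.IsFrobeniusAt φ q →
          (∀ x ∈ K', φ x = x) ∧ ∃ g : GQ, ρ φ = ρ (g * τ * g⁻¹) := by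
  obtain ⟨σ₀, hσK, hσL⟩ := s52d_exists_lift K' (s52d_kerField ρ)
    (s52d_kerField_finiteDimensional ρ hρ) (s52d_kerField_stable ρ)
    (fun x hxK hxL => hdisj x hxK ((s52d_mem_kerField ρ x).mp hxL)) τ
  have hρσ : ρ σ₀ = ρ τ := by
    have h1 : ρ (τ⁻¹ * σ₀) = 1 := by
      refine s52d_ker_of_fixes_kerField ρ hρ _ (fun x hx => ?_)
      rw [AlgEquiv.mul_apply, hσL x hx]
      exact τ.symm_apply_apply x
    rw [map_mul, map_inv, inv_mul_eq_one] at h1
    exact h1.symm
  obtain ⟨q, hq, hqS, hfrob⟩ := s52d_cheb_rep_fix ρ hρ K' hKfin hKst σ₀ hσK S'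
  refine ⟨q, hq, hqS, fun A hA φ hφ => ?_⟩
  obtain ⟨h1, g, hg⟩ := hfrob A hA φ hφ
  refine ⟨h1, g, ?_⟩
  rw [hg, map_mul, map_mul, hρσ, ← map_mul, ← map_mul]

/-- **Two-representation form**: `t₁`, `t₂` of finite level whose kernel fields meet only in `ℚ`.
There is a prime `q ∉ S'` all of whose Frobenius elements `φ` have `t₁ φ = 1` and `t₂ φ` conjugate to
`t₂ τ`. -/
theorem s52d_cheb_two {T₁ : Type} [Group T₁] (t₁ : GQ →* T₁)
    (h₁ : GaloisFactorsThroughFiniteLevel t₁) (hρ : GaloisFactorsThroughFiniteLevel ρ)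
    (hdisj : ∀ x : Qbar, (∀ σ : GQ, t₁ σ = 1 → σ x = x) → (∀ σ : GQ, ρ σ = 1 → σ x = x) →
      ∃ r : ℚ, algebraMap ℚ Qbar r = x)
    (τ : GQ) (S' : Finset ℕ) :
    ∃ q : ℕ, q.Prime ∧ q ∉ S' ∧
      ∀ A : ValuationSubring Qbar, A.LiesOverPrime q →
        ∀ φ : GQ, A.IsFrobeniusAt φ q → t₁ φ = 1 ∧ ∃ g : GQ, ρ φ = ρ (g * τ * g⁻¹) := by
  obtain ⟨q, hq, hqS, hfrob⟩ := s52d_cheb_rep ρ hρ (s52d_kerField t₁)
    (s52d_kerField_finiteDimensional t₁ h₁) (s52d_kerField_stable t₁)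
    (fun x hx hx' => hdisj x ((s52d_mem_kerField t₁ x).mp hx) hx') τ S'
  refine ⟨q, hq, hqS, fun A hA φ hφ => ?_⟩
  obtain ⟨h1, h2⟩ := hfrob A hA φ hφ
  exact ⟨s52d_ker_of_fixes_kerField t₁ h₁ φ h1, h2⟩

end rep

/-! ### One finite Galois-stable field -/

section wire

/-- every finite subfield of `ℚ̄` lies in a finite Galois-stable one (instance-free form). -/
theorem s52d_exists_stable (K : IntermediateField ℚ Qbar) (hK : FiniteDimensional ℚ K) :
    ∃ M : IntermediateField ℚ Qbar, K ≤ M ∧ FiniteDimensional ℚ M ∧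
      ∀ σ : GQ, ∀ x ∈ M, σ x ∈ M := by
  haveI hGal : IsGalois ℚ Qbar := s52d_isGalois_Qbar
  haveI hK' : Module.Finite ℚ K := by convert hK
  obtain ⟨M, hKM, hMfin, hMst⟩ := s52d_exists_stable_gen (F := ℚ) (E := Qbar) K
  refine ⟨M, hKM, ?_, hMst⟩
  convert hMfin

/-- **Chebotarev for one finite Galois-stable field**: a prime `q ∉ S'` all of whose Frobenius elements
agree on `M` with a conjugate of `σ₀`. -/
theorem s52d_cheb_field (M : IntermediateField ℚ Qbar) (hMfin : FiniteDimensional ℚ M)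
    (hMst : ∀ σ : GQ, ∀ x ∈ M, σ x ∈ M) (σ₀ : GQ) (S' : Finset ℕ) :
    ∃ q : ℕ, q.Prime ∧ q ∉ S' ∧
      ∀ A : ValuationSubring Qbar, A.LiesOverPrime q →
        ∀ φ : GQ, A.IsFrobeniusAt φ q → ∃ g : GQ, ∀ x ∈ M, φ x = (g * σ₀ * g⁻¹) x := by
  haveI hGal : IsGalois ℚ Qbar := s52d_isGalois_Qbar
  haveI hN := s52d_normal_of_stable (F := ℚ) (E := Qbar) M hMst
  have hfin : GaloisFactorsThroughFiniteLevel (s52d_res (F := ℚ) (E := Qbar) M) := by
    refine ⟨M, hMfin, fun σ hσ => ?_⟩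
    rw [← map_one (s52d_res (F := ℚ) (E := Qbar) M), s52d_res_eq_iff]
    intro x hx
    rw [hσ x hx, AlgEquiv.one_apply]
  obtain ⟨q, hq, hqS, hfrob⟩ := s56h_cheb _ hfin S' σ₀
  refine ⟨q, hq, hqS, fun A hA φ hφ => ?_⟩
  obtain ⟨g, hg⟩ := hfrob A hA φ hφ
  exact ⟨g, (s52d_res_eq_iff M φ (g * σ₀ * g⁻¹)).mp hg⟩

end wire

end Fermat.Agent.Lib.S52
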