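/-
Programme K (S52): abstract wiring of **[KLEIN-ISO]** (helper1, prefix `s52d_`).

From the generator-level facts about an explicit basis `B c₄ c₆ w = ![P₁ w, P₂ w]` of the 5-torsion of
`𝓔_w = s52_sh c₄ c₆` (5-torsion, independence, the transformation rules under `S`, `T₅`, `ζ·I` with
constant integer matrices, and the Galois rule `σ • B w = N_σ · B (σ∘w)`) we get `s52_KleinIso`:
* closure induction over `s52_Ghat`: `∀ g ∈ Ĝ ∃ m ∈ M₂(ℤ), ∀ w, B (w·g) = m · B w`;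
* `#𝓔[5] = 25` (`ent_natCard_torsionBy`) ⇒ `B w` generates `𝓔_w[5]`;
* the additive isomorphism `B w' ↦ B w` is equivariant because the matrix of `σ` in the basis `B w`
  is `N_σ · m(g_σ)`, the same at `w` and at `w'`.
No fact about points other than the hypotheses is used.
-/
import Mathlib
import Fermat.Agent.Lib.S52.Iface
import Fermat.Agent.Lib.S58.OLevel
import Fermat.Agent.Lib.EN.Torsion

set_option autoImplicit false

open scoped WeierstrassCurve.Affine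

noncomputable section

namespace Fermat.Agent.Lib.S52

open Fermat.Agent.Lib.S58 Fermat.Agent.Lib.EN Matrix

local notation "Kb" => AlgebraicClosure ℚ

/-! ### abstract part: two independent 5-torsion elements in a group with 25 elements killed by 5 -/

section abstract

variable {M : Type*} [AddCommGroup M]

/-- the combination `∑ j, v j • b j`. -/
def s52d_comb (b : Fin 2 → M) (v : Fin 2 → ℤ) : M := ∑ j, v j • b j

lemma s52d_comb_add (b : Fin 2 → M) (u v : Fin 2 → ℤ) :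
    s52d_comb b (u + v) = s52d_comb b u + s52d_comb b v := by
  simp only [s52d_comb, Pi.add_apply, add_smul, Finset.sum_add_distrib]

lemma s52d_comb_zero (b : Fin 2 → M) : s52d_comb b 0 = 0 := by
  simp only [s52d_comb, Pi.zero_apply, zero_smul, Finset.sum_const_zero]

lemma s52d_comb_sub (b : Fin 2 → M) (u v : Fin 2 → ℤ) :
    s52d_comb b (u - v) = s52d_comb b u - s52d_comb b v := by
  simp only [s52d_comb, Pi.sub_apply, sub_smul, Finset.sum_sub_distrib]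

lemma s52d_comb_mem (b : Fin 2 → M) (htors : ∀ i, (5 : ℤ) • b i = 0) (v : Fin 2 → ℤ) :
    s52d_comb b v ∈ Submodule.torsionBy ℤ M ((5 : ℕ) : ℤ) := by
  rw [Submodule.mem_torsionBy_iff]
  simp only [s52d_comb, Finset.smul_sum, Nat.cast_ofNat]
  refine Finset.sum_eq_zero fun j _ => ?_
  rw [smul_comm, htors, smul_zero]

lemma s52d_comb_eq_zero_of_dvd (b : Fin 2 → M) (htors : ∀ i, (5 : ℤ) • b i = 0) (v : Fin 2 → ℤ)
    (hv : ∀ i, (5 : ℤ) ∣ v i) : s52d_comb b v = 0 := by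
  simp only [s52d_comb]
  refine Finset.sum_eq_zero fun j _ => ?_
  obtain ⟨k, hk⟩ := hv j
  rw [hk, mul_comm, mul_smul, htors, smul_zero]

/-- the combination map into the 5-torsion, as a homomorphism. -/
def s52d_combHom (b : Fin 2 → M) (htors : ∀ i, (5 : ℤ) • b i = 0) :
    (Fin 2 → ℤ) →+ Submodule.torsionBy ℤ M ((5 : ℕ) : ℤ) where
  toFun v := ⟨s52d_comb b v, s52d_comb_mem b htors v⟩
  map_zero' := Subtype.ext (s52d_comb_zero b)
  map_add' u v := Subtype.ext (s52d_comb_add b u v)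

@[simp] lemma s52d_combHom_coe (b : Fin 2 → M) (htors : ∀ i, (5 : ℤ) • b i = 0) (v : Fin 2 → ℤ) :
    ((s52d_combHom b htors v : Submodule.torsionBy ℤ M ((5 : ℕ) : ℤ)) : M) = s52d_comb b v := rfl

/-- two independent elements generate a 5-torsion group with 25 elements. -/
theorem s52d_combHom_surjective (b : Fin 2 → M) (htors : ∀ i, (5 : ℤ) • b i = 0)
    (hind : ∀ v : Fin 2 → ℤ, s52d_comb b v = 0 → ∀ i, (5 : ℤ) ∣ v i)
    (hcard : Nat.card (Submodule.torsionBy ℤ M ((5 : ℕ) : ℤ)) = 25) :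
    Function.Surjective (s52d_combHom b htors) := by
  haveI : Finite (Submodule.torsionBy ℤ M ((5 : ℕ) : ℤ)) :=
    Nat.finite_of_card_ne_zero (by rw [hcard]; norm_num)
  let φ : (Fin 2 → Fin 5) → Submodule.torsionBy ℤ M ((5 : ℕ) : ℤ) :=
    fun t => s52d_combHom b htors (fun i => ((t i : ℕ) : ℤ))
  have hinj : Function.Injective φ := by
    intro t t' h
    have h0 : s52d_comb b ((fun i => ((t i : ℕ) : ℤ)) - (fun i => ((t' i : ℕ) : ℤ))) = 0 := by
      rw [s52d_comb_sub, sub_eq_zero]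
      exact congrArg Subtype.val h
    have hd := hind _ h0
    funext i
    have hdi := hd i
    simp only [Pi.sub_apply] at hdi
    have h1 := (t i).isLt
    have h2 := (t' i).isLt
    apply Fin.ext
    omega
  have hbij : Function.Bijective φ := by
    apply hinj.bijective_of_nat_card_le
    rw [hcard, Nat.card_eq_fintype_card, Fintype.card_fun, Fintype.card_fin, Fintype.card_fin]
    norm_num
  intro P
  obtain ⟨t, ht⟩ := hbij.2 P
  exact ⟨_, ht⟩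

theorem s52d_combHom_ker (b : Fin 2 → M) (htors : ∀ i, (5 : ℤ) • b i = 0)
    (hind : ∀ v : Fin 2 → ℤ, s52d_comb b v = 0 → ∀ i, (5 : ℤ) ∣ v i) (v : Fin 2 → ℤ) :
    v ∈ (s52d_combHom b htors).ker ↔ ∀ i, (5 : ℤ) ∣ v i := by
  rw [AddMonoidHom.mem_ker]
  constructor
  · intro h
    exact hind v (congrArg Subtype.val h)
  · intro h
    exact Subtype.ext (s52d_comb_eq_zero_of_dvd b htors v h)

/-- the isomorphism of the 5-torsion groups sending one basis to the other. -/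
theorem s52d_exists_equiv {M' : Type*} [AddCommGroup M'] (b : Fin 2 → M) (b' : Fin 2 → M')
    (htors : ∀ i, (5 : ℤ) • b i = 0) (htors' : ∀ i, (5 : ℤ) • b' i = 0)
    (hind : ∀ v : Fin 2 → ℤ, s52d_comb b v = 0 → ∀ i, (5 : ℤ) ∣ v i)
    (hind' : ∀ v : Fin 2 → ℤ, s52d_comb b' v = 0 → ∀ i, (5 : ℤ) ∣ v i)
    (hcard : Nat.card (Submodule.torsionBy ℤ M ((5 : ℕ) : ℤ)) = 25)
    (hcard' : Nat.card (Submodule.torsionBy ℤ M' ((5 : ℕ) : ℤ)) = 25) :
    ∃ e : Submodule.torsionBy ℤ M' ((5 : ℕ) : ℤ) ≃+ Submodule.torsionBy ℤ M ((5 : ℕ) : ℤ),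
      ∀ v : Fin 2 → ℤ, e (s52d_combHom b' htors' v) = s52d_combHom b htors v := by
  set f := s52d_combHom b htors
  set f' := s52d_combHom b' htors'
  have hf : Function.Surjective f := s52d_combHom_surjective b htors hind hcard
  have hf' : Function.Surjective f' := s52d_combHom_surjective b' htors' hind' hcard'
  have hker : f'.ker ≤ f.ker := fun v hv =>
    (s52d_combHom_ker b htors hind v).2 ((s52d_combHom_ker b' htors' hind' v).1 hv)
  have hker' : f.ker ≤ f'.ker := fun v hv =>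
    (s52d_combHom_ker b' htors' hind' v).2 ((s52d_combHom_ker b htors hind v).1 hv)
  let g := f'.liftOfSurjective hf' ⟨f, hker⟩
  let g' := f.liftOfSurjective hf ⟨f', hker'⟩
  have hg : ∀ v, g (f' v) = f v := fun v =>
    AddMonoidHom.liftOfRightInverse_comp_apply f' _ _ ⟨f, hker⟩ v
  have hg' : ∀ v, g' (f v) = f' v := fun v =>
    AddMonoidHom.liftOfRightInverse_comp_apply f _ _ ⟨f', hker'⟩ v
  refine ⟨AddMonoidHom.toAddEquiv g g' ?_ ?_, hg⟩
  · ext P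
    obtain ⟨v, rfl⟩ := hf' P
    simp only [AddMonoidHom.comp_apply, AddMonoidHom.id_apply]
    rw [hg, hg']
  · ext P
    obtain ⟨v, rfl⟩ := hf P
    simp only [AddMonoidHom.comp_apply, AddMonoidHom.id_apply]
    rw [hg', hg]

lemma s52d_sum_one (b : Fin 2 → M) (i : Fin 2) :
    ∑ j, (1 : Matrix (Fin 2) (Fin 2) ℤ) i j • b j = b i := by
  rw [Finset.sum_eq_single i]
  · rw [Matrix.one_apply_eq, one_smul]
  · intro j _ hji
    rw [Matrix.one_apply_ne hji.symm, zero_smul]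
  · intro h
    exact absurd (Finset.mem_univ i) h

/-- composition of two "matrix rules". -/
lemma s52d_sum_sum (b : Fin 2 → M) (m n : Matrix (Fin 2) (Fin 2) ℤ) (i : Fin 2) :
    ∑ j, n i j • ∑ k, m j k • b k = ∑ k, (n * m) i k • b k := by
  simp only [Finset.smul_sum, smul_smul, Matrix.mul_apply, Finset.sum_smul]
  rw [Finset.sum_comm]

/-- a matrix rule on the basis gives the rule on combinations. -/
lemma s52d_comb_vecMul (b c : Fin 2 → M) (m : Matrix (Fin 2) (Fin 2) ℤ)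
    (h : ∀ i, c i = ∑ j, m i j • b j) (v : Fin 2 → ℤ) :
    s52d_comb c v = s52d_comb b (v ᵥ* m) := by
  simp only [s52d_comb, h, Finset.smul_sum, smul_smul, Matrix.vecMul, dotProduct, Finset.sum_smul]
  rw [Finset.sum_comm]

end abstract

/-! ### closure induction over `s52_Ghat` -/

/-- the transformation rule of the basis under a matrix `g`, with the constant integer matrix `m`. -/
def s52d_Rule (B : ∀ c4 c6 : ℤ, (Fin 2 → Kb) → Fin 2 → s58_Pt (s52_sh c4 c6))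
    (g : Matrix (Fin 2) (Fin 2) Kb) (m : Matrix (Fin 2) (Fin 2) ℤ) : Prop :=
  ∀ c4 c6 : ℤ, c4 ^ 3 ≠ c6 ^ 2 → ∀ w : Fin 2 → Kb, s52_OnFibre c4 c6 w →
    ∀ i, B c4 c6 (w ᵥ* g) i = ∑ j, m i j • B c4 c6 w j

lemma s52d_onFibre_vecMul
    (hinv : ∀ g ∈ s52_Ghat, ∀ w : Fin 2 → Kb,
      s52_Hv (w ᵥ* g) = s52_Hv w ∧ s52_Tv (w ᵥ* g) = s52_Tv w)
    {g : Matrix (Fin 2) (Fin 2) Kb} (hg : g ∈ s52_Ghat) {c4 c6 : ℤ} {w : Fin 2 → Kb}
    (hw : s52_OnFibre c4 c6 w) : s52_OnFibre c4 c6 (w ᵥ* g) := by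
  obtain ⟨h1, h2⟩ := hinv g hg w
  exact ⟨h1.trans hw.1, h2.trans hw.2⟩

/-- **closure induction**: every element of `Ĝ` transforms the basis by a constant integer matrix. -/
theorem s52d_rule_of_mem (B : ∀ c4 c6 : ℤ, (Fin 2 → Kb) → Fin 2 → s58_Pt (s52_sh c4 c6))
    (mS mT mZ : Matrix (Fin 2) (Fin 2) ℤ)
    (hinv : ∀ g ∈ s52_Ghat, ∀ w : Fin 2 → Kb,
      s52_Hv (w ᵥ* g) = s52_Hv w ∧ s52_Tv (w ᵥ* g) = s52_Tv w)
    (hS : s52d_Rule B s52_Smat mS) (hT : s52d_Rule B s52_Tmat mT) (hZ : s52d_Rule B s52_Zmat mZ) :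
    ∀ g ∈ s52_Ghat, ∃ m : Matrix (Fin 2) (Fin 2) ℤ, s52d_Rule B g m := by
  intro g hg
  unfold s52_Ghat at hg
  induction hg using Submonoid.closure_induction with
  | mem x hx =>
    rcases hx with rfl | rfl | rfl
    · exact ⟨mS, hS⟩
    · exact ⟨mT, hT⟩
    · exact ⟨mZ, hZ⟩
  | one =>
    refine ⟨1, fun c4 c6 _ w _ i => ?_⟩
    rw [Matrix.vecMul_one, s52d_sum_one]
  | mul x y hx hy ihx ihy =>
    obtain ⟨mx, hmx⟩ := ihx
    obtain ⟨my, hmy⟩ := ihy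
    refine ⟨my * mx, fun c4 c6 hc w hw i => ?_⟩
    have hwx : s52_OnFibre c4 c6 (w ᵥ* x) := s52d_onFibre_vecMul hinv hx hw
    rw [← Matrix.vecMul_vecMul, hmy c4 c6 hc _ hwx i, ← s52d_sum_sum]
    refine Finset.sum_congr rfl fun j _ => ?_
    rw [hmx c4 c6 hc w hw j]

/-! ### the curve `s52_sh c₄ c₆` -/

lemma s52d_sh_Δ (c4 c6 : ℤ) : (s52_sh c4 c6).Δ = 1259712 * (c4 ^ 3 - c6 ^ 2) := by
  simp only [s52_sh, WeierstrassCurve.Δ, WeierstrassCurve.b₂, WeierstrassCurve.b₄,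
    WeierstrassCurve.b₆, WeierstrassCurve.b₈]
  ring

lemma s52d_sh_Δ_ne (c4 c6 : ℤ) (h : c4 ^ 3 ≠ c6 ^ 2) : (s52_sh c4 c6).Δ ≠ 0 := by
  rw [s52d_sh_Δ]
  exact mul_ne_zero (by norm_num) (sub_ne_zero.mpr h)

lemma s52d_card_tors (c4 c6 : ℤ) (h : c4 ^ 3 ≠ c6 ^ 2) :
    Nat.card (Submodule.torsionBy ℤ (s58_Pt (s52_sh c4 c6)) ((5 : ℕ) : ℤ)) = 25 := by
  haveI := s58o_isElliptic (s52_sh c4 c6) (s52d_sh_Δ_ne c4 c6 h)
  have := ent_natCard_torsionBy
    (((s52_sh c4 c6).map (Int.castRingHom ℚ)).toAffine⁄Kb) 5 (by norm_num)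
  rw [this]
  norm_num

/-! ### the isomorphism -/

/-- **[KLEIN-ISO]** from the generator-level facts about an explicit basis of the 5-torsion. -/
theorem s52d_kleinIso_of
    (B : ∀ c4 c6 : ℤ, (Fin 2 → Kb) → Fin 2 → s58_Pt (s52_sh c4 c6))
    (mS mT mZ : Matrix (Fin 2) (Fin 2) ℤ)
    (hinv : ∀ g ∈ s52_Ghat, ∀ w : Fin 2 → Kb,
      s52_Hv (w ᵥ* g) = s52_Hv w ∧ s52_Tv (w ᵥ* g) = s52_Tv w)
    (htors : ∀ c4 c6 : ℤ, c4 ^ 3 ≠ c6 ^ 2 → ∀ w : Fin 2 → Kb, s52_OnFibre c4 c6 w →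
      ∀ i, 5 • B c4 c6 w i = 0)
    (hind : ∀ c4 c6 : ℤ, c4 ^ 3 ≠ c6 ^ 2 → ∀ w : Fin 2 → Kb, s52_OnFibre c4 c6 w →
      ∀ a b : ℤ, a • B c4 c6 w 0 + b • B c4 c6 w 1 = 0 → (5 : ℤ) ∣ a ∧ (5 : ℤ) ∣ b)
    (hS : s52d_Rule B s52_Smat mS) (hT : s52d_Rule B s52_Tmat mT) (hZ : s52d_Rule B s52_Zmat mZ)
    (hGal : ∀ σ : s58_G, ∃ N : Matrix (Fin 2) (Fin 2) ℤ, ∀ c4 c6 : ℤ, c4 ^ 3 ≠ c6 ^ 2 →
      ∀ w : Fin 2 → Kb, s52_OnFibre c4 c6 w →
        ∀ i, σ • B c4 c6 w i = ∑ j, N i j • B c4 c6 (fun k => σ (w k)) j) :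
    s52_KleinIso := by
  intro c4 c6 c4' c6' hc hc' w w' hw hw' hcoc
  -- the two bases
  have ht : ∀ i, (5 : ℤ) • B c4 c6 w i = 0 := fun i => by
    have := htors c4 c6 hc w hw i
    rwa [← natCast_zsmul] at this
  have ht' : ∀ i, (5 : ℤ) • B c4' c6' w' i = 0 := fun i => by
    have := htors c4' c6' hc' w' hw' i
    rwa [← natCast_zsmul] at this
  have hi : ∀ v : Fin 2 → ℤ, s52d_comb (B c4 c6 w) v = 0 → ∀ i, (5 : ℤ) ∣ v i := by
    intro v hv i
    rw [s52d_comb, Fin.sum_univ_two] at hv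
    obtain ⟨h0, h1⟩ := hind c4 c6 hc w hw _ _ hv
    fin_cases i
    · exact h0
    · exact h1
  have hi' : ∀ v : Fin 2 → ℤ, s52d_comb (B c4' c6' w') v = 0 → ∀ i, (5 : ℤ) ∣ v i := by
    intro v hv i
    rw [s52d_comb, Fin.sum_univ_two] at hv
    obtain ⟨h0, h1⟩ := hind c4' c6' hc' w' hw' _ _ hv
    fin_cases i
    · exact h0
    · exact h1
  obtain ⟨e, he⟩ := s52d_exists_equiv (B c4 c6 w) (B c4' c6' w') ht ht' hi hi'
    (s52d_card_tors c4 c6 hc) (s52d_card_tors c4' c6' hc')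
  refine ⟨e, fun σ P => ?_⟩
  -- the matrix of `σ` in both bases
  obtain ⟨g, hg, hgw, hgw'⟩ := hcoc σ
  obtain ⟨N, hN⟩ := hGal σ
  obtain ⟨m, hm⟩ := s52d_rule_of_mem B mS mT mZ hinv hS hT hZ g hg
  have hσ : ∀ i, σ • B c4 c6 w i = ∑ k, (N * m) i k • B c4 c6 w k := by
    intro i
    rw [hN c4 c6 hc w hw i, hgw, ← s52d_sum_sum]
    refine Finset.sum_congr rfl fun j _ => ?_
    rw [hm c4 c6 hc w hw j]
  have hσ' : ∀ i, σ • B c4' c6' w' i = ∑ k, (N * m) i k • B c4' c6' w' k := by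
    intro i
    rw [hN c4' c6' hc' w' hw' i, hgw', ← s52d_sum_sum]
    refine Finset.sum_congr rfl fun j _ => ?_
    rw [hm c4' c6' hc' w' hw' j]
  -- `σ` on combinations
  have hcomb : ∀ (c4 c6 : ℤ) (b : Fin 2 → s58_Pt (s52_sh c4 c6)) (v : Fin 2 → ℤ),
      σ • s52d_comb b v = s52d_comb (fun i => σ • b i) v := by
    intro c4 c6 b v
    simp only [s52d_comb, Finset.smul_sum]
    refine Finset.sum_congr rfl fun j _ => ?_
    exact WeierstrassCurve.Affine.Point.algEquiv_smul_zsmul σ (v j) (b j)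
  obtain ⟨v, rfl⟩ := s52d_combHom_surjective (B c4' c6' w') ht' hi' (s52d_card_tors c4' c6' hc') P
  have h1 : σ • s52d_combHom (B c4' c6' w') ht' v = s52d_combHom (B c4' c6' w') ht' (v ᵥ* (N * m)) := by
    apply Subtype.ext
    show σ • s52d_comb (B c4' c6' w') v = s52d_comb (B c4' c6' w') (v ᵥ* (N * m))
    rw [hcomb, s52d_comb_vecMul _ _ _ hσ']
  have h2 : σ • s52d_combHom (B c4 c6 w) ht v = s52d_combHom (B c4 c6 w) ht (v ᵥ* (N * m)) := by
    apply Subtype.ext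
    show σ • s52d_comb (B c4 c6 w) v = s52d_comb (B c4 c6 w) (v ᵥ* (N * m))
    rw [hcomb, s52d_comb_vecMul _ _ _ hσ]
  rw [h1, he, he, h2]

end Fermat.Agent.Lib.S52

end
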