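/-
PROGRAMME K (S52, the 3–5 switch), part D2e (helper1, prefix `s52d_`): **reduction of `A ∈ GLₙ(K')` modulo a
place over a prime that splits completely in `K'`**, and the resulting congruences between rational values of
integer polynomials.

* `s52d_reduction` : `K' ⊂ ℚ̄`, `A` invertible with entries in `K'`; outside a finite set `S₀` of primes, for every
  place `𝔸` over `ℓ` with a Frobenius trivial on `K'` and every integer target vector `t`, there is a class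
  `w₀ mod ℓ` such that for all integer `w ≡ w₀ (mod ℓ)` and all `P ∈ ℤ[Xᵢ]`: `P(w · A) = r ∈ ℚ` implies
  `ℓ ∤ den r` and `num r ≡ P(t) · den r (mod ℓ)`;
* `s52d_reduction_at` : the same at one place, with explicit integrality hypotheses;
* `s52d_exists_den`, `s52d_exists_den_finset` : algebraic numbers are integral at almost all places;
* `s52d_residue_int` : a Frobenius-fixed element of the valuation ring has its residue in the prime field;
* `s52d_charP_residue`, `s52d_inv_int_mem`, `s52d_mem_of_isIntegral`, `s52d_map_aeval`.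
Row-vector convention (`Matrix.vecMul`), as in the Hilbert 90 piece (`H90.lean`): `ω = (X, Y) · A`.
-/
import Mathlib
import Fermat.Prelude.Def_EllipticCurve_FrobeniusTrace
import Fermat.Prelude.Def_FLTPrelim_Ramification

set_option autoImplicit false
set_option linter.style.haveILetI false

noncomputable section

namespace Fermat.Agent.Lib.S52

local notation "Qbar" => AlgebraicClosure ℚ
local notation "GQ" => (AlgebraicClosure ℚ ≃ₐ[ℚ] AlgebraicClosure ℚ)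

/-- ring homomorphisms commute with the evaluation of integer polynomials. -/
theorem s52d_map_aeval {σ S T : Type*} [CommRing S] [CommRing T] (f : S →+* T) (g : σ → S)
    (P : MvPolynomial σ ℤ) :
    f (MvPolynomial.aeval g P) = MvPolynomial.aeval (fun i => f (g i)) P :=
  MvPolynomial.comp_aeval_apply (f := g) f.toIntAlgHom P

section place

variable (𝔸 : ValuationSubring Qbar) {ℓ : ℕ} (hℓ : ℓ.Prime) (h𝔸 : 𝔸.LiesOverPrime ℓ)

/-- Algebraic integers belong to every valuation subring. -/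
theorem s52d_mem_of_isIntegral {x : Qbar} (hx : IsIntegral ℤ x) : x ∈ 𝔸 := by
  have h1 : IsIntegral 𝔸 x := hx.tower_top
  obtain ⟨y, hy⟩ := (IsIntegrallyClosed.isIntegral_iff (R := 𝔸) (K := Qbar)).mp h1
  rw [← hy]
  exact y.2

include hℓ h𝔸

/-- the residue field of a place over `ℓ` has characteristic `ℓ`. -/
theorem s52d_charP_residue : CharP (IsLocalRing.ResidueField 𝔸) ℓ := by
  rw [CharP.charP_iff_prime_eq_zero hℓ]
  have h1 : ((ℓ : ℕ) : 𝔸) ∈ IsLocalRing.maximalIdeal 𝔸 := by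
    rw [← ValuationSubring.coe_mem_nonunits_iff]
    have h0 : (ℓ : Qbar) ∈ 𝔸.nonunits := h𝔸
    simpa using h0
  have h2 := (IsLocalRing.residue_eq_zero_iff _).mpr h1
  simpa using h2

/-- an integer prime to `ℓ` is a unit at a place over `ℓ`: its inverse is integral there. -/
theorem s52d_inv_int_mem {N : ℤ} (hN : ¬ (ℓ : ℤ) ∣ N) : ((N : Qbar))⁻¹ ∈ 𝔸 := by
  haveI := s52d_charP_residue 𝔸 hℓ h𝔸
  have h1 : (IsLocalRing.residue 𝔸) (N : 𝔸) ≠ 0 := by
    rw [map_intCast]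
    intro h
    exact hN ((CharP.intCast_eq_zero_iff (IsLocalRing.ResidueField 𝔸) ℓ N).mp h)
  have h2 : IsUnit (N : 𝔸) := by
    by_contra hnu
    exact h1 ((IsLocalRing.residue_eq_zero_iff _).mpr ((IsLocalRing.mem_maximalIdeal _).mpr hnu))
  obtain ⟨u, hu⟩ := h2
  have h3 : ((N : 𝔸) : Qbar) * (((u⁻¹ : 𝔸ˣ) : 𝔸) : Qbar) = 1 := by
    rw [← hu, ← MulMemClass.coe_mul, Units.mul_inv]
    rfl
  have h5 : ((N : 𝔸) : Qbar) = (N : Qbar) := by simp
  rw [h5] at h3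
  rw [inv_eq_of_mul_eq_one_right h3]
  exact SetLike.coe_mem _

/-- an integer in the maximal ideal of a place over `ℓ` is divisible by `ℓ`. -/
theorem s52d_dvd_of_residue_eq_zero {N : ℤ}
    (h : (N : IsLocalRing.ResidueField 𝔸) = 0) : (ℓ : ℤ) ∣ N := by
  haveI := s52d_charP_residue 𝔸 hℓ h𝔸
  exact (CharP.intCast_eq_zero_iff (IsLocalRing.ResidueField 𝔸) ℓ N).mp h

/-- **Residues of Frobenius-fixed integral elements are in the prime field.** -/
theorem s52d_residue_int {φ : GQ} (hφ : 𝔸.IsFrobeniusAt φ ℓ) {x : Qbar} (hx : x ∈ 𝔸)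
    (hfix : φ x = x) : ∃ n : ℤ, IsLocalRing.residue 𝔸 ⟨x, hx⟩ = (n : IsLocalRing.ResidueField 𝔸) := by
  haveI := s52d_charP_residue 𝔸 hℓ h𝔸
  haveI : Fact ℓ.Prime := ⟨hℓ⟩
  have h1 := hφ.smul_residue_eq (IsLocalRing.residue 𝔸 ⟨x, hx⟩)
  rw [← IsLocalRing.ResidueField.residue_smul] at h1
  have h2 : (⟨φ, hφ.mem_decompositionSubgroup⟩ : 𝔸.decompositionSubgroup ℚ) • (⟨x, hx⟩ : 𝔸) =
      ⟨x, hx⟩ := by
    apply Subtype.ext
    exact hfix
  rw [h2] at h1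
  have h3 : IsLocalRing.residue 𝔸 ⟨x, hx⟩ ∈ (⊥ : Subfield (IsLocalRing.ResidueField 𝔸)) :=
    (Subfield.mem_bot_iff_pow_eq_self (IsLocalRing.ResidueField 𝔸) ℓ).mpr h1.symm
  obtain ⟨n, hn⟩ := (mem_bot_iff_intCast ℓ (IsLocalRing.ResidueField 𝔸)).mp h3
  exact ⟨n, hn.symm⟩

end place

/-- **An algebraic number is integral at all places outside a finite set of primes.** -/
theorem s52d_exists_den (x : Qbar) :
    ∃ N : ℤ, N ≠ 0 ∧ ∀ 𝔸 : ValuationSubring Qbar, ∀ ℓ : ℕ, ℓ.Prime → 𝔸.LiesOverPrime ℓ →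
      ¬ (ℓ : ℤ) ∣ N → x ∈ 𝔸 := by
  have halg : IsAlgebraic ℚ x := (AlgebraicClosure.isAlgebraic ℚ).isAlgebraic x
  have halgZ : IsAlgebraic ℤ x := (IsFractionRing.isAlgebraic_iff ℤ ℚ Qbar).2 halg
  obtain ⟨b, hb, hz⟩ := halgZ.exists_integral_multiple
  refine ⟨b, hb, fun 𝔸 ℓ hℓ h𝔸 hN => ?_⟩
  have h1 : b • x ∈ 𝔸 := s52d_mem_of_isIntegral 𝔸 hz
  have h2 := s52d_inv_int_mem 𝔸 hℓ h𝔸 hN
  have h3 : x = ((b : Qbar))⁻¹ * (b • x) := by
    rw [zsmul_eq_mul, ← mul_assoc, inv_mul_cancel₀ (Int.cast_ne_zero.mpr hb), one_mul]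
  rw [h3]
  exact 𝔸.mul_mem _ _ h2 h1

/-- **Reduction of a matrix with Frobenius-fixed entries at one place, core form.**  `𝔸` a place of `ℚ̄` over
`ℓ`, `φ` a Frobenius at `𝔸`, `A ∈ GLₙ(ℚ̄)` with entries integral at `𝔸` and fixed by `φ`, `(det A)⁻¹` integral at
`𝔸`.  For every integer target vector `t` there is an integer vector `w₀` (non-zero modulo `ℓ` if `t` is) such
that for every vector `ξ` of elements of `𝔸` with `ξ ≡ w₀ (mod 𝔪)` and every integer polynomial `P`: if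
`P(ξ · A)` is a rational number `r`, then `r` is `ℓ`-integral and `r ≡ P(t) (mod ℓ)`. -/
theorem s52d_reduction_core {n : Type*} [Fintype n] [DecidableEq n]
    (𝔸 : ValuationSubring Qbar) {ℓ : ℕ} (hℓ : ℓ.Prime) (h𝔸 : 𝔸.LiesOverPrime ℓ)
    {φ : GQ} (hφ : 𝔸.IsFrobeniusAt φ ℓ)
    (A : Matrix n n Qbar) (hA𝔸 : ∀ i j, A i j ∈ 𝔸) (hAfix : ∀ i j, φ (A i j) = A i j)
    (hdet0 : A.det ≠ 0) (hdet : (A.det)⁻¹ ∈ 𝔸) (t : n → ℤ) :
    ∃ w₀ : n → ℤ, ((∃ j, ¬ (ℓ : ℤ) ∣ t j) → ∃ i, ¬ (ℓ : ℤ) ∣ w₀ i) ∧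
      ∀ ξ : n → Qbar, (∀ i, ξ i ∈ 𝔸) → (∀ i, ξ i - ((w₀ i : ℤ) : Qbar) ∈ 𝔸.nonunits) →
      ∀ (P : MvPolynomial n ℤ) (r : ℚ),
        MvPolynomial.aeval (Matrix.vecMul ξ A) P = algebraMap ℚ Qbar r →
        ¬ (ℓ : ℤ) ∣ r.den ∧ (ℓ : ℤ) ∣ r.num - MvPolynomial.aeval t P * r.den := by
  classical
  haveI hchar := s52d_charP_residue 𝔸 hℓ h𝔸
  haveI : Fact ℓ.Prime := ⟨hℓ⟩
  set k := IsLocalRing.ResidueField 𝔸 with hk
  set res : 𝔸 →+* k := IsLocalRing.residue 𝔸 with hres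
  -- the matrix over the valuation ring
  set A' : Matrix n n 𝔸 := fun i j => ⟨A i j, hA𝔸 i j⟩ with hA'
  -- integer representatives of the residues of the entries
  have hN : ∀ i j, ∃ m : ℤ, res (A' i j) = (m : k) := fun i j =>
    s52d_residue_int 𝔸 hℓ h𝔸 hφ (hA𝔸 i j) (hAfix i j)
  choose N hN using hN
  set NN : Matrix n n ℤ := Matrix.of N with hNN
  have hmap : A'.map res = NN.map (Int.castRingHom k) := by
    ext i j
    simp only [Matrix.map_apply, hNN, Matrix.of_apply, eq_intCast]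
    exact hN i j
  -- determinants
  have hdetres : res A'.det = ((NN.det : ℤ) : k) := by
    rw [RingHom.map_det, RingHom.mapMatrix_apply, hmap, ← RingHom.mapMatrix_apply,
      ← RingHom.map_det, eq_intCast]
  have hdetA' : ((A'.det : 𝔸) : Qbar) = A.det := by
    have h1 := RingHom.map_det 𝔸.subtype A'
    have h2 : A'.map 𝔸.subtype = A := by
      ext i j
      rfl
    rw [RingHom.mapMatrix_apply, h2] at h1
    exact h1
  have hunit : IsUnit A'.det := by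
    refine IsUnit.of_mul_eq_one (⟨(A.det)⁻¹, hdet⟩ : 𝔸) ?_
    apply Subtype.ext
    rw [MulMemClass.coe_mul, hdetA']
    exact mul_inv_cancel₀ hdet0
  have hdetN : ¬ (ℓ : ℤ) ∣ NN.det := by
    intro hdvd
    have h1 : ((NN.det : ℤ) : k) = 0 := (CharP.intCast_eq_zero_iff k ℓ _).mpr hdvd
    rw [← hdetres] at h1
    have h2 : A'.det ∈ IsLocalRing.maximalIdeal 𝔸 := (IsLocalRing.residue_eq_zero_iff _).mp h1
    exact ((IsLocalRing.mem_maximalIdeal _).mp h2) hunit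
  -- invert modulo ℓ
  set Nbar : Matrix n n (ZMod ℓ) := NN.map (Int.castRingHom (ZMod ℓ)) with hNbar
  have hdetbar : IsUnit Nbar.det := by
    rw [hNbar, ← RingHom.mapMatrix_apply, ← RingHom.map_det, eq_intCast, isUnit_iff_ne_zero]
    intro h
    exact hdetN ((ZMod.intCast_zmod_eq_zero_iff_dvd _ _).mp h)
  set tbar : n → ZMod ℓ := fun i => ((t i : ℤ) : ZMod ℓ) with htbar
  set w0bar : n → ZMod ℓ := Matrix.vecMul tbar Nbar⁻¹ with hw0bar
  set w₀ : n → ℤ := fun i => ((w0bar i).val : ℤ) with hw₀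
  have hwbar : (fun i => ((w₀ i : ℤ) : ZMod ℓ)) = w0bar := by
    funext i
    simp [hw₀]
  have hcastN : ∀ (w : n → ℤ) (j : n), ((Matrix.vecMul w NN j : ℤ) : ZMod ℓ) =
      Matrix.vecMul (fun i => ((w i : ℤ) : ZMod ℓ)) Nbar j := by
    intro w j
    simp only [Matrix.vecMul, dotProduct, hNbar, Matrix.map_apply, eq_intCast, Int.cast_sum,
      Int.cast_mul]
  have hwN : ∀ j, (ℓ : ℤ) ∣ Matrix.vecMul w₀ NN j - t j := by
    intro j
    rw [← ZMod.intCast_eq_intCast_iff_dvd_sub, eq_comm]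
    rw [hcastN, hwbar, hw0bar, Matrix.vecMul_vecMul, Matrix.nonsing_inv_mul _ hdetbar,
      Matrix.vecMul_one]
  refine ⟨w₀, ?_, fun ξ hξ𝔸 hξ P r hr => ?_⟩
  · -- `w₀` is non-zero modulo `ℓ` when `t` is
    rintro ⟨j, hj⟩
    by_contra hcon
    push Not at hcon
    apply hj
    have h1 : (ℓ : ℤ) ∣ Matrix.vecMul w₀ NN j := by
      simp only [Matrix.vecMul, dotProduct]
      exact Finset.dvd_sum (fun i _ => Dvd.dvd.mul_right (hcon i) _)
    have h2 := hwN j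
    have h3 : t j = Matrix.vecMul w₀ NN j - (Matrix.vecMul w₀ NN j - t j) := by ring
    rw [h3]
    exact dvd_sub h1 h2
  -- the point over the valuation ring
  set ξ' : n → 𝔸 := fun i => ⟨ξ i, hξ𝔸 i⟩ with hξ'
  have hξres : ∀ i, res (ξ' i) = ((w₀ i : ℤ) : k) := by
    intro i
    have h1 : ξ' i - ((w₀ i : ℤ) : 𝔸) ∈ IsLocalRing.maximalIdeal 𝔸 := by
      rw [← ValuationSubring.coe_mem_nonunits_iff]
      have := hξ i
      simpa [hξ'] using this
    have h2 := (IsLocalRing.residue_eq_zero_iff _).mpr h1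
    rw [map_sub, map_intCast, sub_eq_zero] at h2
    exact h2
  set ω' : n → 𝔸 := Matrix.vecMul ξ' A' with hω'
  have hωres : ∀ j, res (ω' j) = ((t j : ℤ) : k) := by
    intro j
    have h1 : res (ω' j) = ((Matrix.vecMul w₀ NN j : ℤ) : k) := by
      simp only [hω', Matrix.vecMul, dotProduct, map_sum, map_mul, hξres, hN, hNN,
        Matrix.of_apply]
      rw [Int.cast_sum]
      exact Finset.sum_congr rfl (fun i _ => (Int.cast_mul _ _).symm)
    rw [h1]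
    have h2 := (CharP.intCast_eq_zero_iff k ℓ _).mpr (hwN j)
    rw [Int.cast_sub, sub_eq_zero] at h2
    exact h2
  have hωcoe : (fun j => 𝔸.subtype (ω' j)) = Matrix.vecMul ξ A := by
    funext j
    simp only [hω', Matrix.vecMul, dotProduct, map_sum, map_mul]
    rfl
  set val' : 𝔸 := MvPolynomial.aeval ω' P with hval'
  have hvalcoe : (val' : Qbar) = algebraMap ℚ Qbar r := by
    rw [← hr, ← hωcoe]
    exact s52d_map_aeval 𝔸.subtype ω' P
  have hvalres : res val' = ((MvPolynomial.aeval t P : ℤ) : k) := by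
    rw [hval', s52d_map_aeval res ω' P]
    have h1 : (fun j => res (ω' j)) = fun j => (Int.castRingHom k) (t j) := by
      funext j
      rw [hωres j, eq_intCast]
    rw [h1, ← s52d_map_aeval (Int.castRingHom k) t P, eq_intCast]
  -- the rational number
  have hnum : ((r.num : ℤ) : 𝔸) = val' * ((r.den : ℤ) : 𝔸) := by
    apply Subtype.ext
    rw [MulMemClass.coe_mul, hvalcoe]
    have h1 : (((r.num : ℤ) : 𝔸) : Qbar) = ((r.num : ℤ) : Qbar) := by simp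
    have h2 : ((((r.den : ℤ) : 𝔸)) : Qbar) = ((r.den : ℕ) : Qbar) := by simp
    rw [h1, h2]
    have h3 : (r : ℚ) * (r.den : ℚ) = (r.num : ℚ) := Rat.mul_den_eq_num r
    have h4 := congrArg (algebraMap ℚ Qbar) h3
    rw [map_mul, map_natCast, map_intCast] at h4
    exact h4.symm
  have hnumres : ((r.num : ℤ) : k) = ((MvPolynomial.aeval t P : ℤ) : k) * ((r.den : ℤ) : k) := by
    have h1 := congrArg res hnum
    rw [map_mul, map_intCast, map_intCast, hvalres] at h1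
    exact h1
  constructor
  · intro hden
    have h1 : ((r.den : ℤ) : k) = 0 := (CharP.intCast_eq_zero_iff k ℓ _).mpr hden
    rw [h1, mul_zero] at hnumres
    have h2 : (ℓ : ℤ) ∣ r.num := (CharP.intCast_eq_zero_iff k ℓ _).mp hnumres
    have h3 : ℓ ∣ r.num.natAbs := Int.natCast_dvd.mp h2
    have h4 : ℓ ∣ r.den := Int.natCast_dvd_natCast.mp hden
    have h5 := Nat.dvd_gcd h3 h4
    rw [r.reduced] at h5
    exact hℓ.one_lt.ne' (Nat.dvd_one.mp h5)
  · rw [← CharP.intCast_eq_zero_iff k ℓ, Int.cast_sub, Int.cast_mul, hnumres, sub_self]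

/-- an integer multiple of `ℓ` lies in the maximal ideal of a place over `ℓ`. -/
theorem s52d_int_mem_nonunits (𝔸 : ValuationSubring Qbar) {ℓ : ℕ} (h𝔸 : 𝔸.LiesOverPrime ℓ)
    {m : ℤ} (hm : (ℓ : ℤ) ∣ m) : ((m : ℤ) : Qbar) ∈ 𝔸.nonunits := by
  obtain ⟨c, rfl⟩ := hm
  have h0 : (ℓ : Qbar) ∈ 𝔸.nonunits := h𝔸
  have h1 : ((ℓ : ℕ) : 𝔸) ∈ IsLocalRing.maximalIdeal 𝔸 := by
    rw [← ValuationSubring.coe_mem_nonunits_iff]
    simpa using h0
  have h2 : ((ℓ : ℕ) : 𝔸) * ((c : ℤ) : 𝔸) ∈ IsLocalRing.maximalIdeal 𝔸 :=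
    Ideal.mul_mem_right _ _ h1
  rw [← ValuationSubring.coe_mem_nonunits_iff] at h2
  simpa using h2

/-- **Reduction at one place, integer vectors.** -/
theorem s52d_reduction_at {n : Type*} [Fintype n] [DecidableEq n]
    (𝔸 : ValuationSubring Qbar) {ℓ : ℕ} (hℓ : ℓ.Prime) (h𝔸 : 𝔸.LiesOverPrime ℓ)
    {φ : GQ} (hφ : 𝔸.IsFrobeniusAt φ ℓ)
    (A : Matrix n n Qbar) (hA𝔸 : ∀ i j, A i j ∈ 𝔸) (hAfix : ∀ i j, φ (A i j) = A i j)
    (hdet0 : A.det ≠ 0) (hdet : (A.det)⁻¹ ∈ 𝔸) (t : n → ℤ) :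
    ∃ w₀ : n → ℤ, ∀ w : n → ℤ, (∀ i, w i ≡ w₀ i [ZMOD (ℓ : ℤ)]) →
      ∀ (P : MvPolynomial n ℤ) (r : ℚ),
        MvPolynomial.aeval (Matrix.vecMul (fun i => ((w i : ℤ) : Qbar)) A) P = algebraMap ℚ Qbar r →
        ¬ (ℓ : ℤ) ∣ r.den ∧ (ℓ : ℤ) ∣ r.num - MvPolynomial.aeval t P * r.den := by
  obtain ⟨w₀, -, h⟩ := s52d_reduction_core 𝔸 hℓ h𝔸 hφ A hA𝔸 hAfix hdet0 hdet t
  refine ⟨w₀, fun w hw P r hr => h (fun i => ((w i : ℤ) : Qbar)) (fun i => ?_) (fun i => ?_) P r hr⟩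
  · have : ((w i : ℤ) : Qbar) = (((w i : ℤ) : 𝔸) : Qbar) := by simp
    rw [this]
    exact SetLike.coe_mem _
  · have h1 : (ℓ : ℤ) ∣ w i - w₀ i := (Int.modEq_iff_dvd.mp (hw i).symm)
    have h2 := s52d_int_mem_nonunits 𝔸 h𝔸 h1
    rwa [Int.cast_sub] at h2

/-- finitely many algebraic numbers are simultaneously integral at all places outside a finite set of
primes. -/
theorem s52d_exists_den_finset {ι : Type*} [Finite ι] (x : ι → Qbar) :
    ∃ S₀ : Finset ℕ, ∀ ℓ : ℕ, ℓ.Prime → ℓ ∉ S₀ → ∀ 𝔸 : ValuationSubring Qbar, 𝔸.LiesOverPrime ℓ →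
      ∀ i, x i ∈ 𝔸 := by
  classical
  haveI := Fintype.ofFinite ι
  choose N hN0 hN using fun i => s52d_exists_den (x i)
  refine ⟨(∏ i, N i).natAbs.primeFactors, fun ℓ hℓ hS 𝔸 h𝔸 i => ?_⟩
  refine hN i 𝔸 ℓ hℓ h𝔸 (fun hdvd => hS ?_)
  have hprod : (∏ i, N i) ≠ 0 := Finset.prod_ne_zero_iff.mpr (fun i _ => hN0 i)
  rw [Nat.mem_primeFactors]
  refine ⟨hℓ, ?_, Int.natAbs_ne_zero.mpr hprod⟩
  have h1 : (ℓ : ℤ) ∣ ∏ i, N i := dvd_trans hdvd (Finset.dvd_prod_of_mem N (Finset.mem_univ i))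
  exact Int.natCast_dvd.mp h1

/-- **Reduction of `A ∈ GLₙ(K')` modulo a place over a prime that splits completely in `K'`** (Programme K,
part D2e).  `K'` a subfield of `ℚ̄`, `A` an invertible matrix with entries in `K'`.  There is a finite set `S₀`
of primes such that for every prime `ℓ ∉ S₀`, every place `𝔸` over `ℓ` and every Frobenius `φ` at `𝔸` which is
trivial on `K'`: for every integer target vector `t` there is a residue class `w₀` modulo `ℓ` such that for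
every integer vector `w ≡ w₀ (mod ℓ)` and every integer polynomial `P`, if `P(w · A)` is a rational number `r`
then `r` is `ℓ`-integral and `r ≡ P(t) (mod ℓ)`. -/
theorem s52d_reduction {n : Type*} [Fintype n] [DecidableEq n]
    (K' : IntermediateField ℚ Qbar) (A : Matrix n n Qbar) (hA : ∀ i j, A i j ∈ K')
    (hdet : IsUnit A.det) :
    ∃ S₀ : Finset ℕ, ∀ ℓ : ℕ, ℓ.Prime → ℓ ∉ S₀ →
      ∀ 𝔸 : ValuationSubring Qbar, 𝔸.LiesOverPrime ℓ →
      ∀ φ : GQ, 𝔸.IsFrobeniusAt φ ℓ → (∀ x ∈ K', φ x = x) →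
      ∀ t : n → ℤ, ∃ w₀ : n → ℤ, ∀ w : n → ℤ, (∀ i, w i ≡ w₀ i [ZMOD (ℓ : ℤ)]) →
        ∀ (P : MvPolynomial n ℤ) (r : ℚ),
          MvPolynomial.aeval (Matrix.vecMul (fun i => ((w i : ℤ) : Qbar)) A) P = algebraMap ℚ Qbar r →
          ¬ (ℓ : ℤ) ∣ r.den ∧ (ℓ : ℤ) ∣ r.num - MvPolynomial.aeval t P * r.den := by
  classical
  obtain ⟨S₀, hS₀⟩ := s52d_exists_den_finset
    (fun x : Option (n × n) => match x with
      | none => (A.det)⁻¹
      | some (i, j) => A i j)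
  refine ⟨S₀, fun ℓ hℓ hℓS 𝔸 h𝔸 φ hφ hfix t => ?_⟩
  have h1 := hS₀ ℓ hℓ hℓS 𝔸 h𝔸
  exact s52d_reduction_at 𝔸 hℓ h𝔸 hφ A (fun i j => h1 (some (i, j)))
    (fun i j => hfix _ (hA i j)) hdet.ne_zero (h1 none) t

/-- the `ℕ`-modulus form of `s52d_exists_den_finset`. -/
theorem s52d_exists_den_nat {ι : Type*} [Finite ι] (x : ι → Qbar) :
    ∃ M₀ : ℕ, 0 < M₀ ∧ ∀ ℓ : ℕ, ℓ.Prime → ¬ ℓ ∣ M₀ → ∀ 𝔸 : ValuationSubring Qbar,
      𝔸.LiesOverPrime ℓ → ∀ i, x i ∈ 𝔸 := by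
  classical
  haveI := Fintype.ofFinite ι
  choose N hN0 hN using fun i => s52d_exists_den (x i)
  have hprod : (∏ i, N i) ≠ 0 := Finset.prod_ne_zero_iff.mpr (fun i _ => hN0 i)
  refine ⟨(∏ i, N i).natAbs, Int.natAbs_pos.mpr hprod, fun ℓ hℓ hS 𝔸 h𝔸 i => ?_⟩
  refine hN i 𝔸 ℓ hℓ h𝔸 (fun hdvd => hS ?_)
  have h1 : (ℓ : ℤ) ∣ ∏ i, N i := dvd_trans hdvd (Finset.dvd_prod_of_mem N (Finset.mem_univ i))
  exact Int.natCast_dvd.mp h1

end Fermat.Agent.Lib.S52
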