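/-
PROGRAMME K (S52), helper6, prefix `s52e_`: GENERATED polynomial identities modulo `Φ₅(z) = z⁴+z³+z²+z+1`
(own exact engine `tools_h6/klein/eng.py`; certificates = quotients by `Φ₅`), for the generator
`S = (r/5)·[[−a, b],[b, a]]`, `a = z − z⁴`, `b = z² − z³`, `r = z + z⁴ − z² − z³` of Klein's group.
-/
import Fermat.Agent.Lib.S52.MBezout

set_option autoImplicit false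

namespace Fermat.Agent.Lib.S52

variable {K : Type*} [Field K]

/-- `r² = 5`. -/
theorem s52e_id_r_sq (z : K) (hz : z ^ 4 + z ^ 3 + z ^ 2 + z + 1 = 0) :
    (z + z ^ 4 - z ^ 2 - z ^ 3) * (z + z ^ 4 - z ^ 2 - z ^ 3) = 5 := by
  linear_combination (z ^ 4 - 3 * z ^ 3 + z ^ 2 + 5 * z - 5) * hz

/-- `a² + b² = −5`. -/
theorem s52e_id_ab (z : K) (hz : z ^ 4 + z ^ 3 + z ^ 2 + z + 1 = 0) :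
    (z - z ^ 4) * (z - z ^ 4) + (z ^ 2 - z ^ 3) * (z ^ 2 - z ^ 3) = -5 := by
  linear_combination (z ^ 4 - z ^ 3 + z ^ 2 - 5 * z + 5) * hz

/-- `z⁵ = 1`. -/
theorem s52e_id_pow_five (z : K) (hz : z ^ 4 + z ^ 3 + z ^ 2 + z + 1 = 0) : z ^ 5 = 1 := by
  linear_combination (z - 1) * hz

set_option maxHeartbeats 4000000 in
/-- `f(−aU + bV, bU + aV) = 5⁶ f(U, V)`: the `S`-invariance of Klein's vertex form. -/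
theorem s52e_id_kf_S (z U V : K) (hz : z ^ 4 + z ^ 3 + z ^ 2 + z + 1 = 0) :
    s52m_kf (-(z - z ^ 4) * U + (z ^ 2 - z ^ 3) * V) ((z ^ 2 - z ^ 3) * U + (z - z ^ 4) * V)
      = 5 ^ 6 * s52m_kf U V := by
  unfold s52m_kf
  linear_combination (-z ^ 44 * U ^ 11 * V + 11 * z ^ 44 * U ^ 6 * V ^ 6 + z ^ 44 * U * V ^ 11 - z ^ 43 * U ^ 12 + z ^ 43 * U ^ 11 * V + 11 * z ^ 43 * U ^ 10 * V ^ 2 + 66 * z ^ 43 * U ^ 7 * V ^ 5 - 11 * z ^ 43 * U ^ 6 * V ^ 6 - 66 * z ^ 43 * U ^ 5 * V ^ 7 + 11 * z ^ 43 * U ^ 2 * V ^ 10 - z ^ 43 * U * V ^ 11 - z ^ 43 * V ^ 12 + 2 * z ^ 42 * U ^ 12 + 11 * z ^ 42 * U ^ 11 * V - 22 * z ^ 42 * U ^ 10 * V ^ 2 - 55 * z ^ 42 * U ^ 9 * V ^ 3 + 165 * z ^ 42 * U ^ 8 * V ^ 4 - 132 * z ^ 42 * U ^ 7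 * V ^ 5 - 396 * z ^ 42 * U ^ 6 * V ^ 6 + 132 * z ^ 42 * U ^ 5 * V ^ 7 + 165 * z ^ 42 * U ^ 4 * V ^ 8 + 55 * z ^ 42 * U ^ 3 * V ^ 9 - 22 * z ^ 42 * U ^ 2 * V ^ 10 - 11 * z ^ 42 * U * V ^ 11 + 2 * z ^ 42 * V ^ 12 - z ^ 41 * U ^ 12 - 21 * z ^ 41 * U ^ 11 * V - 44 * z ^ 41 * U ^ 10 * V ^ 2 + 385 * z ^ 41 * U ^ 9 * V ^ 3 - 330 * z ^ 41 * U ^ 8 * V ^ 4 - 924 * z ^ 41 * U ^ 7 * V ^ 5 + 1056 * z ^ 41 * U ^ 6 * V ^ 6 + 924 * z ^ 41 * U ^ 5 * V ^ 7 - 330 * z ^ 41 * U ^ 4 * V ^ 8 - 385 * z ^ 41 * U ^ 3 * V ^ 9 - 44 * z ^ 41 * U ^ 2 * V ^ 10 + 21 * z ^ 41 * U * V ^ 11 - z ^ 41 * V ^ 12 + 11 * z ^ 40 * U ^ 12 + 21 * z ^ 40 * U ^ 11 * V + 264 * z ^ 40 * U ^ 10 * V ^ 2 - 880 * z ^ 40 * U ^ 9 * V ^ 3 - 1485 * z ^ 40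 * U ^ 8 * V ^ 4 + 2904 * z ^ 40 * U ^ 7 * V ^ 5 + 1419 * z ^ 40 * U ^ 6 * V ^ 6 - 2904 * z ^ 40 * U ^ 5 * V ^ 7 - 1485 * z ^ 40 * U ^ 4 * V ^ 8 + 880 * z ^ 40 * U ^ 3 * V ^ 9 + 264 * z ^ 40 * U ^ 2 * V ^ 10 - 21 * z ^ 40 * U * V ^ 11 + 11 * z ^ 40 * V ^ 12 - 22 * z ^ 39 * U ^ 12 - 56 * z ^ 39 * U ^ 11 * V - 913 * z ^ 39 * U ^ 10 * V ^ 2 + 110 * z ^ 39 * U ^ 9 * V ^ 3 + 5445 * z ^ 39 * U ^ 8 * V ^ 4 + 462 * z ^ 39 * U ^ 7 * V ^ 5 - 7084 * z ^ 39 * U ^ 6 * V ^ 6 - 462 * z ^ 39 * U ^ 5 * V ^ 7 + 5445 * z ^ 39 * U ^ 4 * V ^ 8 - 110 * z ^ 39 * U ^ 3 * V ^ 9 - 913 * z ^ 39 * U ^ 2 * V ^ 10 + 56 * z ^ 39 * U * V ^ 11 - 22 * z ^ 39 * V ^ 12 + 21 * z ^ 38 * U ^ 12 - 131 * z ^ 38 * U ^ 11 * V + 1859 * z ^ 38 *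 U ^ 10 * V ^ 2 + 3080 * z ^ 38 * U ^ 9 * V ^ 3 - 5940 * z ^ 38 * U ^ 8 * V ^ 4 - 9966 * z ^ 38 * U ^ 7 * V ^ 5 + 3641 * z ^ 38 * U ^ 6 * V ^ 6 + 9966 * z ^ 38 * U ^ 5 * V ^ 7 - 5940 * z ^ 38 * U ^ 4 * V ^ 8 - 3080 * z ^ 38 * U ^ 3 * V ^ 9 + 1859 * z ^ 38 * U ^ 2 * V ^ 10 + 131 * z ^ 38 * U * V ^ 11 + 21 * z ^ 38 * V ^ 12 - 130 * z ^ 37 * U ^ 12 + 671 * z ^ 37 * U ^ 11 * V - 1650 * z ^ 37 * U ^ 10 * V ^ 2 - 7095 * z ^ 37 * U ^ 9 * V ^ 3 + 3135 * z ^ 37 * U ^ 8 * V ^ 4 + 12540 * z ^ 37 * U ^ 7 * V ^ 5 + 9944 * z ^ 37 * U ^ 6 * V ^ 6 - 12540 * z ^ 37 * U ^ 5 * V ^ 7 + 3135 * z ^ 37 * U ^ 4 * V ^ 8 + 7095 * z ^ 37 * U ^ 3 * V ^ 9 - 1650 * z ^ 37 * U ^ 2 * V ^ 10 - 671 * z ^ 37 * U * V ^ 11 - 130 * z ^ 37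 * V ^ 12 + 340 * z ^ 36 * U ^ 12 - 670 * z ^ 36 * U ^ 11 * V + 990 * z ^ 36 * U ^ 10 * V ^ 2 + 11880 * z ^ 36 * U ^ 9 * V ^ 3 - 2640 * z ^ 36 * U ^ 8 * V ^ 4 - 13200 * z ^ 36 * U ^ 7 * V ^ 5 - 16830 * z ^ 36 * U ^ 6 * V ^ 6 + 13200 * z ^ 36 * U ^ 5 * V ^ 7 - 2640 * z ^ 36 * U ^ 4 * V ^ 8 - 11880 * z ^ 36 * U ^ 3 * V ^ 9 + 990 * z ^ 36 * U ^ 2 * V ^ 10 + 670 * z ^ 36 * U * V ^ 11 + 340 * z ^ 36 * V ^ 12 - 495 * z ^ 35 * U ^ 12 + 670 * z ^ 35 * U ^ 11 * V - 1650 * z ^ 35 * U ^ 10 * V ^ 2 - 21395 * z ^ 35 * U ^ 9 * V ^ 3 - 4290 * z ^ 35 * U ^ 8 * V ^ 4 + 23760 * z ^ 35 * U ^ 7 * V ^ 5 + 36905 * z ^ 35 * U ^ 6 * V ^ 6 - 23760 * z ^ 35 * U ^ 5 * V ^ 7 - 4290 * z ^ 35 * U ^ 4 * V ^ 8 + 21395 * z ^ 35 * U ^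 3 * V ^ 9 - 1650 * z ^ 35 * U ^ 2 * V ^ 10 - 670 * z ^ 35 * U * V ^ 11 - 495 * z ^ 35 * V ^ 12 + 990 * z ^ 34 * U ^ 12 - 2080 * z ^ 34 * U ^ 11 * V - 1595 * z ^ 34 * U ^ 10 * V ^ 2 + 34430 * z ^ 34 * U ^ 9 * V ^ 3 + 21285 * z ^ 34 * U ^ 8 * V ^ 4 - 10230 * z ^ 34 * U ^ 7 * V ^ 5 - 87120 * z ^ 34 * U ^ 6 * V ^ 6 + 10230 * z ^ 34 * U ^ 5 * V ^ 7 + 21285 * z ^ 34 * U ^ 4 * V ^ 8 - 34430 * z ^ 34 * U ^ 3 * V ^ 9 - 1595 * z ^ 34 * U ^ 2 * V ^ 10 + 2080 * z ^ 34 * U * V ^ 11 + 990 * z ^ 34 * V ^ 12 - 1925 * z ^ 33 * U ^ 12 + 1365 * z ^ 33 * U ^ 11 * V + 10065 * z ^ 33 * U ^ 10 * V ^ 2 - 45320 * z ^ 33 * U ^ 9 * V ^ 3 - 33990 * z ^ 33 * U ^ 8 * V ^ 4 - 33330 * z ^ 33 * U ^ 7 * V ^ 5 + 104885 * z ^ 33 * U ^ 6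 * V ^ 6 + 33330 * z ^ 33 * U ^ 5 * V ^ 7 - 33990 * z ^ 33 * U ^ 4 * V ^ 8 + 45320 * z ^ 33 * U ^ 3 * V ^ 9 + 10065 * z ^ 33 * U ^ 2 * V ^ 10 - 1365 * z ^ 33 * U * V ^ 11 - 1925 * z ^ 33 * V ^ 12 + 2575 * z ^ 32 * U ^ 12 + 2430 * z ^ 32 * U ^ 11 * V - 15180 * z ^ 32 * U ^ 10 * V ^ 2 + 55880 * z ^ 32 * U ^ 9 * V ^ 3 + 46035 * z ^ 32 * U ^ 8 * V ^ 4 + 56760 * z ^ 32 * U ^ 7 * V ^ 5 - 88330 * z ^ 32 * U ^ 6 * V ^ 6 - 56760 * z ^ 32 * U ^ 5 * V ^ 7 + 46035 * z ^ 32 * U ^ 4 * V ^ 8 - 55880 * z ^ 32 * U ^ 3 * V ^ 9 - 15180 * z ^ 32 * U ^ 2 * V ^ 10 - 2430 * z ^ 32 * U * V ^ 11 + 2575 * z ^ 32 * V ^ 12 - 3400 * z ^ 31 * U ^ 12 - 3385 * z ^ 31 * U ^ 11 * V + 21780 * z ^ 31 * U ^ 10 * V ^ 2 - 68695 * z ^ 31 * U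 ^ 9 * V ^ 3 - 62865 * z ^ 31 * U ^ 8 * V ^ 4 - 89760 * z ^ 31 * U ^ 7 * V ^ 5 + 112860 * z ^ 31 * U ^ 6 * V ^ 6 + 89760 * z ^ 31 * U ^ 5 * V ^ 7 - 62865 * z ^ 31 * U ^ 4 * V ^ 8 + 68695 * z ^ 31 * U ^ 3 * V ^ 9 + 21780 * z ^ 31 * U ^ 2 * V ^ 10 + 3385 * z ^ 31 * U * V ^ 11 - 3400 * z ^ 31 * V ^ 12 + 4795 * z ^ 30 * U ^ 12 + 6510 * z ^ 30 * U ^ 11 * V - 35090 * z ^ 30 * U ^ 10 * V ^ 2 + 78705 * z ^ 30 * U ^ 9 * V ^ 3 + 71610 * z ^ 30 * U ^ 8 * V ^ 4 + 159720 * z ^ 30 * U ^ 7 * V ^ 5 - 101035 * z ^ 30 * U ^ 6 * V ^ 6 - 159720 * z ^ 30 * U ^ 5 * V ^ 7 + 71610 * z ^ 30 * U ^ 4 * V ^ 8 - 78705 * z ^ 30 * U ^ 3 * V ^ 9 - 35090 * z ^ 30 * U ^ 2 * V ^ 10 - 6510 * z ^ 30 * U * V ^ 11 + 4795 * z ^ 30 * V ^ 12 -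 5290 * z ^ 29 * U ^ 12 - 16600 * z ^ 29 * U ^ 11 * V + 39985 * z ^ 29 * U ^ 10 * V ^ 2 - 83270 * z ^ 29 * U ^ 9 * V ^ 3 - 76065 * z ^ 29 * U ^ 8 * V ^ 4 - 183150 * z ^ 29 * U ^ 7 * V ^ 5 + 1100 * z ^ 29 * U ^ 6 * V ^ 6 + 183150 * z ^ 29 * U ^ 5 * V ^ 7 - 76065 * z ^ 29 * U ^ 4 * V ^ 8 + 83270 * z ^ 29 * U ^ 3 * V ^ 9 + 39985 * z ^ 29 * U ^ 2 * V ^ 10 + 16600 * z ^ 29 * U * V ^ 11 - 5290 * z ^ 29 * V ^ 12 + 5060 * z ^ 28 * U ^ 12 + 19405 * z ^ 28 * U ^ 11 * V - 37620 * z ^ 28 * U ^ 10 * V ^ 2 + 84480 * z ^ 28 * U ^ 9 * V ^ 3 + 79860 * z ^ 28 * U ^ 8 * V ^ 4 + 168960 * z ^ 28 * U ^ 7 * V ^ 5 + 23595 * z ^ 28 * U ^ 6 * V ^ 6 - 168960 * z ^ 28 * U ^ 5 * V ^ 7 + 79860 * z ^ 28 * U ^ 4 * V ^ 8 - 84480 * z ^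 28 * U ^ 3 * V ^ 9 - 37620 * z ^ 28 * U ^ 2 * V ^ 10 - 19405 * z ^ 28 * U * V ^ 11 + 5060 * z ^ 28 * V ^ 12 - 5290 * z ^ 27 * U ^ 12 - 16600 * z ^ 27 * U ^ 11 * V + 39985 * z ^ 27 * U ^ 10 * V ^ 2 - 83270 * z ^ 27 * U ^ 9 * V ^ 3 - 76065 * z ^ 27 * U ^ 8 * V ^ 4 - 183150 * z ^ 27 * U ^ 7 * V ^ 5 + 1100 * z ^ 27 * U ^ 6 * V ^ 6 + 183150 * z ^ 27 * U ^ 5 * V ^ 7 - 76065 * z ^ 27 * U ^ 4 * V ^ 8 + 83270 * z ^ 27 * U ^ 3 * V ^ 9 + 39985 * z ^ 27 * U ^ 2 * V ^ 10 + 16600 * z ^ 27 * U * V ^ 11 - 5290 * z ^ 27 * V ^ 12 + 4795 * z ^ 26 * U ^ 12 + 22135 * z ^ 26 * U ^ 11 * V - 35090 * z ^ 26 * U ^ 10 * V ^ 2 + 78705 * z ^ 26 * U ^ 9 * V ^ 3 + 71610 * z ^ 26 * U ^ 8 * V ^ 4 + 159720 * z ^ 26 * U ^ 7 * V ^ 5 + 70840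 * z ^ 26 * U ^ 6 * V ^ 6 - 159720 * z ^ 26 * U ^ 5 * V ^ 7 + 71610 * z ^ 26 * U ^ 4 * V ^ 8 - 78705 * z ^ 26 * U ^ 3 * V ^ 9 - 35090 * z ^ 26 * U ^ 2 * V ^ 10 - 22135 * z ^ 26 * U * V ^ 11 + 4795 * z ^ 26 * V ^ 12 - 3400 * z ^ 25 * U ^ 12 - 19010 * z ^ 25 * U ^ 11 * V + 21780 * z ^ 25 * U ^ 10 * V ^ 2 - 68695 * z ^ 25 * U ^ 9 * V ^ 3 - 62865 * z ^ 25 * U ^ 8 * V ^ 4 - 89760 * z ^ 25 * U ^ 7 * V ^ 5 - 59015 * z ^ 25 * U ^ 6 * V ^ 6 + 89760 * z ^ 25 * U ^ 5 * V ^ 7 - 62865 * z ^ 25 * U ^ 4 * V ^ 8 + 68695 * z ^ 25 * U ^ 3 * V ^ 9 + 21780 * z ^ 25 * U ^ 2 * V ^ 10 + 19010 * z ^ 25 * U * V ^ 11 - 3400 * z ^ 25 * V ^ 12 + 2575 * z ^ 24 * U ^ 12 + 2430 * z ^ 24 * U ^ 11 * V - 15180 * z ^ 24 * U ^ 10 * V ^ 2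 + 55880 * z ^ 24 * U ^ 9 * V ^ 3 + 46035 * z ^ 24 * U ^ 8 * V ^ 4 + 56760 * z ^ 24 * U ^ 7 * V ^ 5 - 88330 * z ^ 24 * U ^ 6 * V ^ 6 - 56760 * z ^ 24 * U ^ 5 * V ^ 7 + 46035 * z ^ 24 * U ^ 4 * V ^ 8 - 55880 * z ^ 24 * U ^ 3 * V ^ 9 - 15180 * z ^ 24 * U ^ 2 * V ^ 10 - 2430 * z ^ 24 * U * V ^ 11 + 2575 * z ^ 24 * V ^ 12 - 1925 * z ^ 23 * U ^ 12 + 1365 * z ^ 23 * U ^ 11 * V + 10065 * z ^ 23 * U ^ 10 * V ^ 2 - 45320 * z ^ 23 * U ^ 9 * V ^ 3 - 33990 * z ^ 23 * U ^ 8 * V ^ 4 - 33330 * z ^ 23 * U ^ 7 * V ^ 5 + 104885 * z ^ 23 * U ^ 6 * V ^ 6 + 33330 * z ^ 23 * U ^ 5 * V ^ 7 - 33990 * z ^ 23 * U ^ 4 * V ^ 8 + 45320 * z ^ 23 * U ^ 3 * V ^ 9 + 10065 * z ^ 23 * U ^ 2 * V ^ 10 - 1365 * z ^ 23 * U * V ^ 11 - 1925 *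 z ^ 23 * V ^ 12 + 990 * z ^ 22 * U ^ 12 - 2080 * z ^ 22 * U ^ 11 * V - 1595 * z ^ 22 * U ^ 10 * V ^ 2 + 34430 * z ^ 22 * U ^ 9 * V ^ 3 + 21285 * z ^ 22 * U ^ 8 * V ^ 4 - 10230 * z ^ 22 * U ^ 7 * V ^ 5 - 87120 * z ^ 22 * U ^ 6 * V ^ 6 + 10230 * z ^ 22 * U ^ 5 * V ^ 7 + 21285 * z ^ 22 * U ^ 4 * V ^ 8 - 34430 * z ^ 22 * U ^ 3 * V ^ 9 - 1595 * z ^ 22 * U ^ 2 * V ^ 10 + 2080 * z ^ 22 * U * V ^ 11 + 990 * z ^ 22 * V ^ 12 - 495 * z ^ 21 * U ^ 12 + 16295 * z ^ 21 * U ^ 11 * V - 1650 * z ^ 21 * U ^ 10 * V ^ 2 - 21395 * z ^ 21 * U ^ 9 * V ^ 3 - 4290 * z ^ 21 * U ^ 8 * V ^ 4 + 23760 * z ^ 21 * U ^ 7 * V ^ 5 + 208780 * z ^ 21 * U ^ 6 * V ^ 6 - 23760 * z ^ 21 * U ^ 5 * V ^ 7 - 4290 * z ^ 21 * U ^ 4 * V ^ 8 + 21395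 * z ^ 21 * U ^ 3 * V ^ 9 - 1650 * z ^ 21 * U ^ 2 * V ^ 10 - 16295 * z ^ 21 * U * V ^ 11 - 495 * z ^ 21 * V ^ 12 + 340 * z ^ 20 * U ^ 12 - 16295 * z ^ 20 * U ^ 11 * V + 990 * z ^ 20 * U ^ 10 * V ^ 2 + 11880 * z ^ 20 * U ^ 9 * V ^ 3 - 2640 * z ^ 20 * U ^ 8 * V ^ 4 - 13200 * z ^ 20 * U ^ 7 * V ^ 5 - 188705 * z ^ 20 * U ^ 6 * V ^ 6 + 13200 * z ^ 20 * U ^ 5 * V ^ 7 - 2640 * z ^ 20 * U ^ 4 * V ^ 8 - 11880 * z ^ 20 * U ^ 3 * V ^ 9 + 990 * z ^ 20 * U ^ 2 * V ^ 10 + 16295 * z ^ 20 * U * V ^ 11 + 340 * z ^ 20 * V ^ 12 - 130 * z ^ 19 * U ^ 12 + 671 * z ^ 19 * U ^ 11 * V - 1650 * z ^ 19 * U ^ 10 * V ^ 2 - 7095 * z ^ 19 * U ^ 9 * V ^ 3 + 3135 * z ^ 19 * U ^ 8 * V ^ 4 + 12540 * z ^ 19 * U ^ 7 * V ^ 5 + 9944 * z ^ 19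 * U ^ 6 * V ^ 6 - 12540 * z ^ 19 * U ^ 5 * V ^ 7 + 3135 * z ^ 19 * U ^ 4 * V ^ 8 + 7095 * z ^ 19 * U ^ 3 * V ^ 9 - 1650 * z ^ 19 * U ^ 2 * V ^ 10 - 671 * z ^ 19 * U * V ^ 11 - 130 * z ^ 19 * V ^ 12 + 21 * z ^ 18 * U ^ 12 - 131 * z ^ 18 * U ^ 11 * V + 1859 * z ^ 18 * U ^ 10 * V ^ 2 + 3080 * z ^ 18 * U ^ 9 * V ^ 3 - 5940 * z ^ 18 * U ^ 8 * V ^ 4 - 9966 * z ^ 18 * U ^ 7 * V ^ 5 + 3641 * z ^ 18 * U ^ 6 * V ^ 6 + 9966 * z ^ 18 * U ^ 5 * V ^ 7 - 5940 * z ^ 18 * U ^ 4 * V ^ 8 - 3080 * z ^ 18 * U ^ 3 * V ^ 9 + 1859 * z ^ 18 * U ^ 2 * V ^ 10 + 131 * z ^ 18 * U * V ^ 11 + 21 * z ^ 18 * V ^ 12 - 22 * z ^ 17 * U ^ 12 - 56 * z ^ 17 * U ^ 11 * V - 913 * z ^ 17 * U ^ 10 * V ^ 2 + 110 * z ^ 17 * U ^ 9 * V ^ 3 + 5445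 * z ^ 17 * U ^ 8 * V ^ 4 + 462 * z ^ 17 * U ^ 7 * V ^ 5 - 7084 * z ^ 17 * U ^ 6 * V ^ 6 - 462 * z ^ 17 * U ^ 5 * V ^ 7 + 5445 * z ^ 17 * U ^ 4 * V ^ 8 - 110 * z ^ 17 * U ^ 3 * V ^ 9 - 913 * z ^ 17 * U ^ 2 * V ^ 10 + 56 * z ^ 17 * U * V ^ 11 - 22 * z ^ 17 * V ^ 12 + 11 * z ^ 16 * U ^ 12 + 15646 * z ^ 16 * U ^ 11 * V + 264 * z ^ 16 * U ^ 10 * V ^ 2 - 880 * z ^ 16 * U ^ 9 * V ^ 3 - 1485 * z ^ 16 * U ^ 8 * V ^ 4 + 2904 * z ^ 16 * U ^ 7 * V ^ 5 + 173294 * z ^ 16 * U ^ 6 * V ^ 6 - 2904 * z ^ 16 * U ^ 5 * V ^ 7 - 1485 * z ^ 16 * U ^ 4 * V ^ 8 + 880 * z ^ 16 * U ^ 3 * V ^ 9 + 264 * z ^ 16 * U ^ 2 * V ^ 10 - 15646 * z ^ 16 * U * V ^ 11 + 11 * z ^ 16 * V ^ 12 - z ^ 15 * U ^ 12 - 15646 * z ^ 15 * U ^ 11 * V - 44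 * z ^ 15 * U ^ 10 * V ^ 2 + 385 * z ^ 15 * U ^ 9 * V ^ 3 - 330 * z ^ 15 * U ^ 8 * V ^ 4 - 924 * z ^ 15 * U ^ 7 * V ^ 5 - 170819 * z ^ 15 * U ^ 6 * V ^ 6 + 924 * z ^ 15 * U ^ 5 * V ^ 7 - 330 * z ^ 15 * U ^ 4 * V ^ 8 - 385 * z ^ 15 * U ^ 3 * V ^ 9 - 44 * z ^ 15 * U ^ 2 * V ^ 10 + 15646 * z ^ 15 * U * V ^ 11 - z ^ 15 * V ^ 12 + 2 * z ^ 14 * U ^ 12 + 11 * z ^ 14 * U ^ 11 * V - 22 * z ^ 14 * U ^ 10 * V ^ 2 - 55 * z ^ 14 * U ^ 9 * V ^ 3 + 165 * z ^ 14 * U ^ 8 * V ^ 4 - 132 * z ^ 14 * U ^ 7 * V ^ 5 - 396 * z ^ 14 * U ^ 6 * V ^ 6 + 132 * z ^ 14 * U ^ 5 * V ^ 7 + 165 * z ^ 14 * U ^ 4 * V ^ 8 + 55 * z ^ 14 * U ^ 3 * V ^ 9 - 22 * z ^ 14 * U ^ 2 * V ^ 10 - 11 * z ^ 14 * U * V ^ 11 + 2 * z ^ 14 * V ^ 12 - z ^ 13 *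 U ^ 12 + z ^ 13 * U ^ 11 * V + 11 * z ^ 13 * U ^ 10 * V ^ 2 + 66 * z ^ 13 * U ^ 7 * V ^ 5 - 11 * z ^ 13 * U ^ 6 * V ^ 6 - 66 * z ^ 13 * U ^ 5 * V ^ 7 + 11 * z ^ 13 * U ^ 2 * V ^ 10 - z ^ 13 * U * V ^ 11 - z ^ 13 * V ^ 12 - z ^ 12 * U ^ 11 * V + 11 * z ^ 12 * U ^ 6 * V ^ 6 + z ^ 12 * U * V ^ 11 + 15625 * z ^ 11 * U ^ 11 * V + 171875 * z ^ 11 * U ^ 6 * V ^ 6 - 15625 * z ^ 11 * U * V ^ 11 - 15625 * z ^ 10 * U ^ 11 * V - 171875 * z ^ 10 * U ^ 6 * V ^ 6 + 15625 * z ^ 10 * U * V ^ 11 + 15625 * z ^ 6 * U ^ 11 * V + 171875 * z ^ 6 * U ^ 6 * V ^ 6 - 15625 * z ^ 6 * U * V ^ 11 - 15625 * z ^ 5 * U ^ 11 * V - 171875 * z ^ 5 * U ^ 6 * V ^ 6 + 15625 * z ^ 5 * U * V ^ 11 + 15625 * z * U ^ 11 * V + 171875 * z * U ^ 6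 * V ^ 6 - 15625 * z * U * V ^ 11 - 15625 * U ^ 11 * V - 171875 * U ^ 6 * V ^ 6 + 15625 * U * V ^ 11) * hz

end Fermat.Agent.Lib.S52
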