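/-
PROGRAMME K (S52, the 3–5 switch), helper6, prefix `s52e_`: **[KLEIN-FREE]** — the group
`Ĝ = ⟨S, T₅, ζ⟩` acts FREELY on every fibre of `(H, T)` with `c₄³ ≠ c₆²`
(the first clause of `s52_KleinOrbit`), and hence is finite of order `≤ 600`.

No torsion points, no enumeration of `Ĝ`:
* `Ĝ` is closed under inverses (`S⁴ = T₅⁵ = Z⁵ = 1`);
* `f(w·g) = det(g)·f(w)` for `g ∈ Ĝ` (`f∘S = f` is the generated identity `s52e_id_kf_S`);
* if `w·k = w` with `f(w) ≠ 0` then `det k = 1`, so `k` is unipotent: `(k − 1)² = 0`, `kⁿ = 1 + n(k − 1)`;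
* the points `(w·T₅)·kⁿ` all lie on the (finite, `s52_KleinCount`) fibre, so `(w·T₅)(k − 1) = 0`; as `w`, `w·T₅`
  are linearly independent (`u, v ≠ 0`), `k = 1`.
-/
import Fermat.Agent.Lib.S52.Iface
import Fermat.Agent.Lib.S52.EFreeId

set_option autoImplicit false
set_option linter.style.haveILetI false

noncomputable section

namespace Fermat.Agent.Lib.S52

open Fermat.Agent.Lib.S58 Matrix

local notation "Kb" => AlgebraicClosure ℚ

/-! ### the root of unity -/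

theorem s52e_zeta_pow_five : s52_zeta ^ 5 = 1 := s52e_id_pow_five s52_zeta s52_zeta_spec

theorem s52e_zeta_ne_zero : s52_zeta ≠ 0 := by
  intro h
  have := s52_zeta_spec
  rw [h] at this
  norm_num at this

theorem s52e_zeta_ne_one : s52_zeta ≠ 1 := by
  intro h
  have := s52_zeta_spec
  rw [h] at this
  norm_num at this

/-! ### `2 × 2` matrices -/

theorem s52e_vecMul_apply (w : Fin 2 → Kb) (M : Matrix (Fin 2) (Fin 2) Kb) (j : Fin 2) :
    (w ᵥ* M) j = w 0 * M 0 j + w 1 * M 1 j := by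
  simp [Matrix.vecMul, dotProduct, Fin.sum_univ_two]

theorem s52e_diag_mul (a d a' d' : Kb) :
    (!![a, 0; 0, d] : Matrix (Fin 2) (Fin 2) Kb) * !![a', 0; 0, d'] = !![a * a', 0; 0, d * d'] := by
  rw [Matrix.mul_fin_two]
  simp

theorem s52e_diag_pow (a d : Kb) (n : ℕ) :
    (!![a, 0; 0, d] : Matrix (Fin 2) (Fin 2) Kb) ^ n = !![a ^ n, 0; 0, d ^ n] := by
  induction n with
  | zero => simp [Matrix.one_fin_two]
  | succ n ih => rw [pow_succ, ih, s52e_diag_mul, pow_succ, pow_succ]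

theorem s52e_Smat_eq : s52_Smat =
    !![(s52_zeta + s52_zeta ^ 4 - s52_zeta ^ 2 - s52_zeta ^ 3) / 5 * -(s52_zeta - s52_zeta ^ 4),
       (s52_zeta + s52_zeta ^ 4 - s52_zeta ^ 2 - s52_zeta ^ 3) / 5 * (s52_zeta ^ 2 - s52_zeta ^ 3);
       (s52_zeta + s52_zeta ^ 4 - s52_zeta ^ 2 - s52_zeta ^ 3) / 5 * (s52_zeta ^ 2 - s52_zeta ^ 3),
       (s52_zeta + s52_zeta ^ 4 - s52_zeta ^ 2 - s52_zeta ^ 3) / 5 * (s52_zeta - s52_zeta ^ 4)] := by
  unfold s52_Smat
  ext i j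
  fin_cases i <;> fin_cases j <;> simp

theorem s52e_S_mul_S : s52_Smat * s52_Smat = !![-1, 0; 0, -1] := by
  have hr := s52e_id_r_sq s52_zeta s52_zeta_spec
  have hab := s52e_id_ab s52_zeta s52_zeta_spec
  rw [s52e_Smat_eq, Matrix.mul_fin_two]
  set r := s52_zeta + s52_zeta ^ 4 - s52_zeta ^ 2 - s52_zeta ^ 3 with hrdef
  set a := s52_zeta - s52_zeta ^ 4 with hadef
  set b := s52_zeta ^ 2 - s52_zeta ^ 3 with hbdef
  have e1 : r / 5 * -a * (r / 5 * -a) + r / 5 * b * (r / 5 * b) = -1 := by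
    linear_combination ((a * a + b * b) / 25) * hr + (1 / 5 : Kb) * hab
  have e2 : r / 5 * -a * (r / 5 * b) + r / 5 * b * (r / 5 * a) = 0 := by ring
  have e3 : r / 5 * b * (r / 5 * -a) + r / 5 * a * (r / 5 * b) = 0 := by ring
  have e4 : r / 5 * b * (r / 5 * b) + r / 5 * a * (r / 5 * a) = -1 := by
    linear_combination ((a * a + b * b) / 25) * hr + (1 / 5 : Kb) * hab
  rw [e1, e2, e3, e4]

theorem s52e_S_pow_four : s52_Smat * (s52_Smat * s52_Smat * s52_Smat) = 1 := by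
  have h : s52_Smat * (s52_Smat * s52_Smat * s52_Smat)
      = (s52_Smat * s52_Smat) * (s52_Smat * s52_Smat) := by
    simp only [mul_assoc]
  rw [h, s52e_S_mul_S, s52e_diag_mul]
  have e : ((-1 : Kb) * -1) = 1 := by norm_num
  rw [e, Matrix.one_fin_two]

theorem s52e_S_pow_four' : (s52_Smat * s52_Smat * s52_Smat) * s52_Smat = 1 := by
  have h : (s52_Smat * s52_Smat * s52_Smat) * s52_Smat
      = (s52_Smat * s52_Smat) * (s52_Smat * s52_Smat) := by
    simp only [mul_assoc]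
  rw [h, s52e_S_mul_S, s52e_diag_mul]
  have e : ((-1 : Kb) * -1) = 1 := by norm_num
  rw [e, Matrix.one_fin_two]

theorem s52e_det_S : s52_Smat.det = 1 := by
  have hr := s52e_id_r_sq s52_zeta s52_zeta_spec
  have hab := s52e_id_ab s52_zeta s52_zeta_spec
  rw [s52e_Smat_eq, Matrix.det_fin_two_of]
  set r := s52_zeta + s52_zeta ^ 4 - s52_zeta ^ 2 - s52_zeta ^ 3 with hrdef
  set a := s52_zeta - s52_zeta ^ 4 with hadef
  set b := s52_zeta ^ 2 - s52_zeta ^ 3 with hbdef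
  linear_combination (-(a * a + b * b) / 25) * hr + (-(1 : Kb) / 5) * hab

theorem s52e_det_T : s52_Tmat.det = 1 := by
  unfold s52_Tmat
  rw [Matrix.det_fin_two_of]
  linear_combination s52e_zeta_pow_five

theorem s52e_det_Z : s52_Zmat.det = s52_zeta ^ 2 := by
  unfold s52_Zmat
  rw [Matrix.det_fin_two_of]
  ring

theorem s52e_S_mem : s52_Smat ∈ s52_Ghat := Submonoid.subset_closure (by simp)
theorem s52e_T_mem : s52_Tmat ∈ s52_Ghat := Submonoid.subset_closure (by simp)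
theorem s52e_Z_mem : s52_Zmat ∈ s52_Ghat := Submonoid.subset_closure (by simp)

theorem s52e_T_mul_pow : s52_Tmat * s52_Tmat ^ 4 = 1 := by
  unfold s52_Tmat
  rw [s52e_diag_pow, s52e_diag_mul]
  have h5 := s52e_zeta_pow_five
  have e1 : s52_zeta ^ 3 * (s52_zeta ^ 3) ^ 4 = 1 := by
    have : s52_zeta ^ 3 * (s52_zeta ^ 3) ^ 4 = (s52_zeta ^ 5) ^ 3 := by ring
    rw [this, h5, one_pow]
  have e2 : s52_zeta ^ 2 * (s52_zeta ^ 2) ^ 4 = 1 := by
    have : s52_zeta ^ 2 * (s52_zeta ^ 2) ^ 4 = (s52_zeta ^ 5) ^ 2 := by ring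
    rw [this, h5, one_pow]
  rw [e1, e2, Matrix.one_fin_two]

theorem s52e_Z_mul_pow : s52_Zmat * s52_Zmat ^ 4 = 1 := by
  unfold s52_Zmat
  rw [s52e_diag_pow, s52e_diag_mul]
  have h5 := s52e_zeta_pow_five
  have e1 : s52_zeta * s52_zeta ^ 4 = 1 := by
    have : s52_zeta * s52_zeta ^ 4 = s52_zeta ^ 5 := by ring
    rw [this, h5]
  rw [e1, Matrix.one_fin_two]

/-- `Ĝ` is closed under inverses. -/
theorem s52e_inv_mem : ∀ g ∈ s52_Ghat, ∃ g' ∈ s52_Ghat, g * g' = 1 ∧ g' * g = 1 := by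
  intro g hg
  refine Submonoid.closure_induction (s := {s52_Smat, s52_Tmat, s52_Zmat})
    (motive := fun g _ => ∃ g' ∈ s52_Ghat, g * g' = 1 ∧ g' * g = 1) ?_ ?_ ?_ hg
  · intro x hx
    rcases hx with rfl | rfl | rfl
    · exact ⟨s52_Smat * s52_Smat * s52_Smat,
        mul_mem (mul_mem s52e_S_mem s52e_S_mem) s52e_S_mem, s52e_S_pow_four, s52e_S_pow_four'⟩
    · refine ⟨s52_Tmat ^ 4, pow_mem s52e_T_mem 4, s52e_T_mul_pow, ?_⟩
      rw [← pow_succ]
      have := s52e_T_mul_pow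
      rwa [← pow_succ'] at this
    · refine ⟨s52_Zmat ^ 4, pow_mem s52e_Z_mem 4, s52e_Z_mul_pow, ?_⟩
      rw [← pow_succ]
      have := s52e_Z_mul_pow
      rwa [← pow_succ'] at this
  · exact ⟨1, one_mem _, by simp⟩
  · rintro x y _ _ ⟨x', hx', hx1, hx2⟩ ⟨y', hy', hy1, hy2⟩
    refine ⟨y' * x', mul_mem hy' hx', ?_, ?_⟩
    · calc x * y * (y' * x') = x * (y * y') * x' := by simp only [mul_assoc]
        _ = 1 := by rw [hy1, mul_one, hx1]
    · calc y' * x' * (x * y) = y' * (x' * x) * y := by simp only [mul_assoc]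
        _ = 1 := by rw [hx2, mul_one, hy2]

/-! ### semi-invariance of the vertex form -/

theorem s52e_fv_S (w : Fin 2 → Kb) : s52_fv (w ᵥ* s52_Smat) = s52_fv w := by
  have hr := s52e_id_r_sq s52_zeta s52_zeta_spec
  have h0 : (w ᵥ* s52_Smat) 0 = (s52_zeta + s52_zeta ^ 4 - s52_zeta ^ 2 - s52_zeta ^ 3) / 5 *
      (-(s52_zeta - s52_zeta ^ 4) * w 0 + (s52_zeta ^ 2 - s52_zeta ^ 3) * w 1) := by
    rw [s52e_vecMul_apply, s52e_Smat_eq]
    simp only [Matrix.of_apply, Matrix.cons_val', Matrix.cons_val_zero, Matrix.cons_val_one,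
      Matrix.cons_val_fin_one]
    ring
  have h1 : (w ᵥ* s52_Smat) 1 = (s52_zeta + s52_zeta ^ 4 - s52_zeta ^ 2 - s52_zeta ^ 3) / 5 *
      ((s52_zeta ^ 2 - s52_zeta ^ 3) * w 0 + (s52_zeta - s52_zeta ^ 4) * w 1) := by
    rw [s52e_vecMul_apply, s52e_Smat_eq]
    simp only [Matrix.of_apply, Matrix.cons_val', Matrix.cons_val_zero, Matrix.cons_val_one,
      Matrix.cons_val_fin_one]
    ring
  change s52m_kf ((w ᵥ* s52_Smat) 0) ((w ᵥ* s52_Smat) 1) = s52m_kf (w 0) (w 1)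
  rw [h0, h1, s52m_kf_smul, s52e_id_kf_S s52_zeta (w 0) (w 1) s52_zeta_spec]
  set r := s52_zeta + s52_zeta ^ 4 - s52_zeta ^ 2 - s52_zeta ^ 3 with hrdef
  have h12 : (r / 5) ^ 12 * 5 ^ 6 = 1 := by
    have : (r / 5) ^ 12 = (r * r) ^ 6 / 5 ^ 12 := by ring
    rw [this, hr]
    norm_num
  rw [← mul_assoc, h12, one_mul]

theorem s52e_kf_T {K : Type*} [Field K] (z U V : K) (h5 : z ^ 5 = 1) :
    s52m_kf (z ^ 3 * U) (z ^ 2 * V) = s52m_kf U V := by
  have e : s52m_kf (z ^ 3 * U) (z ^ 2 * V) = z ^ 5 * U * V *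
      ((z ^ 5) ^ 6 * U ^ 10 + 11 * (z ^ 5) ^ 5 * U ^ 5 * V ^ 5 - (z ^ 5) ^ 4 * V ^ 10) := by
    unfold s52m_kf
    ring
  rw [e, h5]
  unfold s52m_kf
  ring

theorem s52e_vecMul_T (w : Fin 2 → Kb) :
    (w ᵥ* s52_Tmat) 0 = s52_zeta ^ 3 * w 0 ∧ (w ᵥ* s52_Tmat) 1 = s52_zeta ^ 2 * w 1 := by
  constructor
  · rw [s52e_vecMul_apply]
    unfold s52_Tmat
    simp only [Matrix.of_apply, Matrix.cons_val', Matrix.cons_val_zero, Matrix.cons_val_one,
      Matrix.cons_val_fin_one]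
    ring
  · rw [s52e_vecMul_apply]
    unfold s52_Tmat
    simp only [Matrix.of_apply, Matrix.cons_val', Matrix.cons_val_zero, Matrix.cons_val_one,
      Matrix.cons_val_fin_one]
    ring

theorem s52e_vecMul_Z (w : Fin 2 → Kb) :
    (w ᵥ* s52_Zmat) 0 = s52_zeta * w 0 ∧ (w ᵥ* s52_Zmat) 1 = s52_zeta * w 1 := by
  constructor
  · rw [s52e_vecMul_apply]
    unfold s52_Zmat
    simp only [Matrix.of_apply, Matrix.cons_val', Matrix.cons_val_zero, Matrix.cons_val_one,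
      Matrix.cons_val_fin_one]
    ring
  · rw [s52e_vecMul_apply]
    unfold s52_Zmat
    simp only [Matrix.of_apply, Matrix.cons_val', Matrix.cons_val_zero, Matrix.cons_val_one,
      Matrix.cons_val_fin_one]
    ring

theorem s52e_fv_T (w : Fin 2 → Kb) : s52_fv (w ᵥ* s52_Tmat) = s52_fv w := by
  change s52m_kf ((w ᵥ* s52_Tmat) 0) ((w ᵥ* s52_Tmat) 1) = s52m_kf (w 0) (w 1)
  rw [(s52e_vecMul_T w).1, (s52e_vecMul_T w).2]
  exact s52e_kf_T s52_zeta (w 0) (w 1) s52e_zeta_pow_five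

theorem s52e_fv_Z (w : Fin 2 → Kb) : s52_fv (w ᵥ* s52_Zmat) = s52_zeta ^ 2 * s52_fv w := by
  change s52m_kf ((w ᵥ* s52_Zmat) 0) ((w ᵥ* s52_Zmat) 1) = s52_zeta ^ 2 * s52m_kf (w 0) (w 1)
  rw [(s52e_vecMul_Z w).1, (s52e_vecMul_Z w).2, s52m_kf_smul]
  have : s52_zeta ^ 12 = s52_zeta ^ 2 := by
    have : s52_zeta ^ 12 = (s52_zeta ^ 5) ^ 2 * s52_zeta ^ 2 := by ring
    rw [this, s52e_zeta_pow_five, one_pow, one_mul]
  rw [this]

/-- **semi-invariance of `f`**: `f(w·g) = det(g)·f(w)` for `g ∈ Ĝ`. -/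
theorem s52e_fv_vecMul : ∀ g ∈ s52_Ghat, ∀ w : Fin 2 → Kb, s52_fv (w ᵥ* g) = g.det * s52_fv w := by
  intro g hg
  refine Submonoid.closure_induction (s := {s52_Smat, s52_Tmat, s52_Zmat})
    (motive := fun g _ => ∀ w : Fin 2 → Kb, s52_fv (w ᵥ* g) = g.det * s52_fv w) ?_ ?_ ?_ hg
  · intro x hx w
    rcases hx with rfl | rfl | rfl
    · rw [s52e_fv_S, s52e_det_S, one_mul]
    · rw [s52e_fv_T, s52e_det_T, one_mul]
    · rw [s52e_fv_Z, s52e_det_Z]
  · intro w
    rw [Matrix.vecMul_one, Matrix.det_one, one_mul]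
  · intro x y _ _ hx hy w
    rw [← Matrix.vecMul_vecMul, hy, hx, Matrix.det_mul]
    ring

/-! ### the fibre -/

theorem s52e_fv_ne_zero {c4 c6 : ℤ} (hne : c4 ^ 3 ≠ c6 ^ 2) {w : Fin 2 → Kb}
    (hw : s52_OnFibre c4 c6 w) : s52_fv w ≠ 0 := by
  intro h0
  have hs := s52m_klein_syzygy (w 0) (w 1)
  have hH : s52m_kH (w 0) (w 1) = -((c4 : ℤ) : Kb) := hw.1
  have hT : s52m_kT (w 0) (w 1) = -((c6 : ℤ) : Kb) := hw.2
  have hf : s52m_kf (w 0) (w 1) = 0 := h0
  rw [hH, hT, hf] at hs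
  apply hne
  have : ((c4 : ℤ) : Kb) ^ 3 = ((c6 : ℤ) : Kb) ^ 2 := by linear_combination -hs
  exact_mod_cast this

theorem s52e_coord_ne_zero {w : Fin 2 → Kb} (hf : s52_fv w ≠ 0) : w 0 ≠ 0 ∧ w 1 ≠ 0 := by
  constructor
  · intro h
    apply hf
    change s52m_kf (w 0) (w 1) = 0
    unfold s52m_kf
    rw [h]
    ring
  · intro h
    apply hf
    change s52m_kf (w 0) (w 1) = 0
    unfold s52m_kf
    rw [h]
    ring

theorem s52e_onFibre_vecMul (hG : s52_KleinGroup) {c4 c6 : ℤ} {w : Fin 2 → Kb}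
    (hw : s52_OnFibre c4 c6 w) {g : Matrix (Fin 2) (Fin 2) Kb} (hg : g ∈ s52_Ghat) :
    s52_OnFibre c4 c6 (w ᵥ* g) := by
  obtain ⟨h1, h2⟩ := hG.2.1 g hg w
  exact ⟨h1.trans hw.1, h2.trans hw.2⟩

/-! ### unipotent elements -/

/-- a `2 × 2` matrix of determinant `1` fixing a row vector with `w 0 ≠ 0` is unipotent. -/
theorem s52e_unipotent {k : Matrix (Fin 2) (Fin 2) Kb} (hdet : k.det = 1) {w : Fin 2 → Kb}
    (hw0 : w 0 ≠ 0) (hfix : w ᵥ* k = w) : (k - 1) * (k - 1) = 0 := by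
  have h0 := congrFun hfix 0
  have h1 := congrFun hfix 1
  rw [s52e_vecMul_apply] at h0 h1
  rw [Matrix.det_fin_two] at hdet
  -- the trace is `2`
  have htr : k 0 0 + k 1 1 = 2 := by
    have : w 0 * (k 0 0 + k 1 1 - 2) = 0 := by
      linear_combination (-(k 1 1 - 1)) * h0 + k 1 0 * h1 + w 0 * hdet
    rcases mul_eq_zero.mp this with h | h
    · exact absurd h hw0
    · linear_combination h
  have hk : k = !![k 0 0, k 0 1; k 1 0, k 1 1] := Matrix.eta_fin_two k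
  have h1' : (1 : Matrix (Fin 2) (Fin 2) Kb) = !![1, 0; 0, 1] := Matrix.one_fin_two
  have hsub : k - 1 = !![k 0 0 - 1, k 0 1; k 1 0, k 1 1 - 1] := by
    conv_lhs => rw [hk, h1']
    ext i j
    fin_cases i <;> fin_cases j <;> simp
  rw [hsub, Matrix.mul_fin_two]
  have e1 : (k 0 0 - 1) * (k 0 0 - 1) + k 0 1 * k 1 0 = 0 := by
    linear_combination k 0 0 * htr - hdet
  have e2 : (k 0 0 - 1) * k 0 1 + k 0 1 * (k 1 1 - 1) = 0 := by
    linear_combination k 0 1 * htr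
  have e3 : k 1 0 * (k 0 0 - 1) + (k 1 1 - 1) * k 1 0 = 0 := by
    linear_combination k 1 0 * htr
  have e4 : k 1 0 * k 0 1 + (k 1 1 - 1) * (k 1 1 - 1) = 0 := by
    linear_combination k 1 1 * htr - hdet
  rw [e1, e2, e3, e4]
  ext i j
  fin_cases i <;> fin_cases j <;> simp

theorem s52e_one_add_pow (N : Matrix (Fin 2) (Fin 2) Kb) (hN : N * N = 0) (n : ℕ) :
    (1 + N) ^ n = 1 + (n : Kb) • N := by
  induction n with
  | zero => simp
  | succ n ih =>
    rw [pow_succ, ih]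
    simp only [add_mul, mul_add, one_mul, mul_one, smul_mul_assoc, hN, smul_zero, add_zero,
      Nat.cast_succ, add_smul, one_smul]
    abel

theorem s52e_unipotent_pow {k : Matrix (Fin 2) (Fin 2) Kb} (hN : (k - 1) * (k - 1) = 0) (n : ℕ) :
    k ^ n = 1 + (n : Kb) • (k - 1) := by
  have h := s52e_one_add_pow (k - 1) hN n
  have hk : 1 + (k - 1) = k := by abel
  rw [hk] at h
  exact h

/-! ### freeness -/

/-- **the stabiliser of a fibre point in `Ĝ` is trivial.** -/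
theorem s52e_fix_eq_one (hG : s52_KleinGroup) (hC : s52_KleinCount) (c4 c6 : ℤ) (h4 : c4 ≠ 0)
    (h6 : c6 ≠ 0) (hne : c4 ^ 3 ≠ c6 ^ 2) (w : Fin 2 → Kb) (hw : s52_OnFibre c4 c6 w)
    (k : Matrix (Fin 2) (Fin 2) Kb) (hk : k ∈ s52_Ghat) (hfix : w ᵥ* k = w) : k = 1 := by
  have hf := s52e_fv_ne_zero hne hw
  obtain ⟨hu, hv⟩ := s52e_coord_ne_zero hf
  -- `det k = 1`
  have hdet : k.det = 1 := by
    have h := s52e_fv_vecMul k hk w
    rw [hfix] at h
    have : (k.det - 1) * s52_fv w = 0 := by linear_combination -h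
    rcases mul_eq_zero.mp this with h | h
    · linear_combination h
    · exact absurd h hf
  have hN := s52e_unipotent hdet hu hfix
  have hpow := s52e_unipotent_pow hN
  set N := k - 1 with hNdef
  -- `w N = 0`
  have hwN : w ᵥ* N = 0 := by
    rw [hNdef, Matrix.vecMul_sub, hfix, Matrix.vecMul_one, sub_self]
  -- the finite fibre
  obtain ⟨F, -, hF⟩ := hC (c4 : Kb) (c6 : Kb) (Int.cast_ne_zero.mpr h4) (Int.cast_ne_zero.mpr h6)
    (by exact_mod_cast hne)
  set w' := w ᵥ* s52_Tmat with hw'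
  have hw'N : w' ᵥ* N = 0 := by
    by_contra hd
    have hmem : ∀ n : ℕ, ((w' ᵥ* k ^ n) 0, (w' ᵥ* k ^ n) 1) ∈ (F : Set (Kb × Kb)) := by
      intro n
      have hfib : s52_OnFibre c4 c6 (w' ᵥ* k ^ n) := by
        rw [hw', Matrix.vecMul_vecMul]
        exact s52e_onFibre_vecMul hG hw (mul_mem s52e_T_mem (pow_mem hk n))
      exact Finset.mem_coe.mpr (hF _ _ hfib.1 hfib.2)
    have hval : ∀ n : ℕ, w' ᵥ* k ^ n = w' + (n : Kb) • (w' ᵥ* N) := by
      intro n
      rw [hpow n, Matrix.vecMul_add, Matrix.vecMul_one, Matrix.vecMul_smul]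
    have hinj : Function.Injective
        (fun n : ℕ => ((w' ᵥ* k ^ n) 0, (w' ᵥ* k ^ n) 1)) := by
      intro n m hnm
      simp only [Prod.mk.injEq] at hnm
      obtain ⟨e0, e1⟩ := hnm
      rw [hval n, hval m] at e0 e1
      simp only [Pi.add_apply, Pi.smul_apply, smul_eq_mul] at e0 e1
      have hd' : (w' ᵥ* N) 0 ≠ 0 ∨ (w' ᵥ* N) 1 ≠ 0 := by
        by_contra hcon
        rw [not_or, not_not, not_not] at hcon
        apply hd
        funext i
        fin_cases i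
        · exact hcon.1
        · exact hcon.2
      have hcast : (n : Kb) = (m : Kb) := by
        rcases hd' with h | h
        · have : ((n : Kb) - m) * (w' ᵥ* N) 0 = 0 := by linear_combination e0
          rcases mul_eq_zero.mp this with h' | h'
          · exact sub_eq_zero.mp h'
          · exact absurd h' h
        · have : ((n : Kb) - m) * (w' ᵥ* N) 1 = 0 := by linear_combination e1
          rcases mul_eq_zero.mp this with h' | h'
          · exact sub_eq_zero.mp h'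
          · exact absurd h' h
      exact Nat.cast_injective hcast
    exact Set.infinite_of_injective_forall_mem hinj hmem F.finite_toSet
  -- `N = 0`
  have hz2 : s52_zeta ^ 3 - s52_zeta ^ 2 ≠ 0 := by
    have : s52_zeta ^ 3 - s52_zeta ^ 2 = s52_zeta ^ 2 * (s52_zeta - 1) := by ring
    rw [this]
    exact mul_ne_zero (pow_ne_zero 2 s52e_zeta_ne_zero) (sub_ne_zero.mpr s52e_zeta_ne_one)
  have hcol : ∀ j : Fin 2, N 0 j = 0 ∧ N 1 j = 0 := by
    intro j
    have a1 := congrFun hwN j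
    have a2 := congrFun hw'N j
    rw [s52e_vecMul_apply] at a1 a2
    rw [hw', (s52e_vecMul_T w).1, (s52e_vecMul_T w).2] at a2
    simp only [Pi.zero_apply] at a1 a2
    have hN1 : N 1 j = 0 := by
      have : (s52_zeta ^ 3 - s52_zeta ^ 2) * w 1 * N 1 j = 0 := by
        linear_combination s52_zeta ^ 3 * a1 - a2
      rcases mul_eq_zero.mp this with h | h
      · rcases mul_eq_zero.mp h with h | h
        · exact absurd h hz2
        · exact absurd h hv
      · exact h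
    refine ⟨?_, hN1⟩
    rw [hN1, mul_zero, add_zero] at a1
    rcases mul_eq_zero.mp a1 with h | h
    · exact absurd h hu
    · exact h
  have hN0 : N = 0 := by
    ext i j
    fin_cases i
    · exact (hcol j).1
    · exact (hcol j).2
  have : k = 1 + N := by rw [hNdef]; abel
  rw [this, hN0, add_zero]

/-- **[KLEIN-FREE]** the first clause of `s52_KleinOrbit`. -/
theorem s52e_free (hG : s52_KleinGroup) (hC : s52_KleinCount) (c4 c6 : ℤ) (h4 : c4 ≠ 0)
    (h6 : c6 ≠ 0) (hne : c4 ^ 3 ≠ c6 ^ 2) (w : Fin 2 → Kb) (hw : s52_OnFibre c4 c6 w) :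
    ∀ g ∈ s52_Ghat, ∀ h ∈ s52_Ghat, w ᵥ* g = w ᵥ* h → g = h := by
  intro g hg h hh e
  obtain ⟨h', hh', e1, e2⟩ := s52e_inv_mem h hh
  have hk : g * h' ∈ s52_Ghat := mul_mem hg hh'
  have hfix : w ᵥ* (g * h') = w := by
    rw [← Matrix.vecMul_vecMul, e, Matrix.vecMul_vecMul, e1, Matrix.vecMul_one]
  have h1 := s52e_fix_eq_one hG hC c4 c6 h4 h6 hne w hw _ hk hfix
  calc g = g * (h' * h) := by rw [e2, mul_one]
    _ = (g * h') * h := by rw [mul_assoc]
    _ = h := by rw [h1, one_mul]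

/-! ### `Ĝ` is finite of order at most `600` -/

/-- the explicit fibre point `(1, 1)` over `(c₄, c₆) = (496, 20008)` (the curve `11a1`). -/
theorem s52e_onFibre_one_one : s52_OnFibre 496 20008 ![1, 1] := by
  constructor
  · change s52m_kH ((![1, 1] : Fin 2 → Kb) 0) ((![1, 1] : Fin 2 → Kb) 1) = -(((496 : ℤ) : ℤ) : Kb)
    simp only [Matrix.cons_val_zero, Matrix.cons_val_one, Matrix.cons_val_fin_one]
    unfold s52m_kH
    norm_num
  · change s52m_kT ((![1, 1] : Fin 2 → Kb) 0) ((![1, 1] : Fin 2 → Kb) 1) = -(((20008 : ℤ) : ℤ) : Kb)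
    simp only [Matrix.cons_val_zero, Matrix.cons_val_one, Matrix.cons_val_fin_one]
    unfold s52m_kT
    norm_num

/-- **`Ĝ` is finite, of order `≤ 600`** (freeness on the fibre of `11a1` + the fibre count). -/
theorem s52e_Ghat_card (hG : s52_KleinGroup) (hC : s52_KleinCount) :
    Finite s52_Ghat ∧ Nat.card s52_Ghat ≤ 600 := by
  have hne : (496 : ℤ) ^ 3 ≠ 20008 ^ 2 := by norm_num
  have hw := s52e_onFibre_one_one
  obtain ⟨F, hFcard, hF⟩ := hC ((496 : ℤ) : Kb) ((20008 : ℤ) : Kb)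
    (Int.cast_ne_zero.mpr (by norm_num)) (Int.cast_ne_zero.mpr (by norm_num))
    (by exact_mod_cast hne)
  let φ : s52_Ghat → F := fun g =>
    ⟨(((![1, 1] : Fin 2 → Kb) ᵥ* (g : Matrix (Fin 2) (Fin 2) Kb)) 0,
      ((![1, 1] : Fin 2 → Kb) ᵥ* (g : Matrix (Fin 2) (Fin 2) Kb)) 1),
      hF _ _ (s52e_onFibre_vecMul hG hw g.2).1 (s52e_onFibre_vecMul hG hw g.2).2⟩
  have hφ : Function.Injective φ := by
    intro g h hgh
    have h2 := congrArg Subtype.val hgh
    simp only [φ, Prod.mk.injEq] at h2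
    apply Subtype.ext
    apply s52e_free hG hC 496 20008 (by norm_num) (by norm_num) hne _ hw _ g.2 _ h.2
    funext i
    fin_cases i
    · exact h2.1
    · exact h2.2
  refine ⟨Finite.of_injective φ hφ, ?_⟩
  calc Nat.card s52_Ghat ≤ Nat.card F := Nat.card_le_card_of_injective φ hφ
    _ = F.card := Nat.card_eq_finsetCard F
    _ ≤ 600 := hFcard

end Fermat.Agent.Lib.S52
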