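/-
PROGRAMME K (S52, the 3–5 switch), helper6, prefix `s52e_`: **inertia at a semistable prime acts
unipotently on the `λ`-torsion of an integral Weierstrass model** (`λ` an odd prime different from the
residue characteristic).

* `s52e_inertia_root`  : inertia at `q` fixes the `λ`-th roots of unity (`λ ≠ q` prime);
* `s52e_frob_root`     : a Frobenius element at `p` raises the `λ`-th roots of unity to the `p`-th power;
* `s52e_ellFrob`       : the landed contract `s58_EllFrob` (alias, so that nobody has to import `Lib/S44`);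
* `s52e_unip_mult`     : multiplicative `q`: `(τ − 1)² = 0` on `W[λ]` for `τ` in the inertia group.
  Proof: the inertia-fixed point `P₀` of order `λ` (`s58m_ellMultFix`), Chebotarev (`s56h_cheb`) for the
  restriction to a finite Galois field containing `ℚ(W[λ], ζ_λ)`, and the Frobenius relation
  `φ² − a_p φ + p = 0` (`s58_EllFrob`): a conjugate `ψ` of `τ` agrees with a Frobenius `φ` at a good
  prime `p`; `ψ` fixes `ζ_λ` (so `p ≡ 1`) and the point `g • P₀` (so `a_p ≡ 1 + p ≡ 2 mod λ`).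
  No Weil pairing, no Tate curve.
* `s52e_unip`          : the same for `q` semistable (`q ∣ Δ → q ∤ c₄`; good reduction: `s58e_ellUnram`);
* `s52e_pow_fix`       : hence `τ ^ λ` fixes `W[λ]` pointwise.
-/
import Fermat.Agent.Lib.S56.HCheb
import Fermat.Agent.Lib.S58.MultFixClose
import Fermat.Agent.Lib.S58.OLevel
import Fermat.Agent.Lib.S58.E1Close
import Fermat.Agent.Lib.S58.ORed
import Fermat.Agent.Lib.S58.FCore
import Fermat.Agent.Lib.S29.Cyclo

set_option autoImplicit false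
set_option linter.style.haveILetI false
set_option linter.unusedSectionVars false

noncomputable section

namespace Fermat.Agent.Lib.S52

open Fermat.Agent.Lib.S58 Fermat.Agent.Lib.S56 Fermat.Agent.Lib.S48 Fermat.Agent.Lib.S29

local notation "Qbar" => AlgebraicClosure ℚ
local notation "GQ" => (AlgebraicClosure ℚ ≃ₐ[ℚ] AlgebraicClosure ℚ)

/-! ### roots of unity -/

/-- inertia at `q` fixes the `λ`-th roots of unity, `λ ≠ q` prime. -/
theorem s52e_inertia_root {q : ℕ} (hq : q.Prime) {A : ValuationSubring Qbar}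
    (hA : A.LiesOverPrime q) {τ : GQ} (hτ : τ ∈ A.inertiaSubgroupIn ℚ) {lam : ℕ} (hlam : lam.Prime)
    (hlamq : lam ≠ q) {ζ : Qbar} (hζ : ζ ^ lam = 1) : τ ζ = ζ := by
  obtain ⟨g, hg, rfl⟩ := Subgroup.mem_map.mp hτ
  have hg' : ∀ x : IsLocalRing.ResidueField A, g • x = x ^ 1 := by
    intro x
    have h1 : MulSemiringAction.toRingAut (A.decompositionSubgroup ℚ)
        (IsLocalRing.ResidueField A) g = 1 := hg
    have h2 := congrArg (fun f : RingAut (IsLocalRing.ResidueField A) => f x) h1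
    simpa using h2
  have h := s29y_apply_root_of_residue A hlam.ne_zero
    (s29y_natCast_residue_ne_zero A hq hlam (Ne.symm hlamq) hA) g 1 hg' hζ
  rw [pow_one] at h
  exact h

/-- a Frobenius element at `p` acts on the `λ`-th roots of unity (`λ ≠ p` prime) as `ζ ↦ ζ ^ p`. -/
theorem s52e_frob_root {p : ℕ} (hp : p.Prime) {A : ValuationSubring Qbar}
    (hA : A.LiesOverPrime p) {φ : GQ} (hφ : A.IsFrobeniusAt φ p) {lam : ℕ} (hlam : lam.Prime)
    (hlamp : lam ≠ p) {ζ : Qbar} (hζ : ζ ^ lam = 1) : φ ζ = ζ ^ p :=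
  s29y_apply_root_of_residue A hlam.ne_zero
    (s29y_natCast_residue_ne_zero A hp hlam (Ne.symm hlamp) hA)
    ⟨φ, hφ.mem_decompositionSubgroup⟩ p (fun x => hφ.smul_residue_eq x) hζ

/-! ### the landed contracts -/

/-- the quadratic relation of a Frobenius element on `W[λⁿ]` (landed, `Lib/S58`). -/
theorem s52e_ellFrob : s58_EllFrob := s58o_ellFrob_of_core s58f_frobCore

/-! ### the Galois action on points -/

section Action

variable {W : WeierstrassCurve ℤ}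

theorem s52e_smul_nsmul (σ : GQ) (n : ℕ) (P : s58_Pt W) : σ • (n • P) = n • (σ • P) :=
  map_nsmul (DistribSMul.toAddMonoidHom (s58_Pt W) σ) n P

theorem s52e_smul_zsmul (σ : GQ) (n : ℤ) (P : s58_Pt W) : σ • (n • P) = n • (σ • P) :=
  map_zsmul (DistribSMul.toAddMonoidHom (s58_Pt W) σ) n P

theorem s52e_smul_zero (σ : GQ) : σ • (0 : s58_Pt W) = 0 := smul_zero (A := s58_Pt W) σ

theorem s52e_smul_add (σ : GQ) (P Q : s58_Pt W) : σ • (P + Q) = σ • P + σ • Q :=
  smul_add (A := s58_Pt W) σ P Q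

theorem s52e_smul_sub (σ : GQ) (P Q : s58_Pt W) : σ • (P - Q) = σ • P - σ • Q :=
  map_sub (DistribSMul.toAddMonoidHom (s58_Pt W) σ) P Q

theorem s52e_smul_tors (σ : GQ) {n : ℕ} {P : s58_Pt W} (hP : n • P = 0) : n • (σ • P) = 0 := by
  rw [← s52e_smul_nsmul, hP]
  exact s52e_smul_zero σ

theorem s52e_smul_eq_zero {σ : GQ} {P : s58_Pt W} (h : σ • P = 0) : P = 0 := by
  have h1 : σ⁻¹ • σ • P = σ⁻¹ • (0 : s58_Pt W) := by rw [h]
  rw [inv_smul_smul] at h1
  exact h1.trans (s52e_smul_zero σ⁻¹)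

/-- a point of prime order `λ` killed by the integer `k` forces `λ ∣ k`. -/
theorem s52e_dvd_of_zsmul_eq_zero {lam : ℕ} (hlam : lam.Prime) {P : s58_Pt W} (h1 : lam • P = 0)
    (h2 : P ≠ 0) {k : ℤ} (hk : k • P = 0) : (lam : ℤ) ∣ k := by
  have hord : addOrderOf P = lam := by
    have hdvd : addOrderOf P ∣ lam := addOrderOf_dvd_of_nsmul_eq_zero h1
    rcases (Nat.dvd_prime hlam).mp hdvd with h | h
    · exact absurd (AddMonoid.addOrderOf_eq_one_iff.mp h) h2
    · exact h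
  have := addOrderOf_dvd_iff_zsmul_eq_zero.mpr hk
  rwa [hord] at this

end Action

/-! ### unipotent inertia at a multiplicative prime -/

/-- **(U-mult)** at a multiplicative prime `q` the inertia group acts unipotently on `W[λ]`. -/
theorem s52e_unip_mult (W : WeierstrassCurve ℤ) (hΔ : W.Δ ≠ 0) {q : ℕ} (hq : q.Prime)
    (hbad : (q : ℤ) ∣ W.Δ) (hc4 : ¬ (q : ℤ) ∣ W.c₄) {lam : ℕ} (hlam : lam.Prime) (hlam2 : lam ≠ 2)
    (hlamq : lam ≠ q) (A : ValuationSubring Qbar) (hA : A.LiesOverPrime q) {τ : GQ}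
    (hτ : τ ∈ A.inertiaSubgroupIn ℚ) (P : s58_Pt W) (hP : lam • P = 0) :
    τ • τ • P - 2 • τ • P + P = 0 := by
  classical
  haveI : NeZero lam := ⟨hlam.ne_zero⟩
  -- the inertia-fixed point of order `λ`
  obtain ⟨P₀, hP₀1, hP₀2, hP₀fix⟩ :=
    s58m_ellMultFix W hΔ q hq hbad hc4 lam hlam hlam2 hlamq 0 A hA
  rw [zero_add, pow_one] at hP₀1
  rw [pow_zero, one_smul] at hP₀2
  -- the level
  obtain ⟨L, hLfd, hL⟩ := s58o_ellLevel W hΔ lam hlam.pos
  obtain ⟨ζ, hζ⟩ : ∃ ζ : Qbar, IsPrimitiveRoot ζ lam :=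
    HasEnoughRootsOfUnity.exists_primitiveRoot Qbar lam
  obtain ⟨M, hNF, hGal, hLM, hζM⟩ := s48c_exists_M L hLfd ζ
  haveI : Normal ℚ ↥M := hGal.to_normal
  -- the restriction homomorphism
  set t : GQ →* (↥M ≃ₐ[ℚ] ↥M) := AlgEquiv.restrictNormalHom ↥M with ht
  have htapp : ∀ (σ : GQ) (x : ↥M), ((t σ x : ↥M) : Qbar) = σ (x : Qbar) := fun σ x =>
    AlgEquiv.restrictNormal_commutes σ ↥M x
  have hfin : GaloisFactorsThroughFiniteLevel t := by
    refine ⟨M, hNF.to_finiteDimensional, fun σ hσ => ?_⟩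
    apply AlgEquiv.ext
    intro x
    apply Subtype.ext
    rw [htapp, AlgEquiv.one_apply]
    exact hσ x x.2
  have hagree : ∀ σ σ' : GQ, t σ = t σ' → ∀ x ∈ M, σ x = σ' x := by
    intro σ σ' h x hx
    have h1 := htapp σ ⟨x, hx⟩
    have h2 := htapp σ' ⟨x, hx⟩
    rw [h] at h1
    exact h1.symm.trans h2
  -- Chebotarev
  set S' : Finset ℕ := insert lam (W.Δ.natAbs.primeFactors) with hS'
  obtain ⟨p, hp, hpS, hcheb⟩ := s56h_cheb t hfin S' τ
  have hplam : p ≠ lam := fun h => hpS (h ▸ Finset.mem_insert_self _ _)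
  have hpΔ : ¬ (p : ℤ) ∣ W.Δ := by
    intro hd
    apply hpS
    refine Finset.mem_insert_of_mem (Nat.mem_primeFactors.mpr ⟨hp, ?_, ?_⟩)
    · exact Int.natCast_dvd.mp hd
    · exact Int.natAbs_ne_zero.mpr hΔ
  obtain ⟨A', φ, hA', hφ⟩ := s48t_exists_frob p hp
  obtain ⟨g, hg⟩ := hcheb A' hA' φ hφ
  set ψ : GQ := g * τ * g⁻¹ with hψ
  -- `φ` and `ψ` agree on `λ`-torsion points and on `ζ`
  have hφψ : ∀ Q : s58_Pt W, lam • Q = 0 → φ • Q = ψ • Q := by
    intro Q hQ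
    have hfix : ∀ x ∈ L, (ψ⁻¹ * φ) x = x := by
      intro x hx
      rw [AlgEquiv.mul_apply, hagree φ ψ hg x (hLM hx)]
      exact ψ.symm_apply_apply x
    have := hL (ψ⁻¹ * φ) hfix Q hQ
    rw [mul_smul] at this
    have h2 := congrArg (fun R : s58_Pt W => ψ • R) this
    simpa using h2
  -- `p ≡ 1 mod λ`
  have hτζ : τ ζ = ζ := s52e_inertia_root hq hA hτ hlam hlamq hζ.pow_eq_one
  have hψζ : ψ ζ = ζ ^ p := by
    rw [← hagree φ ψ hg ζ hζM]
    exact s52e_frob_root hp hA' hφ hlam (Ne.symm hplam) hζ.pow_eq_one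
  have hp1 : (lam : ℤ) ∣ (p : ℤ) - 1 := by
    -- `ψ ζ' = ζ'` for `ζ' = g ζ`, a primitive root
    have hζ' : IsPrimitiveRoot (g⁻¹ ζ) lam := hζ.map_of_injective g⁻¹.injective
    have h1 : ψ ζ = ζ ^ p := hψζ
    -- `τ (g⁻¹ ζ) = g⁻¹ ζ`
    have h2 : τ (g⁻¹ ζ) = g⁻¹ ζ :=
      s52e_inertia_root hq hA hτ hlam hlamq hζ'.pow_eq_one
    have h3 : ψ ζ = ζ := by
      rw [hψ, AlgEquiv.mul_apply, AlgEquiv.mul_apply, h2]
      exact g.apply_symm_apply ζ
    rw [h3] at h1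
    have hζ0 : ζ ≠ 0 := hζ.ne_zero hlam.ne_zero
    have h4 : ζ ^ (p - 1) = 1 := by
      have : ζ ^ (p - 1) * ζ = 1 * ζ := by
        rw [← pow_succ, Nat.sub_add_cancel hp.one_le, one_mul]
        exact h1.symm
      exact mul_right_cancel₀ hζ0 this
    have h5 : lam ∣ p - 1 := (hζ.pow_eq_one_iff_dvd _).mp h4
    have h6 : (lam : ℤ) ∣ ((p - 1 : ℕ) : ℤ) := Int.natCast_dvd_natCast.mpr h5
    rwa [Nat.cast_sub hp.one_le, Nat.cast_one] at h6
  -- the Frobenius relation transported to `ψ`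
  have hrel : ∀ Q : s58_Pt W, lam • Q = 0 →
      ψ • ψ • Q - W.apOfModel p • ψ • Q + p • Q = 0 := by
    intro Q hQ
    have h1 := s52e_ellFrob W p hp hpΔ lam hlam hlam2 (Ne.symm hplam) 1 A' hA' φ hφ Q
      (by rw [pow_one]; exact hQ)
    have hφQ : lam • (φ • Q) = 0 := s52e_smul_tors φ hQ
    rw [hφψ (φ • Q) hφQ, hφψ Q hQ] at h1
    exact h1
  -- `ψ` fixes `P₁ = g • P₀`
  set P₁ : s58_Pt W := g • P₀ with hP₁
  have hP₁tors : lam • P₁ = 0 := s52e_smul_tors g hP₀1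
  have hP₁ne : P₁ ≠ 0 := fun h => hP₀2 (s52e_smul_eq_zero h)
  have hψP₁ : ψ • P₁ = P₁ := by
    rw [hψ, hP₁, mul_smul, mul_smul, inv_smul_smul, hP₀fix τ hτ]
  -- `a_p ≡ 1 + p`
  have ha : (lam : ℤ) ∣ 1 - W.apOfModel p + (p : ℤ) := by
    have h1 := hrel P₁ hP₁tors
    rw [hψP₁, hψP₁] at h1
    apply s52e_dvd_of_zsmul_eq_zero hlam hP₁tors hP₁ne
    rw [add_zsmul, sub_zsmul, one_zsmul, natCast_zsmul]
    exact h1
  -- the relation `(ψ − 1)² = 0`
  have hunipψ : ∀ Q : s58_Pt W, lam • Q = 0 → ψ • ψ • Q - 2 • ψ • Q + Q = 0 := by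
    intro Q hQ
    have h1 := hrel Q hQ
    obtain ⟨k, hk⟩ := hp1
    obtain ⟨k', hk'⟩ := ha
    have hψQ : lam • (ψ • Q) = 0 := s52e_smul_tors ψ hQ
    have ha2 : W.apOfModel p = 2 + (lam : ℤ) * (k - k') := by linarith
    have hpQ : (p : ℕ) • Q = Q := by
      have : ((p : ℤ)) • Q = Q := by
        have hp' : (p : ℤ) = 1 + (lam : ℤ) * k := by linarith
        rw [hp', add_zsmul, one_zsmul, mul_comm, mul_zsmul, natCast_zsmul, hQ, zsmul_zero, add_zero]
      rwa [natCast_zsmul] at this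
    have haQ : W.apOfModel p • ψ • Q = 2 • ψ • Q := by
      rw [ha2, add_zsmul, mul_comm, mul_zsmul, natCast_zsmul, hψQ, zsmul_zero, add_zero]
      exact ofNat_zsmul _ 2
    rw [haQ, hpQ] at h1
    exact h1
  -- back to `τ`
  have hgP : lam • (g • P) = 0 := s52e_smul_tors g hP
  have h1 := hunipψ (g • P) hgP
  have e1 : ψ • g • P = g • τ • P := by
    rw [hψ, mul_smul, mul_smul, inv_smul_smul]
  have e2 : ψ • ψ • g • P = g • τ • τ • P := by
    rw [e1, hψ, mul_smul, mul_smul, inv_smul_smul]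
  rw [e2, e1] at h1
  have h2 : g • (τ • τ • P - 2 • τ • P + P) = 0 := by
    rw [s52e_smul_add, s52e_smul_sub, s52e_smul_nsmul]
    exact h1
  exact s52e_smul_eq_zero h2

/-! ### semistable primes -/

/-- **(U)** at a semistable prime `q` (good or multiplicative) the inertia group acts unipotently on
`W[λ]`, `λ ≠ q` an odd prime. -/
theorem s52e_unip (W : WeierstrassCurve ℤ) (hΔ : W.Δ ≠ 0) {q : ℕ} (hq : q.Prime)
    (hss : (q : ℤ) ∣ W.Δ → ¬ (q : ℤ) ∣ W.c₄) {lam : ℕ} (hlam : lam.Prime) (hlam2 : lam ≠ 2)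
    (hlamq : lam ≠ q) (A : ValuationSubring Qbar) (hA : A.LiesOverPrime q) {τ : GQ}
    (hτ : τ ∈ A.inertiaSubgroupIn ℚ) (P : s58_Pt W) (hP : lam • P = 0) :
    τ • τ • P - 2 • τ • P + P = 0 := by
  by_cases hbad : (q : ℤ) ∣ W.Δ
  · exact s52e_unip_mult W hΔ hq hbad (hss hbad) hlam hlam2 hlamq A hA hτ P hP
  · have hfix : ∀ Q : s58_Pt W, lam • Q = 0 → τ • Q = Q := fun Q hQ =>
      s58e_ellUnram W q hq hbad lam hlam hlam2 hlamq 1 A hA τ hτ Q (by rw [pow_one]; exact hQ)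
    rw [hfix P hP, hfix P hP, two_nsmul]
    abel

/-- iterating a unipotent operator: `τ ^ n • P = P + n • (τ • P − P)` on `W[λ]`. -/
theorem s52e_pow_smul (W : WeierstrassCurve ℤ) {lam : ℕ} {τ : GQ}
    (hun : ∀ P : s58_Pt W, lam • P = 0 → τ • τ • P - 2 • τ • P + P = 0)
    (P : s58_Pt W) (hP : lam • P = 0) (n : ℕ) : (τ ^ n) • P = P + n • (τ • P - P) := by
  induction n with
  | zero => simp
  | succ n ih =>
    rw [pow_succ', mul_smul, ih, s52e_smul_add, s52e_smul_nsmul, s52e_smul_sub]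
    have h := hun P hP
    have h2 : τ • τ • P = 2 • τ • P - P := by
      have : τ • τ • P - 2 • τ • P + P + (2 • τ • P - P) = 0 + (2 • τ • P - P) := by rw [h]
      rw [zero_add] at this
      rw [← this]; abel
    have e : 2 • τ • P - P - τ • P = τ • P - P := by
      rw [two_nsmul]; abel
    rw [h2, e, succ_nsmul]
    abel

/-- **(U⁵)** at a semistable prime `q`, the `λ`-th power of every inertia element fixes `W[λ]`
pointwise. -/
theorem s52e_pow_fix (W : WeierstrassCurve ℤ) (hΔ : W.Δ ≠ 0) {q : ℕ} (hq : q.Prime)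
    (hss : (q : ℤ) ∣ W.Δ → ¬ (q : ℤ) ∣ W.c₄) {lam : ℕ} (hlam : lam.Prime) (hlam2 : lam ≠ 2)
    (hlamq : lam ≠ q) (A : ValuationSubring Qbar) (hA : A.LiesOverPrime q) {τ : GQ}
    (hτ : τ ∈ A.inertiaSubgroupIn ℚ) (P : s58_Pt W) (hP : lam • P = 0) :
    (τ ^ lam) • P = P := by
  rw [s52e_pow_smul W (fun Q hQ => s52e_unip W hΔ hq hss hlam hlam2 hlamq A hA hτ Q hQ) P hP lam,
    nsmul_sub, s52e_smul_tors τ hP, hP, sub_zero, add_zero]

end Fermat.Agent.Lib.S52
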