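/-
PROGRAMME K (S52, the 3–5 switch), helper6, prefix `s52e_`: the contract **[INERTIA3]** `s52_Inertia3`.

`W` semistable, `ζ⁵ = 1`, `δ⁵ = Δ(W)`: there is `ρ ∈ G_ℚ` fixing `ζ`, `δ`, `W[5]` pointwise and negating the
square roots of `−3`.

Proof.  Let `A` be a place of `ℚ̄` over `3` and `τ` in its inertia group with `τ π₁ = ξ π₁`, `π₁⁸ = −3`, `ξ` of
exact order `8` (the landed tame generator `s56f_ifaceTameGen`, `p = 3`).  Then `z₀ := π₁⁴` has `z₀² = −3` and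
`τ z₀ = ξ⁴ z₀ = −z₀`.  Take `ρ := τ⁵`:
* `τ` fixes the fifth roots of unity (`s52e_inertia_root`, `5 ≠ 3`), so `ρ ζ = ζ`;
* `(τ δ)⁵ = δ⁵`, so `τ δ = η δ` with `η⁵ = 1`, `τ η = η`; hence `τ⁵ δ = η⁵ δ = δ`;
* `(τ − 1)² = 0` on `W[5]` (semistability at `3`: `s52e_unip`), so `τ⁵ = 1` on `W[5]` (`s52e_pow_fix`);
* `τ⁵ z = (−1)⁵ z = −z`.
-/
import Fermat.Agent.Lib.S52.Iface
import Fermat.Agent.Lib.S52.EUnip
import Fermat.Agent.Lib.S56.F3Dict

set_option autoImplicit false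
set_option linter.style.haveILetI false

noncomputable section

namespace Fermat.Agent.Lib.S52

open Fermat.Agent.Lib.S58 Fermat.Agent.Lib.S56 Fermat.Agent.Lib.S48

local notation "Qbar" => AlgebraicClosure ℚ
local notation "GQ" => (AlgebraicClosure ℚ ≃ₐ[ℚ] AlgebraicClosure ℚ)

/-- iterating `τ x = η x` with `τ η = η`. -/
theorem s52e_pow_apply_of_mul {τ : GQ} {x η : Qbar} (hη : τ η = η) (hx : τ x = η * x) (n : ℕ) :
    (τ ^ n) x = η ^ n * x := by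
  induction n with
  | zero => simp
  | succ n ih =>
    rw [pow_succ', AlgEquiv.mul_apply, ih, map_mul, map_pow, hη, hx]
    ring

/-- **the field `ℚ(√−3)` is ramified at `3`**: some element of the inertia group of any place over `3`
negates the square roots of `−3`. -/
theorem s52e_exists_inertia_neg (A : ValuationSubring Qbar) (hA : A.LiesOverPrime 3) :
    ∃ τ ∈ A.inertiaSubgroupIn ℚ, ∀ z : Qbar, z ^ 2 = -3 → τ z = -z := by
  obtain ⟨π₁, hπ⟩ : ∃ π₁ : Qbar, π₁ ^ 8 = -3 :=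
    IsAlgClosed.exists_pow_nat_eq (-3 : Qbar) (by norm_num)
  have h8 : (3 ^ 2 - 1 : ℕ) = 8 := by norm_num
  have hπ' : π₁ ^ (3 ^ 2 - 1) = -((3 : ℕ) : Qbar) := by
    rw [h8, hπ]
    norm_num
  obtain ⟨τ, hτ, ξ, hord, hτπ, -⟩ := s56f_ifaceTameGen 3 Nat.prime_three A hA π₁ hπ'
  rw [h8] at hord
  refine ⟨τ, hτ, ?_⟩
  have hξ8 : ξ ^ 8 = 1 := by
    have := pow_orderOf_eq_one ξ
    rwa [hord] at this
  have hξ4 : ξ ^ 4 = -1 := by
    have h1 : (ξ ^ 4 - 1) * (ξ ^ 4 + 1) = 0 := by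
      have : (ξ ^ 4 - 1) * (ξ ^ 4 + 1) = ξ ^ 8 - 1 := by ring
      rw [this, hξ8, sub_self]
    have h2 : ξ ^ 4 - 1 ≠ 0 := by
      intro h
      have h3 := orderOf_dvd_of_pow_eq_one (sub_eq_zero.mp h)
      rw [hord] at h3
      norm_num at h3
    rcases mul_eq_zero.mp h1 with h | h
    · exact absurd h h2
    · exact eq_neg_of_add_eq_zero_left h
  intro z hz
  have hz₀ : (π₁ ^ 4) ^ 2 = -3 := by rw [← pow_mul]; exact hπ
  have hτz₀ : τ (π₁ ^ 4) = -(π₁ ^ 4) := by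
    rw [map_pow, hτπ, mul_pow, hξ4]
    ring
  have hprod : (z - π₁ ^ 4) * (z + π₁ ^ 4) = 0 := by
    have : (z - π₁ ^ 4) * (z + π₁ ^ 4) = z ^ 2 - (π₁ ^ 4) ^ 2 := by ring
    rw [this, hz, hz₀, sub_self]
  rcases mul_eq_zero.mp hprod with h | h
  · rw [sub_eq_zero.mp h, hτz₀]
  · rw [eq_neg_of_add_eq_zero_left h, map_neg, hτz₀]

/-- **[INERTIA3]** -/
theorem s52e_inertia3 : s52_Inertia3 := by
  intro W hΔ hss ζ δ hζ hδ
  obtain ⟨A, -, hA, -⟩ := s48t_exists_frob 3 Nat.prime_three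
  obtain ⟨τ, hτ, hτz⟩ := s52e_exists_inertia_neg A hA
  have h5 : Nat.Prime 5 := by norm_num
  have hτroot : ∀ η : Qbar, η ^ 5 = 1 → τ η = η := fun η hη =>
    s52e_inertia_root Nat.prime_three hA hτ h5 (by norm_num) hη
  have hτ1 : τ (1 : Qbar) = 1 := map_one τ
  refine ⟨τ ^ 5, ?_, ?_, ?_, ?_⟩
  · -- `ζ`
    have := s52e_pow_apply_of_mul (τ := τ) (x := ζ) (η := 1) hτ1
      (by rw [one_mul]; exact hτroot ζ hζ) 5
    rw [this, one_pow, one_mul]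
  · -- `δ`
    have hΔK : ((W.Δ : ℤ) : Qbar) ≠ 0 := Int.cast_ne_zero.mpr hΔ
    have hδ0 : δ ≠ 0 := by
      intro h
      rw [h, zero_pow (by norm_num)] at hδ
      exact hΔK hδ.symm
    have hτδ5 : (τ δ) ^ 5 = δ ^ 5 := by
      rw [← map_pow, hδ, map_intCast]
    have hη5 : (τ δ / δ) ^ 5 = 1 := by
      rw [div_pow, hτδ5, div_self (pow_ne_zero 5 hδ0)]
    have hτδ : τ δ = (τ δ / δ) * δ := (div_mul_cancel₀ (τ δ) hδ0).symm
    have := s52e_pow_apply_of_mul (τ := τ) (x := δ) (η := τ δ / δ) (hτroot _ hη5) hτδ 5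
    rw [this, hη5, one_mul]
  · -- `W[5]`
    intro P hP
    exact s52e_pow_fix W hΔ Nat.prime_three (hss 3 Nat.prime_three) h5 (by norm_num) (by norm_num)
      A hA hτ P hP
  · -- `√−3`
    intro z hz
    have hneg : τ (-1 : Qbar) = -1 := by rw [map_neg, map_one]
    have := s52e_pow_apply_of_mul (τ := τ) (x := z) (η := -1) hneg
      (by rw [hτz z hz]; ring) 5
    rw [this]
    ring

end Fermat.Agent.Lib.S52
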