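/-
PROGRAMME K (S52, the 3–5 switch), helper6, prefix `s52e_`: **the normal subgroup `N = Gal(ℚ̄/ℚ(μ₅, δ, W[5]))`**
(`δ⁵ = Δ(W)`) and its fixed field, for the wiring of the D2 step.

* `s52e_N W δ`        : the subgroup of `G_ℚ` fixing all fifth roots of unity, `δ` and `W[5]` pointwise;
* `s52e_mem_N_of_prim`: membership from ONE primitive fifth root of unity (the shape of `s52_Inertia3`/`s52_Twist`);
* `s52e_N_normal`     : `N` is normal (needs `δ⁵ ∈ ℚ`);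
* `s52e_K W δ`        : its fixed field; `s52e_mem_K`, `s52e_K_fix`, `s52e_K_stable`, `s52e_K_finite`
                        (finite over `ℚ`, from the landed `s58o_ellLevel`);
* `s52e_inertia3_mem` : `[INERTIA3]` in the form `∃ ρ ∈ N, ∀ z, z² = −3 → ρ z = −z`;
* `s52e_sigma0_of_main`: the consumer form for a "four roots" statement
  `∀ N normal, ∀ τ ∈ N, τ s = −s → ∃ τ' ∈ N, …`: it returns `τ' ∈ N` with the same conclusion.
-/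
import Fermat.Agent.Lib.S52.EInertia
import Mathlib.FieldTheory.Galois.Infinite

set_option autoImplicit false
set_option linter.style.haveILetI false

noncomputable section

namespace Fermat.Agent.Lib.S52

open Fermat.Agent.Lib.S58 IntermediateField

local notation "Qbar" => AlgebraicClosure ℚ
local notation "GQ" => (AlgebraicClosure ℚ ≃ₐ[ℚ] AlgebraicClosure ℚ)

/-- the subgroup of `G_ℚ` fixing `μ₅`, `δ` and `W[5]` pointwise. -/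
def s52e_N (W : WeierstrassCurve ℤ) (δ : Qbar) : Subgroup GQ where
  carrier := {σ | (∀ η : Qbar, η ^ 5 = 1 → σ η = η) ∧ σ δ = δ ∧
    ∀ P : s58_Pt W, 5 • P = 0 → σ • P = P}
  one_mem' := ⟨fun _ _ => rfl, rfl, fun P _ => one_smul _ P⟩
  mul_mem' := by
    rintro a b ⟨ha1, ha2, ha3⟩ ⟨hb1, hb2, hb3⟩
    refine ⟨fun η hη => ?_, ?_, fun P hP => ?_⟩
    · rw [AlgEquiv.mul_apply, hb1 η hη, ha1 η hη]
    · rw [AlgEquiv.mul_apply, hb2, ha2]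
    · rw [mul_smul, hb3 P hP, ha3 P hP]
  inv_mem' := by
    rintro a ⟨ha1, ha2, ha3⟩
    refine ⟨fun η hη => ?_, ?_, fun P hP => ?_⟩
    · conv_lhs => rw [← ha1 η hη]
      exact a.symm_apply_apply η
    · conv_lhs => rw [← ha2]
      exact a.symm_apply_apply δ
    · exact inv_smul_eq_iff.mpr (ha3 P hP).symm

theorem s52e_mem_N {W : WeierstrassCurve ℤ} {δ : Qbar} {σ : GQ} :
    σ ∈ s52e_N W δ ↔ (∀ η : Qbar, η ^ 5 = 1 → σ η = η) ∧ σ δ = δ ∧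
      ∀ P : s58_Pt W, 5 • P = 0 → σ • P = P := Iff.rfl

/-- every fifth root of unity is a power of a non-trivial one. -/
theorem s52e_root_eq_pow {ζ : Qbar} (hζ : ζ ^ 5 = 1) (hζ1 : ζ ≠ 1) {η : Qbar} (hη : η ^ 5 = 1) :
    ∃ k : ℕ, η = ζ ^ k := by
  have hdvd : orderOf ζ ∣ 5 := orderOf_dvd_of_pow_eq_one hζ
  have hord : orderOf ζ = 5 := by
    rcases (Nat.dvd_prime (by norm_num : Nat.Prime 5)).mp hdvd with h | h
    · exact absurd (orderOf_eq_one_iff.mp h) hζ1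
    · exact h
  have hprim : IsPrimitiveRoot ζ 5 := hord ▸ IsPrimitiveRoot.orderOf ζ
  obtain ⟨k, -, hk⟩ := hprim.eq_pow_of_pow_eq_one hη
  exact ⟨k, hk.symm⟩

/-- an automorphism fixing one non-trivial fifth root of unity fixes all of them. -/
theorem s52e_fix_roots {ζ : Qbar} (hζ : ζ ^ 5 = 1) (hζ1 : ζ ≠ 1) {σ : GQ} (hσ : σ ζ = ζ)
    {η : Qbar} (hη : η ^ 5 = 1) : σ η = η := by
  obtain ⟨k, rfl⟩ := s52e_root_eq_pow hζ hζ1 hη
  rw [map_pow, hσ]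

theorem s52e_mem_N_of_prim {W : WeierstrassCurve ℤ} {δ ζ : Qbar} (hζ : ζ ^ 5 = 1) (hζ1 : ζ ≠ 1)
    {σ : GQ} (h1 : σ ζ = ζ) (h2 : σ δ = δ) (h3 : ∀ P : s58_Pt W, 5 • P = 0 → σ • P = P) :
    σ ∈ s52e_N W δ :=
  ⟨fun _ hη => s52e_fix_roots hζ hζ1 h1 hη, h2, h3⟩

/-- a non-trivial fifth root of unity in `ℚ̄`. -/
theorem s52e_exists_zeta : ∃ ζ : Qbar, ζ ^ 5 = 1 ∧ ζ ≠ 1 := by
  obtain ⟨ζ, hζ⟩ : ∃ ζ : Qbar, IsPrimitiveRoot ζ 5 :=
    HasEnoughRootsOfUnity.exists_primitiveRoot Qbar 5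
  exact ⟨ζ, hζ.pow_eq_one, hζ.ne_one (by norm_num)⟩

/-- `N` is a normal subgroup. -/
theorem s52e_N_normal (W : WeierstrassCurve ℤ) (δ : Qbar) (hδ : δ ^ 5 = ((W.Δ : ℤ) : Qbar)) :
    (s52e_N W δ).Normal := by
  refine ⟨fun σ hσ g => ?_⟩
  obtain ⟨h1, h2, h3⟩ := hσ
  refine ⟨fun η hη => ?_, ?_, fun P hP => ?_⟩
  · have hη' : (g⁻¹ η) ^ 5 = 1 := by rw [← map_pow, hη, map_one]
    rw [AlgEquiv.mul_apply, AlgEquiv.mul_apply, h1 _ hη']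
    exact g.apply_symm_apply η
  · by_cases hδ0 : δ = 0
    · rw [hδ0, map_zero]
    · have hη5 : (g⁻¹ δ / δ) ^ 5 = 1 := by
        rw [div_pow, ← map_pow, hδ, map_intCast, ← hδ, div_self (pow_ne_zero 5 hδ0)]
      have hgd : g⁻¹ δ = (g⁻¹ δ / δ) * δ := (div_mul_cancel₀ _ hδ0).symm
      have hσgd : σ (g⁻¹ δ) = g⁻¹ δ := by
        conv_lhs => rw [hgd]
        rw [map_mul, h1 _ hη5, h2, ← hgd]
      rw [AlgEquiv.mul_apply, AlgEquiv.mul_apply, hσgd]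
      exact g.apply_symm_apply δ
  · have h5 : 5 • (g⁻¹ • P) = 0 := s52e_smul_tors g⁻¹ hP
    rw [mul_smul, mul_smul, h3 _ h5, smul_inv_smul]

/-- the field `ℚ(μ₅, δ, W[5])`, as the fixed field of `N`. -/
def s52e_K (W : WeierstrassCurve ℤ) (δ : Qbar) : IntermediateField ℚ Qbar :=
  IntermediateField.fixedField (s52e_N W δ)

theorem s52e_mem_K {W : WeierstrassCurve ℤ} {δ x : Qbar} :
    x ∈ s52e_K W δ ↔ ∀ σ ∈ s52e_N W δ, σ x = x := by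
  unfold s52e_K
  rw [IntermediateField.mem_fixedField_iff]

theorem s52e_K_fix {W : WeierstrassCurve ℤ} {δ : Qbar} {σ : GQ} (hσ : σ ∈ s52e_N W δ)
    {x : Qbar} (hx : x ∈ s52e_K W δ) : σ x = x := s52e_mem_K.mp hx σ hσ

/-- `K` is Galois-stable. -/
theorem s52e_K_stable (W : WeierstrassCurve ℤ) (δ : Qbar) (hδ : δ ^ 5 = ((W.Δ : ℤ) : Qbar))
    (g : GQ) {x : Qbar} (hx : x ∈ s52e_K W δ) : g x ∈ s52e_K W δ := by
  rw [s52e_mem_K] at hx ⊢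
  intro σ hσ
  have hn := s52e_N_normal W δ hδ
  have h1 : g⁻¹ * σ * g⁻¹⁻¹ ∈ s52e_N W δ := hn.conj_mem σ hσ g⁻¹
  rw [inv_inv] at h1
  have h2 := hx _ h1
  rw [AlgEquiv.mul_apply, AlgEquiv.mul_apply] at h2
  have h3 := congrArg g h2
  rw [show g (g⁻¹ (σ (g x))) = σ (g x) from g.apply_symm_apply _] at h3
  exact h3

theorem s52e_isGalois_Qbar : IsGalois ℚ Qbar := by
  have h1 : Algebra.IsAlgebraic ℚ Qbar := AlgebraicClosure.isAlgebraic ℚ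
  have h2 : IsAlgClosure ℚ Qbar := ⟨inferInstance, h1⟩
  exact IsAlgClosure.isGalois ℚ Qbar

/-- `K` is contained in a finite extension of `ℚ`. -/
theorem s52e_K_le (W : WeierstrassCurve ℤ) (hΔ : W.Δ ≠ 0) (δ : Qbar) :
    ∃ L : IntermediateField ℚ Qbar, FiniteDimensional ℚ L ∧ s52e_K W δ ≤ L := by
  haveI := s52e_isGalois_Qbar
  obtain ⟨L₀, hfd, hL₀⟩ := s58o_ellLevel W hΔ 5 (by norm_num)
  obtain ⟨ζ, hζ, hζ1⟩ := s52e_exists_zeta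
  have hint : ∀ x : Qbar, IsIntegral ℚ x := fun x =>
    ((AlgebraicClosure.isAlgebraic ℚ).isAlgebraic x).isIntegral
  have h1 : FiniteDimensional ℚ ↥ℚ⟮ζ⟯ := IntermediateField.adjoin.finiteDimensional (hint ζ)
  have h2 : FiniteDimensional ℚ ↥ℚ⟮δ⟯ := IntermediateField.adjoin.finiteDimensional (hint δ)
  have h3 : FiniteDimensional ℚ ↥(L₀ ⊔ ℚ⟮ζ⟯) := IntermediateField.finiteDimensional_sup L₀ ℚ⟮ζ⟯
  have h4 : FiniteDimensional ℚ ↥(L₀ ⊔ ℚ⟮ζ⟯ ⊔ ℚ⟮δ⟯) :=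
    IntermediateField.finiteDimensional_sup (L₀ ⊔ ℚ⟮ζ⟯) ℚ⟮δ⟯
  refine ⟨L₀ ⊔ ℚ⟮ζ⟯ ⊔ ℚ⟮δ⟯, h4, ?_⟩
  set L : IntermediateField ℚ Qbar := L₀ ⊔ ℚ⟮ζ⟯ ⊔ ℚ⟮δ⟯ with hL
  have hsub : L.fixingSubgroup ≤ s52e_N W δ := by
    intro σ hσ
    have hfix : ∀ x ∈ L, σ x = x := fun x hx =>
      (IntermediateField.mem_fixingSubgroup_iff L σ).mp hσ x hx
    have hL₀L : L₀ ≤ L := le_sup_left.trans le_sup_left
    have hζL : ζ ∈ L :=
      (le_sup_left : L₀ ⊔ ℚ⟮ζ⟯ ≤ L) ((le_sup_right : ℚ⟮ζ⟯ ≤ L₀ ⊔ ℚ⟮ζ⟯)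
        (IntermediateField.mem_adjoin_simple_self ℚ ζ))
    have hδL : δ ∈ L :=
      (le_sup_right : ℚ⟮δ⟯ ≤ L) (IntermediateField.mem_adjoin_simple_self ℚ δ)
    exact s52e_mem_N_of_prim hζ hζ1 (hfix ζ hζL) (hfix δ hδL)
      (fun P hP => hL₀ σ (fun x hx => hfix x (hL₀L hx)) P hP)
  intro x hx
  rw [← InfiniteGalois.fixedField_fixingSubgroup L, IntermediateField.mem_fixedField_iff]
  intro σ hσ
  exact s52e_K_fix (hsub hσ) hx

/-- `K` is finite over `ℚ`. -/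
theorem s52e_K_finite (W : WeierstrassCurve ℤ) (hΔ : W.Δ ≠ 0) (δ : Qbar) :
    FiniteDimensional ℚ (s52e_K W δ) := by
  obtain ⟨L, hL, hle⟩ := s52e_K_le W hΔ δ
  have hL' : Module.Finite ℚ ↥L := by convert hL
  have : Module.Finite ℚ ↥(s52e_K W δ) :=
    Module.Finite.of_injective (IntermediateField.inclusion hle).toLinearMap
      (IntermediateField.inclusion hle).injective
  convert this

/-- **[INERTIA3]**, membership form. -/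
theorem s52e_inertia3_mem (W : WeierstrassCurve ℤ) (hΔ : W.Δ ≠ 0) (hss : W.IsSemistableModel)
    (δ : Qbar) (hδ : δ ^ 5 = ((W.Δ : ℤ) : Qbar)) :
    ∃ ρ ∈ s52e_N W δ, ∀ z : Qbar, z ^ 2 = -3 → ρ z = -z := by
  obtain ⟨ζ, hζ, hζ1⟩ := s52e_exists_zeta
  obtain ⟨ρ, h1, h2, h3, h4⟩ := s52e_inertia3 W hΔ hss ζ δ hζ hδ
  exact ⟨ρ, s52e_mem_N_of_prim hζ hζ1 h1 h2 h3, h4⟩

/-- the consumer form: any statement of the shape "a normal subgroup containing an element which negates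
`s = √−3` contains an element with property `Φ`" yields such an element of `N`. -/
theorem s52e_sigma0_of_main (W : WeierstrassCurve ℤ) (hΔ : W.Δ ≠ 0) (hss : W.IsSemistableModel)
    (δ : Qbar) (hδ : δ ^ 5 = ((W.Δ : ℤ) : Qbar)) (Φ : GQ → Prop)
    (hmain : ∃ s : Qbar, s ^ 2 = -3 ∧ ∀ N : Subgroup GQ, N.Normal → ∀ τ ∈ N, τ s = -s →
      ∃ τ' ∈ N, Φ τ') :
    ∃ τ' ∈ s52e_N W δ, Φ τ' := by
  obtain ⟨s, hs, h⟩ := hmain
  obtain ⟨ρ, hρ, hρs⟩ := s52e_inertia3_mem W hΔ hss δ hδ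
  exact h _ (s52e_N_normal W δ hδ) ρ hρ (hρs s hs)

end Fermat.Agent.Lib.S52
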