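/-
PROGRAMME K (S52, the 3–5 switch), helper6, prefix `s52e_`: the contract **[SHORT-ISO]** `s52_ShortIso` and
**[SHORT-AP]** (`s52e_shortAp`: `a_ℓ(short W) = a_ℓ(W)`, `ℓ ≠ 2, 3`) on the short model
`y² = x³ − 27 c₄ x − 54 c₆` of an integral model `W`.

Both are the explicit change of variables `s52m_short` (helper3, `Lib/S52/MModel.lean`: `u = 1/6`, `r = −b₂/12`,
`s = −a₁/2`, `t = −(a₃ + r a₁)/2` over any field with `6 ≠ 0`) fed to the landed point-level machinery
`Lib/Frey/VarChange(Map)`: over `ℚ` it gives the Galois-equivariant group isomorphism on `ℚ̄`-points, over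
`𝔽_ℓ` (`ℓ ≠ 2, 3`) the equality of point counts.
-/
import Fermat.Agent.Lib.S52.Iface
import Fermat.Agent.Lib.S52.MModel
import Fermat.Agent.Lib.Frey.VarChangeMap

set_option autoImplicit false

noncomputable section

namespace Fermat.Agent.Lib.S52

open WeierstrassCurve Fermat.Agent.Lib.S58 Fermat.Agent.Lib.Frey

local notation "Qbar" => AlgebraicClosure ℚ

/-- the base change of the short integral model is the short curve of the base-changed invariants. -/
theorem s52e_short_map {F : Type*} [Field F] (W : WeierstrassCurve ℤ) (f : ℤ →+* F) :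
    (s52_short W).map f = s52m_shortOf (W.map f).c₄ (W.map f).c₆ := by
  rw [map_c₄, map_c₆]
  unfold s52_short s52_sh s52m_shortOf
  ext <;> simp [WeierstrassCurve.map]

/-- **[SHORT-ISO]** -/
theorem s52e_shortIso : s52_ShortIso := by
  intro W _
  obtain ⟨C, hC⟩ := s52m_short (by norm_num : (6 : ℚ) ≠ 0) (W.map (Int.castRingHom ℚ))
  have h : C • (W.map (Int.castRingHom ℚ)) = (s52_short W).map (Int.castRingHom ℚ) :=
    hC.trans (s52e_short_map W _).symm
  refine ⟨(fvc_baseChangeEquiv (K := Qbar) ((s52_short W).map (Int.castRingHom ℚ))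
    (W.map (Int.castRingHom ℚ)) C h).symm, fun σ P => ?_⟩
  apply (fvc_baseChangeEquiv (K := Qbar) ((s52_short W).map (Int.castRingHom ℚ))
    (W.map (Int.castRingHom ℚ)) C h).injective
  rw [AddEquiv.apply_symm_apply, fvc_baseChangeEquiv_smul (S := ℚ), AddEquiv.apply_symm_apply]

/-- `6 ≠ 0` in `𝔽_ℓ`, `ℓ ≠ 2, 3`. -/
theorem s52e_six_ne_zero {ℓ : ℕ} (hℓ : ℓ.Prime) (h2 : ℓ ≠ 2) (h3 : ℓ ≠ 3) : (6 : ZMod ℓ) ≠ 0 := by
  have h : ((6 : ℕ) : ZMod ℓ) ≠ 0 := by
    rw [Ne, ZMod.natCast_eq_zero_iff]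
    intro hd
    have h23 : ℓ ∣ 2 * 3 := by simpa using hd
    rcases (Nat.Prime.dvd_mul hℓ).mp h23 with h | h
    · exact h2 ((Nat.prime_dvd_prime_iff_eq hℓ Nat.prime_two).mp h)
    · exact h3 ((Nat.prime_dvd_prime_iff_eq hℓ Nat.prime_three).mp h)
  simpa using h

/-- **[SHORT-AP]** `a_ℓ` of the short model, `ℓ ≠ 2, 3`. -/
theorem s52e_shortAp (W : WeierstrassCurve ℤ) (ℓ : ℕ) (hℓ : ℓ.Prime) (h2 : ℓ ≠ 2) (h3 : ℓ ≠ 3) :
    (s52_short W).apOfModel ℓ = W.apOfModel ℓ := by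
  have : Fact ℓ.Prime := ⟨hℓ⟩
  obtain ⟨C, hC⟩ := s52m_short (s52e_six_ne_zero hℓ h2 h3) (W.reductionMod ℓ)
  have h : (s52_short W).reductionMod ℓ = C • (W.reductionMod ℓ) := by
    rw [hC]
    exact s52e_short_map W _
  unfold apOfModel traceOfFrobenius
  rw [h, s52m_card_smul]

end Fermat.Agent.Lib.S52
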