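import Mathlib

/-
Programme K (S52, the 3–5 switch), piece H (helper7): **Hilbert 90 for `GL_n`** (Speiser).

For a normal algebraic extension `E/K`, a finite subextension `L` and a map
`g : Gal(E/K) → M_n(E)` with
* `g (σ τ) = g σ * σ(g τ)` (1-cocycle, entrywise Galois action `Matrix.map`), and
* `g σ = 1` for `σ ∈ Gal(E/L)` (i.e. `g` is continuous / factors through a finite quotient),
there is an invertible `A` with `σ(A) = A * g σ` for all `σ` (`s52h_hilbert90`); if `E/K` is Galois
the entries of `A` lie in `L` (`s52h_hilbert90_mem`).  No invertibility hypothesis on `g σ` is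
needed.  `s52h_hilbert90_rat` is the form used for `ℚ̄/ℚ`, including the row-vector consequence
`σ(v A) = (v A) · g σ` for `v ∈ ℚⁿ` (blueprint step A5).

Proof: Poincaré series `B(C) = ∑_φ g(φ̃) · φ(C)` over the embeddings `φ : L → E`
(`φ̃` any extension of `φ` to `E`), semi-invariance `g σ · σ(B) = B`, and Dedekind's independence of
characters to find `C ∈ M_n(L)` with `B(C)` invertible; `A = B(C)⁻¹`.  Mathlib only.
-/

set_option autoImplicit false
set_option linter.unusedSectionVars false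

noncomputable section

namespace Fermat.Agent.Lib.S52

open Matrix

section General

variable {K E : Type*} [Field K] [Field E] [Algebra K E]

/-- Every `K`-embedding of a subextension `L ⊆ E` into a normal extension `E`
extends to a `K`-automorphism of `E`. -/
theorem s52h_exists_lift [Normal K E] (L : IntermediateField K E)
    (φ : L →ₐ[K] E) : ∃ σ : E ≃ₐ[K] E, ∀ x : L, σ (x : E) = φ x := by
  let ψ : E →ₐ[K] E := φ.liftNormal E
  have hψ : ∀ x : L, ψ (x : E) = φ x := fun x => by
    have := AlgHom.liftNormal_commutes φ E x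
    simpa using this
  have hbij : Function.Bijective ψ := Algebra.IsAlgebraic.algHom_bijective ψ
  exact ⟨AlgEquiv.ofBijective ψ hbij, fun x => hψ x⟩

variable [Normal K E] (L : IntermediateField K E)

/-- a chosen extension of an embedding `L → E` to an automorphism of `E` -/
def s52h_lift (φ : L →ₐ[K] E) : E ≃ₐ[K] E := (s52h_exists_lift L φ).choose

theorem s52h_lift_spec (φ : L →ₐ[K] E) (x : L) : s52h_lift L φ (x : E) = φ x :=
  (s52h_exists_lift L φ).choose_spec x

variable {n : Type*} [Fintype n] [DecidableEq n]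
variable (g : (E ≃ₐ[K] E) → Matrix n n E)

/-- a cocycle that is trivial on `Gal(E/L)` only depends on the restriction to `L` -/
theorem s52h_g_congr
    (hcoc : ∀ σ τ, g (σ * τ) = g σ * (g τ).map σ)
    (htriv : ∀ σ ∈ L.fixingSubgroup, g σ = 1)
    {σ σ' : E ≃ₐ[K] E} (h : ∀ x : L, σ (x : E) = σ' (x : E)) : g σ = g σ' := by
  have hmem : σ⁻¹ * σ' ∈ L.fixingSubgroup := by
    rw [IntermediateField.mem_fixingSubgroup_iff]
    intro x hx
    show σ⁻¹ (σ' x) = x
    rw [← h ⟨x, hx⟩]
    exact σ.symm_apply_apply x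
  have h2 : σ' = σ * (σ⁻¹ * σ') := by group
  rw [h2, hcoc, htriv _ hmem, Matrix.map_one _ (map_zero σ) (map_one σ), mul_one]

variable [FiniteDimensional K L]

/-- composition with an automorphism permutes the embeddings `L → E` -/
def s52h_compEquiv (σ : E ≃ₐ[K] E) : (L →ₐ[K] E) ≃ (L →ₐ[K] E) where
  toFun φ := (σ : E →ₐ[K] E).comp φ
  invFun φ := (σ.symm : E →ₐ[K] E).comp φ
  left_inv φ := by ext x; simp
  right_inv φ := by ext x; simp

/-- the Poincaré series of a matrix `C` with entries in `L` -/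
def s52h_poincare (C : Matrix n n L) : Matrix n n E :=
  ∑ φ : L →ₐ[K] E, g (s52h_lift L φ) * C.map φ

theorem s52h_poincare_semiinvariant
    (hcoc : ∀ σ τ, g (σ * τ) = g σ * (g τ).map σ)
    (htriv : ∀ σ ∈ L.fixingSubgroup, g σ = 1)
    (C : Matrix n n L) (σ : E ≃ₐ[K] E) :
    g σ * (s52h_poincare L g C).map σ = s52h_poincare L g C := by
  have hmap : (s52h_poincare L g C).map σ
      = ∑ φ : L →ₐ[K] E, (g (s52h_lift L φ)).map σ * C.map ((σ : E →ₐ[K] E).comp φ) := by
    have h1 : (s52h_poincare L g C).map σ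
        = (σ : E →+* E).mapMatrix (s52h_poincare L g C) := rfl
    rw [h1, s52h_poincare, map_sum]
    refine Finset.sum_congr rfl fun φ _ => ?_
    rw [map_mul]
    rfl
  rw [hmap, Finset.mul_sum]
  have hterm : ∀ φ : L →ₐ[K] E,
      g σ * ((g (s52h_lift L φ)).map σ * C.map ((σ : E →ₐ[K] E).comp φ))
        = g (s52h_lift L (s52h_compEquiv L σ φ)) * C.map (s52h_compEquiv L σ φ) := by
    intro φ
    rw [← mul_assoc, ← hcoc]
    congr 1
    apply s52h_g_congr L g hcoc htriv
    intro x
    rw [s52h_lift_spec]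
    show σ (s52h_lift L φ x) = σ (φ x)
    rw [s52h_lift_spec]
  rw [Finset.sum_congr rfl fun φ _ => hterm φ]
  exact Equiv.sum_comp (s52h_compEquiv L σ) fun φ => g (s52h_lift L φ) * C.map φ

/-- the Poincaré series of a vector with entries in `L` -/
def s52h_poincareVec (x : n → L) : n → E :=
  ∑ φ : L →ₐ[K] E, g (s52h_lift L φ) *ᵥ fun i => φ (x i)

theorem s52h_poincare_apply (C : Matrix n n L) (i j : n) :
    s52h_poincare L g C i j = s52h_poincareVec L g (fun k => C k j) i := by
  simp only [s52h_poincare, s52h_poincareVec, Matrix.sum_apply, Finset.sum_apply, Matrix.mul_apply,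
    Matrix.mulVec, dotProduct, Matrix.map_apply]

theorem s52h_lift_val_mem : s52h_lift L L.val ∈ L.fixingSubgroup := by
  rw [IntermediateField.mem_fixingSubgroup_iff]
  intro x hx
  exact s52h_lift_spec L L.val ⟨x, hx⟩

/-- Dedekind: the Poincaré vectors span `Eⁿ`. -/
theorem s52h_span_poincareVec
    (htriv : ∀ σ ∈ L.fixingSubgroup, g σ = 1) :
    Submodule.span E (Set.range (s52h_poincareVec L g)) = ⊤ := by
  by_contra hne
  obtain ⟨f, hf0, hfker⟩ := Submodule.exists_le_ker_of_lt_top _ (lt_top_iff_ne_top.mpr hne)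
  apply hf0
  -- `f` kills all Poincaré vectors
  have hkill : ∀ x : n → L, f (s52h_poincareVec L g x) = 0 := fun x =>
    hfker (Submodule.subset_span ⟨x, rfl⟩)
  -- test on `x = c • e_i`
  have hcoef : ∀ (i : n) (φ : L →ₐ[K] E), f ((g (s52h_lift L φ)).col i) = 0 := by
    intro i
    have hli := linearIndependent_toLinearMap K L E
    rw [Fintype.linearIndependent_iff] at hli
    apply hli (fun φ => f ((g (s52h_lift L φ)).col i))
    ext c
    have h1 := hkill (Pi.single i c)
    rw [s52h_poincareVec, map_sum] at h1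
    rw [LinearMap.sum_apply, LinearMap.zero_apply, ← h1]
    refine Finset.sum_congr rfl fun φ _ => ?_
    have h2 : (fun k => φ ((Pi.single i c : n → L) k)) = Pi.single i (φ c) := by
      ext k
      by_cases hk : k = i
      · subst hk; simp
      · simp [Pi.single_eq_of_ne hk]
    rw [h2, Matrix.mulVec_single]
    have h3 : (MulOpposite.op (φ c) • (g (s52h_lift L φ)).col i)
        = φ c • (g (s52h_lift L φ)).col i := by
      ext k; simp [mul_comm]
    rw [h3, map_smul]
    simp [mul_comm]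
  -- the inclusion `L → E` has `g = 1`
  have hone : g (s52h_lift L L.val) = 1 := htriv _ (s52h_lift_val_mem L)
  apply LinearMap.pi_ext
  intro i c
  have h4 := hcoef i L.val
  rw [hone] at h4
  have h5 : (Pi.single i c : n → E) = c • (1 : Matrix n n E).col i := by
    ext k
    by_cases hk : k = i
    · subst hk; simp [Matrix.col]
    · simp [Matrix.col, Pi.single_eq_of_ne hk, Matrix.one_apply_ne (Ne.symm hk)]
  rw [h5, map_smul, h4, smul_zero, LinearMap.zero_apply]

/-- some Poincaré series is invertible -/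
theorem s52h_exists_isUnit_poincare
    (htriv : ∀ σ ∈ L.fixingSubgroup, g σ = 1) :
    ∃ C : Matrix n n L, IsUnit (s52h_poincare L g C) := by
  classical
  obtain ⟨T, hTsub, hTspan, hTli⟩ :=
    exists_linearIndependent E (Set.range (s52h_poincareVec L g))
  rw [s52h_span_poincareVec L g htriv] at hTspan
  let bT : Module.Basis T E (n → E) :=
    Module.Basis.mk hTli (by rw [Subtype.range_coe]; exact hTspan.ge)
  let e : n ≃ T := (Pi.basisFun E n).indexEquiv bT
  have hpre : ∀ j : n, ∃ x : n → L, s52h_poincareVec L g x = ((e j : T) : n → E) :=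
    fun j => hTsub (e j).2
  choose x hx using hpre
  refine ⟨Matrix.of fun i j => x j i, ?_⟩
  rw [← Matrix.linearIndependent_cols_iff_isUnit]
  have hcol : (s52h_poincare L g (Matrix.of fun i j => x j i)).col
      = fun j => ((e j : T) : n → E) := by
    ext j i
    rw [Matrix.col_apply, s52h_poincare_apply]
    simp only [Matrix.of_apply]
    rw [hx]
  rw [hcol]
  exact hTli.comp e e.injective

/-- **Hilbert 90 for `GL_n`** (Speiser), for a cocycle that is trivial on the open subgroup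
`Gal(E/L)`, `L/K` finite: `g σ = A⁻¹ σ(A)`, in the form `σ(A) = A * g σ`. -/
theorem s52h_hilbert90
    (hcoc : ∀ σ τ, g (σ * τ) = g σ * (g τ).map σ)
    (htriv : ∀ σ ∈ L.fixingSubgroup, g σ = 1) :
    ∃ A : Matrix n n E, IsUnit A.det ∧ ∀ σ : E ≃ₐ[K] E, A.map σ = A * g σ := by
  obtain ⟨C, hC⟩ := s52h_exists_isUnit_poincare L g htriv
  set B := s52h_poincare L g C with hB
  have hBdet : IsUnit B.det := (Matrix.isUnit_iff_isUnit_det B).mp hC
  refine ⟨B⁻¹, (Matrix.isUnit_nonsing_inv_det_iff).mpr hBdet, fun σ => ?_⟩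
  have hsemi := s52h_poincare_semiinvariant L g hcoc htriv C σ
  rw [← hB] at hsemi
  have h1 : (B⁻¹).map σ * B.map σ = 1 := by
    rw [← Matrix.map_mul, Matrix.nonsing_inv_mul _ hBdet,
      Matrix.map_one _ (map_zero σ) (map_one σ)]
  have h2 : B⁻¹ * g σ * B.map σ = 1 := by
    rw [mul_assoc, hsemi, Matrix.nonsing_inv_mul _ hBdet]
  have h3 : B.map σ * (B⁻¹ * g σ) = 1 := mul_eq_one_comm.mp h2
  calc (B⁻¹).map σ = (B⁻¹).map σ * (B.map σ * (B⁻¹ * g σ)) := by rw [h3, mul_one]
    _ = ((B⁻¹).map σ * B.map σ) * (B⁻¹ * g σ) := by rw [mul_assoc]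
    _ = B⁻¹ * g σ := by rw [h1, one_mul]

/-- **Hilbert 90 for `GL_n`, with field of definition**: the matrix `A` has entries in `L`. -/
theorem s52h_hilbert90_mem [IsGalois K E]
    (hcoc : ∀ σ τ, g (σ * τ) = g σ * (g τ).map σ)
    (htriv : ∀ σ ∈ L.fixingSubgroup, g σ = 1) :
    ∃ A : Matrix n n E, IsUnit A.det ∧ (∀ σ : E ≃ₐ[K] E, A.map σ = A * g σ) ∧
      ∀ i j, A i j ∈ L := by
  obtain ⟨A, hdet, hA⟩ := s52h_hilbert90 L g hcoc htriv
  refine ⟨A, hdet, hA, fun i j => ?_⟩
  rw [← InfiniteGalois.fixedField_fixingSubgroup L, IntermediateField.mem_fixedField_iff]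
  intro σ hσ
  have h := hA σ
  rw [htriv σ hσ, mul_one] at h
  have h2 := congrFun (congrFun h i) j
  simpa using h2

/-- Row-vector form: for a row vector `v` with entries in `K`, the vector `ω = v A` satisfies
`σ(ω) = ω · g σ`. -/
theorem s52h_vecMul_semiinvariant {A : Matrix n n E}
    (hA : ∀ σ : E ≃ₐ[K] E, A.map σ = A * g σ) (v : n → K) (σ : E ≃ₐ[K] E) :
    (fun j => σ (((fun i => algebraMap K E (v i)) ᵥ* A) j))
      = ((fun i => algebraMap K E (v i)) ᵥ* A) ᵥ* g σ := by
  rw [Matrix.vecMul_vecMul, ← hA σ]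
  ext j
  simp only [Matrix.vecMul, dotProduct, map_sum, map_mul, AlgEquiv.commutes, Matrix.map_apply]

end General

section Rat

local notation "Qbar" => AlgebraicClosure ℚ
local notation "Γℚ" => (AlgebraicClosure ℚ ≃ₐ[ℚ] AlgebraicClosure ℚ)

/-- **Hilbert 90 for `GL_n(ℚ̄)`**: a 1-cocycle `g : G_ℚ → M_n(ℚ̄)` (`g(στ) = g(σ)·σ(g(τ))`) that is
trivial on `Gal(ℚ̄/L)` for a number field `L ⊆ ℚ̄` is a coboundary: there is `A ∈ GL_n(L)` with
`σ(A) = A · g(σ)` for all `σ`. -/
theorem s52h_hilbert90_rat {n : Type*} [Fintype n] [DecidableEq n]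
    (L : IntermediateField ℚ Qbar) [FiniteDimensional ℚ L]
    (g : Γℚ → Matrix n n Qbar)
    (hcoc : ∀ σ τ, g (σ * τ) = g σ * (g τ).map σ)
    (htriv : ∀ σ : Γℚ, (∀ x ∈ L, σ x = x) → g σ = 1) :
    ∃ A : Matrix n n Qbar, IsUnit A.det ∧ (∀ σ : Γℚ, A.map σ = A * g σ) ∧
      (∀ i j, A i j ∈ L) ∧
      ∀ (v : n → ℚ) (σ : Γℚ),
        (fun j => σ (((fun i => algebraMap ℚ Qbar (v i)) ᵥ* A) j))
          = ((fun i => algebraMap ℚ Qbar (v i)) ᵥ* A) ᵥ* g σ := by
  have h0 : (DivisionRing.toRatAlgebra : Algebra ℚ Qbar) = AlgebraicClosure.instAlgebra ℚ :=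
    Subsingleton.elim _ _
  have h1 : Algebra.IsAlgebraic ℚ Qbar := by
    have h := AlgebraicClosure.isAlgebraic ℚ
    rw [← h0] at h
    exact h
  have h2 : IsAlgClosure ℚ Qbar := ⟨inferInstance, inferInstance⟩
  have hGal : IsGalois ℚ Qbar := IsAlgClosure.isGalois ℚ Qbar
  obtain ⟨A, hdet, hA, hmem⟩ := s52h_hilbert90_mem L g hcoc
    (fun σ hσ => htriv σ ((IntermediateField.mem_fixingSubgroup_iff L σ).mp hσ))
  exact ⟨A, hdet, hA, hmem, fun v σ => s52h_vecMul_semiinvariant g hA v σ⟩

end Rat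

end Fermat.Agent.Lib.S52
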