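import Fermat.Agent.Lib.S52.H90Orbit

/-
Programme K (S52), piece H, part 3 (helper7): **descent of invariant forms** (for D1, helper3).

If `σ(A) = A · g σ` for all `σ ∈ G_ℚ` and a form `Φ` with rational (or integral) coefficients is
invariant under all the `g σ` (pointwise on `ℚ̄ⁿ`), then the substituted form `Φ(X · A)` has
RATIONAL coefficients: `s52h_descent` gives `h ∈ ℚ[X]` with `map h = Φ(X·A)` as polynomials over
`ℚ̄`, hence `h(w) = Φ(w·A)` for every `w ∈ ℚ̄ⁿ` and in particular at rational points.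
`s52h_descent_int` / `s52h_descent_int_two`: `ℤ`-coefficients, and `n = Fin 2` in coordinates.
-/

set_option autoImplicit false
set_option linter.unusedSectionVars false

noncomputable section

namespace Fermat.Agent.Lib.S52

open Matrix MvPolynomial

local notation "Qbar" => AlgebraicClosure ℚ
local notation "Γℚ" => (AlgebraicClosure ℚ ≃ₐ[ℚ] AlgebraicClosure ℚ)

variable {n : Type*} [Fintype n] [DecidableEq n]

/-- the linear substitution `Φ ↦ Φ(X · A)` as a polynomial over `ℚ̄` -/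
def s52h_subst (Φ : MvPolynomial n ℚ) (A : Matrix n n Qbar) : MvPolynomial n Qbar :=
  aeval (fun j => ∑ i, C (A i j) * X i) Φ

theorem s52h_eval_subst (Φ : MvPolynomial n ℚ) (A : Matrix n n Qbar) (w : n → Qbar) :
    eval w (s52h_subst Φ A) = aeval (w ᵥ* A) Φ := by
  rw [s52h_subst, map_aeval, aeval_def]
  have h1 : (eval w).comp (algebraMap ℚ (MvPolynomial n Qbar)) = algebraMap ℚ Qbar :=
    RingHom.ext_rat _ _
  rw [h1]
  have h2 : (fun j => eval w (∑ i, C (A i j) * X i)) = w ᵥ* A := by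
    ext j
    simp only [map_sum, map_mul, eval_C, eval_X, Matrix.vecMul, dotProduct]
    exact Finset.sum_congr rfl fun i _ => mul_comm _ _
  rw [h2]
  rfl

/-- a polynomial over `ℚ̄` vanishing at all points with natural-number coordinates is zero -/
theorem s52h_eq_zero_of_eval_nat (Q : MvPolynomial n Qbar)
    (hQ : ∀ v : n → ℕ, eval (fun i => ((v i : ℕ) : Qbar)) Q = 0) : Q = 0 := by
  classical
  let D : ℕ := Finset.univ.sup fun i => degreeOf i Q
  let S : n → Finset Qbar := fun _ => (Finset.range (D + 1)).image fun k : ℕ => (k : Qbar)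
  apply eq_zero_of_eval_zero_at_prod_finset Q S
  · intro i
    have hcard : (S i).card = D + 1 := by
      rw [Finset.card_image_of_injective _ Nat.cast_injective, Finset.card_range]
    rw [hcard]
    exact Nat.lt_succ_of_le (Finset.le_sup (f := fun i => degreeOf i Q) (Finset.mem_univ i))
  · intro x hx
    have hx' : ∀ i, ∃ k : ℕ, (k : Qbar) = x i := fun i => by
      obtain ⟨k, _, hk⟩ := Finset.mem_image.mp (hx i)
      exact ⟨k, hk⟩
    choose v hv using hx'
    have : x = fun i => ((v i : ℕ) : Qbar) := funext fun i => (hv i).symm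
    rw [this]
    exact hQ v

/-- **Descent of invariant forms** (requested by helper3 for D1): if `σ(A) = A · g σ` and the form
`Φ` (coefficients in `ℚ`) is invariant under all `g σ`, then `Φ(X · A)` has rational coefficients:
there is `h ∈ ℚ[X]` with `h(w) = Φ(w · A)` for all `w ∈ ℚ̄ⁿ`. -/
theorem s52h_descent (Φ : MvPolynomial n ℚ)
    (g : Γℚ → Matrix n n Qbar) (A : Matrix n n Qbar)
    (hA : ∀ σ : Γℚ, A.map σ = A * g σ)
    (hinv : ∀ (σ : Γℚ) (ω : n → Qbar), aeval (ω ᵥ* g σ) Φ = aeval ω Φ) :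
    ∃ h : MvPolynomial n ℚ, map (algebraMap ℚ Qbar) h = s52h_subst Φ A ∧
      (∀ w : n → Qbar, aeval w h = aeval (w ᵥ* A) Φ) ∧
      ∀ v : n → ℚ,
        algebraMap ℚ Qbar (eval v h) = aeval ((fun i => algebraMap ℚ Qbar (v i)) ᵥ* A) Φ := by
  classical
  have hGal := s52h_isGalois_Qbar
  set P := s52h_subst Φ A with hP
  -- values at rational points are Galois-fixed
  have hval : ∀ (σ : Γℚ) (v : n → ℚ),
      σ (eval (fun i => algebraMap ℚ Qbar (v i)) P) = eval (fun i => algebraMap ℚ Qbar (v i)) P := by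
    intro σ v
    rw [hP, s52h_eval_subst]
    have h1 := comp_aeval_apply (f := (fun i => algebraMap ℚ Qbar (v i)) ᵥ* A)
      (σ : Qbar →ₐ[ℚ] Qbar) Φ
    have h2 : (fun j => (σ : Qbar →ₐ[ℚ] Qbar) (((fun i => algebraMap ℚ Qbar (v i)) ᵥ* A) j))
        = ((fun i => algebraMap ℚ Qbar (v i)) ᵥ* A) ᵥ* g σ :=
      s52h_vecMul_semiinvariant g hA v σ
    rw [h2, hinv] at h1
    exact h1
  -- hence `σ(P) = P`
  have hmap : ∀ σ : Γℚ, map (σ : Qbar →+* Qbar) P = P := by
    intro σ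
    rw [← sub_eq_zero]
    apply s52h_eq_zero_of_eval_nat
    intro v
    rw [map_sub, sub_eq_zero, eval_map]
    have h3 := eval₂_comp_left (σ : Qbar →+* Qbar) (RingHom.id Qbar)
      (fun i => ((v i : ℕ) : Qbar)) P
    have h4 : ((σ : Qbar →+* Qbar) ∘ fun i => ((v i : ℕ) : Qbar)) = fun i => ((v i : ℕ) : Qbar) := by
      ext i; simp
    rw [h4, RingHom.comp_id] at h3
    rw [← h3]
    have h5 := hval σ (fun i => (v i : ℚ))
    simp only [map_natCast] at h5
    exact h5
  -- coefficients are rational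
  have hcoef : ∀ m, ∃ r : ℚ, algebraMap ℚ Qbar r = coeff m P := by
    intro m
    apply s52h_rat_of_fixed
    intro σ
    have := congrArg (coeff m) (hmap σ)
    rw [coeff_map] at this
    exact this
  have hrange : P ∈ Set.range (map (algebraMap ℚ Qbar) : MvPolynomial n ℚ → MvPolynomial n Qbar) := by
    rw [mem_range_map_iff_coeffs_subset]
    intro c hc
    obtain ⟨m, -, rfl⟩ := (mem_coeffs_iff).mp hc
    exact hcoef m
  obtain ⟨h, hh⟩ := hrange
  have hw : ∀ w : n → Qbar, aeval w h = aeval (w ᵥ* A) Φ := by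
    intro w
    rw [← s52h_eval_subst, ← hP, ← hh, eval_map, aeval_def]
  refine ⟨h, hh, hw, fun v => ?_⟩
  rw [← hw]
  have := aeval_algebraMap_apply (B := Qbar) v h
  rw [aeval_eq_eval] at this
  exact this.symm

/-- `ℤ`-coefficient version of `s52h_descent`. -/
theorem s52h_descent_int (Φ : MvPolynomial n ℤ)
    (g : Γℚ → Matrix n n Qbar) (A : Matrix n n Qbar)
    (hA : ∀ σ : Γℚ, A.map σ = A * g σ)
    (hinv : ∀ (σ : Γℚ) (ω : n → Qbar), aeval (ω ᵥ* g σ) Φ = aeval ω Φ) :
    ∃ h : MvPolynomial n ℚ,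
      (∀ w : n → Qbar, aeval w h = aeval (w ᵥ* A) Φ) ∧
      ∀ v : n → ℚ,
        algebraMap ℚ Qbar (eval v h) = aeval ((fun i => algebraMap ℚ Qbar (v i)) ᵥ* A) Φ := by
  have key : ∀ ω : n → Qbar, aeval ω (map (algebraMap ℤ ℚ) Φ) = aeval ω Φ :=
    fun ω => aeval_map_algebraMap ℚ ω Φ
  obtain ⟨h, -, hw, hv⟩ := s52h_descent (map (algebraMap ℤ ℚ) Φ) g A hA
    (fun σ ω => by rw [key, key, hinv])
  exact ⟨h, fun w => by rw [hw, key], fun v => by rw [hv, key]⟩

/-- The case `n = Fin 2` in coordinates: `h(X, Y) = Φ(X a₀₀ + Y a₁₀, X a₀₁ + Y a₁₁)` for all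
rational `X, Y` (row vector `(X, Y)` times `A`). -/
theorem s52h_descent_int_two (Φ : MvPolynomial (Fin 2) ℤ)
    (g : Γℚ → Matrix (Fin 2) (Fin 2) Qbar) (A : Matrix (Fin 2) (Fin 2) Qbar)
    (hA : ∀ σ : Γℚ, A.map σ = A * g σ)
    (hinv : ∀ (σ : Γℚ) (ω : Fin 2 → Qbar), aeval (ω ᵥ* g σ) Φ = aeval ω Φ) :
    ∃ h : MvPolynomial (Fin 2) ℚ, ∀ X Y : ℚ,
      algebraMap ℚ Qbar (eval ![X, Y] h)
        = aeval ![algebraMap ℚ Qbar X * A 0 0 + algebraMap ℚ Qbar Y * A 1 0,
            algebraMap ℚ Qbar X * A 0 1 + algebraMap ℚ Qbar Y * A 1 1] Φ := by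
  obtain ⟨h, -, hv⟩ := s52h_descent_int Φ g A hA hinv
  refine ⟨h, fun X Y => ?_⟩
  rw [hv ![X, Y]]
  congr 1
  ext j
  fin_cases j <;> simp [Matrix.vecMul, dotProduct, Fin.sum_univ_two]

end Fermat.Agent.Lib.S52
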