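import Fermat.Agent.Lib.S52.H90

/-
Programme K (S52), piece H, part 2 (helper7): **blueprint step A5 in abstract form**.

`s52h_orbit_cocycle`: for a set `S ⊆ M_n(ℚ̄)` containing `1` and closed under `g * σ(h)`, and a row
vector `w ∈ ℚ̄ⁿ` whose `S`-orbit is Galois-stable (`σ(w) ∈ w · S`) and free (`w g = w h → g = h`),
the rule `σ(w) = w · g σ` defines a 1-cocycle with values in `S`, trivial on `Gal(ℚ̄/ℚ(w))`; by
Hilbert 90 (`H90.lean`) there is `A ∈ GL_n(ℚ(w))` with `σ(A) = A · g σ`, all `v A` (`v ∈ ℚⁿ`) are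
`g`-semi-invariant, and `w = v₀ A` with `v₀ ∈ ℚⁿ`.
-/

set_option autoImplicit false

noncomputable section

namespace Fermat.Agent.Lib.S52

open Matrix

local notation "Qbar" => AlgebraicClosure ℚ
local notation "Γℚ" => (AlgebraicClosure ℚ ≃ₐ[ℚ] AlgebraicClosure ℚ)

theorem s52h_isGalois_Qbar : IsGalois ℚ Qbar := by
  have h0 : (DivisionRing.toRatAlgebra : Algebra ℚ Qbar) = AlgebraicClosure.instAlgebra ℚ :=
    Subsingleton.elim _ _
  have h1 : Algebra.IsAlgebraic ℚ Qbar := by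
    have h := AlgebraicClosure.isAlgebraic ℚ
    rw [← h0] at h
    exact h
  have h2 : IsAlgClosure ℚ Qbar := ⟨inferInstance, inferInstance⟩
  exact IsAlgClosure.isGalois ℚ Qbar

/-- an element of `ℚ̄` fixed by all of `G_ℚ` is rational -/
theorem s52h_rat_of_fixed (x : Qbar) (hx : ∀ σ : Γℚ, σ x = x) :
    ∃ r : ℚ, algebraMap ℚ Qbar r = x := by
  have := s52h_isGalois_Qbar
  exact (InfiniteGalois.mem_range_algebraMap_iff_fixed x).mpr hx

/-- entrywise Galois action on row vectors commutes with `vecMul` -/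
theorem s52h_map_vecMul {n : Type*} [Fintype n] (σ : Γℚ) (w : n → Qbar) (M : Matrix n n Qbar) :
    (fun j => σ ((w ᵥ* M) j)) = (fun i => σ (w i)) ᵥ* M.map σ := by
  ext j
  simp only [Matrix.vecMul, dotProduct, map_sum, map_mul, Matrix.map_apply]

/-- **Blueprint A5, abstract core.**  Let `S ⊆ M_n(ℚ̄)` contain `1` and be closed under the twisted
products `g * σ(h)`, and let `w ∈ ℚ̄ⁿ` be a row vector whose `S`-orbit is Galois-stable and free.
Then `σ(w) = w · g σ` defines a 1-cocycle `g : G_ℚ → S`, and there is `A ∈ GL_n(ℚ(w))` with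
`σ(A) = A · g σ`; every `v A` (`v ∈ ℚⁿ`) satisfies `σ(vA) = (vA) · g σ`, and `w = v₀ A` for a
rational `v₀`. -/
theorem s52h_orbit_cocycle {n : Type*} [Fintype n] [DecidableEq n]
    (S : Set (Matrix n n Qbar)) (h1 : (1 : Matrix n n Qbar) ∈ S)
    (hS : ∀ g ∈ S, ∀ h ∈ S, ∀ σ : Γℚ, g * h.map σ ∈ S)
    (w : n → Qbar)
    (hfree : ∀ g ∈ S, ∀ h ∈ S, w ᵥ* g = w ᵥ* h → g = h)
    (hstab : ∀ σ : Γℚ, ∃ g ∈ S, (fun i => σ (w i)) = w ᵥ* g) :
    ∃ (g : Γℚ → Matrix n n Qbar) (A : Matrix n n Qbar),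
      (∀ σ : Γℚ, g σ ∈ S) ∧ (∀ σ : Γℚ, (fun i => σ (w i)) = w ᵥ* g σ) ∧
      (∀ σ τ : Γℚ, g (σ * τ) = g σ * (g τ).map σ) ∧
      IsUnit A.det ∧ (∀ σ : Γℚ, A.map σ = A * g σ) ∧
      (∀ i j, A i j ∈ IntermediateField.adjoin ℚ (Set.range w)) ∧
      (∀ (v : n → ℚ) (σ : Γℚ),
        (fun j => σ (((fun i => algebraMap ℚ Qbar (v i)) ᵥ* A) j))
          = ((fun i => algebraMap ℚ Qbar (v i)) ᵥ* A) ᵥ* g σ) ∧
      ∃ v₀ : n → ℚ, (fun i => algebraMap ℚ Qbar (v₀ i)) ᵥ* A = w := by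
  classical
  choose g hgS hg using hstab
  -- cocycle
  have hcoc : ∀ σ τ, g (σ * τ) = g σ * (g τ).map σ := by
    intro σ τ
    apply hfree _ (hgS _) _ (hS _ (hgS σ) _ (hgS τ) σ)
    rw [← hg (σ * τ), ← Matrix.vecMul_vecMul, ← hg σ, ← s52h_map_vecMul, ← hg τ]
    rfl
  -- triviality on `Gal(ℚ̄/ℚ(w))`
  set L : IntermediateField ℚ Qbar := IntermediateField.adjoin ℚ (Set.range w) with hL
  have hGal := s52h_isGalois_Qbar
  have hAlg : Algebra.IsAlgebraic ℚ Qbar := inferInstance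
  have hfd : FiniteDimensional ℚ L :=
    IntermediateField.finiteDimensional_adjoin fun x _ =>
      (Algebra.IsAlgebraic.isAlgebraic (R := ℚ) x).isIntegral
  have htriv : ∀ σ : Γℚ, (∀ x ∈ L, σ x = x) → g σ = 1 := by
    intro σ hσ
    apply hfree _ (hgS σ) _ h1
    rw [← hg σ, Matrix.vecMul_one]
    ext i
    exact hσ _ (IntermediateField.subset_adjoin ℚ _ ⟨i, rfl⟩)
  obtain ⟨A, hdet, hA, hmem, hvec⟩ := s52h_hilbert90_rat L g hcoc htriv
  refine ⟨g, A, hgS, hg, hcoc, hdet, hA, hmem, hvec, ?_⟩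
  -- `u = w A⁻¹` is Galois-fixed
  set u : n → Qbar := w ᵥ* A⁻¹ with hu
  have huA : u ᵥ* A = w := by
    rw [hu, Matrix.vecMul_vecMul, Matrix.nonsing_inv_mul _ hdet, Matrix.vecMul_one]
  have hfix : ∀ (σ : Γℚ) (i : n), σ (u i) = u i := by
    intro σ i
    have hdetσ : IsUnit (A.map σ).det := by
      have : (A.map σ).det = σ A.det := by
        have h := (RingHom.map_det (σ : Qbar →+* Qbar) A).symm
        simpa [RingHom.mapMatrix_apply] using h
      rw [this]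
      exact hdet.map σ
    have h2 : (fun i => σ (u i)) ᵥ* A.map σ = u ᵥ* A.map σ := by
      rw [← s52h_map_vecMul, huA, hg σ, hA σ, ← Matrix.vecMul_vecMul, huA]
    have h3 := congrArg (fun x => x ᵥ* (A.map σ)⁻¹) h2
    simp only [Matrix.vecMul_vecMul, Matrix.mul_nonsing_inv _ hdetσ, Matrix.vecMul_one] at h3
    exact congrFun h3 i
  choose v₀ hv₀ using fun i => s52h_rat_of_fixed (u i) fun σ => hfix σ i
  refine ⟨v₀, ?_⟩
  have : (fun i => algebraMap ℚ Qbar (v₀ i)) = u := funext hv₀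
  rw [this, huA]

end Fermat.Agent.Lib.S52
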