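/-
Programme K (S52), [KLEIN-GROUP] (helper7): GENERATED identity file.
`S`-invariance of Klein's forms, in the auxiliary variable `b = ζ² − ζ³` (`a = ζ − ζ⁴ = b³ + 3b`,
`m(b) = b⁴ + 5b² + 5 = 0`): `Φ(−aU + bV, bU + aV) = 5^(deg Φ / 2) · Φ(U, V)`.  Two stages: fifth powers of
the two linear forms reduced modulo `m(b)`, then the forms as polynomials in `U⁵, V⁵`.
Certificates: one-variable polynomial division by `m(b)` (exact integer arithmetic).
-/
import Fermat.Agent.Lib.S52.MBezout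

set_option autoImplicit false
set_option maxHeartbeats 1000000
set_option maxRecDepth 100000

namespace Fermat.Agent.Lib.S52

variable {R : Type*} [CommRing R]

/-- reduced fifth power of `−aU + bV` -/
def s52h_P5 (b U V : R) : R :=
  ((-5) * b + (-5) * b ^ 3) * V ^ 5 +
  ((-50) * b + (-25) * b ^ 3) * U * V ^ 4 +
  (50 * b) * U ^ 2 * V ^ 3 +
  ((-150) * b + (-50) * b ^ 3) * U ^ 3 * V ^ 2 +
  (100 * b + 25 * b ^ 3) * U ^ 4 * V +
  ((-35) * b + (-10) * b ^ 3) * U ^ 5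

/-- reduced fifth power of `bU + aV` -/
def s52h_Q5 (b U V : R) : R :=
  (35 * b + 10 * b ^ 3) * V ^ 5 +
  (100 * b + 25 * b ^ 3) * U * V ^ 4 +
  (150 * b + 50 * b ^ 3) * U ^ 2 * V ^ 3 +
  (50 * b) * U ^ 3 * V ^ 2 +
  (50 * b + 25 * b ^ 3) * U ^ 4 * V +
  ((-5) * b + (-5) * b ^ 3) * U ^ 5

theorem s52h_P5_eq (b U V : R) (hm : b ^ 4 + 5 * b ^ 2 + 5 = 0) :
    (-(b ^ 3 + 3 * b) * U + b * V) ^ 5 = s52h_P5 b U V := by
  unfold s52h_P5
  linear_combination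
    (
      (1 * b) * V ^ 5 +
      (10 * b + (-5) * b ^ 3) * U * V ^ 4 +
      ((-10) * b + 10 * b ^ 3 + 10 * b ^ 5) * U ^ 2 * V ^ 3 +
      (30 * b + (-20) * b ^ 3 + (-40) * b ^ 5 + (-10) * b ^ 7) * U ^ 3 * V ^ 2 +
      ((-20) * b + 15 * b ^ 3 + 70 * b ^ 5 + 35 * b ^ 7 + 5 * b ^ 9) * U ^ 4 * V +
      (7 * b + (-5) * b ^ 3 + (-45) * b ^ 5 + (-35) * b ^ 7 + (-10) * b ^ 9 + (-1) * b ^ 11) * U ^ 5
    ) * hm

theorem s52h_Q5_eq (b U V : R) (hm : b ^ 4 + 5 * b ^ 2 + 5 = 0) :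
    (b * U + (b ^ 3 + 3 * b) * V) ^ 5 = s52h_Q5 b U V := by
  unfold s52h_Q5
  linear_combination
    (
      ((-7) * b + 5 * b ^ 3 + 45 * b ^ 5 + 35 * b ^ 7 + 10 * b ^ 9 + 1 * b ^ 11) * V ^ 5 +
      ((-20) * b + 15 * b ^ 3 + 70 * b ^ 5 + 35 * b ^ 7 + 5 * b ^ 9) * U * V ^ 4 +
      ((-30) * b + 20 * b ^ 3 + 40 * b ^ 5 + 10 * b ^ 7) * U ^ 2 * V ^ 3 +
      ((-10) * b + 10 * b ^ 3 + 10 * b ^ 5) * U ^ 3 * V ^ 2 +
      ((-10) * b + 5 * b ^ 3) * U ^ 4 * V +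
      (1 * b) * U ^ 5
    ) * hm

theorem s52h_kH_fifth (u v : R) : s52m_kH u v = -((u ^ 5) ^ 4 + (v ^ 5) ^ 4)
    + 228 * ((u ^ 5) ^ 3 * v ^ 5 - u ^ 5 * (v ^ 5) ^ 3) - 494 * (u ^ 5) ^ 2 * (v ^ 5) ^ 2 := by
  unfold s52m_kH; ring

theorem s52h_kT_fifth (u v : R) : s52m_kT u v = ((u ^ 5) ^ 6 + (v ^ 5) ^ 6)
    + 522 * ((u ^ 5) ^ 5 * v ^ 5 - u ^ 5 * (v ^ 5) ^ 5)
    - 10005 * ((u ^ 5) ^ 4 * (v ^ 5) ^ 2 + (u ^ 5) ^ 2 * (v ^ 5) ^ 4) := by
  unfold s52m_kT; ring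

theorem s52h_kf_fifth (u v : R) : s52m_kf u v
    = u * v * ((u ^ 5) ^ 2 + 11 * u ^ 5 * v ^ 5 - (v ^ 5) ^ 2) := by
  unfold s52m_kf; ring

theorem s52h_kH_Saux (b U V : R) (hm : b ^ 4 + 5 * b ^ 2 + 5 = 0) :
    s52m_kH (-(b ^ 3 + 3 * b) * U + b * V) (b * U + (b ^ 3 + 3 * b) * V)
      = 5 ^ 10 * s52m_kH U V := by
  rw [s52h_kH_fifth, s52h_P5_eq b U V hm, s52h_Q5_eq b U V hm]
  unfold s52h_P5 s52h_Q5 s52m_kH
  linear_combination
    (
      (1953125 + (-1953125) * b ^ 2 + 7812500 * b ^ 4 + 1953125 * b ^ 6 + (-390625) * b ^ 8) * V ^ 20 +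
      (93750000 * b ^ 4 + (-9375000) * b ^ 8) * U * V ^ 19 +
      (375000000 * b ^ 4 + (-93750000) * b ^ 6 + (-65625000) * b ^ 8) * U ^ 2 * V ^ 18 +
      (1687500000 * b ^ 4 + (-187500000) * b ^ 6 + (-225000000) * b ^ 8) * U ^ 3 * V ^ 17 +
      (4500000000 * b ^ 4 + (-468750000) * b ^ 6 + (-590625000) * b ^ 8) * U ^ 4 * V ^ 16 +
      (445312500 + (-445312500) * b ^ 2 + 8812500000 * b ^ 4 + (-492187500) * b ^ 6 +
       (-1073437500) * b ^ 8) * U ^ 5 * V ^ 15 +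
      (13218750000 * b ^ 4 + (-1875000000) * b ^ 6 + (-1884375000) * b ^ 8) * U ^ 6 * V ^ 14 +
      (16312500000 * b ^ 4 + (-1500000000) * b ^ 6 + (-2081250000) * b ^ 8) * U ^ 7 * V ^ 13 +
      (18562500000 * b ^ 4 + (-2531250000) * b ^ 6 + (-2615625000) * b ^ 8) * U ^ 8 * V ^ 12 +
      (6843750000 * b ^ 4 + (-1875000000) * b ^ 6 + (-1246875000) * b ^ 8) * U ^ 9 * V ^ 11 +
      (964843750 + (-964843750) * b ^ 2 + 20265625000 * b ^ 4 + (-441406250) * b ^ 6 +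
       (-2255468750) * b ^ 8) * U ^ 10 * V ^ 10 +
      ((-6843750000) * b ^ 4 + 1875000000 * b ^ 6 + 1246875000 * b ^ 8) * U ^ 11 * V ^ 9 +
      (18562500000 * b ^ 4 + (-2531250000) * b ^ 6 + (-2615625000) * b ^ 8) * U ^ 12 * V ^ 8 +
      ((-16312500000) * b ^ 4 + 1500000000 * b ^ 6 + 2081250000 * b ^ 8) * U ^ 13 * V ^ 7 +
      (13218750000 * b ^ 4 + (-1875000000) * b ^ 6 + (-1884375000) * b ^ 8) * U ^ 14 * V ^ 6 +
      ((-445312500) + 445312500 * b ^ 2 + (-8812500000) * b ^ 4 + 492187500 * b ^ 6 +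
       1073437500 * b ^ 8) * U ^ 15 * V ^ 5 +
      (4500000000 * b ^ 4 + (-468750000) * b ^ 6 + (-590625000) * b ^ 8) * U ^ 16 * V ^ 4 +
      ((-1687500000) * b ^ 4 + 187500000 * b ^ 6 + 225000000 * b ^ 8) * U ^ 17 * V ^ 3 +
      (375000000 * b ^ 4 + (-93750000) * b ^ 6 + (-65625000) * b ^ 8) * U ^ 18 * V ^ 2 +
      ((-93750000) * b ^ 4 + 9375000 * b ^ 8) * U ^ 19 * V +
      (1953125 + (-1953125) * b ^ 2 + 7812500 * b ^ 4 + 1953125 * b ^ 6 + (-390625) * b ^ 8) * U ^ 20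
    ) * hm

theorem s52h_kT_Saux (b U V : R) (hm : b ^ 4 + 5 * b ^ 2 + 5 = 0) :
    s52m_kT (-(b ^ 3 + 3 * b) * U + b * V) (b * U + (b ^ 3 + 3 * b) * V)
      = 5 ^ 15 * s52m_kT U V := by
  rw [s52h_kT_fifth, s52h_P5_eq b U V hm, s52h_Q5_eq b U V hm]
  unfold s52h_P5 s52h_Q5 s52m_kT
  linear_combination
    (
      ((-6103515625) + 6103515625 * b ^ 2 + (-4882812500) * b ^ 4 + (-45166015625) * b ^ 6 +
       (-129638671875) * b ^ 8 + (-95703125000) * b ^ 10 + (-27783203125) * b ^ 12 +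
       (-2880859375) * b ^ 14) * V ^ 30 +
      ((-1757812500000) * b ^ 6 + (-3691406250000) * b ^ 8 + (-2373046875000) * b ^ 10 +
       (-632812500000) * b ^ 12 + (-61523437500) * b ^ 14) * U * V ^ 29 +
      ((-22851562500000) * b ^ 6 + (-40957031250000) * b ^ 8 + (-24521484375000) * b ^ 10 +
       (-6257812500000) * b ^ 12 + (-588867187500) * b ^ 14) * U ^ 2 * V ^ 28 +
      ((-147656250000000) * b ^ 6 + (-253828125000000) * b ^ 8 + (-148710937500000) * b ^ 10 +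
       (-37406250000000) * b ^ 12 + (-3480468750000) * b ^ 14) * U ^ 3 * V ^ 27 +
      ((-627539062500000) * b ^ 6 + (-1071738281250000) * b ^ 8 + (-625693359375000) * b ^ 10 +
       (-157007812500000) * b ^ 12 + (-14581054687500) * b ^ 14) * U ^ 4 * V ^ 26 +
      (3186035156250 + (-3186035156250) * b ^ 2 + 2548828125000 * b ^ 4 +
       (-1953962402343750) * b ^ 6 + (-3382035644531250) * b ^ 8 + (-1986908203125000) * b ^ 10 +
       (-500536230468750) * b ^ 12 + (-46616308593750) * b ^ 14) * U ^ 5 * V ^ 25 +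
      ((-4983398437500000) * b ^ 6 + (-8637011718750000) * b ^ 8 + (-5082275390625000) * b ^ 10 +
       (-1282148437500000) * b ^ 12 + (-119575195312500) * b ^ 14) * U ^ 6 * V ^ 24 +
      ((-10335937500000000) * b ^ 6 + (-18049218750000000) * b ^ 8 +
       (-10662890625000000) * b ^ 10 + (-2697187500000000) * b ^ 12 + (-252070312500000) * b ^ 14) * U ^ 7 * V ^ 23 +
      ((-18747070312500000) * b ^ 6 + (-32513378906250000) * b ^ 8 +
       (-19138623046875000) * b ^ 10 + (-4829414062500000) * b ^ 12 + (-450483398437500) * b ^ 14) * U ^ 8 * V ^ 22 +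
      ((-27940429687500000) * b ^ 6 + (-48620214843750000) * b ^ 8 +
       (-28670361328125000) * b ^ 10 + (-7243242187500000) * b ^ 12 + (-676274414062500) * b ^ 14) * U ^ 9 * V ^ 21 +
      (61065673828125 + (-61065673828125) * b ^ 2 + 48852539062500 * b ^ 4 +
       (-38219989013671875) * b ^ 6 + (-65675621337890625) * b ^ 8 +
       (-38435068359375000) * b ^ 10 + (-9657185302734375) * b ^ 12 + (-897544189453125) * b ^ 14) * U ^ 10 * V ^ 20 +
      ((-40236328125000000) * b ^ 6 + (-69871289062500000) * b ^ 8 +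
       (-41156542968750000) * b ^ 10 + (-10390078125000000) * b ^ 12 + (-969521484375000) * b ^ 14) * U ^ 11 * V ^ 19 +
      ((-44419921875000000) * b ^ 6 + (-75914648437500000) * b ^ 8 +
       (-44336425781250000) * b ^ 10 + (-11128359375000000) * b ^ 12 +
       (-1033681640625000) * b ^ 14) * U ^ 12 * V ^ 18 +
      ((-28054687500000000) * b ^ 6 + (-49563281250000000) * b ^ 8 +
       (-29457421875000000) * b ^ 10 + (-7481250000000000) * b ^ 12 + (-701367187500000) * b ^ 14) * U ^ 13 * V ^ 17 +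
      ((-34066406250000000) * b ^ 6 + (-60183984375000000) * b ^ 8 +
       (-35769726562500000) * b ^ 10 + (-9084375000000000) * b ^ 12 + (-851660156250000) * b ^ 14) * U ^ 14 * V ^ 16 +
      ((-34066406250000000) * b ^ 6 + (-60183984375000000) * b ^ 8 +
       (-35769726562500000) * b ^ 10 + (-9084375000000000) * b ^ 12 + (-851660156250000) * b ^ 14) * U ^ 16 * V ^ 14 +
      (28054687500000000 * b ^ 6 + 49563281250000000 * b ^ 8 + 29457421875000000 * b ^ 10 +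
       7481250000000000 * b ^ 12 + 701367187500000 * b ^ 14) * U ^ 17 * V ^ 13 +
      ((-44419921875000000) * b ^ 6 + (-75914648437500000) * b ^ 8 +
       (-44336425781250000) * b ^ 10 + (-11128359375000000) * b ^ 12 +
       (-1033681640625000) * b ^ 14) * U ^ 18 * V ^ 12 +
      (40236328125000000 * b ^ 6 + 69871289062500000 * b ^ 8 + 41156542968750000 * b ^ 10 +
       10390078125000000 * b ^ 12 + 969521484375000 * b ^ 14) * U ^ 19 * V ^ 11 +
      (61065673828125 + (-61065673828125) * b ^ 2 + 48852539062500 * b ^ 4 +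
       (-38219989013671875) * b ^ 6 + (-65675621337890625) * b ^ 8 +
       (-38435068359375000) * b ^ 10 + (-9657185302734375) * b ^ 12 + (-897544189453125) * b ^ 14) * U ^ 20 * V ^ 10 +
      (27940429687500000 * b ^ 6 + 48620214843750000 * b ^ 8 + 28670361328125000 * b ^ 10 +
       7243242187500000 * b ^ 12 + 676274414062500 * b ^ 14) * U ^ 21 * V ^ 9 +
      ((-18747070312500000) * b ^ 6 + (-32513378906250000) * b ^ 8 +
       (-19138623046875000) * b ^ 10 + (-4829414062500000) * b ^ 12 + (-450483398437500) * b ^ 14) * U ^ 22 * V ^ 8 +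
      (10335937500000000 * b ^ 6 + 18049218750000000 * b ^ 8 + 10662890625000000 * b ^ 10 +
       2697187500000000 * b ^ 12 + 252070312500000 * b ^ 14) * U ^ 23 * V ^ 7 +
      ((-4983398437500000) * b ^ 6 + (-8637011718750000) * b ^ 8 + (-5082275390625000) * b ^ 10 +
       (-1282148437500000) * b ^ 12 + (-119575195312500) * b ^ 14) * U ^ 24 * V ^ 6 +
      ((-3186035156250) + 3186035156250 * b ^ 2 + (-2548828125000) * b ^ 4 +
       1953962402343750 * b ^ 6 + 3382035644531250 * b ^ 8 + 1986908203125000 * b ^ 10 +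
       500536230468750 * b ^ 12 + 46616308593750 * b ^ 14) * U ^ 25 * V ^ 5 +
      ((-627539062500000) * b ^ 6 + (-1071738281250000) * b ^ 8 + (-625693359375000) * b ^ 10 +
       (-157007812500000) * b ^ 12 + (-14581054687500) * b ^ 14) * U ^ 26 * V ^ 4 +
      (147656250000000 * b ^ 6 + 253828125000000 * b ^ 8 + 148710937500000 * b ^ 10 +
       37406250000000 * b ^ 12 + 3480468750000 * b ^ 14) * U ^ 27 * V ^ 3 +
      ((-22851562500000) * b ^ 6 + (-40957031250000) * b ^ 8 + (-24521484375000) * b ^ 10 +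
       (-6257812500000) * b ^ 12 + (-588867187500) * b ^ 14) * U ^ 28 * V ^ 2 +
      (1757812500000 * b ^ 6 + 3691406250000 * b ^ 8 + 2373046875000 * b ^ 10 +
       632812500000 * b ^ 12 + 61523437500 * b ^ 14) * U ^ 29 * V +
      ((-6103515625) + 6103515625 * b ^ 2 + (-4882812500) * b ^ 4 + (-45166015625) * b ^ 6 +
       (-129638671875) * b ^ 8 + (-95703125000) * b ^ 10 + (-27783203125) * b ^ 12 +
       (-2880859375) * b ^ 14) * U ^ 30
    ) * hm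

theorem s52h_kf_Saux (b U V : R) (hm : b ^ 4 + 5 * b ^ 2 + 5 = 0) :
    s52m_kf (-(b ^ 3 + 3 * b) * U + b * V) (b * U + (b ^ 3 + 3 * b) * V)
      = 5 ^ 6 * s52m_kf U V := by
  rw [s52h_kf_fifth, s52h_P5_eq b U V hm, s52h_Q5_eq b U V hm]
  unfold s52h_P5 s52h_Q5 s52m_kf
  linear_combination
    (
      ((-1875) * b ^ 4 + (-625) * b ^ 6) * V ^ 12 +
      (3125 + (-3125) * b ^ 2 + (-11250) * b ^ 4 + (-625) * b ^ 6 + 625 * b ^ 8) * U * V ^ 11 +
      (14375 * b ^ 4 + 19375 * b ^ 6 + 4375 * b ^ 8) * U ^ 2 * V ^ 10 +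
      (43750 * b ^ 4 + 50000 * b ^ 6 + 10625 * b ^ 8) * U ^ 3 * V ^ 9 +
      (181250 * b ^ 4 + 131250 * b ^ 6 + 21250 * b ^ 8) * U ^ 4 * V ^ 8 +
      (105000 * b ^ 4 + 78750 * b ^ 6 + 13125 * b ^ 8) * U ^ 5 * V ^ 7 +
      ((-34375) + 34375 * b ^ 2 + 405000 * b ^ 4 + 225625 * b ^ 6 + 30625 * b ^ 8) * U ^ 6 * V ^ 6 +
      ((-105000) * b ^ 4 + (-78750) * b ^ 6 + (-13125) * b ^ 8) * U ^ 7 * V ^ 5 +
      (181250 * b ^ 4 + 131250 * b ^ 6 + 21250 * b ^ 8) * U ^ 8 * V ^ 4 +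
      ((-43750) * b ^ 4 + (-50000) * b ^ 6 + (-10625) * b ^ 8) * U ^ 9 * V ^ 3 +
      (14375 * b ^ 4 + 19375 * b ^ 6 + 4375 * b ^ 8) * U ^ 10 * V ^ 2 +
      ((-3125) + 3125 * b ^ 2 + 11250 * b ^ 4 + 625 * b ^ 6 + (-625) * b ^ 8) * U ^ 11 * V +
      ((-1875) * b ^ 4 + (-625) * b ^ 6) * U ^ 12
    ) * hm

end Fermat.Agent.Lib.S52
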