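/-
Programme K (S52), contract **[KLEIN-GROUP]** (helper7): `s52h_kleinGroup : s52_KleinGroup`.

* Galois-stability of `Ĝ = ⟨S, T₅, ζ·I⟩`: `σ(ζ) = ζ^k`, and `S(ζ^k)`, `T₅(ζ^k)`, `(ζ^k)·I` are explicit
  words in the generators (`k = 2`: `T³ S T² S T³`; `k = 3`: `T² S T³ S T²`; `k = 4`: `S³`), checked
  entrywise with certificates `linear_combination c(z) * hz` (`c` = quotient of a univariate division
  by `Φ₅(z)`, generated by a script with exact rational arithmetic).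
* invariance of `H`, `T`: for `S` from `HGroupId.lean` (variable `b = ζ² − ζ³`) and homogeneity;
  for `T₅`, `ζ·I` because `H, T` are polynomials in `U⁵, V⁵` of degrees `20, 30`.
* `det`: `det S = 1`, `det T₅ = ζ⁵ = 1`, `det (ζ I) = ζ²`.
-/
import Fermat.Agent.Lib.S52.Iface
import Fermat.Agent.Lib.S52.HGroupId

set_option autoImplicit false
set_option maxHeartbeats 1000000
set_option linter.unusedSectionVars false
set_option linter.unusedSimpArgs false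

noncomputable section

namespace Fermat.Agent.Lib.S52

open Fermat.Agent.Lib.S58 Matrix

local notation "Kb" => AlgebraicClosure ℚ

section generic

variable {K : Type*} [Field K] [CharZero K]

/-- the generator `S` for an arbitrary root `z` of `Φ₅`. -/
def s52h_S (z : K) : Matrix (Fin 2) (Fin 2) K :=
  ((z + z ^ 4 - z ^ 2 - z ^ 3) / 5) •
    !![-(z - z ^ 4), z ^ 2 - z ^ 3; z ^ 2 - z ^ 3, z - z ^ 4]

/-- the generator `T₅`. -/
def s52h_T (z : K) : Matrix (Fin 2) (Fin 2) K := !![z ^ 3, 0; 0, z ^ 2]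

/-- the scalar generator. -/
def s52h_Z (z : K) : Matrix (Fin 2) (Fin 2) K := !![z, 0; 0, z]

theorem s52h_z5 (z : K) (hz : z ^ 4 + z ^ 3 + z ^ 2 + z + 1 = 0) : z ^ 5 = 1 := by
  linear_combination (z - 1) * hz

theorem s52h_z_ne_zero (z : K) (hz : z ^ 4 + z ^ 3 + z ^ 2 + z + 1 = 0) : z ≠ 0 := by
  rintro rfl
  norm_num at hz

theorem s52h_hm (z : K) (hz : z ^ 4 + z ^ 3 + z ^ 2 + z + 1 = 0) :
    (z ^ 2 - z ^ 3) ^ 4 + 5 * (z ^ 2 - z ^ 3) ^ 2 + 5 = 0 := by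
  linear_combination (5 + (-5) * z + 5 * z ^ 4 + (-10) * z ^ 5 + 10 * z ^ 6 + (-5) * z ^ 7 + 1 * z ^ 8) * hz

theorem s52h_ha (z : K) (hz : z ^ 4 + z ^ 3 + z ^ 2 + z + 1 = 0) :
    z - z ^ 4 = (z ^ 2 - z ^ 3) ^ 3 + 3 * (z ^ 2 - z ^ 3) := by
  linear_combination (1 * z + (-4) * z ^ 2 + 6 * z ^ 3 + (-4) * z ^ 4 + 1 * z ^ 5) * hz

theorem s52h_s2 (z : K) (hz : z ^ 4 + z ^ 3 + z ^ 2 + z + 1 = 0) :
    (z + z ^ 4 - z ^ 2 - z ^ 3) ^ 2 = 5 := by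
  linear_combination ((-5) + 5 * z + 1 * z ^ 2 + (-3) * z ^ 3 + 1 * z ^ 4) * hz

theorem s52h_root (z y : K) (hz : z ^ 4 + z ^ 3 + z ^ 2 + z + 1 = 0)
    (hy : y ^ 4 + y ^ 3 + y ^ 2 + y + 1 = 0) : y = z ∨ y = z ^ 2 ∨ y = z ^ 3 ∨ y = z ^ 4 := by
  have h : (y - z) * (y - z ^ 2) * (y - z ^ 3) * (y - z ^ 4) = 0 := by
    linear_combination hy + (((-1) + 1 * z + (-1) * z ^ 5 + 1 * z ^ 6) + ((-1) + 1 * z + (-1) * z ^ 5) * y + ((-1) + 1 * z + 1 * z ^ 3) * y ^ 2 + ((-1)) * y ^ 3) * hz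
  rcases mul_eq_zero.mp h with h | h
  · rcases mul_eq_zero.mp h with h | h
    · rcases mul_eq_zero.mp h with h | h
      · exact Or.inl (sub_eq_zero.mp h)
      · exact Or.inr (Or.inl (sub_eq_zero.mp h))
    · exact Or.inr (Or.inr (Or.inl (sub_eq_zero.mp h)))
  · exact Or.inr (Or.inr (Or.inr (sub_eq_zero.mp h)))

/-! ### the Galois conjugates of the generators as words -/

theorem s52h_word2 (z : K) (hz : z ^ 4 + z ^ 3 + z ^ 2 + z + 1 = 0) :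
    s52h_S (z ^ 2) = s52h_T z * s52h_T z * s52h_T z * s52h_S z * s52h_T z * s52h_T z * s52h_S z * s52h_T z * s52h_T z * s52h_T z := by
  simp only [s52h_S, s52h_T, Matrix.smul_of, Matrix.smul_cons, Matrix.smul_empty, smul_eq_mul,
    Matrix.mul_fin_two]
  rw [← Matrix.ext_iff]
  simp only [Fin.forall_fin_two, Matrix.of_apply, Matrix.cons_val_zero, Matrix.cons_val_one,
    Matrix.cons_val', Matrix.cons_val_fin_one]
  refine ⟨⟨?_, ?_⟩, ⟨?_, ?_⟩⟩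
  · linear_combination
      (
        (-1 / 5) * z ^ 4 + (1 / 5) * z ^ 5 + (1 / 5) * z ^ 6 + (-1 / 5) * z ^ 7 +
        (1 / 5) * z ^ 8 + (-2 / 5) * z ^ 9 + (1 / 5) * z ^ 10 + (1 / 5) * z ^ 11 +
        (-2 / 5) * z ^ 12 + (2 / 5) * z ^ 13 + (-3 / 5) * z ^ 14 + (2 / 5) * z ^ 15 +
        (2 / 5) * z ^ 16 + (-3 / 5) * z ^ 17 + (2 / 5) * z ^ 18 + (-3 / 5) * z ^ 19 +
        (2 / 5) * z ^ 20 + (2 / 5) * z ^ 21 + (-3 / 5) * z ^ 22 + (2 / 5) * z ^ 23 +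
        (-3 / 5) * z ^ 24 + (2 / 5) * z ^ 25 + (2 / 5) * z ^ 26 + (-3 / 5) * z ^ 27 +
        (8 / 25) * z ^ 28 + (-7 / 25) * z ^ 29 + (1 / 25) * z ^ 30 + (7 / 25) * z ^ 31 +
        (-2 / 25) * z ^ 32 + (-3 / 25) * z ^ 33 + (-1 / 25) * z ^ 34 + (3 / 25) * z ^ 35 +
        (-1 / 25) * z ^ 36
      ) * hz
  · linear_combination
      (
        (1 / 5) * z ^ 6 + (-1 / 5) * z ^ 7 + (-2 / 5) * z ^ 8 + (2 / 5) * z ^ 9 +
        (1 / 5) * z ^ 11 + (1 / 5) * z ^ 12 + (-4 / 5) * z ^ 13 + (1 / 5) * z ^ 14 +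
        (1 / 5) * z ^ 15 + (1 / 5) * z ^ 16 + (1 / 5) * z ^ 17 + (-4 / 5) * z ^ 18 +
        (1 / 5) * z ^ 19 + (1 / 5) * z ^ 20 + (1 / 5) * z ^ 21 + (1 / 5) * z ^ 22 +
        (-4 / 5) * z ^ 23 + (4 / 25) * z ^ 24 + (9 / 25) * z ^ 25 + (2 / 25) * z ^ 26 +
        (-2 / 25) * z ^ 27 + (-2 / 5) * z ^ 28 + (7 / 25) * z ^ 29 + (3 / 25) * z ^ 30 +
        (-4 / 25) * z ^ 31 + (1 / 25) * z ^ 32
      ) * hz
  · linear_combination
      (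
        (1 / 5) * z ^ 6 + (-1 / 5) * z ^ 7 + (-2 / 5) * z ^ 8 + (2 / 5) * z ^ 9 +
        (1 / 5) * z ^ 11 + (1 / 5) * z ^ 12 + (-4 / 5) * z ^ 13 + (1 / 5) * z ^ 14 +
        (1 / 5) * z ^ 15 + (1 / 5) * z ^ 16 + (1 / 5) * z ^ 17 + (-4 / 5) * z ^ 18 +
        (1 / 5) * z ^ 19 + (1 / 5) * z ^ 20 + (1 / 5) * z ^ 21 + (1 / 5) * z ^ 22 +
        (-4 / 5) * z ^ 23 + (4 / 25) * z ^ 24 + (9 / 25) * z ^ 25 + (2 / 25) * z ^ 26 +
        (-2 / 25) * z ^ 27 + (-2 / 5) * z ^ 28 + (7 / 25) * z ^ 29 + (3 / 25) * z ^ 30 +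
        (-4 / 25) * z ^ 31 + (1 / 25) * z ^ 32
      ) * hz
  · linear_combination
      (
        (1 / 5) * z ^ 4 + (-1 / 5) * z ^ 5 + (-1 / 5) * z ^ 6 + (1 / 5) * z ^ 7 +
        (-1 / 5) * z ^ 8 + (2 / 5) * z ^ 9 + (-1 / 5) * z ^ 10 + (-1 / 5) * z ^ 11 +
        (2 / 5) * z ^ 12 + (-2 / 5) * z ^ 13 + (3 / 5) * z ^ 14 + (-2 / 5) * z ^ 15 +
        (-2 / 5) * z ^ 16 + (3 / 5) * z ^ 17 + (-2 / 5) * z ^ 18 + (3 / 5) * z ^ 19 +
        (-11 / 25) * z ^ 20 + (-7 / 25) * z ^ 21 + (14 / 25) * z ^ 22 + (-13 / 25) * z ^ 23 +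
        (13 / 25) * z ^ 24 + (-3 / 25) * z ^ 25 + (-9 / 25) * z ^ 26 + (8 / 25) * z ^ 27 +
        (-2 / 25) * z ^ 28
      ) * hz

theorem s52h_word3 (z : K) (hz : z ^ 4 + z ^ 3 + z ^ 2 + z + 1 = 0) :
    s52h_S (z ^ 3) = s52h_T z * s52h_T z * s52h_S z * s52h_T z * s52h_T z * s52h_T z * s52h_S z * s52h_T z * s52h_T z := by
  simp only [s52h_S, s52h_T, Matrix.smul_of, Matrix.smul_cons, Matrix.smul_empty, smul_eq_mul,
    Matrix.mul_fin_two]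
  rw [← Matrix.ext_iff]
  simp only [Fin.forall_fin_two, Matrix.of_apply, Matrix.cons_val_zero, Matrix.cons_val_one,
    Matrix.cons_val', Matrix.cons_val_fin_one]
  refine ⟨⟨?_, ?_⟩, ⟨?_, ?_⟩⟩
  · linear_combination
      (
        (-1 / 5) * z ^ 6 + (1 / 5) * z ^ 7 + (1 / 5) * z ^ 9 + (-1 / 5) * z ^ 10 +
        (-1 / 5) * z ^ 11 + (2 / 5) * z ^ 12 + (-1 / 5) * z ^ 13 + (1 / 5) * z ^ 14 +
        (-1 / 5) * z ^ 15 + (-1 / 5) * z ^ 16 + (2 / 5) * z ^ 17 + (-2 / 5) * z ^ 18 +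
        (2 / 5) * z ^ 19 + (-1 / 5) * z ^ 20 + (-2 / 5) * z ^ 21 + (3 / 5) * z ^ 22 +
        (-2 / 5) * z ^ 23 + (14 / 25) * z ^ 24 + (-6 / 25) * z ^ 25 + (-3 / 5) * z ^ 26 +
        (14 / 25) * z ^ 27 + (1 / 25) * z ^ 28 + (-1 / 25) * z ^ 29 + (-3 / 25) * z ^ 30 +
        (-1 / 25) * z ^ 31 + (3 / 25) * z ^ 32 + (-1 / 25) * z ^ 33
      ) * hz
  · linear_combination
      (
        (1 / 5) * z ^ 9 + (-1 / 5) * z ^ 10 + (-2 / 5) * z ^ 12 + (2 / 5) * z ^ 13 +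
        (1 / 5) * z ^ 14 + (-1 / 5) * z ^ 15 + (-2 / 5) * z ^ 17 + (4 / 5) * z ^ 18 +
        (-1 / 5) * z ^ 19 + (-1 / 5) * z ^ 20 + (-6 / 25) * z ^ 21 + (-1 / 25) * z ^ 22 +
        (16 / 25) * z ^ 23 + (-7 / 25) * z ^ 24 + (-3 / 25) * z ^ 25 + (-2 / 25) * z ^ 26 +
        (2 / 25) * z ^ 27 + (4 / 25) * z ^ 28 + (-4 / 25) * z ^ 29 + (1 / 25) * z ^ 30
      ) * hz
  · linear_combination
      (
        (1 / 5) * z ^ 9 + (-1 / 5) * z ^ 10 + (-2 / 5) * z ^ 12 + (2 / 5) * z ^ 13 +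
        (1 / 5) * z ^ 14 + (-1 / 5) * z ^ 15 + (-2 / 5) * z ^ 17 + (4 / 5) * z ^ 18 +
        (-1 / 5) * z ^ 19 + (-1 / 5) * z ^ 20 + (-6 / 25) * z ^ 21 + (-1 / 25) * z ^ 22 +
        (16 / 25) * z ^ 23 + (-7 / 25) * z ^ 24 + (-3 / 25) * z ^ 25 + (-2 / 25) * z ^ 26 +
        (2 / 25) * z ^ 27 + (4 / 25) * z ^ 28 + (-4 / 25) * z ^ 29 + (1 / 25) * z ^ 30
      ) * hz
  · linear_combination
      (
        (1 / 5) * z ^ 6 + (-1 / 5) * z ^ 7 + (-1 / 5) * z ^ 9 + (1 / 5) * z ^ 10 +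
        (1 / 5) * z ^ 11 + (-2 / 5) * z ^ 12 + (1 / 5) * z ^ 13 + (-1 / 5) * z ^ 14 +
        (1 / 5) * z ^ 15 + (1 / 5) * z ^ 16 + (-2 / 5) * z ^ 17 + (9 / 25) * z ^ 18 +
        (-7 / 25) * z ^ 19 + (4 / 25) * z ^ 20 + (7 / 25) * z ^ 21 + (-16 / 25) * z ^ 22 +
        (11 / 25) * z ^ 23 + (-1 / 25) * z ^ 24 + (-1 / 5) * z ^ 25 + (4 / 25) * z ^ 26 +
        (-1 / 25) * z ^ 27
      ) * hz

theorem s52h_word4 (z : K) (hz : z ^ 4 + z ^ 3 + z ^ 2 + z + 1 = 0) :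
    s52h_S (z ^ 4) = s52h_S z * s52h_S z * s52h_S z := by
  simp only [s52h_S, s52h_T, Matrix.smul_of, Matrix.smul_cons, Matrix.smul_empty, smul_eq_mul,
    Matrix.mul_fin_two]
  rw [← Matrix.ext_iff]
  simp only [Fin.forall_fin_two, Matrix.of_apply, Matrix.cons_val_zero, Matrix.cons_val_one,
    Matrix.cons_val', Matrix.cons_val_fin_one]
  refine ⟨⟨?_, ?_⟩, ⟨?_, ?_⟩⟩
  · linear_combination
      (
        (1 / 125) * z ^ 6 + (-4 / 125) * z ^ 7 + (-21 / 125) * z ^ 8 + (24 / 125) * z ^ 9 +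
        (2 / 25) * z ^ 10 + (-11 / 125) * z ^ 11 + (-7 / 125) * z ^ 12 + (32 / 125) * z ^ 14 +
        (-14 / 125) * z ^ 15 + (-2 / 25) * z ^ 16 + (-24 / 125) * z ^ 17 + (46 / 125) * z ^ 18 +
        (4 / 125) * z ^ 19 + (-26 / 125) * z ^ 20 + (-1 / 5) * z ^ 22 + (2 / 5) * z ^ 23 +
        (-1 / 5) * z ^ 24 + (-1 / 5) * z ^ 27 + (1 / 5) * z ^ 28
      ) * hz
  · linear_combination
      (
        (-1 / 125) * z ^ 7 + (1 / 25) * z ^ 8 + (-8 / 125) * z ^ 9 + (4 / 125) * z ^ 10 +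
        (-6 / 125) * z ^ 11 + (38 / 125) * z ^ 12 + (-88 / 125) * z ^ 14 + (56 / 125) * z ^ 15 +
        (-4 / 125) * z ^ 16 + (8 / 125) * z ^ 17 + (4 / 25) * z ^ 18 + (-74 / 125) * z ^ 19 +
        (2 / 5) * z ^ 20 + (1 / 5) * z ^ 23 + (-1 / 5) * z ^ 24
      ) * hz
  · linear_combination
      (
        (-1 / 125) * z ^ 7 + (1 / 25) * z ^ 8 + (-8 / 125) * z ^ 9 + (4 / 125) * z ^ 10 +
        (-6 / 125) * z ^ 11 + (38 / 125) * z ^ 12 + (-88 / 125) * z ^ 14 + (56 / 125) * z ^ 15 +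
        (-4 / 125) * z ^ 16 + (8 / 125) * z ^ 17 + (4 / 25) * z ^ 18 + (-74 / 125) * z ^ 19 +
        (2 / 5) * z ^ 20 + (1 / 5) * z ^ 23 + (-1 / 5) * z ^ 24
      ) * hz
  · linear_combination
      (
        (-1 / 125) * z ^ 6 + (4 / 125) * z ^ 7 + (21 / 125) * z ^ 8 + (-24 / 125) * z ^ 9 +
        (-2 / 25) * z ^ 10 + (11 / 125) * z ^ 11 + (7 / 125) * z ^ 12 + (-32 / 125) * z ^ 14 +
        (14 / 125) * z ^ 15 + (2 / 25) * z ^ 16 + (24 / 125) * z ^ 17 + (-46 / 125) * z ^ 18 +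
        (-4 / 125) * z ^ 19 + (26 / 125) * z ^ 20 + (1 / 5) * z ^ 22 + (-2 / 5) * z ^ 23 +
        (1 / 5) * z ^ 24 + (1 / 5) * z ^ 27 + (-1 / 5) * z ^ 28
      ) * hz

theorem s52h_detS (z : K) (hz : z ^ 4 + z ^ 3 + z ^ 2 + z + 1 = 0) : (s52h_S z).det = 1 := by
  simp only [s52h_S, Matrix.smul_of, Matrix.smul_cons, Matrix.smul_empty, smul_eq_mul,
    Matrix.det_fin_two_of]
  linear_combination
    (
      (-1) + 1 * z + (-1 / 25) * z ^ 4 + (-22 / 25) * z ^ 5 + (23 / 25) * z ^ 6 +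
      (2 / 25) * z ^ 7 + (-9 / 25) * z ^ 8 + (2 / 25) * z ^ 9 + (-2 / 25) * z ^ 10 +
      (3 / 25) * z ^ 11 + (-1 / 25) * z ^ 12
    ) * hz

theorem s52h_Tpow (z : K) :
    s52h_T (z ^ 2) = s52h_T z * s52h_T z ∧ s52h_T (z ^ 3) = s52h_T z * s52h_T z * s52h_T z ∧
      s52h_T (z ^ 4) = s52h_T z * s52h_T z * s52h_T z * s52h_T z := by
  refine ⟨?_, ?_, ?_⟩ <;>
  · simp only [s52h_T, Matrix.mul_fin_two]
    rw [← Matrix.ext_iff]
    simp only [Fin.forall_fin_two, Matrix.of_apply, Matrix.cons_val_zero, Matrix.cons_val_one,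
      Matrix.cons_val', Matrix.cons_val_fin_one]
    refine ⟨⟨?_, ?_⟩, ⟨?_, ?_⟩⟩ <;> ring

theorem s52h_Zpow (z : K) :
    s52h_Z (z ^ 2) = s52h_Z z * s52h_Z z ∧ s52h_Z (z ^ 3) = s52h_Z z * s52h_Z z * s52h_Z z ∧
      s52h_Z (z ^ 4) = s52h_Z z * s52h_Z z * s52h_Z z * s52h_Z z := by
  refine ⟨?_, ?_, ?_⟩ <;>
  · simp only [s52h_Z, Matrix.mul_fin_two]
    rw [← Matrix.ext_iff]
    simp only [Fin.forall_fin_two, Matrix.of_apply, Matrix.cons_val_zero, Matrix.cons_val_one,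
      Matrix.cons_val', Matrix.cons_val_fin_one]
    refine ⟨⟨?_, ?_⟩, ⟨?_, ?_⟩⟩ <;> ring

end generic

/-! ### invariance of the forms under the generators -/

section generic2

variable {K : Type*} [Field K] [CharZero K]

theorem s52h_vecMul_S (z : K) (hz : z ^ 4 + z ^ 3 + z ^ 2 + z + 1 = 0) (w : Fin 2 → K) :
    (w ᵥ* s52h_S z) 0 = ((z + z ^ 4 - z ^ 2 - z ^ 3) / 5) *
        (-((z ^ 2 - z ^ 3) ^ 3 + 3 * (z ^ 2 - z ^ 3)) * w 0 + (z ^ 2 - z ^ 3) * w 1) ∧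
    (w ᵥ* s52h_S z) 1 = ((z + z ^ 4 - z ^ 2 - z ^ 3) / 5) *
        ((z ^ 2 - z ^ 3) * w 0 + ((z ^ 2 - z ^ 3) ^ 3 + 3 * (z ^ 2 - z ^ 3)) * w 1) := by
  have ha := s52h_ha z hz
  constructor
  · simp only [Matrix.vecMul, dotProduct, Fin.sum_univ_two, s52h_S, Matrix.smul_apply,
      Matrix.of_apply, Matrix.cons_val_zero, Matrix.cons_val_one, Matrix.cons_val',
      Matrix.cons_val_fin_one, smul_eq_mul]
    linear_combination (-((z + z ^ 4 - z ^ 2 - z ^ 3) / 5) * w 0) * ha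
  · simp only [Matrix.vecMul, dotProduct, Fin.sum_univ_two, s52h_S, Matrix.smul_apply,
      Matrix.of_apply, Matrix.cons_val_zero, Matrix.cons_val_one, Matrix.cons_val',
      Matrix.cons_val_fin_one, smul_eq_mul]
    linear_combination (((z + z ^ 4 - z ^ 2 - z ^ 3) / 5) * w 1) * ha

theorem s52h_scal (z : K) (hz : z ^ 4 + z ^ 3 + z ^ 2 + z + 1 = 0) :
    ((z + z ^ 4 - z ^ 2 - z ^ 3) / 5) ^ 2 * 5 = 1 := by
  have h := s52h_s2 z hz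
  field_simp
  linear_combination h

theorem s52h_inv_S (z : K) (hz : z ^ 4 + z ^ 3 + z ^ 2 + z + 1 = 0) (w : Fin 2 → K) :
    s52m_kH ((w ᵥ* s52h_S z) 0) ((w ᵥ* s52h_S z) 1) = s52m_kH (w 0) (w 1) ∧
    s52m_kT ((w ᵥ* s52h_S z) 0) ((w ᵥ* s52h_S z) 1) = s52m_kT (w 0) (w 1) ∧
    s52m_kf ((w ᵥ* s52h_S z) 0) ((w ᵥ* s52h_S z) 1) = s52m_kf (w 0) (w 1) := by
  obtain ⟨e0, e1⟩ := s52h_vecMul_S z hz w
  have hm := s52h_hm z hz
  have hc := s52h_scal z hz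
  rw [e0, e1, s52m_kH_smul, s52m_kT_smul, s52m_kf_smul, s52h_kH_Saux _ _ _ hm,
    s52h_kT_Saux _ _ _ hm, s52h_kf_Saux _ _ _ hm]
  set c := (z + z ^ 4 - z ^ 2 - z ^ 3) / 5 with hcdef
  refine ⟨?_, ?_, ?_⟩
  · have : c ^ 20 * (5 ^ 10 * s52m_kH (w 0) (w 1)) = (c ^ 2 * 5) ^ 10 * s52m_kH (w 0) (w 1) := by
      ring
    rw [this, hc, one_pow, one_mul]
  · have : c ^ 30 * (5 ^ 15 * s52m_kT (w 0) (w 1)) = (c ^ 2 * 5) ^ 15 * s52m_kT (w 0) (w 1) := by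
      ring
    rw [this, hc, one_pow, one_mul]
  · have : c ^ 12 * (5 ^ 6 * s52m_kf (w 0) (w 1)) = (c ^ 2 * 5) ^ 6 * s52m_kf (w 0) (w 1) := by
      ring
    rw [this, hc, one_pow, one_mul]

theorem s52h_inv_T (z : K) (hz : z ^ 4 + z ^ 3 + z ^ 2 + z + 1 = 0) (w : Fin 2 → K) :
    s52m_kH ((w ᵥ* s52h_T z) 0) ((w ᵥ* s52h_T z) 1) = s52m_kH (w 0) (w 1) ∧
    s52m_kT ((w ᵥ* s52h_T z) 0) ((w ᵥ* s52h_T z) 1) = s52m_kT (w 0) (w 1) ∧
    s52m_kf ((w ᵥ* s52h_T z) 0) ((w ᵥ* s52h_T z) 1) = s52m_kf (w 0) (w 1) := by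
  have h5 := s52h_z5 z hz
  have e0 : (w ᵥ* s52h_T z) 0 = z ^ 3 * w 0 := by
    simp [Matrix.vecMul, dotProduct, Fin.sum_univ_two, s52h_T, mul_comm]
  have e1 : (w ᵥ* s52h_T z) 1 = z ^ 2 * w 1 := by
    simp [Matrix.vecMul, dotProduct, Fin.sum_univ_two, s52h_T, mul_comm]
  have p0 : (z ^ 3 * w 0) ^ 5 = w 0 ^ 5 := by
    have : (z ^ 3 * w 0) ^ 5 = (z ^ 5) ^ 3 * w 0 ^ 5 := by ring
    rw [this, h5, one_pow, one_mul]
  have p1 : (z ^ 2 * w 1) ^ 5 = w 1 ^ 5 := by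
    have : (z ^ 2 * w 1) ^ 5 = (z ^ 5) ^ 2 * w 1 ^ 5 := by ring
    rw [this, h5, one_pow, one_mul]
  rw [e0, e1]
  refine ⟨?_, ?_, ?_⟩
  · rw [s52h_kH_fifth, p0, p1, ← s52h_kH_fifth]
  · rw [s52h_kT_fifth, p0, p1, ← s52h_kT_fifth]
  · rw [s52h_kf_fifth, p0, p1, s52h_kf_fifth]
    have : z ^ 3 * w 0 * (z ^ 2 * w 1) = z ^ 5 * (w 0 * w 1) := by ring
    rw [this, h5, one_mul]

theorem s52h_inv_Z (z : K) (hz : z ^ 4 + z ^ 3 + z ^ 2 + z + 1 = 0) (w : Fin 2 → K) :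
    s52m_kH ((w ᵥ* s52h_Z z) 0) ((w ᵥ* s52h_Z z) 1) = s52m_kH (w 0) (w 1) ∧
    s52m_kT ((w ᵥ* s52h_Z z) 0) ((w ᵥ* s52h_Z z) 1) = s52m_kT (w 0) (w 1) := by
  have h5 := s52h_z5 z hz
  have e0 : (w ᵥ* s52h_Z z) 0 = z * w 0 := by
    simp [Matrix.vecMul, dotProduct, Fin.sum_univ_two, s52h_Z, mul_comm]
  have e1 : (w ᵥ* s52h_Z z) 1 = z * w 1 := by
    simp [Matrix.vecMul, dotProduct, Fin.sum_univ_two, s52h_Z, mul_comm]
  rw [e0, e1, s52m_kH_smul, s52m_kT_smul]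
  constructor
  · have : z ^ 20 = (z ^ 5) ^ 4 := by ring
    rw [this, h5, one_pow, one_mul]
  · have : z ^ 30 = (z ^ 5) ^ 6 := by ring
    rw [this, h5, one_pow, one_mul]

end generic2

/-! ### the contract -/

section final

theorem s52h_Smat_eq : s52_Smat = s52h_S s52_zeta := rfl
theorem s52h_Tmat_eq : s52_Tmat = s52h_T s52_zeta := rfl
theorem s52h_Zmat_eq : s52_Zmat = s52h_Z s52_zeta := rfl

theorem s52h_map_S (σ : s58_G) (z : Kb) : (s52h_S z).map σ = s52h_S (σ z) := by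
  rw [← Matrix.ext_iff]
  simp only [Fin.forall_fin_two, s52h_S, Matrix.map_apply, Matrix.smul_apply, Matrix.of_apply,
    Matrix.cons_val_zero, Matrix.cons_val_one, Matrix.cons_val', Matrix.cons_val_fin_one,
    smul_eq_mul, map_mul, map_div₀, map_sub, map_add, map_neg, map_pow, map_ofNat, and_self]

theorem s52h_map_T (σ : s58_G) (z : Kb) : (s52h_T z).map σ = s52h_T (σ z) := by
  rw [← Matrix.ext_iff]
  simp only [Fin.forall_fin_two, s52h_T, Matrix.map_apply, Matrix.of_apply,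
    Matrix.cons_val_zero, Matrix.cons_val_one, Matrix.cons_val', Matrix.cons_val_fin_one,
    map_pow, map_zero, and_self]

theorem s52h_map_Z (σ : s58_G) (z : Kb) : (s52h_Z z).map σ = s52h_Z (σ z) := by
  rw [← Matrix.ext_iff]
  simp only [Fin.forall_fin_two, s52h_Z, Matrix.map_apply, Matrix.of_apply,
    Matrix.cons_val_zero, Matrix.cons_val_one, Matrix.cons_val', Matrix.cons_val_fin_one,
    map_zero, and_self]

theorem s52h_S_mem : s52h_S s52_zeta ∈ s52_Ghat :=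
  Submonoid.subset_closure (by rw [← s52h_Smat_eq]; simp)

theorem s52h_T_mem : s52h_T s52_zeta ∈ s52_Ghat :=
  Submonoid.subset_closure (by rw [← s52h_Tmat_eq]; simp)

theorem s52h_Z_mem : s52h_Z s52_zeta ∈ s52_Ghat :=
  Submonoid.subset_closure (by rw [← s52h_Zmat_eq]; simp)

theorem s52h_conj_root (σ : s58_G) :
    σ s52_zeta = s52_zeta ∨ σ s52_zeta = s52_zeta ^ 2 ∨ σ s52_zeta = s52_zeta ^ 3 ∨
      σ s52_zeta = s52_zeta ^ 4 := by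
  apply s52h_root _ _ s52_zeta_spec
  have := congrArg σ s52_zeta_spec
  simpa [map_add, map_pow] using this

theorem s52h_gen_map_mem (σ : s58_G) :
    (s52h_S s52_zeta).map σ ∈ s52_Ghat ∧ (s52h_T s52_zeta).map σ ∈ s52_Ghat ∧
      (s52h_Z s52_zeta).map σ ∈ s52_Ghat := by
  have hS := s52h_S_mem
  have hT := s52h_T_mem
  have hZ := s52h_Z_mem
  have hz := s52_zeta_spec
  obtain ⟨t2, t3, t4⟩ := s52h_Tpow s52_zeta
  obtain ⟨z2, z3, z4⟩ := s52h_Zpow s52_zeta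
  rw [s52h_map_S, s52h_map_T, s52h_map_Z]
  rcases s52h_conj_root σ with h | h | h | h <;> rw [h]
  · exact ⟨hS, hT, hZ⟩
  · rw [s52h_word2 _ hz, t2, z2]
    refine ⟨?_, ?_, ?_⟩ <;> apply_rules [Submonoid.mul_mem]
  · rw [s52h_word3 _ hz, t3, z3]
    refine ⟨?_, ?_, ?_⟩ <;> apply_rules [Submonoid.mul_mem]
  · rw [s52h_word4 _ hz, t4, z4]
    refine ⟨?_, ?_, ?_⟩ <;> apply_rules [Submonoid.mul_mem]

/-- **[KLEIN-GROUP]** -/
theorem s52h_kleinGroup : s52_KleinGroup := by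
  have hz := s52_zeta_spec
  refine ⟨?_, ?_, ?_⟩
  · -- Galois-stability
    intro g hg σ
    induction hg using Submonoid.closure_induction with
    | mem x hx =>
      obtain ⟨m1, m2, m3⟩ := s52h_gen_map_mem σ
      rcases hx with rfl | rfl | rfl
      · exact m1
      · exact m2
      · exact m3
    | one =>
      rw [Matrix.map_one _ (map_zero σ) (map_one σ)]
      exact Submonoid.one_mem _
    | mul x y _ _ hx hy =>
      rw [Matrix.map_mul]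
      exact Submonoid.mul_mem _ hx hy
  · -- invariance
    intro g hg
    induction hg using Submonoid.closure_induction with
    | mem x hx =>
      intro w
      rcases hx with rfl | rfl | rfl
      · exact ⟨(s52h_inv_S _ hz w).1, (s52h_inv_S _ hz w).2.1⟩
      · exact ⟨(s52h_inv_T _ hz w).1, (s52h_inv_T _ hz w).2.1⟩
      · exact s52h_inv_Z _ hz w
    | one =>
      intro w
      rw [Matrix.vecMul_one]
      exact ⟨rfl, rfl⟩
    | mul x y _ _ hx hy =>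
      intro w
      rw [← Matrix.vecMul_vecMul]
      exact ⟨(hy (w ᵥ* x)).1.trans (hx w).1, (hy (w ᵥ* x)).2.trans (hx w).2⟩
  · -- determinants
    intro g hg
    induction hg using Submonoid.closure_induction with
    | mem x hx =>
      rcases hx with rfl | rfl | rfl
      · rw [s52h_Smat_eq, s52h_detS _ hz]
        exact isUnit_one
      · rw [s52h_Tmat_eq]
        have : (s52h_T s52_zeta).det = s52_zeta ^ 5 := by
          simp only [s52h_T, Matrix.det_fin_two_of]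
          ring
        rw [this, s52h_z5 _ hz]
        exact isUnit_one
      · rw [s52h_Zmat_eq]
        have : (s52h_Z s52_zeta).det = s52_zeta ^ 2 := by
          simp only [s52h_Z, Matrix.det_fin_two_of]
          ring
        rw [this]
        exact isUnit_iff_ne_zero.mpr (pow_ne_zero _ (s52h_z_ne_zero _ hz))
    | one =>
      rw [Matrix.det_one]
      exact isUnit_one
    | mul x y _ _ hx hy =>
      rw [Matrix.det_mul]
      exact hx.mul hy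

end final

end Fermat.Agent.Lib.S52
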