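/-
Programme K (S52), contract **[TWIST]** (helper7):
`s52h_twist : s52_KleinGroup → s52_KleinOrbit → s52_KleinIso → s52_KleinFix → s52_KleinExist →
  s52_ShortIso → s52_Twist`  (Iface v2).

Wiring: `ω*` on the fibre over `(-c₄(W), -c₆(W))` ([KF-EXIST]); the `Ĝ`-orbit of `ω*` is free and
Galois-stable ([KLEIN-ORBIT]) and `Ĝ` is closed under `g · σ(h)` ([KLEIN-GROUP]), so
`s52h_orbit_cocycle` (Hilbert 90) gives the cocycle `g`, `A₀ ∈ GL₂(ℚ(ω*))` and a rational base point;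
rescaling by the common denominator makes the base point integral; `s52h_descent_int` applied to
`H, T ∈ ℤ[X₀,X₁]` ([KLEIN-GROUP] invariance) gives the rational forms `h = -(H∘A)`, `t = -(T∘A)`;
`δ := -f(ω*)` satisfies `δ⁵ = Δ(W)` by Klein's syzygy and `1728 Δ = c₄³ - c₆²`; the field of
definition clause is `A i j ∈ ℚ(ω*)` + [KLEIN-FIX] + [SHORT-ISO]; the torsion isomorphisms are
[KLEIN-ISO] with the common cocycle `g`.
-/
import Fermat.Agent.Lib.S52.Iface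
import Fermat.Agent.Lib.S52.H90Descent

set_option autoImplicit false

noncomputable section

namespace Fermat.Agent.Lib.S52

open Fermat.Agent.Lib.S58 Matrix MvPolynomial

local notation "Kb" => AlgebraicClosure ℚ

/-! ### Klein forms as polynomials -/

/-- `H` as an element of `ℤ[X₀, X₁]`. -/
def s52h_PhiH : MvPolynomial (Fin 2) ℤ := s52m_kH (X 0) (X 1)

/-- `T` as an element of `ℤ[X₀, X₁]`. -/
def s52h_PhiT : MvPolynomial (Fin 2) ℤ := s52m_kT (X 0) (X 1)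

theorem s52h_aeval_PhiH (ω : Fin 2 → Kb) : aeval ω s52h_PhiH = s52_Hv ω := by
  have := s52m_kH_map ((aeval ω : MvPolynomial (Fin 2) ℤ →ₐ[ℤ] Kb) : MvPolynomial (Fin 2) ℤ →+* Kb)
    (X 0) (X 1)
  simpa [s52h_PhiH] using this

theorem s52h_aeval_PhiT (ω : Fin 2 → Kb) : aeval ω s52h_PhiT = s52_Tv ω := by
  have := s52m_kT_map ((aeval ω : MvPolynomial (Fin 2) ℤ →ₐ[ℤ] Kb) : MvPolynomial (Fin 2) ℤ →+* Kb)
    (X 0) (X 1)
  simpa [s52h_PhiT] using this

/-! ### rescaling `A` by a rational number -/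

theorem s52h_smul_cocycle (g : s58_G → Matrix (Fin 2) (Fin 2) Kb) (A : Matrix (Fin 2) (Fin 2) Kb)
    (hA : ∀ σ : s58_G, A.map σ = A * g σ) (r : ℚ) (σ : s58_G) :
    ((algebraMap ℚ Kb r) • A).map σ = ((algebraMap ℚ Kb r) • A) * g σ := by
  rw [Matrix.smul_mul, ← hA σ]
  ext i j
  simp [Matrix.map_apply, Matrix.smul_apply]

/-- an automorphism fixing the generators fixes `ℚ(w)` pointwise -/
theorem s52h_fixes_adjoin (w : Fin 2 → Kb) (σ : s58_G) (hσ : ∀ i, σ (w i) = w i)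
    (x : Kb) (hx : x ∈ IntermediateField.adjoin ℚ (Set.range w)) : σ x = x := by
  have hle : IntermediateField.adjoin ℚ (Set.range w)
      ≤ IntermediateField.fixedField (Subgroup.zpowers σ) := by
    rw [IntermediateField.adjoin_le_iff]
    rintro _ ⟨i, rfl⟩
    rw [SetLike.mem_coe, IntermediateField.mem_fixedField_iff]
    intro τ hτ
    obtain ⟨k, rfl⟩ := Subgroup.mem_zpowers_iff.mp hτ
    have hfix : ∀ k : ℕ, (σ ^ k) (w i) = w i := by
      intro k
      induction k with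
      | zero => simp
      | succ k ih => rw [pow_succ, AlgEquiv.mul_apply, hσ, ih]
    have hfix' : ∀ k : ℕ, (σ ^ k)⁻¹ (w i) = w i := by
      intro k
      have := hfix k
      rw [AlgEquiv.aut_inv]
      exact (AlgEquiv.symm_apply_eq _).mpr this.symm
    rcases Int.eq_nat_or_neg k with ⟨m, rfl | rfl⟩
    · rw [zpow_natCast]; exact hfix m
    · rw [_root_.zpow_neg, zpow_natCast]; exact hfix' m
  exact (IntermediateField.mem_fixedField_iff _ x).mp (hle hx) σ (Subgroup.mem_zpowers σ)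

theorem s52h_rat_aux (a b : ℚ) :
    ((a.num * (b.den : ℤ) : ℤ) : ℚ) * ((a.den : ℚ) * (b.den : ℚ))⁻¹ = a := by
  have ha : (a.den : ℚ) ≠ 0 := Nat.cast_ne_zero.mpr a.den_ne_zero
  have hb : (b.den : ℚ) ≠ 0 := Nat.cast_ne_zero.mpr b.den_ne_zero
  have h : (a.num : ℚ) = a * (a.den : ℚ) := (Rat.mul_den_eq_num a).symm
  push_cast
  rw [h]
  field_simp

/-- clearing the denominators of the rational base point by rescaling `A` -/
theorem s52h_integral_base (A₀ : Matrix (Fin 2) (Fin 2) Kb) (v₀ : Fin 2 → ℚ) :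
    ∃ (r : ℚ) (x₀ y₀ : ℤ), r ≠ 0 ∧
      ![((x₀ : ℤ) : Kb), ((y₀ : ℤ) : Kb)] ᵥ* (algebraMap ℚ Kb r • A₀)
        = (fun i => algebraMap ℚ Kb (v₀ i)) ᵥ* A₀ := by
  have hd0' : ((v₀ 0).den : ℚ) ≠ 0 := Nat.cast_ne_zero.mpr (v₀ 0).den_ne_zero
  have hd1' : ((v₀ 1).den : ℚ) ≠ 0 := Nat.cast_ne_zero.mpr (v₀ 1).den_ne_zero
  refine ⟨(((v₀ 0).den : ℚ) * ((v₀ 1).den : ℚ))⁻¹, (v₀ 0).num * ((v₀ 1).den : ℤ),
    (v₀ 1).num * ((v₀ 0).den : ℤ), inv_ne_zero (mul_ne_zero hd0' hd1'), ?_⟩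
  have hx := congrArg (algebraMap ℚ Kb) (s52h_rat_aux (v₀ 0) (v₀ 1))
  have hy := congrArg (algebraMap ℚ Kb) (s52h_rat_aux (v₀ 1) (v₀ 0))
  rw [map_mul, map_intCast] at hx hy
  rw [mul_comm ((v₀ 1).den : ℚ) ((v₀ 0).den : ℚ)] at hy
  ext j
  simp only [Matrix.vecMul, dotProduct, Fin.sum_univ_two, Matrix.smul_apply, smul_eq_mul,
    Matrix.cons_val_zero, Matrix.cons_val_one]
  rw [← hx, ← hy]
  ring

theorem s52h_vec_cast (X Y : ℚ) :
    (fun i => algebraMap ℚ Kb (![X, Y] i)) = ![(X : Kb), (Y : Kb)] := by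
  ext i
  fin_cases i <;> simp [eq_ratCast]

/-- **[TWIST]** the wiring of the Klein package with Hilbert 90. -/
theorem s52h_twist (hKG : s52_KleinGroup) (hKO : s52_KleinOrbit) (hKI : s52_KleinIso)
    (hKF : s52_KleinFix) (hKE : s52_KleinExist) (hSI : s52_ShortIso) : s52_Twist := by
  intro W hΔ hc4 hc6
  obtain ⟨hstabG, hinvG, -⟩ := hKG
  have hGal := s52h_isGalois_Qbar
  -- `c₄³ ≠ c₆²`
  have hrel : W.c₄ ^ 3 ≠ W.c₆ ^ 2 := by
    intro h
    have h1 := W.c_relation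
    rw [h, sub_self] at h1
    exact hΔ (by
      rcases mul_eq_zero.mp h1 with h2 | h2
      · norm_num at h2
      · exact h2)
  -- the fibre point `ω*`
  obtain ⟨u, v, hu, hv⟩ := hKE ((W.c₄ : ℤ) : Kb) ((W.c₆ : ℤ) : Kb)
    (by exact_mod_cast hc4) (by exact_mod_cast hc6) (by exact_mod_cast hrel)
  set w : Fin 2 → Kb := ![u, v] with hw
  have hfib : s52_OnFibre W.c₄ W.c₆ w := ⟨hu, hv⟩
  obtain ⟨hfree, hstab⟩ := hKO W.c₄ W.c₆ hc4 hc6 hrel w hfib
  -- cocycle and Hilbert 90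
  obtain ⟨g, A₀, hgS, hg, -, hdet₀, hA₀, hmem₀, -, v₀, hv₀⟩ :=
    s52h_orbit_cocycle (s52_Ghat : Set (Matrix (Fin 2) (Fin 2) Kb)) (Submonoid.one_mem _)
      (fun a ha b hb σ => Submonoid.mul_mem _ ha (hstabG b hb σ)) w hfree hstab
  -- integral base point
  obtain ⟨r, x₀, y₀, hr, hbase₀⟩ := s52h_integral_base A₀ v₀
  rw [hv₀] at hbase₀
  set A : Matrix (Fin 2) (Fin 2) Kb := algebraMap ℚ Kb r • A₀ with hAdef
  have hA : ∀ σ : s58_G, A.map σ = A * g σ := s52h_smul_cocycle g A₀ hA₀ r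
  have hr' : algebraMap ℚ Kb r ≠ 0 := by
    rw [Ne, map_eq_zero]; exact hr
  have hdetA : IsUnit A.det := by
    rw [hAdef, Matrix.det_smul]
    exact (isUnit_iff_ne_zero.mpr (pow_ne_zero _ hr')).mul hdet₀
  have hmemA : ∀ i j, A i j ∈ IntermediateField.adjoin ℚ (Set.range w) := fun i j => by
    rw [hAdef, Matrix.smul_apply, smul_eq_mul]
    exact mul_mem (IntermediateField.algebraMap_mem _ r) (hmem₀ i j)
  -- descent of `H` and `T`
  obtain ⟨hH, -, hHv⟩ := s52h_descent_int s52h_PhiH g A hA (fun σ ω => by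
    rw [s52h_aeval_PhiH, s52h_aeval_PhiH]; exact (hinvG _ (hgS σ) ω).1)
  obtain ⟨hT, -, hTv⟩ := s52h_descent_int s52h_PhiT g A hA (fun σ ω => by
    rw [s52h_aeval_PhiT, s52h_aeval_PhiT]; exact (hinvG _ (hgS σ) ω).2)
  have hcH : ∀ X Y : ℚ, ((MvPolynomial.eval ![X, Y] (-hH) : ℚ) : Kb)
      = -s52_Hv (![(X : Kb), (Y : Kb)] ᵥ* A) := by
    intro X Y
    have := hHv ![X, Y]
    rw [s52h_vec_cast, s52h_aeval_PhiH, eq_ratCast] at this
    rw [map_neg, Rat.cast_neg, this]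
  have hcT : ∀ X Y : ℚ, ((MvPolynomial.eval ![X, Y] (-hT) : ℚ) : Kb)
      = -s52_Tv (![(X : Kb), (Y : Kb)] ᵥ* A) := by
    intro X Y
    have := hTv ![X, Y]
    rw [s52h_vec_cast, s52h_aeval_PhiT, eq_ratCast] at this
    rw [map_neg, Rat.cast_neg, this]
  have hbase : ![(((x₀ : ℤ) : ℚ) : Kb), (((y₀ : ℤ) : ℚ) : Kb)] ᵥ* A = w := by
    rw [← hbase₀]
    simp only [Rat.cast_intCast]
  refine ⟨A, -s52_fv w, -hH, -hT, x₀, y₀, hdetA, ?_, ?_, hcH, hcT, ?_, ?_, ?_⟩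
  · -- `δ⁵ = Δ`
    have hsyz := s52m_klein_syzygy (w 0) (w 1)
    have hHw : s52m_kH (w 0) (w 1) = -((W.c₄ : ℤ) : Kb) := hfib.1
    have hTw : s52m_kT (w 0) (w 1) = -((W.c₆ : ℤ) : Kb) := hfib.2
    rw [hHw, hTw] at hsyz
    have hcr : (1728 : Kb) * ((W.Δ : ℤ) : Kb) = ((W.c₄ : ℤ) : Kb) ^ 3 - ((W.c₆ : ℤ) : Kb) ^ 2 := by
      exact_mod_cast congrArg (fun z : ℤ => (z : Kb)) W.c_relation
    have h1728 : (1728 : Kb) ≠ 0 := by norm_num
    apply mul_left_cancel₀ h1728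
    rw [hcr]
    show (1728 : Kb) * (-s52m_kf (w 0) (w 1)) ^ 5 = _
    linear_combination hsyz
  · -- field of definition
    intro σ hζ hδ hW5 i j
    have hfw : σ (s52_fv w) = s52_fv w := by
      have := hδ
      rw [map_neg, neg_inj] at this
      exact this
    obtain ⟨e, he⟩ := hSI W hΔ
    have hsh : ∀ P : s58_Pt (s52_short W), 5 • P = 0 → σ • P = P := by
      intro P hP
      have h5 : 5 • e.symm P = 0 := by
        rw [← map_nsmul, hP, map_zero]
      have := hW5 (e.symm P) h5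
      have h2 := he σ (e.symm P)
      rw [this, e.apply_symm_apply] at h2
      exact h2.symm
    have hwfix := hKF W.c₄ W.c₆ hc4 hc6 hrel w hfib σ hζ hfw hsh
    exact s52h_fixes_adjoin w σ hwfix _ (hmemA i j)
  · -- base point, `h`
    apply Rat.cast_injective (α := Kb)
    rw [hcH, hbase, hfib.1, neg_neg, Rat.cast_intCast]
  · -- base point, `t`
    apply Rat.cast_injective (α := Kb)
    rw [hcT, hbase, hfib.2, neg_neg, Rat.cast_intCast]
  · -- torsion isomorphisms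
    intro X Y c4' c6' h1 h2 hne
    set w' : Fin 2 → Kb := ![(X : Kb), (Y : Kb)] ᵥ* A with hw'
    have hfib' : s52_OnFibre c4' c6' w' := by
      constructor
      · have := hcH X Y
        rw [h1, Rat.cast_intCast] at this
        show s52_Hv w' = -((c4' : ℤ) : Kb)
        linear_combination this
      · have := hcT X Y
        rw [h2, Rat.cast_intCast] at this
        show s52_Tv w' = -((c6' : ℤ) : Kb)
        linear_combination this
    have hcommon : ∀ σ : s58_G, ∃ g' ∈ s52_Ghat,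
        (fun i => σ (w i)) = w ᵥ* g' ∧ (fun i => σ (w' i)) = w' ᵥ* g' := by
      intro σ
      refine ⟨g σ, hgS σ, hg σ, ?_⟩
      have := s52h_vecMul_semiinvariant g hA ![X, Y] σ
      rw [s52h_vec_cast] at this
      exact this
    exact hKI W.c₄ W.c₆ c4' c6' hrel hne w w' hfib hfib' hcommon

end Fermat.Agent.Lib.S52
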