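/-
Programme K (S52, the 3–5 switch), contracts [KF-EXIST] and [KF-COUNT] (helper4, prefix `s52k_`):
over `ℚ̄` (in fact over any algebraically closed field of characteristic zero) the fibre of
`(H, T)` over `(-c₄, -c₆)`, `c₄ c₆ (c₄³ - c₆²) ≠ 0`, is non-empty and has at most `600` points.

Both come from the polynomial `P(u) = c₆² H(u,1)³ + c₄³ T(u,1)²` of degree `60` (leading
coefficient `c₄³ - c₆²`): a solution `(u, v)` has `v ≠ 0`, `r = u / v` is a root of `P` and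
`v¹⁰ = c₆ H(r,1) / (c₄ T(r,1))`; conversely a root `r` of `P` has `H(r,1) ≠ 0 ≠ T(r,1)` (syzygy and
`s52m_kH_kf_no_common_zero`) and every tenth root `v` of that quotient gives the solution `(rv, v)`.
-/
import Mathlib
import Fermat.Agent.Lib.S52.Iface

set_option autoImplicit false

namespace Fermat.Agent.Lib.S52

open Polynomial

section fibre

variable {K : Type*} [Field K]

/-- `H(u, 1)` as a polynomial. -/
noncomputable def s52k_Hp : K[X] := s52m_kH (X : K[X]) 1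

/-- `T(u, 1)` as a polynomial. -/
noncomputable def s52k_Tp : K[X] := s52m_kT (X : K[X]) 1

/-- `P(u) = c₆² H(u,1)³ + c₄³ T(u,1)²`. -/
noncomputable def s52k_P (c4 c6 : K) : K[X] :=
  C (c6 ^ 2) * s52k_Hp ^ 3 + C (c4 ^ 3) * s52k_Tp ^ 2

theorem s52k_Hp_eval (r : K) : (s52k_Hp : K[X]).eval r = s52m_kH r 1 := by
  have h := s52m_kH_map (Polynomial.evalRingHom r) (X : K[X]) 1
  simpa [s52k_Hp] using h

theorem s52k_Tp_eval (r : K) : (s52k_Tp : K[X]).eval r = s52m_kT r 1 := by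
  have h := s52m_kT_map (Polynomial.evalRingHom r) (X : K[X]) 1
  simpa [s52k_Tp] using h

theorem s52k_P_eval (c4 c6 r : K) :
    (s52k_P c4 c6).eval r = c6 ^ 2 * s52m_kH r 1 ^ 3 + c4 ^ 3 * s52m_kT r 1 ^ 2 := by
  simp [s52k_P, s52k_Hp_eval, s52k_Tp_eval]

theorem s52k_Hp_eq : (s52k_Hp : K[X]) =
    -(X ^ 20 + 1) + 228 * (X ^ 15 - X ^ 5) - 494 * X ^ 10 := by
  unfold s52k_Hp s52m_kH
  ring

theorem s52k_Tp_eq : (s52k_Tp : K[X]) =
    (X ^ 30 + 1) + 522 * (X ^ 25 - X ^ 5) - 10005 * (X ^ 20 + X ^ 10) := by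
  unfold s52k_Tp s52m_kT
  ring

theorem s52k_P_natDegree_le (c4 c6 : K) : (s52k_P c4 c6).natDegree ≤ 60 := by
  unfold s52k_P
  rw [s52k_Hp_eq, s52k_Tp_eq]
  compute_degree

theorem s52k_P_natDegree (c4 c6 : K) (h : c4 ^ 3 ≠ c6 ^ 2) : (s52k_P c4 c6).natDegree = 60 := by
  unfold s52k_P
  rw [s52k_Hp_eq, s52k_Tp_eq]
  compute_degree
  · have h1 : (1 : K[X]).coeff 20 = 0 := by
      rw [Polynomial.coeff_one]
      norm_num
    rw [h1]
    intro h2
    apply h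
    linear_combination h2
  all_goals norm_num

theorem s52k_P_ne_zero (c4 c6 : K) (h : c4 ^ 3 ≠ c6 ^ 2) : s52k_P c4 c6 ≠ 0 := by
  apply Polynomial.ne_zero_of_natDegree_gt (n := 0)
  rw [s52k_P_natDegree c4 c6 h]
  norm_num

/-- at a root of `P` neither `H(r,1)` nor `T(r,1)` vanishes. -/
theorem s52k_root_ne [CharZero K] (c4 c6 r : K) (hc4 : c4 ≠ 0) (hc6 : c6 ≠ 0)
    (hr : c6 ^ 2 * s52m_kH r 1 ^ 3 + c4 ^ 3 * s52m_kT r 1 ^ 2 = 0) :
    s52m_kH r 1 ≠ 0 ∧ s52m_kT r 1 ≠ 0 := by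
  have key : ¬ (s52m_kH r 1 = 0 ∧ s52m_kT r 1 = 0) := by
    rintro ⟨hH, hT⟩
    have hs := s52m_klein_syzygy r (1 : K)
    rw [hH, hT] at hs
    have hf : s52m_kf r 1 = 0 := by
      have h0 : (1728 : K) * s52m_kf r 1 ^ 5 = 0 := by
        rw [← hs]
        ring
      rcases mul_eq_zero.mp h0 with h | h
      · norm_num at h
      · exact (pow_eq_zero_iff (by norm_num)).mp h
    have h2 := s52m_kH_kf_no_common_zero (by norm_num : (5 : K) ≠ 0) r 1 hH hf
    exact one_ne_zero h2.2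
  constructor
  · intro hH
    apply key
    refine ⟨hH, ?_⟩
    rw [hH] at hr
    have h0 : c4 ^ 3 * s52m_kT r 1 ^ 2 = 0 := by linear_combination hr
    rcases mul_eq_zero.mp h0 with h | h
    · exact absurd ((pow_eq_zero_iff (by norm_num)).mp h) hc4
    · exact (pow_eq_zero_iff (by norm_num)).mp h
  · intro hT
    apply key
    refine ⟨?_, hT⟩
    rw [hT] at hr
    have h0 : c6 ^ 2 * s52m_kH r 1 ^ 3 = 0 := by linear_combination hr
    rcases mul_eq_zero.mp h0 with h | h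
    · exact absurd ((pow_eq_zero_iff (by norm_num)).mp h) hc6
    · exact (pow_eq_zero_iff (by norm_num)).mp h

/-- **existence** of a point on the fibre. -/
theorem s52k_exist [IsAlgClosed K] [CharZero K] (c4 c6 : K) (hc4 : c4 ≠ 0) (hc6 : c6 ≠ 0)
    (h : c4 ^ 3 ≠ c6 ^ 2) : ∃ u v : K, s52m_kH u v = -c4 ∧ s52m_kT u v = -c6 := by
  have hdeg : (s52k_P c4 c6).degree ≠ 0 := by
    rw [Polynomial.degree_eq_natDegree (s52k_P_ne_zero c4 c6 h), s52k_P_natDegree c4 c6 h]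
    norm_num
  obtain ⟨r, hr⟩ := IsAlgClosed.exists_root _ hdeg
  rw [Polynomial.IsRoot.def, s52k_P_eval] at hr
  obtain ⟨hH, hT⟩ := s52k_root_ne c4 c6 r hc4 hc6 hr
  obtain ⟨z, hz⟩ := IsAlgClosed.exists_pow_nat_eq
    ((c6 * s52m_kH r 1) / (c4 * s52m_kT r 1)) (n := 10) (by norm_num)
  have e2 : ((c6 * s52m_kH r 1) / (c4 * s52m_kT r 1)) ^ 2 * s52m_kH r 1 = -c4 := by
    rw [div_pow, div_mul_eq_mul_div, div_eq_iff (pow_ne_zero 2 (mul_ne_zero hc4 hT))]
    linear_combination hr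
  have e3 : ((c6 * s52m_kH r 1) / (c4 * s52m_kT r 1)) ^ 3 * s52m_kT r 1 = -c6 := by
    rw [div_pow, div_mul_eq_mul_div, div_eq_iff (pow_ne_zero 3 (mul_ne_zero hc4 hT))]
    linear_combination (c6 * s52m_kT r 1) * hr
  refine ⟨z * r, z, ?_, ?_⟩
  · have h1 := s52m_kH_smul z r 1
    rw [mul_one] at h1
    rw [h1, show z ^ 20 = (z ^ 10) ^ 2 by ring, hz]
    exact e2
  · have h1 := s52m_kT_smul z r 1
    rw [mul_one] at h1
    rw [h1, show z ^ 30 = (z ^ 10) ^ 3 by ring, hz]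
    exact e3

/-- a point of the fibre has `v ≠ 0`, its ratio is a root of `P`, and `v¹⁰` is determined. -/
theorem s52k_of_mem (c4 c6 : K) (hc4 : c4 ≠ 0) (hc6 : c6 ≠ 0) (h : c4 ^ 3 ≠ c6 ^ 2) (u v : K)
    (hH : s52m_kH u v = -c4) (hT : s52m_kT u v = -c6) :
    v ≠ 0 ∧ (s52k_P c4 c6).IsRoot (u / v) ∧
      v ^ 10 = (c6 * s52m_kH (u / v) 1) / (c4 * s52m_kT (u / v) 1) := by
  have hv : v ≠ 0 := by
    intro hv
    apply h
    rw [hv] at hH hT
    unfold s52m_kH at hH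
    unfold s52m_kT at hT
    have h1 : c4 = u ^ 20 := by linear_combination hH
    have h2 : c6 = -u ^ 30 := by linear_combination hT
    rw [h1, h2]
    ring
  have hu : u = v * (u / v) := by field_simp
  have h1 := s52m_kH_smul v (u / v) 1
  have h2 := s52m_kT_smul v (u / v) 1
  rw [mul_one, ← hu, hH] at h1
  rw [mul_one, ← hu, hT] at h2
  have hHr : s52m_kH (u / v) 1 ≠ 0 := by
    intro h0
    rw [h0, mul_zero] at h1
    exact hc4 (neg_eq_zero.mp h1)
  have hTr : s52m_kT (u / v) 1 ≠ 0 := by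
    intro h0
    rw [h0, mul_zero] at h2
    exact hc6 (neg_eq_zero.mp h2)
  refine ⟨hv, ?_, ?_⟩
  · rw [Polynomial.IsRoot.def, s52k_P_eval]
    have h60 : v ^ 60 ≠ 0 := pow_ne_zero _ hv
    apply mul_left_cancel₀ h60
    rw [mul_zero]
    linear_combination (-c6 ^ 2 * (c4 ^ 2 - c4 * (v ^ 20 * s52m_kH (u / v) 1) +
      (v ^ 20 * s52m_kH (u / v) 1) ^ 2)) * h1 +
      (-c4 ^ 3 * (v ^ 30 * s52m_kT (u / v) 1 - c6)) * h2
  · rw [eq_div_iff (mul_ne_zero hc4 hTr)]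
    linear_combination (-(v ^ 10) * s52m_kT (u / v) 1) * h1 + s52m_kH (u / v) 1 * h2

/-- **count**: the fibre lies in a finite set of at most `600` points. -/
theorem s52k_count (c4 c6 : K) (hc4 : c4 ≠ 0) (hc6 : c6 ≠ 0) (h : c4 ^ 3 ≠ c6 ^ 2) :
    ∃ F : Finset (K × K), F.card ≤ 600 ∧
      ∀ u v : K, s52m_kH u v = -c4 → s52m_kT u v = -c6 → (u, v) ∈ F := by
  classical
  refine ⟨(s52k_P c4 c6).roots.toFinset.biUnion
      (fun r => (Polynomial.nthRoots 10 ((c6 * s52m_kH r 1) / (c4 * s52m_kT r 1))).toFinset.image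
        (fun v => (r * v, v))), ?_, ?_⟩
  · calc _ ≤ ∑ r ∈ (s52k_P c4 c6).roots.toFinset,
            ((Polynomial.nthRoots 10 ((c6 * s52m_kH r 1) / (c4 * s52m_kT r 1))).toFinset.image
              (fun v => (r * v, v))).card := Finset.card_biUnion_le
      _ ≤ ∑ _r ∈ (s52k_P c4 c6).roots.toFinset, 10 :=
          Finset.sum_le_sum (fun r _ => (Finset.card_image_le).trans
            ((Multiset.toFinset_card_le _).trans (Polynomial.card_nthRoots 10 _)))
      _ = (s52k_P c4 c6).roots.toFinset.card * 10 := by rw [Finset.sum_const, smul_eq_mul]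
      _ ≤ 60 * 10 := Nat.mul_le_mul_right _ ((Multiset.toFinset_card_le _).trans
            ((Polynomial.card_roots' _).trans (s52k_P_natDegree_le c4 c6)))
      _ = 600 := by norm_num
  · intro u v hH hT
    obtain ⟨hv, hroot, h10⟩ := s52k_of_mem c4 c6 hc4 hc6 h u v hH hT
    rw [Finset.mem_biUnion]
    refine ⟨u / v, ?_, ?_⟩
    · rw [Multiset.mem_toFinset, Polynomial.mem_roots (s52k_P_ne_zero c4 c6 h)]
      exact hroot
    · rw [Finset.mem_image]
      refine ⟨v, ?_, ?_⟩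
      · rw [Multiset.mem_toFinset, Polynomial.mem_nthRoots (by norm_num)]
        exact h10
      · rw [div_mul_cancel₀ _ hv]

end fibre

/-! ### the contracts -/

/-- **[KF-EXIST]** -/
theorem s52k_kleinExist : s52_KleinExist := by
  intro c4 c6 hc4 hc6 h
  exact s52k_exist c4 c6 hc4 hc6 h

/-- **[KF-COUNT]** -/
theorem s52k_kleinCount : s52_KleinCount := by
  intro c4 c6 hc4 hc6 h
  exact s52k_count c4 c6 hc4 hc6 h

end Fermat.Agent.Lib.S52
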