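/-
Programme K (S52, the 3–5 switch), contract [SL25] (helper4, prefix `s52k_`):
`|SL₂(𝔽₅)| = 120`, and `SL₂(𝔽₅)` is generated by `S = [[0,-1],[1,0]]` together with one non-trivial
elementary matrix.

The generation statement is proved for `SL₂` of an arbitrary field (`s52k_closure_top`): with
`U x = [[1,x],[0,1]]`, `L c = [[1,0],[c,1]]` one has `L c = S U(-c) S⁻¹`, and a matrix
`[[a,b],[c,d]]` of determinant one with `c ≠ 0` is `U((a-1)/c) · L(c) · U((d-1)/c)`; if `c = 0`
multiply by `S` first.  Over `𝔽₅` every `U x` is a power of `U e` (`e ≠ 0`).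
-/
import Mathlib
import Fermat.Agent.Lib.S52.Iface

set_option autoImplicit false

namespace Fermat.Agent.Lib.S52

open Matrix

/-! ### the order of `SL₂(𝔽₅)` -/

/-- `SL₂(𝔽₅)` as the set of quadruples `(a, b, c, d)` with `ad - bc = 1`. -/
def s52k_slEquiv : Matrix.SpecialLinearGroup (Fin 2) (ZMod 5) ≃
    {p : ZMod 5 × ZMod 5 × ZMod 5 × ZMod 5 // p.1 * p.2.2.2 - p.2.1 * p.2.2.1 = 1} where
  toFun M := ⟨(M 0 0, M 0 1, M 1 0, M 1 1), by
    have h := M.det_coe
    rw [Matrix.det_fin_two] at h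
    exact h⟩
  invFun p := ⟨!![p.1.1, p.1.2.1; p.1.2.2.1, p.1.2.2.2], by
    rw [Matrix.det_fin_two_of]
    exact p.2⟩
  left_inv M := by
    ext i j
    fin_cases i <;> fin_cases j <;> rfl
  right_inv p := by
    rcases p with ⟨⟨a, b, c, d⟩, hp⟩
    rfl

set_option maxRecDepth 100000 in
theorem s52k_card_quad : Fintype.card {p : ZMod 5 × ZMod 5 × ZMod 5 × ZMod 5 //
    p.1 * p.2.2.2 - p.2.1 * p.2.2.1 = 1} = 120 := by
  decide

/-- `|SL₂(𝔽₅)| = 120`. -/
theorem s52k_card_sl25 : Nat.card (Matrix.SpecialLinearGroup (Fin 2) (ZMod 5)) = 120 := by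
  rw [Nat.card_congr s52k_slEquiv, Nat.card_eq_fintype_card]
  exact s52k_card_quad

/-! ### generation of `SL₂` of a field -/

section gen

variable {F : Type*} [Field F]

/-- the upper elementary matrix `[[1,x],[0,1]]`. -/
def s52k_U (x : F) : Matrix.SpecialLinearGroup (Fin 2) F :=
  ⟨!![1, x; 0, 1], by rw [Matrix.det_fin_two_of]; ring⟩

/-- the lower elementary matrix `[[1,0],[c,1]]`. -/
def s52k_L (c : F) : Matrix.SpecialLinearGroup (Fin 2) F :=
  ⟨!![1, 0; c, 1], by rw [Matrix.det_fin_two_of]; ring⟩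

theorem s52k_U_zero : s52k_U (0 : F) = 1 := by
  ext i j
  fin_cases i <;> fin_cases j <;> simp [s52k_U]

theorem s52k_U_add (x y : F) : s52k_U (x + y) = s52k_U x * s52k_U y := by
  ext i j
  fin_cases i <;> fin_cases j <;> simp [s52k_U, Matrix.mul_apply, Fin.sum_univ_two, add_comm]

theorem s52k_U_nsmul (e : F) (k : ℕ) : s52k_U (k • e) = s52k_U e ^ k := by
  induction k with
  | zero => simp [s52k_U_zero]
  | succ k ih => rw [succ_nsmul, s52k_U_add, ih, pow_succ]

/-- `L c · S = S · U(-c)`. -/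
theorem s52k_L_mul_S (s : Matrix.SpecialLinearGroup (Fin 2) F)
    (hs : (s : Matrix (Fin 2) (Fin 2) F) = !![0, -1; 1, 0]) (c : F) :
    s52k_L c * s = s * s52k_U (-c) := by
  ext i j
  fin_cases i <;> fin_cases j <;>
    simp [s52k_U, s52k_L, hs, Matrix.mul_apply, Fin.sum_univ_two]

/-- a matrix of determinant one with non-zero lower left entry is `U · L · U`. -/
theorem s52k_eq_ULU (M : Matrix.SpecialLinearGroup (Fin 2) F) (hc : M 1 0 ≠ 0) :
    M = s52k_U ((M 0 0 - 1) / M 1 0) * s52k_L (M 1 0) * s52k_U ((M 1 1 - 1) / M 1 0) := by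
  have hdet : M 0 0 * M 1 1 - M 0 1 * M 1 0 = 1 := by
    have h := M.det_coe
    rw [Matrix.det_fin_two] at h
    exact h
  ext i j
  fin_cases i <;> fin_cases j <;>
    simp [s52k_U, s52k_L, Matrix.mul_apply, Fin.sum_univ_two]
  · field_simp
    ring
  · field_simp
    linear_combination -hdet
  · field_simp
    ring

/-- **generation of `SL₂(F)`**: a subgroup containing `S` and all `U x` is everything. -/
theorem s52k_top_of_S_U (H : Subgroup (Matrix.SpecialLinearGroup (Fin 2) F))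
    (s : Matrix.SpecialLinearGroup (Fin 2) F)
    (hs : (s : Matrix (Fin 2) (Fin 2) F) = !![0, -1; 1, 0]) (hsH : s ∈ H)
    (hU : ∀ x : F, s52k_U x ∈ H) : H = ⊤ := by
  have hL : ∀ c : F, s52k_L c ∈ H := by
    intro c
    have h := s52k_L_mul_S s hs c
    have h2 : s52k_L c = s * s52k_U (-c) * s⁻¹ := eq_mul_inv_of_mul_eq h
    rw [h2]
    exact H.mul_mem (H.mul_mem hsH (hU _)) (H.inv_mem hsH)
  have h1 : ∀ M : Matrix.SpecialLinearGroup (Fin 2) F, M 1 0 ≠ 0 → M ∈ H := by
    intro M hc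
    rw [s52k_eq_ULU M hc]
    exact H.mul_mem (H.mul_mem (hU _) (hL _)) (hU _)
  rw [eq_top_iff]
  intro M _
  by_cases hc : M 1 0 = 0
  · have hdet : M 0 0 * M 1 1 - M 0 1 * M 1 0 = 1 := by
      have h := M.det_coe
      rw [Matrix.det_fin_two] at h
      exact h
    have ha : M 0 0 ≠ 0 := by
      intro ha
      rw [ha, hc] at hdet
      simp at hdet
    have h2 : (s * M) 1 0 ≠ 0 := by
      have : (s * M) 1 0 = M 0 0 := by
        simp [hs, Matrix.mul_apply, Fin.sum_univ_two]
      rw [this]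
      exact ha
    have h3 : M = s⁻¹ * (s * M) := by group
    rw [h3]
    exact H.mul_mem (H.inv_mem hsH) (h1 _ h2)
  · exact h1 M hc

end gen

/-! ### the contract -/

/-- **[SL25]** -/
theorem s52k_sl25 : s52_SL25 := by
  refine ⟨s52k_card_sl25, ?_⟩
  intro s t hs ht
  have : Fact (Nat.Prime 5) := ⟨by norm_num⟩
  set H := Subgroup.closure {s, t} with hH
  have hsH : s ∈ H := Subgroup.subset_closure (by simp)
  have htH : t ∈ H := Subgroup.subset_closure (by simp)
  -- some non-trivial `U e` lies in `H`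
  have hUe : ∃ e : ZMod 5, e ≠ 0 ∧ s52k_U e ∈ H := by
    obtain ⟨e, he, h | h⟩ := ht
    · refine ⟨e, he, ?_⟩
      have : s52k_U e = t := by
        apply Subtype.ext
        rw [h]
        rfl
      rw [this]
      exact htH
    · refine ⟨-e, neg_ne_zero.mpr he, ?_⟩
      have ht' : t = s52k_L e := by
        apply Subtype.ext
        rw [h]
        rfl
      have h1 := s52k_L_mul_S s hs e
      have h2 : s52k_U (-e) = s⁻¹ * (s52k_L e * s) := by
        rw [h1]; group
      rw [h2, ← ht']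
      exact H.mul_mem (H.inv_mem hsH) (H.mul_mem htH hsH)
  obtain ⟨e, he, heH⟩ := hUe
  apply s52k_top_of_S_U H s hs hsH
  intro x
  have hx : x = (x * e⁻¹).val • e := by
    rw [nsmul_eq_mul, ZMod.natCast_zmod_val, mul_assoc, inv_mul_cancel₀ he, mul_one]
  rw [hx, s52k_U_nsmul]
  exact H.pow_mem heH _

end Fermat.Agent.Lib.S52
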