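/-
Programme K (S52, the 3-5 switch), PART D1 (helper3, prefix `s52m_`): the CHOICE of the rational
parameter `(X, Y)` and the construction of the integral model `W'`, as one abstract theorem over
`ℤ`/`ℚ` (no `ℚ̄` inside).

* `s52m_crt_gcd`     : `(x, y) ≡ (x₀, y₀) mod K` with `gcd(x, y)` supported on the primes of `K`;
* `s52m_eval_congr`  : congruences pass through `MvPolynomial (Fin 2) ℤ`;
* `s52m_clear_denom` : clearing the denominators of `h : MvPolynomial (Fin 2) ℚ` on integer points;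
* `s52m_choice`      : the choice theorem (see its docstring).
-/
import Fermat.Agent.Lib.S52.MModel

set_option autoImplicit false

namespace Fermat.Agent.Lib.S52

open WeierstrassCurve MvPolynomial

/-- **CRT with a gcd condition.** -/
theorem s52m_crt_gcd (K : ℕ) (hK : 0 < K) (x₀ y₀ : ℤ) :
    ∃ x y : ℤ, x ≡ x₀ [ZMOD K] ∧ y ≡ y₀ [ZMOD K] ∧
      ∀ p : ℕ, p.Prime → (p : ℤ) ∣ x → (p : ℤ) ∣ y → p ∣ K := by
  -- a non-zero `x`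
  obtain ⟨x, hx0, hxK⟩ : ∃ x : ℤ, x ≠ 0 ∧ x ≡ x₀ [ZMOD K] := by
    by_cases h : x₀ = 0
    · refine ⟨K, by exact_mod_cast hK.ne', ?_⟩
      rw [h]
      exact (Int.modEq_zero_iff_dvd).mpr dvd_rfl
    · exact ⟨x₀, h, Int.ModEq.refl _⟩
  set P : ℕ := ∏ p ∈ x.natAbs.primeFactors.filter (fun p => ¬ p ∣ K), p with hP
  have hcop : Nat.Coprime K P := by
    rw [hP]
    apply Nat.Coprime.prod_right
    intro p hp
    rw [Finset.mem_filter, Nat.mem_primeFactors] at hp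
    exact ((Nat.Prime.coprime_iff_not_dvd hp.1.1).mpr hp.2).symm
  -- `K * t ≡ 1 - y₀ mod P`
  obtain ⟨t, ht⟩ : ∃ t : ℤ, (P : ℤ) ∣ (y₀ + K * t) - 1 := by
    have h1 : Int.gcd (K : ℤ) (P : ℤ) = 1 := by
      rw [Int.gcd_natCast_natCast]; exact hcop
    have h2 := Int.gcd_eq_gcd_ab (K : ℤ) (P : ℤ)
    rw [h1] at h2
    refine ⟨Int.gcdA K P * (1 - y₀), -(Int.gcdB K P * (1 - y₀)), ?_⟩
    have h3 : (K : ℤ) * Int.gcdA K P = 1 - P * Int.gcdB K P := by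
      have : ((1 : ℕ) : ℤ) = 1 := rfl
      rw [this] at h2
      linarith
    calc y₀ + (K : ℤ) * (Int.gcdA K P * (1 - y₀)) - 1
        = y₀ + ((K : ℤ) * Int.gcdA K P) * (1 - y₀) - 1 := by ring
      _ = (P : ℤ) * -(Int.gcdB K P * (1 - y₀)) := by rw [h3]; ring
  refine ⟨x, y₀ + K * t, hxK, ?_, ?_⟩
  · have : (y₀ + (K : ℤ) * t) - y₀ = K * t := by ring
    exact (Int.modEq_iff_dvd.mpr ⟨-t, by ring⟩)
  · intro p hp hpx hpy
    by_contra hpK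
    have hpP : p ∣ P := by
      rw [hP]
      apply Finset.dvd_prod_of_mem
      rw [Finset.mem_filter, Nat.mem_primeFactors]
      refine ⟨⟨hp, ?_, ?_⟩, hpK⟩
      · exact Int.natCast_dvd.mp hpx
      · exact Int.natAbs_ne_zero.mpr hx0
    have h1 : (p : ℤ) ∣ (y₀ + K * t) - 1 := dvd_trans (Int.natCast_dvd_natCast.mpr hpP) ht
    have h2 : (p : ℤ) ∣ 1 := by
      have := dvd_sub hpy h1
      simpa using this
    have h3 : p ∣ 1 := by exact_mod_cast h2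
    exact hp.one_lt.ne' (Nat.dvd_one.mp h3)

/-- congruences pass through integer polynomials in two variables. -/
theorem s52m_eval_congr (P : MvPolynomial (Fin 2) ℤ) (K : ℤ) (v w : Fin 2 → ℤ)
    (hvw : ∀ i, v i ≡ w i [ZMOD K]) : eval v P ≡ eval w P [ZMOD K] := by
  induction P using MvPolynomial.induction_on with
  | C a => simp only [eval_C]; exact Int.ModEq.refl _
  | add p q hp hq => simp only [map_add]; exact Int.ModEq.add hp hq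
  | mul_X p i hp => simp only [map_mul, eval_X]; exact Int.ModEq.mul hp (hvw i)

/-- clearing denominators on integer points. -/
theorem s52m_clear_denom (h : MvPolynomial (Fin 2) ℚ) :
    ∃ D : ℕ, 0 < D ∧ ∃ P : MvPolynomial (Fin 2) ℤ, ∀ v : Fin 2 → ℤ,
      (D : ℚ) * eval (fun i => (v i : ℚ)) h = (eval v P : ℤ) := by
  induction h using MvPolynomial.induction_on with
  | C a =>
    refine ⟨a.den, a.den_pos, C a.num, fun v => ?_⟩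
    simp only [eval_C]
    rw [mul_comm]
    exact Rat.mul_den_eq_num a
  | add p q hp hq =>
    obtain ⟨D₁, hD₁, P₁, h₁⟩ := hp
    obtain ⟨D₂, hD₂, P₂, h₂⟩ := hq
    refine ⟨D₁ * D₂, Nat.mul_pos hD₁ hD₂, C (D₂ : ℤ) * P₁ + C (D₁ : ℤ) * P₂, fun v => ?_⟩
    simp only [map_add, map_mul, eval_C]
    push_cast
    rw [← h₁ v, ← h₂ v]
    ring
  | mul_X p i hp =>
    obtain ⟨D₁, hD₁, P₁, h₁⟩ := hp
    refine ⟨D₁, hD₁, P₁ * X i, fun v => ?_⟩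
    simp only [map_mul, eval_X]
    push_cast
    rw [← h₁ v]
    ring

theorem s52m_castVec (X Y : ℤ) :
    (fun i => (((![X, Y] : Fin 2 → ℤ) i : ℤ) : ℚ)) = ![(X : ℚ), (Y : ℚ)] := by
  funext i
  fin_cases i <;> rfl

/-- a prime dividing `576 * 864 * a` divides `6 * a`. -/
theorem s52m_prime_dvd_aux (p : ℕ) (hp : p.Prime) (a : ℕ) (h : p ∣ 576 * 864 * a) : p ∣ 6 * a := by
  have h1 : (576 * 864 : ℕ) = 2 ^ 11 * 3 ^ 5 := by norm_num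
  rw [h1] at h
  rcases (Nat.Prime.dvd_mul hp).mp h with h | h
  · rcases (Nat.Prime.dvd_mul hp).mp h with h | h
    · have := (Nat.prime_dvd_prime_iff_eq hp Nat.prime_two).mp (hp.dvd_of_dvd_pow h)
      subst this
      exact Dvd.dvd.mul_right (by norm_num) a
    · have := (Nat.prime_dvd_prime_iff_eq hp Nat.prime_three).mp (hp.dvd_of_dvd_pow h)
      subst this
      exact Dvd.dvd.mul_right (by norm_num) a
  · exact Dvd.dvd.mul_left h 6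

/-- **The choice theorem (D1).**  `W` a semistable integral model; `h`, `t` rational polynomials in two
variables (the `c₄`- and `c₆`-forms of the family) taking the values `c₄(W)`, `c₆(W)` at the INTEGER
point `(x₀, y₀)`; `hcop`: outside the primes of `N`, a common prime divisor of `c₄' = h(X,Y)` and of
the discriminant `Δ' = (c₄'³ − c₆'²)/1728` divides `X` and `Y`.  Then there is a modulus `M₀` such that
for every prime `ℓ₀ ∤ M₀`, every integral model `W₂` with good reduction at `ℓ₀` and every residue class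
`(x₁, y₁) mod ℓ₀` on which `(h, t) ≡ (c₄(W₂), c₆(W₂)) mod ℓ₀`, there are integers `X, Y` and an integral
model `W'` with invariants `(h(X,Y), t(X,Y))`, semistable, of good reduction at `ℓ₀`, with
`a_{ℓ₀}(W') = a_{ℓ₀}(W₂)`. -/
theorem s52m_choice (W : WeierstrassCurve ℤ) (hW : W.IsSemistableModel)
    (h t : MvPolynomial (Fin 2) ℚ) (x₀ y₀ : ℤ)
    (h0 : eval ![(x₀ : ℚ), (y₀ : ℚ)] h = W.c₄) (t0 : eval ![(x₀ : ℚ), (y₀ : ℚ)] t = W.c₆)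
    (N : ℕ) (hN : 0 < N)
    (hcop : ∀ q : ℕ, q.Prime → ¬ q ∣ N → ∀ X Y c₄' c₆' Δ' : ℤ,
      eval ![(X : ℚ), (Y : ℚ)] h = c₄' → eval ![(X : ℚ), (Y : ℚ)] t = c₆' →
      1728 * Δ' = c₄' ^ 3 - c₆' ^ 2 → (q : ℤ) ∣ c₄' → (q : ℤ) ∣ Δ' → (q : ℤ) ∣ X ∧ (q : ℤ) ∣ Y) :
    ∃ M₀ : ℕ, 0 < M₀ ∧ N ∣ M₀ ∧ ∀ ℓ₀ : ℕ, ℓ₀.Prime → ¬ ℓ₀ ∣ M₀ →
      ∀ W₂ : WeierstrassCurve ℤ, ¬ (ℓ₀ : ℤ) ∣ W₂.Δ → ∀ x₁ y₁ : ℤ,
      (∀ X Y c₄' c₆' : ℤ, X ≡ x₁ [ZMOD ℓ₀] → Y ≡ y₁ [ZMOD ℓ₀] →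
        eval ![(X : ℚ), (Y : ℚ)] h = c₄' → eval ![(X : ℚ), (Y : ℚ)] t = c₆' →
        (ℓ₀ : ℤ) ∣ c₄' - W₂.c₄ ∧ (ℓ₀ : ℤ) ∣ c₆' - W₂.c₆) →
      ∃ (X Y : ℤ) (W' : WeierstrassCurve ℤ),
        eval ![(X : ℚ), (Y : ℚ)] h = W'.c₄ ∧ eval ![(X : ℚ), (Y : ℚ)] t = W'.c₆ ∧
        W'.Δ ≠ 0 ∧ W'.IsSemistableModel ∧ ¬ (ℓ₀ : ℤ) ∣ W'.Δ ∧
        W'.apOfModel ℓ₀ = W₂.apOfModel ℓ₀ := by
  obtain ⟨D₁, hD₁, P₁, hP₁⟩ := s52m_clear_denom h
  obtain ⟨D₂, hD₂, P₂, hP₂⟩ := s52m_clear_denom t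
  have hP₁' : ∀ X Y : ℤ, (D₁ : ℚ) * eval ![(X : ℚ), (Y : ℚ)] h = (eval ![X, Y] P₁ : ℤ) := by
    intro X Y
    rw [← hP₁ ![X, Y], s52m_castVec]
  have hP₂' : ∀ X Y : ℤ, (D₂ : ℚ) * eval ![(X : ℚ), (Y : ℚ)] t = (eval ![X, Y] P₂ : ℤ) := by
    intro X Y
    rw [← hP₂ ![X, Y], s52m_castVec]
  set M₀ : ℕ := 6 * (D₁ * D₂ * N) with hM₀
  have hM₀pos : 0 < M₀ := by positivity
  set K : ℕ := 576 * 864 * (D₁ * D₂ * M₀) with hKdef
  have hKpos : 0 < K := by positivity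
  have hKM : ∀ p : ℕ, p.Prime → p ∣ K → p ∣ M₀ := by
    intro p hp hpK
    have h1 := s52m_prime_dvd_aux p hp _ hpK
    rcases (Nat.Prime.dvd_mul hp).mp h1 with h | h
    · exact dvd_trans h (Dvd.intro _ rfl)
    · rcases (Nat.Prime.dvd_mul hp).mp h with h | h
      · rcases (Nat.Prime.dvd_mul hp).mp h with h | h
        · exact dvd_trans h ⟨6 * (D₂ * N), by rw [hM₀]; ring⟩
        · exact dvd_trans h ⟨6 * (D₁ * N), by rw [hM₀]; ring⟩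
      · exact h
  refine ⟨M₀, hM₀pos, ⟨6 * (D₁ * D₂), by rw [hM₀]; ring⟩, ?_⟩
  intro ℓ₀ hℓ₀ hℓM W₂ hgood x₁ y₁ hℓ
  have hℓK : ¬ ℓ₀ ∣ K := fun hd => hℓM (hKM ℓ₀ hℓ₀ hd)
  have h5 : 5 ≤ ℓ₀ := by
    have h2 : ℓ₀ ≠ 2 := by
      rintro rfl
      exact hℓM ⟨3 * (D₁ * D₂ * N), by rw [hM₀]; ring⟩
    have h3 : ℓ₀ ≠ 3 := by
      rintro rfl
      exact hℓM ⟨2 * (D₁ * D₂ * N), by rw [hM₀]; ring⟩
    have h4 : ℓ₀ ≠ 4 := by
      rintro rfl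
      exact absurd hℓ₀ (by norm_num)
    have := hℓ₀.two_le
    omega
  -- CRT: `(x₂, y₂) ≡ (x₀, y₀) mod K`, `≡ (x₁, y₁) mod ℓ₀`
  have hcopKℓ : Int.gcd (K : ℤ) (ℓ₀ : ℤ) = 1 := by
    rw [Int.gcd_natCast_natCast]
    exact ((Nat.Prime.coprime_iff_not_dvd hℓ₀).mpr hℓK).symm
  have hbez := Int.gcd_eq_gcd_ab (K : ℤ) (ℓ₀ : ℤ)
  rw [hcopKℓ] at hbez
  have hbez' : (K : ℤ) * Int.gcdA K ℓ₀ + ℓ₀ * Int.gcdB K ℓ₀ = 1 := by
    have : ((1 : ℕ) : ℤ) = 1 := rfl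
    rw [this] at hbez
    exact hbez.symm
  set a := Int.gcdA K ℓ₀
  set b := Int.gcdB K ℓ₀
  have hcrt : ∀ u v : ℤ, ∃ z : ℤ, z ≡ u [ZMOD K] ∧ z ≡ v [ZMOD ℓ₀] := by
    intro u v
    refine ⟨u * (ℓ₀ * b) + v * (K * a), ?_, ?_⟩
    · apply Int.modEq_iff_dvd.mpr
      refine ⟨(u - v) * a, ?_⟩
      have : (ℓ₀ : ℤ) * b = 1 - K * a := by linarith
      rw [this]; ring
    · apply Int.modEq_iff_dvd.mpr
      refine ⟨(v - u) * b, ?_⟩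
      have : (K : ℤ) * a = 1 - ℓ₀ * b := by linarith
      rw [this]; ring
  obtain ⟨x₂, hx₂K, hx₂ℓ⟩ := hcrt x₀ x₁
  obtain ⟨y₂, hy₂K, hy₂ℓ⟩ := hcrt y₀ y₁
  obtain ⟨X, Y, hXm, hYm, hgcd⟩ := s52m_crt_gcd (K * ℓ₀) (Nat.mul_pos hKpos hℓ₀.pos) x₂ y₂
  have hXK : X ≡ x₀ [ZMOD K] :=
    (Int.ModEq.of_mul_right (ℓ₀ : ℤ) (by exact_mod_cast hXm)).trans hx₂K
  have hYK : Y ≡ y₀ [ZMOD K] :=
    (Int.ModEq.of_mul_right (ℓ₀ : ℤ) (by exact_mod_cast hYm)).trans hy₂K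
  have hXℓ : X ≡ x₁ [ZMOD ℓ₀] :=
    (Int.ModEq.of_mul_left (K : ℤ) (by exact_mod_cast hXm)).trans hx₂ℓ
  have hYℓ : Y ≡ y₁ [ZMOD ℓ₀] :=
    (Int.ModEq.of_mul_left (K : ℤ) (by exact_mod_cast hYm)).trans hy₂ℓ
  -- the values `c₄'`, `c₆'`
  have hvec : ∀ i, (![X, Y] : Fin 2 → ℤ) i ≡ (![x₀, y₀] : Fin 2 → ℤ) i [ZMOD K] := by
    intro i
    fin_cases i
    · exact hXK
    · exact hYK
  have hc1 := s52m_eval_congr P₁ K _ _ hvec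
  have hc2 := s52m_eval_congr P₂ K _ _ hvec
  have hv1 : eval ![x₀, y₀] P₁ = D₁ * W.c₄ := by
    have := hP₁' x₀ y₀
    rw [h0] at this
    exact_mod_cast this.symm
  have hv2 : eval ![x₀, y₀] P₂ = D₂ * W.c₆ := by
    have := hP₂' x₀ y₀
    rw [t0] at this
    exact_mod_cast this.symm
  obtain ⟨j₁, hj₁⟩ := Int.modEq_iff_dvd.mp hc1.symm
  obtain ⟨j₂, hj₂⟩ := Int.modEq_iff_dvd.mp hc2.symm
  rw [hv1] at hj₁
  rw [hv2] at hj₂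
  set c₄' : ℤ := W.c₄ + 576 * 864 * (D₂ * M₀) * j₁ with hc₄'
  set c₆' : ℤ := W.c₆ + 576 * 864 * (D₁ * M₀) * j₂ with hc₆'
  have hD₁0 : (D₁ : ℚ) ≠ 0 := by exact_mod_cast hD₁.ne'
  have hD₂0 : (D₂ : ℚ) ≠ 0 := by exact_mod_cast hD₂.ne'
  have he4 : eval ![(X : ℚ), (Y : ℚ)] h = c₄' := by
    have h1 : (eval ![X, Y] P₁ : ℤ) = D₁ * c₄' := by
      rw [hc₄']
      have : eval ![X, Y] P₁ = ↑D₁ * W.c₄ + ↑K * j₁ := by linarith
      rw [this, hKdef]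
      push_cast
      ring
    have h2 := hP₁' X Y
    rw [h1] at h2
    push_cast at h2
    exact mul_left_cancel₀ hD₁0 h2
  have he6 : eval ![(X : ℚ), (Y : ℚ)] t = c₆' := by
    have h1 : (eval ![X, Y] P₂ : ℤ) = D₂ * c₆' := by
      rw [hc₆']
      have : eval ![X, Y] P₂ = ↑D₂ * W.c₆ + ↑K * j₂ := by linarith
      rw [this, hKdef]
      push_cast
      ring
    have h2 := hP₂' X Y
    rw [h1] at h2
    push_cast at h2
    exact mul_left_cancel₀ hD₂0 h2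
  -- the model
  obtain ⟨W', ha₁, ha₂, ha₃, ha₄, ha₆, hW'4, hW'6⟩ := s52m_exists_model W c₄' c₆' (M₀ : ℤ)
    ⟨864 * D₂ * j₁, by rw [hc₄']; ring⟩ ⟨576 * D₁ * j₂, by rw [hc₆']; ring⟩
  obtain ⟨hℓ4, hℓ6⟩ := hℓ X Y c₄' c₆' hXℓ hYℓ he4 he6
  -- good reduction at `ℓ₀`
  have hℓ1728 : ¬ (ℓ₀ : ℤ) ∣ 1728 := by
    intro hd
    have hd' : ℓ₀ ∣ 1728 := by exact_mod_cast hd
    have h1 : (1728 : ℕ) = 2 ^ 6 * 3 ^ 3 := by norm_num
    rw [h1] at hd'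
    rcases (Nat.Prime.dvd_mul hℓ₀).mp hd' with h | h
    · have := (Nat.prime_dvd_prime_iff_eq hℓ₀ Nat.prime_two).mp (hℓ₀.dvd_of_dvd_pow h)
      omega
    · have := (Nat.prime_dvd_prime_iff_eq hℓ₀ Nat.prime_three).mp (hℓ₀.dvd_of_dvd_pow h)
      omega
  have hℓprime : Prime (ℓ₀ : ℤ) := Nat.prime_iff_prime_int.mp hℓ₀
  have hΔrel' : 1728 * W'.Δ = c₄' ^ 3 - c₆' ^ 2 := s52m_Δ_of_c W' c₄' c₆' hW'4 hW'6
  have hgood' : ¬ (ℓ₀ : ℤ) ∣ W'.Δ := by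
    intro hd
    apply hgood
    have h1 : (ℓ₀ : ℤ) ∣ 1728 * W₂.Δ := by
      rw [W₂.c_relation]
      have h2 : (ℓ₀ : ℤ) ∣ c₄' ^ 3 - c₆' ^ 2 := by
        rw [← hΔrel']; exact Dvd.dvd.mul_left hd _
      obtain ⟨k4, hk4⟩ := hℓ4
      obtain ⟨k6, hk6⟩ := hℓ6
      have e4 : W₂.c₄ = c₄' - ℓ₀ * k4 := by linarith
      have e6 : W₂.c₆ = c₆' - ℓ₀ * k6 := by linarith
      rw [e4, e6]
      obtain ⟨m, hm⟩ := h2
      refine ⟨m - 3 * c₄' ^ 2 * k4 + 3 * c₄' * ℓ₀ * k4 ^ 2 - ℓ₀ ^ 2 * k4 ^ 3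
        + 2 * c₆' * k6 - ℓ₀ * k6 ^ 2, ?_⟩
      linear_combination hm
    rcases hℓprime.dvd_or_dvd h1 with h | h
    · exact absurd h hℓ1728
    · exact h
  have hΔ'0 : W'.Δ ≠ 0 := fun h0 => hgood' (by rw [h0]; exact dvd_zero _)
  refine ⟨X, Y, W', by rw [hW'4]; exact he4, by rw [hW'6]; exact he6, hΔ'0, ?_, hgood', ?_⟩
  · -- semistable
    apply s52m_semistable_of_congr W W' (M₀ : ℤ) hW
    · intro q hq hqM
      apply s52m_map_eq_of_congr W W' q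
      · rw [ha₁, sub_self]; exact dvd_zero _
      · rw [ha₂, sub_self]; exact dvd_zero _
      · rw [ha₃, sub_self]; exact dvd_zero _
      · exact dvd_trans hqM (dvd_trans (Dvd.intro_left 12 rfl) ha₄)
      · exact dvd_trans hqM ha₆
    · intro q hq hqM hqΔ hqc
      have hqM' : ¬ q ∣ M₀ := fun hd => hqM (Int.natCast_dvd_natCast.mpr hd)
      have hqN : ¬ q ∣ N := fun hd => hqM' (dvd_trans hd ⟨6 * (D₁ * D₂), by rw [hM₀]; ring⟩)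
      rw [hW'4] at hqc
      obtain ⟨hqX, hqY⟩ := hcop q hq hqN X Y c₄' c₆' W'.Δ he4 he6 hΔrel' hqc hqΔ
      have hqKℓ := hgcd q hq hqX hqY
      rcases (Nat.Prime.dvd_mul hq).mp hqKℓ with hd | hd
      · exact hqM' (hKM q hq hd)
      · have : q = ℓ₀ := (Nat.prime_dvd_prime_iff_eq hq hℓ₀).mp hd
        subst this
        exact hgood' hqΔ
  · -- `a_{ℓ₀}`
    apply s52m_apOfModel_eq_of_c_congr W' W₂ ℓ₀ hℓ₀ h5
    · rw [hW'4]; exact hℓ4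
    · rw [hW'6]; exact hℓ6

end Fermat.Agent.Lib.S52
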