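/-
Programme K (S52, the 3-5 switch), PART D1 (helper3, prefix `s52m_`): the coprimality hypothesis
`hcop` of the choice theorem `s52m_choice`, for the twisted Klein family.

`A ∈ GL₂(ℚ̄)` (with inverse `B`), integral together with `B` at every place over a prime `q ∤ N₀`;
`h = −u⁴·H_A`, `t = −u⁶·T_A` on integer points (`ω = (X,Y)·A`, row vector times matrix).  Then for
`q ∤ 30·u·N₀`: a common prime divisor `q` of `c₄' = h(X,Y)` and `Δ' = (c₄'³ − c₆'²)/1728 = −u¹² f(ω)⁵`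
divides `X` and `Y` (Bezout certificate `s52m_kH_kf5_mem` in the valuation ring, `(X,Y) = ω·B`).
-/
import Fermat.Agent.Lib.S52.MBezout
import Fermat.Agent.Lib.Frey.Ord
import Fermat.Agent.Lib.Frobenius.Exists

set_option autoImplicit false

namespace Fermat.Agent.Lib.S52

open MvPolynomial Fermat.Agent.Lib.Frey

local notation "Qbar" => AlgebraicClosure ℚ

/-- the point `ω = (X, Y) · A` of `ℚ̄²` (row vector times matrix). -/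
noncomputable def s52m_om (A : Matrix (Fin 2) (Fin 2) Qbar) (X Y : Qbar) : Fin 2 → Qbar :=
  Matrix.vecMul ![X, Y] A

theorem s52m_om_zero (A : Matrix (Fin 2) (Fin 2) Qbar) (X Y : Qbar) :
    s52m_om A X Y 0 = X * A 0 0 + Y * A 1 0 := by
  simp [s52m_om, Matrix.vecMul, dotProduct, Fin.sum_univ_two]

theorem s52m_om_one (A : Matrix (Fin 2) (Fin 2) Qbar) (X Y : Qbar) :
    s52m_om A X Y 1 = X * A 0 1 + Y * A 1 1 := by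
  simp [s52m_om, Matrix.vecMul, dotProduct, Fin.sum_univ_two]

/-- `(X, Y) = ω · B` when `A * B = 1`. -/
theorem s52m_om_inv (A B : Matrix (Fin 2) (Fin 2) Qbar) (hAB : A * B = 1) (X Y : Qbar) :
    X = s52m_om A X Y 0 * B 0 0 + s52m_om A X Y 1 * B 1 0 ∧
    Y = s52m_om A X Y 0 * B 0 1 + s52m_om A X Y 1 * B 1 1 := by
  have h := Matrix.vecMul_vecMul ![X, Y] A B
  rw [hAB, Matrix.vecMul_one] at h
  have h0 := congrFun h 0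
  have h1 := congrFun h 1
  simp only [Matrix.vecMul, dotProduct, Fin.sum_univ_two, Matrix.cons_val_zero,
    Matrix.cons_val_one] at h0 h1
  constructor
  · rw [s52m_om_zero, s52m_om_one]; exact h0.symm
  · rw [s52m_om_zero, s52m_om_one]; exact h1.symm

/-- an integer in the maximal ideal of a valuation subring over `q` is divisible by `q`. -/
theorem s52m_dvd_of_mem_nonunits {q : ℕ} (hq : q.Prime) (𝒪 : ValuationSubring Qbar)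
    (h𝒪 : 𝒪.LiesOverPrime q) (z : ℤ) (hz : (z : Qbar) ∈ 𝒪.nonunits) : (q : ℤ) ∣ z := by
  by_contra hnd
  have h1 := ford_val_intCast_of_not_dvd (A := 𝒪) hq h𝒪 hnd
  rw [𝒪.mem_nonunits_iff, h1] at hz
  exact lt_irrefl _ hz

/-- a multiple of `q` lies in the maximal ideal. -/
theorem s52m_mem_nonunits_of_dvd {q : ℕ} (𝒪 : ValuationSubring Qbar)
    (h𝒪 : 𝒪.LiesOverPrime q) (z : ℤ) (hz : (q : ℤ) ∣ z) : (z : Qbar) ∈ 𝒪.nonunits := by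
  obtain ⟨m, rfl⟩ := hz
  have hq' : (q : Qbar) ∈ 𝒪.nonunits := h𝒪
  rw [𝒪.mem_nonunits_iff] at hq' ⊢
  push_cast
  rw [map_mul]
  exact mul_lt_one_of_nonneg_of_lt_one_left zero_le hq'
    ((𝒪.valuation_le_one_iff _).2 (intCast_mem 𝒪 m))

/-- **the coprimality hypothesis of `s52m_choice` for the twisted Klein family.** -/
theorem s52m_hcop_of_matrix (A B : Matrix (Fin 2) (Fin 2) Qbar) (hAB : A * B = 1)
    (N₀ : ℕ)
    (hint : ∀ q : ℕ, q.Prime → ¬ q ∣ N₀ → ∀ 𝒪 : ValuationSubring Qbar, 𝒪.LiesOverPrime q →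
      (∀ i j, A i j ∈ 𝒪) ∧ (∀ i j, B i j ∈ 𝒪))
    (u : ℤ) (h t : MvPolynomial (Fin 2) ℚ)
    (hh : ∀ X Y : ℤ, algebraMap ℚ Qbar (eval ![(X : ℚ), (Y : ℚ)] h) =
      -(u : Qbar) ^ 4 * s52m_kH (s52m_om A X Y 0) (s52m_om A X Y 1))
    (ht : ∀ X Y : ℤ, algebraMap ℚ Qbar (eval ![(X : ℚ), (Y : ℚ)] t) =
      -(u : Qbar) ^ 6 * s52m_kT (s52m_om A X Y 0) (s52m_om A X Y 1)) :
    ∀ q : ℕ, q.Prime → ¬ q ∣ 30 * u.natAbs * N₀ → ∀ X Y c₄' c₆' Δ' : ℤ,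
      eval ![(X : ℚ), (Y : ℚ)] h = c₄' → eval ![(X : ℚ), (Y : ℚ)] t = c₆' →
      1728 * Δ' = c₄' ^ 3 - c₆' ^ 2 → (q : ℤ) ∣ c₄' → (q : ℤ) ∣ Δ' → (q : ℤ) ∣ X ∧ (q : ℤ) ∣ Y := by
  intro q hq hqN X Y c₄' c₆' Δ' he4 he6 hrel hq4 hqΔ
  have hqN₀ : ¬ q ∣ N₀ := fun hd => hqN (Dvd.dvd.mul_left hd _)
  have hqu : ¬ (q : ℤ) ∣ u := by
    intro hd
    apply hqN
    have : q ∣ u.natAbs := Int.natCast_dvd.mp hd
    exact Dvd.dvd.mul_right (Dvd.dvd.mul_left this _) _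
  have hq5 : ¬ (q : ℤ) ∣ 5 := by
    intro hd
    apply hqN
    have h5 : q ∣ 5 := by exact_mod_cast hd
    exact Dvd.dvd.mul_right (Dvd.dvd.mul_right (dvd_trans h5 (by norm_num)) _) _
  obtain ⟨𝒪, h𝒪⟩ := Fermat.Agent.Lib.Frobenius.exists_liesOverPrime q hq
  obtain ⟨hA𝒪, hB𝒪⟩ := hint q hq hqN₀ 𝒪 h𝒪
  set U : Qbar := s52m_om A X Y 0 with hU
  set V : Qbar := s52m_om A X Y 1 with hV
  have hXm : ((X : ℤ) : Qbar) ∈ 𝒪 := intCast_mem 𝒪 X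
  have hYm : ((Y : ℤ) : Qbar) ∈ 𝒪 := intCast_mem 𝒪 Y
  have hUm : U ∈ 𝒪 := by
    rw [hU, s52m_om_zero]
    exact 𝒪.add_mem _ _ (𝒪.mul_mem _ _ hXm (hA𝒪 0 0)) (𝒪.mul_mem _ _ hYm (hA𝒪 1 0))
  have hVm : V ∈ 𝒪 := by
    rw [hV, s52m_om_one]
    exact 𝒪.add_mem _ _ (𝒪.mul_mem _ _ hXm (hA𝒪 0 1)) (𝒪.mul_mem _ _ hYm (hA𝒪 1 1))
  -- the values in `ℚ̄`
  have e4 : (c₄' : Qbar) = -(u : Qbar) ^ 4 * s52m_kH U V := by
    rw [← hh X Y, he4]; simp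
  have e6 : (c₆' : Qbar) = -(u : Qbar) ^ 6 * s52m_kT U V := by
    rw [← ht X Y, he6]; simp
  have eΔ : (Δ' : Qbar) = -((u : Qbar) ^ 12 * s52m_kf U V ^ 5) := by
    have h1 : (1728 : Qbar) * (Δ' : Qbar) = (c₄' : Qbar) ^ 3 - (c₆' : Qbar) ^ 2 := by
      exact_mod_cast congrArg (fun z : ℤ => (z : Qbar)) hrel
    rw [e4, e6] at h1
    have h2 := s52m_klein_syzygy U V
    have h1728 : (1728 : Qbar) ≠ 0 := by norm_num
    apply mul_left_cancel₀ h1728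
    rw [h1]
    linear_combination (-(u : Qbar) ^ 12) * h2
  -- pass to the valuation ring
  let Uo : 𝒪 := ⟨U, hUm⟩
  let Vo : 𝒪 := ⟨V, hVm⟩
  let uo : 𝒪 := ((u : ℤ) : 𝒪)
  have hsub : ∀ x : 𝒪, 𝒪.subtype x = (x : Qbar) := fun _ => rfl
  have hHo : ((s52m_kH Uo Vo : 𝒪) : Qbar) = s52m_kH U V := by
    rw [← hsub, s52m_kH_map]; rfl
  have hfo : ((s52m_kf Uo Vo : 𝒪) : Qbar) = s52m_kf U V := by
    rw [← hsub, s52m_kf_map]; rfl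
  have huo : ((uo : 𝒪) : Qbar) = (u : Qbar) := by
    rw [← hsub, map_intCast]
  set 𝔪 : Ideal 𝒪 := IsLocalRing.maximalIdeal 𝒪 with h𝔪
  have : 𝔪.IsPrime := (IsLocalRing.maximalIdeal.isMaximal 𝒪).isPrime
  have hmem : ∀ x : 𝒪, x ∈ 𝔪 ↔ (x : Qbar) ∈ 𝒪.nonunits := fun x =>
    (ValuationSubring.coe_mem_nonunits_iff).symm
  have huo𝔪 : uo ∉ 𝔪 := by
    rw [hmem, huo]
    intro hmemu
    exact hqu (s52m_dvd_of_mem_nonunits hq 𝒪 h𝒪 u hmemu)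
  have h5𝔪 : (5 : 𝒪) ∉ 𝔪 := by
    rw [hmem]
    intro hmem5
    apply hq5
    have : (((5 : ℤ) : Qbar)) ∈ 𝒪.nonunits := by
      have h55 : (((5 : 𝒪) : 𝒪) : Qbar) = ((5 : ℤ) : Qbar) := by
        rw [← hsub, map_ofNat]; norm_num
      rw [← h55]; exact hmem5
    exact s52m_dvd_of_mem_nonunits hq 𝒪 h𝒪 5 this
  have hH𝔪 : s52m_kH Uo Vo ∈ 𝔪 := by
    have h1 : uo ^ 4 * s52m_kH Uo Vo ∈ 𝔪 := by
      rw [hmem]
      push_cast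
      rw [huo, hHo]
      have h2 : (u : Qbar) ^ 4 * s52m_kH U V = ((-c₄' : ℤ) : Qbar) := by
        push_cast; rw [e4]; ring
      rw [h2]
      exact s52m_mem_nonunits_of_dvd 𝒪 h𝒪 _ ((dvd_neg).mpr hq4)
    rcases Ideal.IsPrime.mem_or_mem inferInstance h1 with h | h
    · exact absurd (Ideal.IsPrime.mem_of_pow_mem inferInstance 4 h) huo𝔪
    · exact h
  have hf𝔪 : s52m_kf Uo Vo ^ 5 ∈ 𝔪 := by
    have h1 : uo ^ 12 * s52m_kf Uo Vo ^ 5 ∈ 𝔪 := by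
      rw [hmem]
      push_cast
      rw [huo, hfo]
      have h2 : (u : Qbar) ^ 12 * s52m_kf U V ^ 5 = ((-Δ' : ℤ) : Qbar) := by
        push_cast; rw [eΔ]; ring
      rw [h2]
      exact s52m_mem_nonunits_of_dvd 𝒪 h𝒪 _ ((dvd_neg).mpr hqΔ)
    rcases Ideal.IsPrime.mem_or_mem inferInstance h1 with h | h
    · exact absurd (Ideal.IsPrime.mem_of_pow_mem inferInstance 12 h) huo𝔪
    · exact h
  obtain ⟨hU𝔪, hV𝔪⟩ := s52m_kH_kf5_mem 𝔪 h5𝔪 Uo Vo hH𝔪 hf𝔪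
  rw [hmem] at hU𝔪 hV𝔪
  have hUn : U ∈ 𝒪.nonunits := hU𝔪
  have hVn : V ∈ 𝒪.nonunits := hV𝔪
  -- back to `(X, Y) = ω · B`
  obtain ⟨hXe, hYe⟩ := s52m_om_inv A B hAB (X : Qbar) (Y : Qbar)
  have hlin : ∀ b₀ b₁ : Qbar, b₀ ∈ 𝒪 → b₁ ∈ 𝒪 → U * b₀ + V * b₁ ∈ 𝒪.nonunits := by
    intro b₀ b₁ hb₀ hb₁
    have h1 : U * b₀ ∈ 𝒪.nonunits := Fermat.Agent.Lib.Frobenius.mul_mem_nonunits 𝒪 hUn hb₀
    have h2 : V * b₁ ∈ 𝒪.nonunits := Fermat.Agent.Lib.Frobenius.mul_mem_nonunits 𝒪 hVn hb₁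
    rw [𝒪.mem_nonunits_iff] at h1 h2 ⊢
    exact (𝒪.valuation).map_add_lt h1 h2
  refine ⟨s52m_dvd_of_mem_nonunits hq 𝒪 h𝒪 X ?_, s52m_dvd_of_mem_nonunits hq 𝒪 h𝒪 Y ?_⟩
  · rw [hXe]; exact hlin _ _ (hB𝒪 0 0) (hB𝒪 1 0)
  · rw [hYe]; exact hlin _ _ (hB𝒪 0 1) (hB𝒪 1 1)

end Fermat.Agent.Lib.S52
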