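/-
Programme K (S52), helper3.  ABSTRACT COUNTING WIRING for the Klein package:
from a torsion basis `B w = (P₁(w), P₂(w))` of `𝓔_w[5]` transforming under the generators
`S, T₅, ζ·I` of `Ĝ` by integer matrices `mS, mT, 1` whose reductions generate `SL₂(𝔽₅)`,
the map `(M, k) ↦ w · g_M · Z^k` from `SL₂(𝔽₅) × Fin 5` (600 elements) into the fibre (≤ 600
elements, [KF-COUNT]) is injective (the pair `(B, f)` separates its values), hence bijective:
`Ĝ` is transitive on the fibre and `(B, f)` is injective on the fibre.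
This gives the transitivity half of [KLEIN-ORBIT] and [KLEIN-FIX].
Imports only Mathlib + Iface v2.
-/
import Mathlib
import Fermat.Agent.Lib.S52.Iface

set_option autoImplicit false

open scoped WeierstrassCurve.Affine

noncomputable section

namespace Fermat.Agent.Lib.S52

open Fermat.Agent.Lib.S58 Matrix

local notation "Kb" => AlgebraicClosure ℚ

/-! ### the root of unity -/

theorem s52mo_zeta_pow_five : s52_zeta ^ 5 = 1 := by
  linear_combination (s52_zeta - 1) * s52_zeta_spec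

theorem s52m_zeta_ne_one : s52_zeta ≠ 1 := by
  intro h
  have h1 := s52_zeta_spec
  rw [h] at h1
  norm_num at h1

theorem s52m_zeta_orderOf : orderOf s52_zeta = 5 := by
  have : Fact (Nat.Prime 5) := ⟨by norm_num⟩
  exact orderOf_eq_prime s52mo_zeta_pow_five s52m_zeta_ne_one

theorem s52m_zeta_pow_inj (k k' : Fin 5)
    (h : s52_zeta ^ (2 * (k : ℕ)) = s52_zeta ^ (2 * (k' : ℕ))) : k = k' := by
  have hprim : IsPrimitiveRoot s52_zeta 5 := by
    have := IsPrimitiveRoot.orderOf s52_zeta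
    rwa [s52m_zeta_orderOf] at this
  rw [← pow_mod_orderOf s52_zeta (2 * (k : ℕ)), ← pow_mod_orderOf s52_zeta (2 * (k' : ℕ)),
    s52m_zeta_orderOf] at h
  have h2 := hprim.pow_inj (Nat.mod_lt _ (by norm_num)) (Nat.mod_lt _ (by norm_num)) h
  have hk := k.isLt
  have hk' := k'.isLt
  apply Fin.ext
  omega

/-! ### `f` on the generators `T₅` and `ζ·I` -/

theorem s52m_vecMul_T (w : Fin 2 → Kb) :
    w ᵥ* s52_Tmat = ![w 0 * s52_zeta ^ 3, w 1 * s52_zeta ^ 2] := by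
  funext i
  fin_cases i <;> simp [s52_Tmat, Matrix.vecMul, dotProduct, Fin.sum_univ_two]

theorem s52m_vecMul_Z (w : Fin 2 → Kb) :
    w ᵥ* s52_Zmat = ![w 0 * s52_zeta, w 1 * s52_zeta] := by
  funext i
  fin_cases i <;> simp [s52_Zmat, Matrix.vecMul, dotProduct, Fin.sum_univ_two]

theorem s52m_fv_T (w : Fin 2 → Kb) : s52_fv (w ᵥ* s52_Tmat) = s52_fv w := by
  rw [s52m_vecMul_T]
  have hz := s52mo_zeta_pow_five
  simp only [s52_fv, s52m_kf, Matrix.cons_val_zero, Matrix.cons_val_one]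
  linear_combination (w 0 * w 1 * (w 0 ^ 10 * (s52_zeta ^ 30 + s52_zeta ^ 25 + s52_zeta ^ 20
      + s52_zeta ^ 15 + s52_zeta ^ 10 + s52_zeta ^ 5 + 1)
    + 11 * w 0 ^ 5 * w 1 ^ 5 * (s52_zeta ^ 25 + s52_zeta ^ 20
      + s52_zeta ^ 15 + s52_zeta ^ 10 + s52_zeta ^ 5 + 1)
    - w 1 ^ 10 * (s52_zeta ^ 20
      + s52_zeta ^ 15 + s52_zeta ^ 10 + s52_zeta ^ 5 + 1))) * hz

theorem s52m_fv_Z (w : Fin 2 → Kb) :
    s52_fv (w ᵥ* s52_Zmat) = s52_zeta ^ 2 * s52_fv w := by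
  rw [s52m_vecMul_Z]
  have hz := s52mo_zeta_pow_five
  simp only [s52_fv, s52m_kf, Matrix.cons_val_zero, Matrix.cons_val_one]
  linear_combination (w 0 * w 1 * (w 0 ^ 10 + 11 * w 0 ^ 5 * w 1 ^ 5 - w 1 ^ 10) *
    s52_zeta ^ 2 * (s52_zeta ^ 5 + 1)) * hz

/-! ### integer matrices acting on pairs -/

/-- the action of an integer matrix on a pair of elements of an additive group. -/
def s52m_act {A : Type*} [AddCommGroup A] (M : Matrix (Fin 2) (Fin 2) ℤ) (b : Fin 2 → A) :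
    Fin 2 → A := fun i => ∑ j, M i j • b j

theorem s52m_act_one {A : Type*} [AddCommGroup A] (b : Fin 2 → A) : s52m_act 1 b = b := by
  funext i
  fin_cases i <;> simp [s52m_act, Matrix.one_apply]

theorem s52m_act_mul {A : Type*} [AddCommGroup A] (M N : Matrix (Fin 2) (Fin 2) ℤ)
    (b : Fin 2 → A) : s52m_act (M * N) b = s52m_act M (s52m_act N b) := by
  funext i
  simp only [s52m_act, Fin.sum_univ_two, Matrix.mul_apply, add_smul, mul_smul, smul_add]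
  abel

/-- if `b 0, b 1` are independent mod 5 and two integer matrices act in the same way on `b`, then
the matrices are congruent mod 5. -/
theorem s52m_act_inj {A : Type*} [AddCommGroup A] (b : Fin 2 → A)
    (hind : ∀ x y : ℤ, x • b 0 + y • b 1 = 0 → (5 : ℤ) ∣ x ∧ (5 : ℤ) ∣ y)
    (M N : Matrix (Fin 2) (Fin 2) ℤ) (h : s52m_act M b = s52m_act N b) :
    M.map (Int.cast : ℤ → ZMod 5) = N.map (Int.cast : ℤ → ZMod 5) := by
  have key : ∀ i, (5 : ℤ) ∣ (M i 0 - N i 0) ∧ (5 : ℤ) ∣ (M i 1 - N i 1) := by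
    intro i
    apply hind
    have hi := congrFun h i
    simp only [s52m_act, Fin.sum_univ_two] at hi
    rw [sub_smul, sub_smul]
    rw [← sub_eq_zero] at hi
    rw [← hi]
    abel
  ext i j
  simp only [Matrix.map_apply]
  have hij : (5 : ℤ) ∣ (M i j - N i j) := by
    fin_cases j
    · exact (key i).1
    · exact (key i).2
  have := (ZMod.intCast_zmod_eq_zero_iff_dvd (M i j - N i j) 5).2 (by exact_mod_cast hij)
  push_cast at this
  exact sub_eq_zero.1 this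

/-- the reductions mod 5 of the words in `mS, mT` exhaust `SL₂(𝔽₅)`. -/
def s52m_Gen (mS mT : Matrix (Fin 2) (Fin 2) ℤ) : Prop :=
  ∀ M : Matrix.SpecialLinearGroup (Fin 2) (ZMod 5),
    ∃ Mt ∈ Submonoid.closure ({mS, mT} : Set (Matrix (Fin 2) (Fin 2) ℤ)),
      Mt.map (Int.cast : ℤ → ZMod 5) = (M : Matrix (Fin 2) (Fin 2) (ZMod 5))

theorem s52m_gen_of_sl25 (h : s52_SL25) (mS mT : Matrix (Fin 2) (Fin 2) ℤ)
    (hS : mS = !![0, -1; 1, 0])
    (hT : ∃ e : ℤ, ¬ (5 : ℤ) ∣ e ∧ (mT = !![1, e; 0, 1] ∨ mT = !![1, 0; e, 1])) :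
    s52m_Gen mS mT := by
  obtain ⟨e, he, hT⟩ := hT
  have hdS : (mS.map (Int.cast : ℤ → ZMod 5)).det = 1 := by
    rw [hS]; simp [Matrix.det_fin_two]
  have hdT : (mT.map (Int.cast : ℤ → ZMod 5)).det = 1 := by
    rcases hT with hT | hT <;> rw [hT] <;> simp [Matrix.det_fin_two]
  set s : Matrix.SpecialLinearGroup (Fin 2) (ZMod 5) := ⟨mS.map (Int.cast : ℤ → ZMod 5), hdS⟩
    with hs
  set t : Matrix.SpecialLinearGroup (Fin 2) (ZMod 5) := ⟨mT.map (Int.cast : ℤ → ZMod 5), hdT⟩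
    with ht
  have hcl : Subgroup.closure {s, t} = ⊤ := by
    apply h.2 s t
    · show mS.map (Int.cast : ℤ → ZMod 5) = _
      rw [hS]
      ext i j; fin_cases i <;> fin_cases j <;> simp
    · refine ⟨(e : ZMod 5), ?_, ?_⟩
      · intro h0
        exact he ((ZMod.intCast_zmod_eq_zero_iff_dvd e 5).1 h0)
      · rcases hT with hT | hT
        · left
          show mT.map (Int.cast : ℤ → ZMod 5) = _
          rw [hT]
          ext i j; fin_cases i <;> fin_cases j <;> simp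
        · right
          show mT.map (Int.cast : ℤ → ZMod 5) = _
          rw [hT]
          ext i j; fin_cases i <;> fin_cases j <;> simp
  intro M
  have hM : M ∈ (Subgroup.closure {s, t}).toSubmonoid := by
    rw [hcl]; exact Subgroup.mem_top M
  rw [Subgroup.closure_toSubmonoid_of_finite] at hM
  induction hM using Submonoid.closure_induction_left with
  | one =>
    refine ⟨1, one_mem _, ?_⟩
    ext i j
    fin_cases i <;> fin_cases j <;> simp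
  | mul_left x hx y _ ih =>
    obtain ⟨Mt, hMt, hMty⟩ := ih
    have hxm : ∃ X ∈ ({mS, mT} : Set (Matrix (Fin 2) (Fin 2) ℤ)),
        X.map (Int.cast : ℤ → ZMod 5) = (x : Matrix (Fin 2) (Fin 2) (ZMod 5)) := by
      rcases hx with hx | hx
      · exact ⟨mS, Or.inl rfl, by rw [hx]⟩
      · rw [Set.mem_singleton_iff] at hx
        exact ⟨mT, Or.inr rfl, by rw [hx]⟩
    obtain ⟨X, hX, hXx⟩ := hxm
    refine ⟨X * Mt, mul_mem (Submonoid.subset_closure hX) hMt, ?_⟩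
    have := Matrix.map_mul (L := X) (M := Mt) (f := Int.castRingHom (ZMod 5))
    simp only [Int.coe_castRingHom] at this
    rw [this, hXx, hMty]
    rfl

/-! ### the torsion-basis package and the counting argument -/

/-- the torsion-basis package on the fibre over `(c4, c6)`: `B w = (P₁(w), P₂(w))` is independent
mod 5 and transforms under the generators of `Ĝ` by the integer matrices `mS`, `mT`, `1`. -/
structure s52m_TorsPkg (c4 c6 : ℤ) (mS mT : Matrix (Fin 2) (Fin 2) ℤ)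
    (B : (Fin 2 → Kb) → Fin 2 → s58_Pt (s52_sh c4 c6)) : Prop where
  five : ∀ w, s52_OnFibre c4 c6 w → ∀ i, (5 : ℕ) • B w i = 0
  ind : ∀ w, s52_OnFibre c4 c6 w → ∀ a b : ℤ, a • B w 0 + b • B w 1 = 0 → (5 : ℤ) ∣ a ∧ (5 : ℤ) ∣ b
  actS : ∀ w, s52_OnFibre c4 c6 w → B (w ᵥ* s52_Smat) = s52m_act mS (B w)
  actT : ∀ w, s52_OnFibre c4 c6 w → B (w ᵥ* s52_Tmat) = s52m_act mT (B w)
  actZ : ∀ w, s52_OnFibre c4 c6 w → B (w ᵥ* s52_Zmat) = B w

theorem s52m_S_mem : s52_Smat ∈ s52_Ghat := Submonoid.subset_closure (by simp)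
theorem s52m_T_mem : s52_Tmat ∈ s52_Ghat := Submonoid.subset_closure (by simp)
theorem s52m_Z_mem : s52_Zmat ∈ s52_Ghat := Submonoid.subset_closure (by simp)

/-- clause 2 of [KLEIN-GROUP]. -/
def s52m_Inv : Prop :=
  ∀ g ∈ s52_Ghat, ∀ w : Fin 2 → Kb, s52_Hv (w ᵥ* g) = s52_Hv w ∧ s52_Tv (w ᵥ* g) = s52_Tv w

theorem s52m_onFibre_smul (hinv : s52m_Inv) (c4 c6 : ℤ) (g : Matrix (Fin 2) (Fin 2) Kb)
    (hg : g ∈ s52_Ghat) (w : Fin 2 → Kb) (hw : s52_OnFibre c4 c6 w) :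
    s52_OnFibre c4 c6 (w ᵥ* g) := by
  obtain ⟨h1, h2⟩ := hinv g hg w
  exact ⟨h1.trans hw.1, h2.trans hw.2⟩

theorem s52m_fv_ne_zero (c4 c6 : ℤ) (hne : c4 ^ 3 ≠ c6 ^ 2) (w : Fin 2 → Kb)
    (hw : s52_OnFibre c4 c6 w) : s52_fv w ≠ 0 := by
  intro h0
  have hsyz := s52m_klein_syzygy (w 0) (w 1)
  have h1 : s52m_kH (w 0) (w 1) = -((c4 : ℤ) : Kb) := hw.1
  have h2 : s52m_kT (w 0) (w 1) = -((c6 : ℤ) : Kb) := hw.2
  have h3 : s52m_kf (w 0) (w 1) = 0 := h0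
  rw [h1, h2, h3] at hsyz
  apply hne
  have : ((c4 ^ 3 : ℤ) : Kb) = ((c6 ^ 2 : ℤ) : Kb) := by
    push_cast
    linear_combination -hsyz
  exact_mod_cast this

section counting

variable {c4 c6 : ℤ} {mS mT : Matrix (Fin 2) (Fin 2) ℤ}
  {B : (Fin 2 → Kb) → Fin 2 → s58_Pt (s52_sh c4 c6)}

/-- words in `mS, mT` are realised by elements of `Ĝ` of "determinant one" (they fix `f`). -/
theorem s52m_word (pkg : s52m_TorsPkg c4 c6 mS mT B) (hinv : s52m_Inv)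
    (hfS : ∀ w : Fin 2 → Kb, s52_fv (w ᵥ* s52_Smat) = s52_fv w)
    (Mt : Matrix (Fin 2) (Fin 2) ℤ)
    (hMt : Mt ∈ Submonoid.closure ({mS, mT} : Set (Matrix (Fin 2) (Fin 2) ℤ))) :
    ∃ g ∈ s52_Ghat, ∀ w, s52_OnFibre c4 c6 w →
      B (w ᵥ* g) = s52m_act Mt (B w) ∧ s52_fv (w ᵥ* g) = s52_fv w := by
  induction hMt using Submonoid.closure_induction_left with
  | one =>
    refine ⟨1, one_mem _, fun w _ => ?_⟩
    rw [Matrix.vecMul_one, s52m_act_one]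
    exact ⟨rfl, rfl⟩
  | mul_left X hX Y _ ih =>
    obtain ⟨g', hg', hg'w⟩ := ih
    rcases hX with hX | hX
    · refine ⟨g' * s52_Smat, mul_mem hg' s52m_S_mem, fun w hw => ?_⟩
      obtain ⟨h1, h2⟩ := hg'w w hw
      have hw' := s52m_onFibre_smul hinv c4 c6 g' hg' w hw
      rw [← Matrix.vecMul_vecMul, pkg.actS _ hw', h1, hX, s52m_act_mul, hfS, h2]
      exact ⟨rfl, rfl⟩
    · rw [Set.mem_singleton_iff] at hX
      refine ⟨g' * s52_Tmat, mul_mem hg' s52m_T_mem, fun w hw => ?_⟩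
      obtain ⟨h1, h2⟩ := hg'w w hw
      have hw' := s52m_onFibre_smul hinv c4 c6 g' hg' w hw
      rw [← Matrix.vecMul_vecMul, pkg.actT _ hw', h1, hX, s52m_act_mul, s52m_fv_T, h2]
      exact ⟨rfl, rfl⟩

theorem s52m_Zpow (pkg : s52m_TorsPkg c4 c6 mS mT B) (hinv : s52m_Inv) (k : ℕ) :
    ∀ w, s52_OnFibre c4 c6 w →
      B (w ᵥ* s52_Zmat ^ k) = B w ∧
      s52_fv (w ᵥ* s52_Zmat ^ k) = s52_zeta ^ (2 * k) * s52_fv w := by
  induction k with
  | zero =>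
    intro w _
    simp
  | succ k ih =>
    intro w hw
    obtain ⟨h1, h2⟩ := ih w hw
    have hw' := s52m_onFibre_smul hinv c4 c6 (s52_Zmat ^ k) (pow_mem s52m_Z_mem k) w hw
    rw [pow_succ, ← Matrix.vecMul_vecMul, pkg.actZ _ hw', h1, s52m_fv_Z, h2]
    refine ⟨rfl, ?_⟩
    ring

/-- **the counting theorem**: a parametrisation of the whole fibre by `SL₂(𝔽₅) × Fin 5` through
elements of `Ĝ`, on which `(B, f)` is injective. -/
theorem s52m_count_main (hne : c4 ^ 3 ≠ c6 ^ 2) (hgen : s52m_Gen mS mT)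
    (pkg : s52m_TorsPkg c4 c6 mS mT B) (hinv : s52m_Inv)
    (hfS : ∀ w : Fin 2 → Kb, s52_fv (w ᵥ* s52_Smat) = s52_fv w)
    (hcard : Nat.card (Matrix.SpecialLinearGroup (Fin 2) (ZMod 5)) = 120)
    (F : Finset (Kb × Kb)) (hF : F.card ≤ 600)
    (hFmem : ∀ u v : Kb, s52m_kH u v = -((c4 : ℤ) : Kb) → s52m_kT u v = -((c6 : ℤ) : Kb) →
      (u, v) ∈ F)
    (w : Fin 2 → Kb) (hw : s52_OnFibre c4 c6 w) :
    ∃ γ : Matrix.SpecialLinearGroup (Fin 2) (ZMod 5) × Fin 5 → Matrix (Fin 2) (Fin 2) Kb,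
      (∀ x, γ x ∈ s52_Ghat) ∧
      (∀ w', s52_OnFibre c4 c6 w' → ∃ x, w' = w ᵥ* γ x) ∧
      (∀ x y, B (w ᵥ* γ x) = B (w ᵥ* γ y) → s52_fv (w ᵥ* γ x) = s52_fv (w ᵥ* γ y) → x = y) := by
  classical
  choose Mt hMt hMtM using hgen
  have hwd := fun M => s52m_word pkg hinv hfS (Mt M) (hMt M)
  choose g hg hgw using hwd
  let γ : Matrix.SpecialLinearGroup (Fin 2) (ZMod 5) × Fin 5 → Matrix (Fin 2) (Fin 2) Kb :=
    fun x => g x.1 * s52_Zmat ^ (x.2 : ℕ)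
  have hγmem : ∀ x, γ x ∈ s52_Ghat := fun x => mul_mem (hg x.1) (pow_mem s52m_Z_mem _)
  have hf0 := s52m_fv_ne_zero c4 c6 hne w hw
  -- values of `B` and `f` on the parametrised points
  have hval : ∀ x, B (w ᵥ* γ x) = s52m_act (Mt x.1) (B w) ∧
      s52_fv (w ᵥ* γ x) = s52_zeta ^ (2 * (x.2 : ℕ)) * s52_fv w := by
    intro x
    obtain ⟨h1, h2⟩ := hgw x.1 w hw
    have hw' := s52m_onFibre_smul hinv c4 c6 (g x.1) (hg x.1) w hw
    obtain ⟨h3, h4⟩ := s52m_Zpow pkg hinv (x.2 : ℕ) _ hw'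
    show B (w ᵥ* (g x.1 * s52_Zmat ^ (x.2 : ℕ))) = _ ∧
      s52_fv (w ᵥ* (g x.1 * s52_Zmat ^ (x.2 : ℕ))) = _
    rw [← Matrix.vecMul_vecMul, h3, h4, h1, h2]
    exact ⟨rfl, rfl⟩
  have hsep : ∀ x y, B (w ᵥ* γ x) = B (w ᵥ* γ y) →
      s52_fv (w ᵥ* γ x) = s52_fv (w ᵥ* γ y) → x = y := by
    intro x y hB hf
    rw [(hval x).1, (hval y).1] at hB
    rw [(hval x).2, (hval y).2] at hf
    have h1 := s52m_act_inj (B w) (pkg.ind w hw) _ _ hB
    rw [hMtM, hMtM] at h1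
    have h2 : x.1 = y.1 := Subtype.ext h1
    have h3 : x.2 = y.2 := s52m_zeta_pow_inj _ _ (mul_right_cancel₀ hf0 hf)
    exact Prod.ext h2 h3
  refine ⟨γ, hγmem, ?_, hsep⟩
  -- surjectivity by counting
  let φ : Matrix.SpecialLinearGroup (Fin 2) (ZMod 5) × Fin 5 → Kb × Kb :=
    fun x => ((w ᵥ* γ x) 0, (w ᵥ* γ x) 1)
  have hφinj : Function.Injective φ := by
    intro x y hxy
    have h0 : (w ᵥ* γ x) 0 = (w ᵥ* γ y) 0 := congrArg Prod.fst hxy
    have h1 : (w ᵥ* γ x) 1 = (w ᵥ* γ y) 1 := congrArg Prod.snd hxy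
    have hxy' : w ᵥ* γ x = w ᵥ* γ y := by
      funext i
      fin_cases i
      · exact h0
      · exact h1
    exact hsep x y (by rw [hxy']) (by rw [hxy'])
  have : Fintype (Matrix.SpecialLinearGroup (Fin 2) (ZMod 5)) := Fintype.ofFinite _
  have hcard' : Fintype.card (Matrix.SpecialLinearGroup (Fin 2) (ZMod 5) × Fin 5) = 600 := by
    rw [Fintype.card_prod, ← Nat.card_eq_fintype_card, hcard, Fintype.card_fin]
  have hsub : Finset.univ.image φ ⊆ F := by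
    intro p hp
    rw [Finset.mem_image] at hp
    obtain ⟨x, -, rfl⟩ := hp
    have hx := s52m_onFibre_smul hinv c4 c6 (γ x) (hγmem x) w hw
    exact hFmem _ _ hx.1 hx.2
  have himg : Finset.univ.image φ = F := by
    apply Finset.eq_of_subset_of_card_le hsub
    rw [Finset.card_image_of_injective _ hφinj, Finset.card_univ, hcard']
    exact hF
  intro w' hw'
  have hmem : (w' 0, w' 1) ∈ Finset.univ.image φ := by
    rw [himg]
    exact hFmem _ _ hw'.1 hw'.2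
  rw [Finset.mem_image] at hmem
  obtain ⟨x, -, hx⟩ := hmem
  refine ⟨x, ?_⟩
  funext i
  fin_cases i
  · exact (congrArg Prod.fst hx).symm
  · exact (congrArg Prod.snd hx).symm

end counting

/-! ### consequences: transitivity, injectivity of `(B, f)`, [KLEIN-ORBIT], [KLEIN-FIX] -/

/-- Galois-equivariance of the basis for the `σ` fixing `ζ`. -/
def s52m_TorsGal (c4 c6 : ℤ) (B : (Fin 2 → Kb) → Fin 2 → s58_Pt (s52_sh c4 c6)) : Prop :=
  ∀ σ : s58_G, σ s52_zeta = s52_zeta → ∀ w, s52_OnFibre c4 c6 w →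
    B (fun i => σ (w i)) = fun i => σ • B w i

/-- **[KLEIN-TORS]** what the torsion side has to deliver: on every fibre a basis of `𝓔_w[5]`
with the transformation laws under `S, T₅, ζ·I` and Galois-equivariance over `ℚ(ζ)`. -/
def s52m_KleinTors : Prop :=
  ∀ c4 c6 : ℤ, c4 ≠ 0 → c6 ≠ 0 → c4 ^ 3 ≠ c6 ^ 2 →
    ∃ (mS mT : Matrix (Fin 2) (Fin 2) ℤ) (B : (Fin 2 → Kb) → Fin 2 → s58_Pt (s52_sh c4 c6)),
      s52m_Gen mS mT ∧ s52m_TorsPkg c4 c6 mS mT B ∧ s52m_TorsGal c4 c6 B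

/-- the freeness half of [KLEIN-ORBIT] (helper6). -/
def s52m_KleinFree : Prop :=
  ∀ c4 c6 : ℤ, c4 ≠ 0 → c6 ≠ 0 → c4 ^ 3 ≠ c6 ^ 2 → ∀ w : Fin 2 → Kb, s52_OnFibre c4 c6 w →
    ∀ g ∈ s52_Ghat, ∀ h ∈ s52_Ghat, w ᵥ* g = w ᵥ* h → g = h

theorem s52m_onFibre_galois (c4 c6 : ℤ) (w : Fin 2 → Kb) (hw : s52_OnFibre c4 c6 w)
    (σ : s58_G) : s52_OnFibre c4 c6 (fun i => σ (w i)) := by
  constructor
  · have h := s52m_kH_map (σ : Kb →+* Kb) (w 0) (w 1)
    have h1 : s52m_kH (w 0) (w 1) = -((c4 : ℤ) : Kb) := hw.1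
    rw [h1] at h
    simp only [map_neg, map_intCast] at h
    exact h.symm
  · have h := s52m_kT_map (σ : Kb →+* Kb) (w 0) (w 1)
    have h1 : s52m_kT (w 0) (w 1) = -((c6 : ℤ) : Kb) := hw.2
    rw [h1] at h
    simp only [map_neg, map_intCast] at h
    exact h.symm

theorem s52m_fv_galois (w : Fin 2 → Kb) (σ : s58_G) :
    s52_fv (fun i => σ (w i)) = σ (s52_fv w) :=
  (s52m_kf_map (σ : Kb →+* Kb) (w 0) (w 1)).symm

/-- the counting theorem, instantiated with the contracts. -/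
theorem s52m_count_of (hinv : s52m_Inv) (hcount : s52_KleinCount) (hsl : s52_SL25)
    (hfS : ∀ w : Fin 2 → Kb, s52_fv (w ᵥ* s52_Smat) = s52_fv w)
    (c4 c6 : ℤ) (h4 : c4 ≠ 0) (h6 : c6 ≠ 0) (hne : c4 ^ 3 ≠ c6 ^ 2)
    (mS mT : Matrix (Fin 2) (Fin 2) ℤ) (B : (Fin 2 → Kb) → Fin 2 → s58_Pt (s52_sh c4 c6))
    (hgen : s52m_Gen mS mT) (pkg : s52m_TorsPkg c4 c6 mS mT B)
    (w : Fin 2 → Kb) (hw : s52_OnFibre c4 c6 w) :
    (∀ w', s52_OnFibre c4 c6 w' → ∃ g ∈ s52_Ghat, w' = w ᵥ* g) ∧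
    (∀ w' w'', s52_OnFibre c4 c6 w' → s52_OnFibre c4 c6 w'' → B w' = B w'' →
      s52_fv w' = s52_fv w'' → w' = w'') := by
  have h4' : ((c4 : ℤ) : Kb) ≠ 0 := Int.cast_ne_zero.2 h4
  have h6' : ((c6 : ℤ) : Kb) ≠ 0 := Int.cast_ne_zero.2 h6
  have hne' : ((c4 : ℤ) : Kb) ^ 3 ≠ ((c6 : ℤ) : Kb) ^ 2 := by
    intro h
    apply hne
    exact_mod_cast h
  obtain ⟨F, hF, hFmem⟩ := hcount _ _ h4' h6' hne'
  obtain ⟨γ, hγ, hsurj, hsep⟩ :=
    s52m_count_main hne hgen pkg hinv hfS hsl.1 F hF hFmem w hw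
  refine ⟨fun w' hw' => ?_, fun w' w'' hw' hw'' hB hf => ?_⟩
  · obtain ⟨x, hx⟩ := hsurj w' hw'
    exact ⟨γ x, hγ x, hx⟩
  · obtain ⟨x, hx⟩ := hsurj w' hw'
    obtain ⟨y, hy⟩ := hsurj w'' hw''
    rw [hx, hy] at hB hf
    rw [hx, hy, hsep x y hB hf]

/-- **[KLEIN-ORBIT]** from freeness (helper6) and the torsion package. -/
theorem s52m_kleinOrbit_of (hgrp : s52_KleinGroup) (hcount : s52_KleinCount) (hsl : s52_SL25)
    (hfS : ∀ w : Fin 2 → Kb, s52_fv (w ᵥ* s52_Smat) = s52_fv w)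
    (htors : s52m_KleinTors) (hfree : s52m_KleinFree) : s52_KleinOrbit := by
  intro c4 c6 h4 h6 hne w hw
  refine ⟨hfree c4 c6 h4 h6 hne w hw, fun σ => ?_⟩
  obtain ⟨mS, mT, B, hgen, pkg, -⟩ := htors c4 c6 h4 h6 hne
  exact (s52m_count_of hgrp.2.1 hcount hsl hfS c4 c6 h4 h6 hne mS mT B hgen pkg w hw).1 _
    (s52m_onFibre_galois c4 c6 w hw σ)

/-- **[KLEIN-FIX]** from the torsion package. -/
theorem s52m_kleinFix_of (hgrp : s52_KleinGroup) (hcount : s52_KleinCount) (hsl : s52_SL25)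
    (hfS : ∀ w : Fin 2 → Kb, s52_fv (w ᵥ* s52_Smat) = s52_fv w)
    (htors : s52m_KleinTors) : s52_KleinFix := by
  intro c4 c6 h4 h6 hne w hw σ hζ hf hP i
  obtain ⟨mS, mT, B, hgen, pkg, hgal⟩ := htors c4 c6 h4 h6 hne
  have hσw := s52m_onFibre_galois c4 c6 w hw σ
  have h5 : ∀ j, (5 : ℕ) • B w j = 0 := pkg.five w hw
  have hB : B (fun i => σ (w i)) = B w := by
    rw [hgal σ hζ w hw]
    funext j
    exact hP _ (h5 j)
  have hfσ : s52_fv (fun i => σ (w i)) = s52_fv w := by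
    rw [s52m_fv_galois, hf]
  have := (s52m_count_of hgrp.2.1 hcount hsl hfS c4 c6 h4 h6 hne mS mT B hgen pkg w hw).2 _ _
    hσw hw hB hfσ
  exact congrFun this i

end Fermat.Agent.Lib.S52

end
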