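/-
Programme K (S52, the 3–5 switch), helper9, prefix `s52p_`.

POINT COUNTS of Weierstrass curves over `ZMod p` by `decide`:

* `s52p_NS W x y`           : the explicit (decidable) form of `W.toAffine.Nonsingular x y`;
* `s52p_card_point`         : `Nat.card W.toAffine.Point = 1 + #{(x, y) | s52p_NS W x y}`;
* `s52p_trace_eq`           : `W.traceOfFrobenius = |F| + 1 − (1 + #{…})`;
* `s52p_apOfModel_eq`       : for `W : WeierstrassCurve ℤ`, `p` prime, if the reduction of `W` mod `p`
  is the curve `⟨a₁, a₂, a₃, a₄, a₆⟩` over `ZMod p` having `N` explicit affine points, then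
  `W.apOfModel p = p − N`.
-/
import Mathlib
import Fermat.Prelude.Def_FLTPrelim_Modularity

set_option autoImplicit false

namespace Fermat.Agent.Lib.S52

open WeierstrassCurve

section general

variable {F : Type*} [CommRing F] (W : WeierstrassCurve F)

/-- explicit form of `W.toAffine.Nonsingular x y`. -/
def s52p_NS (x y : F) : Prop :=
  y ^ 2 + W.a₁ * x * y + W.a₃ * y = x ^ 3 + W.a₂ * x ^ 2 + W.a₄ * x + W.a₆ ∧
    (W.a₁ * y - (3 * x ^ 2 + 2 * W.a₂ * x + W.a₄) ≠ 0 ∨ 2 * y + W.a₁ * x + W.a₃ ≠ 0)

instance s52p_NS_decidable [DecidableEq F] (x y : F) : Decidable (s52p_NS W x y) := by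
  unfold s52p_NS; infer_instance

theorem s52p_NS_iff (x y : F) : s52p_NS W x y ↔ W.toAffine.Nonsingular x y := by
  rw [Affine.nonsingular_iff', Affine.equation_iff]
  rfl

variable [Fintype F] [DecidableEq F]

/-- the number of points = 1 + the number of nonsingular affine solutions. -/
theorem s52p_card_point :
    Nat.card W.toAffine.Point =
      1 + (Finset.univ.filter (fun xy : F × F => s52p_NS W xy.1 xy.2)).card := by
  classical
  have e : {xy : F × F // W.toAffine.Nonsingular xy.1 xy.2} ≃
      {xy : F × F // xy ∈ Finset.univ.filter (fun xy : F × F => s52p_NS W xy.1 xy.2)} :=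
    Equiv.subtypeEquivRight (fun xy => by simp [s52p_NS_iff])
  rw [Nat.card_congr (Affine.nonsingularPointEquiv W.toAffine)]
  change Nat.card (Option {xy : F × F // W.toAffine.Nonsingular xy.1 xy.2}) = _
  rw [Nat.card_congr (Equiv.optionCongr e), Nat.card_eq_fintype_card, Fintype.card_option,
    Fintype.card_coe, add_comm]

theorem s52p_trace_eq :
    W.traceOfFrobenius = (Fintype.card F : ℤ) + 1 -
      ((1 + (Finset.univ.filter (fun xy : F × F => s52p_NS W xy.1 xy.2)).card : ℕ) : ℤ) := by
  unfold traceOfFrobenius WeierstrassCurve.card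
  rw [s52p_card_point, Nat.card_eq_fintype_card]

end general

/-- **Point count by `decide`.**  If the reduction of `W / ℤ` mod the prime `p` is the curve with
coefficients `a₁ … a₆ ∈ ZMod p` and that curve has exactly `N` affine (nonsingular) solutions,
then `a_p(W) = p − N`. -/
theorem s52p_apOfModel_eq (W : WeierstrassCurve ℤ) (p : ℕ) [NeZero p]
    (V : WeierstrassCurve (ZMod p))
    (hV : W.map (Int.castRingHom (ZMod p)) = V) (N : ℕ)
    (hN : (Finset.univ.filter (fun xy : ZMod p × ZMod p => s52p_NS V xy.1 xy.2)).card = N) :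
    W.apOfModel p = (p : ℤ) - N := by
  unfold apOfModel reductionMod
  rw [hV, s52p_trace_eq, hN, ZMod.card]
  push_cast
  ring

end Fermat.Agent.Lib.S52
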