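/-
Programme K (S52), helper9, prefix `s52q_`.  Block D2-Q, part 3: THE DISCRIMINANT.

* `s52q_disc_quartic`  : `∏_{i<j}(x_j − x_i)² = Disc(e₁,…,e₄)` (pure identity);
* `s52q_disc_identity` : if `x₀,…,x₃` have `e₁ = 0, e₂ = 2a, e₃ = −4b, 3e₄ = −a²` (Vieta for
  `ψ₃ = 3X⁴ + 6aX² + 12bX − a²`), then `27·δ² = −256·(4a³+27b²)²`;
* `s52q_vieta`         : Vieta's relations for four distinct roots of `ψ₃`.
-/
import Mathlib
import Fermat.Agent.Lib.S52.QRoots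

set_option autoImplicit false

namespace Fermat.Agent.Lib.S52

open Polynomial

section identity

variable {K : Type*} [Field K]

/-- the discriminant of a monic quartic in terms of its roots. -/
theorem s52q_disc_quartic (x0 x1 x2 x3 : K) :
    ((x1 - x0) * (x2 - x0) * (x3 - x0) * (x2 - x1) * (x3 - x1) * (x3 - x2)) ^ 2 =
      (fun b c d e : K => 256 * e ^ 3 - 192 * b * d * e ^ 2 - 128 * c ^ 2 * e ^ 2
        + 144 * c * d ^ 2 * e - 27 * d ^ 4 + 144 * b ^ 2 * c * e ^ 2 - 6 * b ^ 2 * d ^ 2 * e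
        - 80 * b * c ^ 2 * d * e + 18 * b * c * d ^ 3 + 16 * c ^ 4 * e - 4 * c ^ 3 * d ^ 2
        - 27 * b ^ 4 * e ^ 2 + 18 * b ^ 3 * c * d * e - 4 * b ^ 3 * d ^ 3 - 4 * b ^ 2 * c ^ 3 * e
        + b ^ 2 * c ^ 2 * d ^ 2)
        (-(x0 + x1 + x2 + x3))
        (x0 * x1 + x0 * x2 + x0 * x3 + x1 * x2 + x1 * x3 + x2 * x3)
        (-(x0 * x1 * x2 + x0 * x1 * x3 + x0 * x2 * x3 + x1 * x2 * x3))
        (x0 * x1 * x2 * x3) := by
  ring

theorem s52q_disc_identity (x0 x1 x2 x3 a b : K) (h3ne : (3 : K) ≠ 0)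
    (h1 : x0 + x1 + x2 + x3 = 0)
    (h2 : x0 * x1 + x0 * x2 + x0 * x3 + x1 * x2 + x1 * x3 + x2 * x3 = 2 * a)
    (h3 : x0 * x1 * x2 + x0 * x1 * x3 + x0 * x2 * x3 + x1 * x2 * x3 = -4 * b)
    (h4 : 3 * (x0 * x1 * x2 * x3) = -a ^ 2) :
    27 * ((x1 - x0) * (x2 - x0) * (x3 - x0) * (x2 - x1) * (x3 - x1) * (x3 - x2)) ^ 2 =
      -256 * (4 * a ^ 3 + 27 * b ^ 2) ^ 2 := by
  rw [s52q_disc_quartic, h1, h2, h3]
  have h4' : x0 * x1 * x2 * x3 = -a ^ 2 / 3 := by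
    rw [eq_div_iff h3ne]; linear_combination h4
  rw [h4']
  simp only []
  field_simp
  ring

end identity

section vieta

variable {K : Type*} [Field K] [CharZero K]

/-- **Vieta** for four distinct roots of `ψ₃ = 3X⁴ + 6aX² + 12bX − a²`. -/
theorem s52q_vieta (a b : K) (x : Fin 4 → K) (hinj : Function.Injective x)
    (hroot : ∀ i, 3 * x i ^ 4 + 6 * a * x i ^ 2 + 12 * b * x i - a ^ 2 = 0) :
    x 0 + x 1 + x 2 + x 3 = 0 ∧
      x 0 * x 1 + x 0 * x 2 + x 0 * x 3 + x 1 * x 2 + x 1 * x 3 + x 2 * x 3 = 2 * a ∧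
      x 0 * x 1 * x 2 + x 0 * x 1 * x 3 + x 0 * x 2 * x 3 + x 1 * x 2 * x 3 = -4 * b ∧
      3 * (x 0 * x 1 * x 2 * x 3) = -a ^ 2 := by
  set P : K[X] := C 3 * X ^ 4 + C (6 * a) * X ^ 2 + C (12 * b) * X - C (a ^ 2) with hP
  set Q : K[X] := C 3 * ((X - C (x 0)) * (X - C (x 1)) * (X - C (x 2)) * (X - C (x 3))) with hQ
  set R : K[X] := C (3 * (x 0 + x 1 + x 2 + x 3)) * X ^ 3
      + C (6 * a - 3 * (x 0 * x 1 + x 0 * x 2 + x 0 * x 3 + x 1 * x 2 + x 1 * x 3 + x 2 * x 3))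
        * X ^ 2
      + C (12 * b + 3 * (x 0 * x 1 * x 2 + x 0 * x 1 * x 3 + x 0 * x 2 * x 3 + x 1 * x 2 * x 3)) * X
      - C (a ^ 2 + 3 * (x 0 * x 1 * x 2 * x 3)) with hR
  have hPQR : P - Q = R := by
    rw [hP, hQ, hR]
    simp only [map_add, map_sub, map_mul, map_pow, map_ofNat]
    ring
  have hdeg : (P - Q).degree < ((Finset.univ : Finset (Fin 4)).card : WithBot ℕ) := by
    rw [hPQR, Finset.card_univ, Fintype.card_fin]
    have h3 : R.degree ≤ 3 := by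
      rw [hR]
      compute_degree
    exact lt_of_le_of_lt h3 (by norm_num)
  have hevalQ : ∀ i, eval (x i) Q = 0 := by
    intro i
    rw [hQ]
    simp only [eval_mul, eval_sub, eval_X, eval_C]
    fin_cases i <;> simp
  have hevalP : ∀ i, eval (x i) P = 0 := by
    intro i
    rw [hP]
    simp only [eval_add, eval_sub, eval_mul, eval_pow, eval_X, eval_C]
    exact hroot i
  have hEq : P = Q :=
    eq_of_degree_sub_lt_of_eval_index_eq (s := Finset.univ) (v := x) hinj.injOn hdeg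
      (fun i _ => by rw [hevalP, hevalQ])
  have hR0 : R = 0 := by rw [← hPQR, hEq, sub_self]
  have c3 := congrArg (fun p : K[X] => p.coeff 3) hR0
  have c2 := congrArg (fun p : K[X] => p.coeff 2) hR0
  have c1 := congrArg (fun p : K[X] => p.coeff 1) hR0
  have c0 := congrArg (fun p : K[X] => p.coeff 0) hR0
  simp only [hR, coeff_add, coeff_sub, coeff_C_mul, coeff_X_pow, coeff_X, coeff_C, coeff_zero] at c3 c2 c1 c0
  norm_num at c3 c2 c1 c0
  refine ⟨?_, ?_, ?_, ?_⟩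
  · exact c3
  · linear_combination (-1 / 3 : K) * c2
  · linear_combination (1 / 3 : K) * c1
  · linear_combination (-1 : K) * c0

end vieta

end Fermat.Agent.Lib.S52
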