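/-
Programme K (S52), helper9, prefix `s52q_`.  Block D2-Q, part 4: `S₄` BY `decide`.

`c` a 4-cycle (given as: `c` and `c²` fixed-point-free), `t` odd.  Then `t` is fixed-point-free, or
one of `t·(cᵏ t c⁻ᵏ)`, `k = 1, 2`, is.
-/
import Mathlib

set_option autoImplicit false

namespace Fermat.Agent.Lib.S52

set_option maxRecDepth 100000 in
theorem s52q_perm_main : ∀ c t : Equiv.Perm (Fin 4), (∀ i, c i ≠ i) → (∀ i, (c * c) i ≠ i) →
    Equiv.Perm.sign t = -1 →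
    (∀ i, t i ≠ i) ∨ (∀ i, (t * (c * t * c⁻¹)) i ≠ i) ∨ (∀ i, (t * (c * c * t * (c * c)⁻¹)) i ≠ i) := by
  decide

end Fermat.Agent.Lib.S52
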