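/-
Programme K (S52), helper9, prefix `s52q_`.  Block D2-Q, part 5: GALOIS ACTION ON THE FOUR ROOTS.

`a b : ℤ`, `R = {x ∈ ℚ̄ | 3x⁴ + 6ax² + 12bx − a² = 0}`, enumerated by an injective `x : Fin 4 → ℚ̄`.

* `s52q_perm x hx τ`  : the permutation of `Fin 4` induced by `τ ∈ G_ℚ` (`x (π i) = τ (x i)`);
* `s52q_perm_mul`     : it is multiplicative;
* `s52q_sign`         : `τ δ = sign(π_τ) · δ` for `δ = det (vandermonde x)`;
* `s52q_delta_sq`     : `27 δ² = −256 (4a³+27b²)²`.
-/
import Mathlib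
import Fermat.Agent.Lib.S52.QDisc
import Fermat.Agent.Lib.S52.QPerm

set_option autoImplicit false

namespace Fermat.Agent.Lib.S52

open Matrix

/-- `ℚ̄`. -/
abbrev s52q_Qb : Type := AlgebraicClosure ℚ

/-- `G_ℚ`. -/
abbrev s52q_G : Type := AlgebraicClosure ℚ ≃ₐ[ℚ] AlgebraicClosure ℚ

/-- the 3-division quartic with integer coefficients, evaluated in `ℚ̄`. -/
noncomputable def s52q_q (a b : ℤ) (x : s52q_Qb) : s52q_Qb :=
  3 * x ^ 4 + 6 * (a : s52q_Qb) * x ^ 2 + 12 * (b : s52q_Qb) * x - (a : s52q_Qb) ^ 2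

lemma s52q_q_map (a b : ℤ) (τ : s52q_G) (x : s52q_Qb) : s52q_q a b (τ x) = τ (s52q_q a b x) := by
  unfold s52q_q
  simp only [map_sub, map_add, map_mul, map_pow, map_ofNat, map_intCast]

/-- an enumeration of the roots: injective, roots, all roots. -/
structure s52q_Enum (a b : ℤ) (x : Fin 4 → s52q_Qb) : Prop where
  inj : Function.Injective x
  root : ∀ i, s52q_q a b (x i) = 0
  surj : ∀ r, s52q_q a b r = 0 → ∃ i, x i = r

section perm

variable {a b : ℤ} {x : Fin 4 → s52q_Qb} (hx : s52q_Enum a b x)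

include hx in
lemma s52q_exists_index (τ : s52q_G) (i : Fin 4) : ∃ j, x j = τ (x i) :=
  hx.surj _ (by rw [s52q_q_map, hx.root, map_zero])

/-- the underlying function of the permutation. -/
noncomputable def s52q_permFun (τ : s52q_G) (i : Fin 4) : Fin 4 :=
  Classical.choose (s52q_exists_index hx τ i)

lemma s52q_permFun_spec (τ : s52q_G) (i : Fin 4) : x (s52q_permFun hx τ i) = τ (x i) :=
  Classical.choose_spec (s52q_exists_index hx τ i)

lemma s52q_permFun_injective (τ : s52q_G) : Function.Injective (s52q_permFun hx τ) := by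
  intro i j h
  have := congrArg x h
  rw [s52q_permFun_spec hx, s52q_permFun_spec hx] at this
  exact hx.inj (τ.injective this)

/-- the permutation of the four roots induced by `τ`. -/
noncomputable def s52q_perm (τ : s52q_G) : Equiv.Perm (Fin 4) :=
  Equiv.ofBijective (s52q_permFun hx τ)
    (Finite.injective_iff_bijective.mp (s52q_permFun_injective hx τ))

lemma s52q_perm_spec (τ : s52q_G) (i : Fin 4) : x (s52q_perm hx τ i) = τ (x i) :=
  s52q_permFun_spec hx τ i

lemma s52q_perm_mul (σ τ : s52q_G) : s52q_perm hx (σ * τ) = s52q_perm hx σ * s52q_perm hx τ := by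
  ext i
  apply congrArg Fin.val
  apply hx.inj
  rw [Equiv.Perm.mul_apply, s52q_perm_spec hx, s52q_perm_spec hx, s52q_perm_spec hx]
  rfl

lemma s52q_perm_one : s52q_perm hx 1 = 1 := by
  ext i
  apply congrArg Fin.val
  apply hx.inj
  rw [s52q_perm_spec hx]
  rfl

lemma s52q_perm_inv (σ : s52q_G) : s52q_perm hx σ⁻¹ = (s52q_perm hx σ)⁻¹ := by
  rw [eq_inv_iff_mul_eq_one, ← s52q_perm_mul, inv_mul_cancel, s52q_perm_one]

/-- `τ` fixes no root iff the permutation is fixed-point-free. -/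
lemma s52q_noFix_iff (τ : s52q_G) :
    (∀ r, s52q_q a b r = 0 → τ r ≠ r) ↔ ∀ i, s52q_perm hx τ i ≠ i := by
  constructor
  · intro h i hi
    apply h (x i) (hx.root i)
    rw [← s52q_perm_spec hx, hi]
  · intro h r hr hfix
    obtain ⟨i, rfl⟩ := hx.surj r hr
    apply h i
    apply hx.inj
    rw [s52q_perm_spec hx, hfix]

/-- the Vandermonde determinant of the roots. -/
noncomputable def s52q_delta (x : Fin 4 → s52q_Qb) : s52q_Qb := (vandermonde x).det

/-- `τ δ = sign(π_τ) δ`. -/
theorem s52q_sign (τ : s52q_G) :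
    τ (s52q_delta x) = ((Equiv.Perm.sign (s52q_perm hx τ) : ℤˣ) : ℤ) * s52q_delta x := by
  unfold s52q_delta
  have h1 : τ (vandermonde x).det = ((τ : s52q_Qb →+* s52q_Qb).mapMatrix (vandermonde x)).det :=
    RingHom.map_det (τ : s52q_Qb →+* s52q_Qb) _
  have h2 : (τ : s52q_Qb →+* s52q_Qb).mapMatrix (vandermonde x) =
      (vandermonde x).submatrix (s52q_perm hx τ) id := by
    ext i j
    simp only [RingHom.mapMatrix_apply, map_apply, vandermonde_apply, submatrix_apply, id_eq,
      RingHom.coe_coe, map_pow, s52q_perm_spec hx]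
  rw [h1, h2, det_permute]

include hx in
lemma s52q_delta_ne_zero : s52q_delta x ≠ 0 :=
  det_vandermonde_ne_zero_iff.mpr hx.inj

include hx in
/-- `27 δ² = −256 (4a³ + 27b²)²`. -/
theorem s52q_delta_sq :
    27 * s52q_delta x ^ 2 = -256 * (4 * (a : s52q_Qb) ^ 3 + 27 * (b : s52q_Qb) ^ 2) ^ 2 := by
  obtain ⟨v1, v2, v3, v4⟩ := s52q_vieta (a : s52q_Qb) (b : s52q_Qb) x hx.inj hx.root
  have hd : s52q_delta x =
      (x 1 - x 0) * (x 2 - x 0) * (x 3 - x 0) * (x 2 - x 1) * (x 3 - x 1) * (x 3 - x 2) := by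
    unfold s52q_delta
    rw [det_vandermonde, Fin.prod_univ_four]
    have h0 : Finset.Ioi (0 : Fin 4) = {1, 2, 3} := by decide
    have h1 : Finset.Ioi (1 : Fin 4) = {2, 3} := by decide
    have h2 : Finset.Ioi (2 : Fin 4) = {3} := by decide
    have h3 : Finset.Ioi (3 : Fin 4) = ∅ := by decide
    rw [h0, h1, h2, h3]
    rw [Finset.prod_insert (by decide), Finset.prod_insert (by decide), Finset.prod_singleton,
      Finset.prod_insert (by decide), Finset.prod_singleton, Finset.prod_singleton,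
      Finset.prod_empty]
    ring
  rw [hd]
  exact s52q_disc_identity _ _ _ _ _ _ (by norm_num) v1 v2 v3 v4

end perm

end Fermat.Agent.Lib.S52
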