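/-
Programme K (S52), helper9, prefix `s52q_`.  Block D2-Q ("the four roots of the 3-division quartic").

GENERAL PART over a field `K`: a short Weierstrass curve `E : y² = x³ + a₄ x + a₆`
(`a₁ = a₂ = a₃ = 0`).

* `s52q_psi3 E x = 3x⁴ + 6a₄x² + 12a₆x − a₄²` (the 3-division quartic);
* `s52q_psi3_of_three_nsmul` : `3 • (x, y) = 0 → ψ₃(x) = 0`;
* `s52q_eq_or_eq_neg_of_x_eq` : two affine points with the same abscissa are equal or opposite;
* `s52q_ne_neg_of_three_nsmul` : a non-zero point of order 3 is not its own opposite.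
-/
import Mathlib

set_option autoImplicit false

namespace Fermat.Agent.Lib.S52

open WeierstrassCurve

section general

variable {K : Type*} [Field K] [DecidableEq K] (E : Affine K)

/-- the 3-division quartic of `y² = x³ + a₄ x + a₆`. -/
def s52q_psi3 (x : K) : K := 3 * x ^ 4 + 6 * E.a₄ * x ^ 2 + 12 * E.a₆ * x - E.a₄ ^ 2

variable {E}

/-- the abscissa of a point killed by `3` is a root of the 3-division quartic. -/
theorem s52q_psi3_of_three_nsmul (h1 : E.a₁ = 0) (h2 : E.a₂ = 0) (h3 : E.a₃ = 0)
    {x y : K} (h : E.Nonsingular x y) (hP : (3 : ℕ) • Affine.Point.some x y h = 0) :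
    s52q_psi3 E x = 0 := by
  have hadd : Affine.Point.some x y h + Affine.Point.some x y h = -Affine.Point.some x y h := by
    apply eq_neg_of_add_eq_zero_left
    rw [← hP, succ_nsmul, two_nsmul]
  by_cases hy : y = E.negY x y
  · rw [Affine.Point.add_self_of_Y_eq hy] at hadd
    exact absurd hadd.symm (by simp)
  · rw [Affine.Point.add_self_of_Y_ne hy, Affine.Point.neg_some] at hadd
    have hx : E.addX x x (E.slope x x y y) = x := by
      injection hadd
    have heq : y ^ 2 = x ^ 3 + E.a₄ * x + E.a₆ := by
      have := (Affine.equation_iff x y).mp h.1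
      rw [h1, h2, h3] at this
      linear_combination this
    have hy2 : y + y ≠ 0 := by
      intro h0
      apply hy
      rw [Affine.negY, h1, h3]
      linear_combination h0
    rw [Affine.slope_of_Y_ne rfl hy, Affine.addX, Affine.negY, h1, h2, h3] at hx
    have e1 : 3 * x ^ 2 + 2 * 0 * x + E.a₄ - 0 * y = 3 * x ^ 2 + E.a₄ := by ring
    have e2 : y - (-y - 0 * x - 0) = y + y := by ring
    rw [e1, e2] at hx
    have hL : ((3 * x ^ 2 + E.a₄) / (y + y)) ^ 2 = 3 * x := by linear_combination hx
    have hx' : (3 * x ^ 2 + E.a₄) ^ 2 = 3 * x * (y + y) ^ 2 := by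
      rw [div_pow, div_eq_iff (pow_ne_zero 2 hy2)] at hL
      exact hL
    unfold s52q_psi3
    linear_combination -hx' - 12 * x * heq

/-- two affine points with the same abscissa are equal or opposite. -/
theorem s52q_eq_or_eq_neg_of_x_eq {x y y' : K} (h : E.Nonsingular x y) (h' : E.Nonsingular x y') :
    Affine.Point.some x y' h' = Affine.Point.some x y h ∨
      Affine.Point.some x y' h' = -Affine.Point.some x y h := by
  rcases Affine.Y_eq_of_X_eq h'.1 h.1 rfl with e | e
  · left; subst e; rfl
  · right; subst e; rfl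

/-- a non-zero point killed by `3` is not its own opposite. -/
theorem s52q_ne_neg_of_three_nsmul {P : E.Point} (hP : (3 : ℕ) • P = 0) (h0 : P ≠ 0) : P ≠ -P := by
  intro h
  apply h0
  have h2 : (2 : ℕ) • P = 0 := by
    rw [two_nsmul]
    nth_rewrite 2 [h]
    exact add_neg_cancel P
  have : (3 : ℕ) • P = (2 : ℕ) • P + P := succ_nsmul P 2
  rw [hP, h2, zero_add] at this
  exact this.symm

end general

end Fermat.Agent.Lib.S52
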