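/-
Programme K (S52), helper9, prefix `s52q_`.  Block D2-Q, part 2: THE FOUR ROOTS.

`E : y² = x³ + a₄x + a₆` over an algebraically closed field of characteristic `0`, `Δ ≠ 0`.
From `#E[3] = 9` (`enc_card_torsion_of_Δ'`) and `3 • (x,y) = 0 → ψ₃(x) = 0`:

* `s52q_card_roots`            : `ψ₃` has exactly four distinct roots (`roots.toFinset.card = 4`,
                                 `Multiset.card roots = 4`);
* `s52q_exists_point_of_root`  : every root of `ψ₃` is the abscissa of a non-zero point of order 3.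
-/
import Mathlib
import Fermat.Agent.Lib.EN.Pointwise
import Fermat.Agent.Lib.S52.QPsi

set_option autoImplicit false

namespace Fermat.Agent.Lib.S52

open WeierstrassCurve Polynomial Fermat.Agent.Lib.EN

section general

variable {K : Type*} [Field K] [DecidableEq K] (E : Affine K)

/-- the abscissa of a point (`0` for the point at infinity). -/
def s52q_absc : E.Point → K
  | .zero => 0
  | .some x _ _ => x

@[simp] lemma s52q_absc_some {x y : K} (h : E.Nonsingular x y) :
    s52q_absc E (Affine.Point.some x y h) = x := rfl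

lemma s52q_absc_neg (P : E.Point) : s52q_absc E (-P) = s52q_absc E P := by
  cases P <;> rfl

/-- `ψ₃` as a polynomial. -/
noncomputable def s52q_poly : K[X] :=
  C 3 * X ^ 4 + C (6 * E.a₄) * X ^ 2 + C (12 * E.a₆) * X - C (E.a₄ ^ 2)

lemma s52q_eval_poly (x : K) : (s52q_poly E).eval x = s52q_psi3 E x := by
  simp [s52q_poly, s52q_psi3]

lemma s52q_natDegree_poly [CharZero K] : (s52q_poly E).natDegree = 4 := by
  unfold s52q_poly
  compute_degree!

lemma s52q_poly_ne_zero [CharZero K] : s52q_poly E ≠ 0 := by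
  intro h
  have := s52q_natDegree_poly E
  rw [h, natDegree_zero] at this
  exact absurd this (by norm_num)

lemma s52q_mem_roots [CharZero K] {x : K} :
    x ∈ (s52q_poly E).roots ↔ s52q_psi3 E x = 0 := by
  rw [mem_roots (s52q_poly_ne_zero E), IsRoot, s52q_eval_poly]

variable {E}

/-- two points with the same abscissa, both non-zero, are equal or opposite. -/
lemma s52q_eq_or_eq_neg_of_absc_eq {P Q : E.Point} (hP : P ≠ 0) (hQ : Q ≠ 0)
    (h : s52q_absc E Q = s52q_absc E P) : Q = P ∨ Q = -P := by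
  rcases P with _ | ⟨x, y, hxy⟩
  · exact absurd rfl hP
  rcases Q with _ | ⟨x', y', hxy'⟩
  · exact absurd rfl hQ
  simp only [s52q_absc_some] at h
  subst h
  exact s52q_eq_or_eq_neg_of_x_eq hxy hxy'

variable [IsAlgClosed K] [CharZero K]

/-- the non-zero points killed by `3`. -/
def s52q_T3 (E : Affine K) : Set E.Point := {P | (3 : ℕ) • P = 0 ∧ P ≠ 0}

lemma s52q_tors_finite (hΔ : E.Δ ≠ 0) : ({P : E.Point | (3 : ℕ) • P = 0}).Finite := by
  have h9 := enc_card_torsion_of_Δ' E hΔ 3 (by norm_num)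
  have hfin : Finite {P : E.Point // (3 : ℕ) • P = 0} :=
    Nat.finite_of_card_ne_zero (by rw [h9]; norm_num)
  exact Set.finite_coe_iff.mp hfin

lemma s52q_T3_finite (hΔ : E.Δ ≠ 0) : (s52q_T3 E).Finite :=
  (s52q_tors_finite hΔ).subset fun _ hP => hP.1

lemma s52q_T3_ncard (hΔ : E.Δ ≠ 0) : (s52q_T3 E).ncard = 8 := by
  have h9 := enc_card_torsion_of_Δ' E hΔ 3 (by norm_num)
  have h9' : ({P : E.Point | (3 : ℕ) • P = 0}).ncard = 9 := by
    rw [← Nat.card_coe_set_eq]
    show Nat.card {P : E.Point // (3 : ℕ) • P = 0} = 9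
    rw [h9]; norm_num
  have hEq : s52q_T3 E = {P : E.Point | (3 : ℕ) • P = 0} \ {0} := by
    ext P
    simp [s52q_T3]
  rw [hEq, Set.ncard_sdiff_singleton_of_mem (by simp : (0 : E.Point) ∈ _), h9']

/-- **`ψ₃` has exactly four roots, and each is the abscissa of a non-zero point of order 3.** -/
theorem s52q_roots (h1 : E.a₁ = 0) (h2 : E.a₂ = 0) (h3 : E.a₃ = 0) (hΔ : E.Δ ≠ 0) :
    (s52q_poly E).roots.toFinset.card = 4 ∧
      ∀ r : K, s52q_psi3 E r = 0 → ∃ P : E.Point, (3 : ℕ) • P = 0 ∧ P ≠ 0 ∧ s52q_absc E P = r := by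
  classical
  set T : Finset E.Point := (s52q_T3_finite hΔ).toFinset with hT
  have hTcard : T.card = 8 := by
    rw [hT, ← Set.ncard_eq_toFinset_card _ (s52q_T3_finite hΔ)]
    exact s52q_T3_ncard hΔ
  have hTmem : ∀ P, P ∈ T ↔ (3 : ℕ) • P = 0 ∧ P ≠ 0 := by
    intro P; rw [hT, Set.Finite.mem_toFinset]; rfl
  -- the image of the abscissa map
  set I : Finset K := T.image (s52q_absc E) with hI
  have hIsub : I ⊆ (s52q_poly E).roots.toFinset := by
    intro r hr
    rw [hI, Finset.mem_image] at hr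
    obtain ⟨P, hP, rfl⟩ := hr
    rw [hTmem] at hP
    rw [Multiset.mem_toFinset, s52q_mem_roots]
    rcases P with _ | ⟨x, y, hxy⟩
    · exact absurd rfl hP.2
    · exact s52q_psi3_of_three_nsmul h1 h2 h3 hxy hP.1
  have hfib : ∀ b ∈ I, (T.filter fun P => s52q_absc E P = b).card ≤ 2 := by
    intro b hb
    rw [hI, Finset.mem_image] at hb
    obtain ⟨P, hP, rfl⟩ := hb
    have hsub : (T.filter fun Q => s52q_absc E Q = s52q_absc E P) ⊆ {P, -P} := by
      intro Q hQ
      rw [Finset.mem_filter] at hQ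
      have hP' := (hTmem P).mp hP
      have hQ' := (hTmem Q).mp hQ.1
      rcases s52q_eq_or_eq_neg_of_absc_eq hP'.2 hQ'.2 hQ.2 with e | e
      · simp [e]
      · simp [e]
    exact (Finset.card_le_card hsub).trans Finset.card_le_two
  have h8 : T.card ≤ 2 * I.card := Finset.card_le_mul_card_image T 2 hfib
  have hI4 : 4 ≤ I.card := by omega
  have hR4 : (s52q_poly E).roots.toFinset.card ≤ 4 := by
    calc (s52q_poly E).roots.toFinset.card ≤ Multiset.card (s52q_poly E).roots :=
          Multiset.toFinset_card_le _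
      _ ≤ (s52q_poly E).natDegree := card_roots' _
      _ = 4 := s52q_natDegree_poly E
  have hle : I.card ≤ (s52q_poly E).roots.toFinset.card := Finset.card_le_card hIsub
  have hcard : (s52q_poly E).roots.toFinset.card = 4 := by omega
  have hIeq : I = (s52q_poly E).roots.toFinset :=
    Finset.eq_of_subset_of_card_le hIsub (by omega)
  refine ⟨hcard, fun r hr => ?_⟩
  have : r ∈ I := by
    rw [hIeq, Multiset.mem_toFinset, s52q_mem_roots]; exact hr
  rw [hI, Finset.mem_image] at this
  obtain ⟨P, hP, rfl⟩ := this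
  exact ⟨P, ((hTmem P).mp hP).1, ((hTmem P).mp hP).2, rfl⟩

/-- the multiset of roots of `ψ₃` has four elements and no repetition. -/
theorem s52q_card_roots (h1 : E.a₁ = 0) (h2 : E.a₂ = 0) (h3 : E.a₃ = 0) (hΔ : E.Δ ≠ 0) :
    Multiset.card (s52q_poly E).roots = 4 ∧ (s52q_poly E).roots.Nodup := by
  have h4 := (s52q_roots h1 h2 h3 hΔ).1
  have hle : Multiset.card (s52q_poly E).roots ≤ 4 := by
    calc Multiset.card (s52q_poly E).roots ≤ (s52q_poly E).natDegree := card_roots' _
      _ = 4 := s52q_natDegree_poly E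
  have hge : 4 ≤ Multiset.card (s52q_poly E).roots := by
    rw [← h4]; exact Multiset.toFinset_card_le _
  have hc : Multiset.card (s52q_poly E).roots = 4 := le_antisymm hle hge
  refine ⟨hc, ?_⟩
  rw [← Multiset.toFinset_card_eq_card_iff_nodup, h4, hc]

end general

end Fermat.Agent.Lib.S52
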