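/-
Programme K (S52), helper9, prefix `s52q_`.  Block D2-Q, part 6: THE MAIN THEOREMS.

`W = s52q_W a b : y² = x³ + a x + b` over `ℤ`, `D = 4a³ + 27b² ≠ 0`; `R = {r ∈ ℚ̄ | q(r) = 0}`,
`q = 3x⁴ + 6ax² + 12bx − a²` (`s52q_q`), the four abscissae of the points of order 3 of `W(ℚ̄)`.

* `s52q_exists_enum`   : `R` has exactly four elements (an `s52q_Enum`);
* `s52q_roots_finite`, `s52q_roots_stable` : `R` is finite and Galois-stable;
* `s52q_noRoot`        : a Frobenius element at a good prime `ℓ₀ ≠ 3` which fixes NO element of `R` has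
                         `X² − a_ℓ₀ X + ℓ₀` without root in `ZMod 3`;
* `s52q_frob_noFix`    : conversely, if `X² − a_ℓ₁ X + ℓ₁` has no root in `ZMod 3`, a Frobenius element
                         `σ₁` at `ℓ₁` fixes no element of `R`; if moreover `3 ∤ a_ℓ₁`, neither does `σ₁²`;
* `s52q_main`          : there is `s` with `s² = −3` such that every NORMAL subgroup `N` of `G_ℚ`
                         containing an element `τ` with `τ s = −s` contains an element fixing no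
                         element of `R`.
-/
import Mathlib
import Fermat.Agent.Lib.S58.FCore
import Fermat.Agent.Lib.Frobenius.Exists
import Fermat.Agent.Lib.S52.QRoots
import Fermat.Agent.Lib.S52.QGal

set_option autoImplicit false

open scoped WeierstrassCurve.Affine

namespace Fermat.Agent.Lib.S52

open WeierstrassCurve Fermat.Agent.Lib.S58

/-- the short integral curve `y² = x³ + a x + b`. -/
def s52q_W (a b : ℤ) : WeierstrassCurve ℤ := ⟨0, 0, 0, a, b⟩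

/-- `W ⊗ ℚ̄` as an affine curve (`s58_Pt (s52q_W a b)` is its type of points). -/
noncomputable abbrev s52q_E (a b : ℤ) : Affine s52q_Qb :=
  ((s52q_W a b).map (Int.castRingHom ℚ))⁄(AlgebraicClosure ℚ)

section curve

variable (a b : ℤ)

lemma s52q_E_a₁ : (s52q_E a b).a₁ = 0 := by simp [s52q_W]
lemma s52q_E_a₂ : (s52q_E a b).a₂ = 0 := by simp [s52q_W]
lemma s52q_E_a₃ : (s52q_E a b).a₃ = 0 := by simp [s52q_W]
lemma s52q_E_a₄ : (s52q_E a b).a₄ = (a : s52q_Qb) := by simp [s52q_W]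
lemma s52q_E_a₆ : (s52q_E a b).a₆ = (b : s52q_Qb) := by simp [s52q_W]

lemma s52q_W_Δ : (s52q_W a b).Δ = -16 * (4 * a ^ 3 + 27 * b ^ 2) := by
  simp only [s52q_W, WeierstrassCurve.Δ, WeierstrassCurve.b₂, WeierstrassCurve.b₄,
    WeierstrassCurve.b₆, WeierstrassCurve.b₈]
  ring

lemma s52q_E_Δ : (s52q_E a b).Δ = -16 * (4 * (a : s52q_Qb) ^ 3 + 27 * (b : s52q_Qb) ^ 2) := by
  simp only [WeierstrassCurve.Δ, WeierstrassCurve.b₂, WeierstrassCurve.b₄,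
    WeierstrassCurve.b₆, WeierstrassCurve.b₈, s52q_E_a₁, s52q_E_a₂, s52q_E_a₃, s52q_E_a₄,
    s52q_E_a₆]
  ring

lemma s52q_E_Δ_ne (hD : 4 * a ^ 3 + 27 * b ^ 2 ≠ 0) : (s52q_E a b).Δ ≠ 0 := by
  rw [s52q_E_Δ]
  have : (4 * (a : s52q_Qb) ^ 3 + 27 * (b : s52q_Qb) ^ 2) ≠ 0 := by
    have h : ((4 * a ^ 3 + 27 * b ^ 2 : ℤ) : s52q_Qb) ≠ 0 := Int.cast_ne_zero.mpr hD
    push_cast at h
    exact h
  exact mul_ne_zero (by norm_num) this

lemma s52q_psi3_eq (x : s52q_Qb) : s52q_psi3 (s52q_E a b) x = s52q_q a b x := by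
  unfold s52q_psi3 s52q_q
  rw [s52q_E_a₄, s52q_E_a₆]

end curve

/-! ### the four roots -/

section roots

variable (a b : ℤ)

/-- the set `R` of roots of the 3-division quartic. -/
def s52q_R : Set s52q_Qb := {r | s52q_q a b r = 0}

lemma s52q_mem_R (r : s52q_Qb) : r ∈ s52q_R a b ↔ s52q_q a b r = 0 := Iff.rfl

/-- `R` is Galois-stable. -/
lemma s52q_roots_stable (σ : s52q_G) (r : s52q_Qb) (hr : r ∈ s52q_R a b) : σ r ∈ s52q_R a b := by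
  rw [s52q_mem_R] at hr ⊢
  rw [s52q_q_map, hr, map_zero]

variable {a b}

/-- **`R` has exactly four elements.** -/
theorem s52q_exists_enum (hD : 4 * a ^ 3 + 27 * b ^ 2 ≠ 0) :
    ∃ x : Fin 4 → s52q_Qb, s52q_Enum a b x := by
  have hΔ := s52q_E_Δ_ne a b hD
  have h4 := (s52q_roots (E := s52q_E a b) (s52q_E_a₁ a b) (s52q_E_a₂ a b) (s52q_E_a₃ a b) hΔ).1
  set S : Finset s52q_Qb := (s52q_poly (s52q_E a b)).roots.toFinset with hS
  have hmem : ∀ r, r ∈ S ↔ s52q_q a b r = 0 := by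
    intro r
    rw [hS, Multiset.mem_toFinset, s52q_mem_roots, s52q_psi3_eq]
  let e : S ≃ Fin 4 := Finset.equivFinOfCardEq h4
  refine ⟨fun i => (e.symm i : s52q_Qb), ?_, ?_, ?_⟩
  · intro i j hij
    exact e.symm.injective (Subtype.ext hij)
  · intro i
    exact (hmem _).mp (e.symm i).2
  · intro r hr
    exact ⟨e ⟨r, (hmem r).mpr hr⟩, by simp⟩

/-- `R` is finite. -/
theorem s52q_roots_finite (hD : 4 * a ^ 3 + 27 * b ^ 2 ≠ 0) : (s52q_R a b).Finite := by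
  obtain ⟨x, hx⟩ := s52q_exists_enum hD
  refine (Set.finite_range x).subset ?_
  intro r hr
  obtain ⟨i, hi⟩ := hx.surj r hr
  exact ⟨i, hi⟩

/-- every root is the abscissa of a non-zero point of order `3`. -/
theorem s52q_exists_point (hD : 4 * a ^ 3 + 27 * b ^ 2 ≠ 0) (r : s52q_Qb) (hr : s52q_q a b r = 0) :
    ∃ P : s58_Pt (s52q_W a b), (3 : ℕ) • P = 0 ∧ P ≠ 0 ∧ s52q_absc (s52q_E a b) P = r := by
  have hΔ := s52q_E_Δ_ne a b hD
  exact (s52q_roots (E := s52q_E a b) (s52q_E_a₁ a b) (s52q_E_a₂ a b) (s52q_E_a₃ a b) hΔ).2 r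
    (by rw [s52q_psi3_eq]; exact hr)

/-- the abscissa of a non-zero point of order `3` is a root. -/
theorem s52q_absc_root (P : s58_Pt (s52q_W a b)) (h3 : (3 : ℕ) • P = 0) (h0 : P ≠ 0) :
    s52q_q a b (s52q_absc (s52q_E a b) P) = 0 := by
  rcases P with _ | ⟨x, y, hxy⟩
  · exact absurd rfl h0
  · rw [← s52q_psi3_eq]
    exact s52q_psi3_of_three_nsmul (s52q_E_a₁ a b) (s52q_E_a₂ a b) (s52q_E_a₃ a b) hxy h3

/-- there is a non-zero point of order `3`. -/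
theorem s52q_exists_point' (hD : 4 * a ^ 3 + 27 * b ^ 2 ≠ 0) :
    ∃ P : s58_Pt (s52q_W a b), (3 : ℕ) • P = 0 ∧ P ≠ 0 := by
  obtain ⟨x, hx⟩ := s52q_exists_enum hD
  obtain ⟨P, h1, h2, -⟩ := s52q_exists_point hD (x 0) (hx.root 0)
  exact ⟨P, h1, h2⟩

end roots

/-! ### the Galois action on abscissae -/

section action

variable {a b : ℤ}

lemma s52q_absc_smul (σ : s52q_G) (P : s58_Pt (s52q_W a b)) :
    s52q_absc (s52q_E a b) (σ • P) = σ (s52q_absc (s52q_E a b) P) := by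
  rcases P with _ | ⟨x, y, hxy⟩
  · exact (map_zero σ).symm
  · rfl

lemma s52q_smul_ne_zero (σ : s52q_G) {P : s58_Pt (s52q_W a b)} (h0 : P ≠ 0) : σ • P ≠ 0 := by
  intro h
  apply h0
  have h1 : σ⁻¹ • (σ • P) = σ⁻¹ • (0 : s58_Pt (s52q_W a b)) := congrArg (fun Q => σ⁻¹ • Q) h
  rw [smul_smul, inv_mul_cancel, one_smul] at h1
  rw [h1]
  exact smul_zero (A := s58_Pt (s52q_W a b)) σ⁻¹

lemma s52q_smul_tors (σ : s52q_G) {P : s58_Pt (s52q_W a b)} (h3 : (3 : ℕ) • P = 0) :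
    (3 : ℕ) • (σ • P) = 0 := by
  have h := WeierstrassCurve.Affine.Point.algEquiv_smul_zsmul σ (3 : ℤ) P
  have e : ((3 : ℤ) • P) = (3 : ℕ) • P := by
    rw [← natCast_zsmul]; rfl
  have e' : ((3 : ℤ) • (σ • P)) = (3 : ℕ) • (σ • P) := by
    rw [← natCast_zsmul]; rfl
  rw [e, e', h3] at h
  rw [← h]
  exact smul_zero (A := s58_Pt (s52q_W a b)) σ

end action

/-! ### arithmetic in a group killed by `3` -/

section generic

variable {M : Type*} [AddCommGroup M]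

lemma s52q_zsmul_of_dvd {P : M} (h3 : (3 : ℕ) • P = 0) {d e : ℤ} (h : (3 : ℤ) ∣ d - e) :
    d • P = e • P := by
  obtain ⟨k, hk⟩ := h
  have hd : d = e + k * 3 := by linarith
  have h3' : (3 : ℤ) • P = 0 := by
    rw [← h3, ← natCast_zsmul]; rfl
  rw [hd, add_zsmul, mul_zsmul, h3', zsmul_zero, add_zero]

lemma s52q_dvd_of_zsmul {P : M} (h3 : (3 : ℕ) • P = 0) (h0 : P ≠ 0) {d : ℤ} (hd : d • P = 0) :
    (3 : ℤ) ∣ d := by
  by_contra hnd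
  apply h0
  have hcases : (3 : ℤ) ∣ d - 1 ∨ (3 : ℤ) ∣ d - 2 := by omega
  rcases hcases with h | h
  · have := s52q_zsmul_of_dvd h3 h
    rw [hd, one_zsmul] at this
    exact this.symm
  · have h2 := s52q_zsmul_of_dvd h3 h
    rw [hd] at h2
    have h3' : (3 : ℤ) • P = 0 := by
      rw [← h3, ← natCast_zsmul]; rfl
    have : (3 : ℤ) • P - (2 : ℤ) • P = P := by module
    rw [← this, h3', ← h2, sub_zero]

lemma s52q_pm_of_not_dvd {P : M} (h3 : (3 : ℕ) • P = 0) {d : ℤ} (hd : ¬ (3 : ℤ) ∣ d) :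
    d • P = P ∨ d • P = -P := by
  have hcases : (3 : ℤ) ∣ d - 1 ∨ (3 : ℤ) ∣ d - (-1) := by omega
  rcases hcases with h | h
  · left
    rw [s52q_zsmul_of_dvd h3 h, one_zsmul]
  · right
    rw [s52q_zsmul_of_dvd h3 h, neg_one_zsmul]

lemma s52q_quad_zsmul (P : M) (c t : ℤ) (ℓ : ℕ) (h : c • c • P - t • c • P + ℓ • P = 0) :
    (c ^ 2 - t * c + ℓ) • P = 0 := by
  rw [← h]
  module

/-- the second eigenvector: if `Y − t X + ℓ P = 0` (`X = σP`, `Y = σ²P`) and `c² − tc + ℓ ≡ 0`, then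
`Y − cX = (t − c)(X − cP)`. -/
lemma s52q_second {P X Y : M} (h3 : (3 : ℕ) • P = 0) (c t : ℤ) (ℓ : ℕ)
    (h : Y - t • X + ℓ • P = 0) (hc : (3 : ℤ) ∣ c ^ 2 - t * c + ℓ) :
    Y - c • X = (t - c) • (X - c • P) := by
  have h1 : (ℓ : ℤ) • P = ((t - c) * c) • P :=
    s52q_zsmul_of_dvd h3 (by
      have : (ℓ : ℤ) - (t - c) * c = c ^ 2 - t * c + ℓ := by ring
      rw [this]; exact hc)
  have hY : Y = t • X - (ℓ : ℤ) • P := by
    rw [← sub_eq_zero, ← h]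
    module
  rw [hY, h1]
  module

lemma s52q_tors_zsmul {P : M} (h3 : (3 : ℕ) • P = 0) (d : ℤ) : (3 : ℕ) • (d • P) = 0 := by
  have : (3 : ℕ) • (d • P) = d • ((3 : ℕ) • P) := by module
  rw [this, h3, smul_zero]

lemma s52q_tors_sub {P Q : M} (hP : (3 : ℕ) • P = 0) (hQ : (3 : ℕ) • Q = 0) :
    (3 : ℕ) • (P - Q) = 0 := by
  rw [nsmul_sub, hP, hQ, sub_zero]

/-- if `σ²P = eP` and `3 ∤ t`, then `σP = t(e + ℓ)P` (`X = σP`). -/
lemma s52q_third {P X : M} (hX : (3 : ℕ) • X = 0) (e t : ℤ) (ℓ : ℕ) (ht : (3 : ℤ) ∣ t * t - 1)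
    (h : e • P - t • X + ℓ • P = 0) : X = (t * (e + ℓ)) • P := by
  have h2 : t • X = (e + ℓ) • P := by
    rw [← sub_eq_zero, ← neg_eq_zero, ← h]
    module
  have h1 : (t * t) • X = X := by
    rw [s52q_zsmul_of_dvd hX ht, one_zsmul]
  calc X = (t * t) • X := h1.symm
    _ = t • (t • X) := by module
    _ = t • ((e + ℓ) • P) := by rw [h2]
    _ = (t * (e + ℓ)) • P := by module

end generic

/-! ### eigenvectors of Frobenius on `W[3]` -/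

theorem s52q_ellFrob : s58_EllFrob := s58o_ellFrob_of_core s58f_frobCore

section frob

variable (W : WeierstrassCurve ℤ) (ℓ : ℕ) (hℓ : ℓ.Prime) (hℓ3 : ℓ ≠ 3) (hg : ¬ (ℓ : ℤ) ∣ W.Δ)
  (A : ValuationSubring s52q_Qb) (hA : A.LiesOverPrime ℓ) (σ : s52q_G) (hσ : A.IsFrobeniusAt σ ℓ)

include hℓ hℓ3 hg hA hσ

/-- the quadratic relation on `W[3]`. -/
lemma s52q_frob_rel (P : s58_Pt W) (h3 : (3 : ℕ) • P = 0) :
    σ • σ • P - W.apOfModel ℓ • σ • P + ℓ • P = 0 :=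
  s52q_ellFrob W ℓ hℓ hg 3 Nat.prime_three (by norm_num) (Ne.symm hℓ3) 1 A hA σ hσ P
    (by rw [pow_one]; exact h3)

/-- **eigenvalues of Frobenius on `W[3]` are roots of `X² − a_ℓ X + ℓ` mod `3`.** -/
theorem s52q_eigen (P : s58_Pt W) (h3 : (3 : ℕ) • P = 0) (h0 : P ≠ 0) (c : ℤ)
    (hc : σ • P = c • P) : (3 : ℤ) ∣ c ^ 2 - W.apOfModel ℓ * c + ℓ := by
  have h := s52q_frob_rel W ℓ hℓ hℓ3 hg A hA σ hσ P h3
  rw [hc, WeierstrassCurve.Affine.Point.algEquiv_smul_zsmul, hc] at h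
  exact s52q_dvd_of_zsmul h3 h0 (s52q_quad_zsmul P c (W.apOfModel ℓ) ℓ h)

theorem s52q_eigen_zmod (P : s58_Pt W) (h3 : (3 : ℕ) • P = 0) (h0 : P ≠ 0) (c : ℤ)
    (hc : σ • P = c • P) :
    ((c : ℤ) : ZMod 3) ^ 2 - (W.apOfModel ℓ : ZMod 3) * ((c : ℤ) : ZMod 3) + (ℓ : ZMod 3) = 0 := by
  have h := s52q_eigen W ℓ hℓ hℓ3 hg A hA σ hσ P h3 h0 c hc
  have h' := (ZMod.intCast_zmod_eq_zero_iff_dvd _ 3).mpr h
  push_cast at h'
  exact h'

end frob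

/-! ### Frobenius elements and the four roots -/

section four

variable {a b : ℤ} (hD : 4 * a ^ 3 + 27 * b ^ 2 ≠ 0)

/-- if `σP = dP` with `3 ∤ d` on a non-zero point of order `3`, then `σ` fixes its abscissa. -/
lemma s52q_fix_of_eigen (σ : s52q_G) (Q : s58_Pt (s52q_W a b)) (h3 : (3 : ℕ) • Q = 0) (d : ℤ)
    (hd : ¬ (3 : ℤ) ∣ d) (hQ : σ • Q = d • Q) :
    σ (s52q_absc (s52q_E a b) Q) = s52q_absc (s52q_E a b) Q := by
  rw [← s52q_absc_smul, hQ]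
  rcases s52q_pm_of_not_dvd h3 hd with e | e
  · rw [e]
  · rw [e, s52q_absc_neg]

lemma s52q_not_three_dvd (ℓ : ℕ) (hℓ : ℓ.Prime) (hℓ3 : ℓ ≠ 3) : ¬ (3 : ℤ) ∣ (ℓ : ℤ) := by
  intro h
  have h' : (3 : ℕ) ∣ ℓ := by exact_mod_cast h
  exact hℓ3 ((Nat.prime_dvd_prime_iff_eq Nat.prime_three hℓ).mp h').symm

include hD

/-- **[NO-ROOT]** a Frobenius element at a good prime `ℓ₀ ≠ 3` fixing none of the four roots: then
`X² − a_ℓ₀ X + ℓ₀` has no root in `ZMod 3`. -/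
theorem s52q_noRoot (ℓ₀ : ℕ) (hℓ : ℓ₀.Prime) (hℓ3 : ℓ₀ ≠ 3) (hg : ¬ (ℓ₀ : ℤ) ∣ (s52q_W a b).Δ)
    (A : ValuationSubring s52q_Qb) (hA : A.LiesOverPrime ℓ₀) (φ : s52q_G)
    (hφ : A.IsFrobeniusAt φ ℓ₀) (hno : ∀ r, s52q_q a b r = 0 → φ r ≠ r) :
    ∀ c : ZMod 3, c ^ 2 - ((s52q_W a b).apOfModel ℓ₀ : ZMod 3) * c + (ℓ₀ : ZMod 3) ≠ 0 := by
  intro c hc
  obtain ⟨c', rfl⟩ := ZMod.intCast_surjective c
  set t : ℤ := (s52q_W a b).apOfModel ℓ₀ with ht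
  have h3c : (3 : ℤ) ∣ c' ^ 2 - t * c' + ℓ₀ :=
    (ZMod.intCast_zmod_eq_zero_iff_dvd (c' ^ 2 - t * c' + ℓ₀) 3).mp (by push_cast; exact hc)
  have hℓ' := s52q_not_three_dvd ℓ₀ hℓ hℓ3
  have hc3 : ¬ (3 : ℤ) ∣ c' := by
    intro h
    apply hℓ'
    have h1 : (3 : ℤ) ∣ c' * (c' - t) := Dvd.dvd.mul_right h _
    have h2 : (ℓ₀ : ℤ) = (c' ^ 2 - t * c' + ℓ₀) - c' * (c' - t) := by ring
    rw [h2]
    exact dvd_sub h3c h1
  have hc3' : ¬ (3 : ℤ) ∣ t - c' := by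
    intro h
    apply hℓ'
    have h1 : (3 : ℤ) ∣ (t - c') * c' := Dvd.dvd.mul_right h _
    have h2 : (ℓ₀ : ℤ) = (c' ^ 2 - t * c' + ℓ₀) + (t - c') * c' := by ring
    rw [h2]
    exact dvd_add h3c h1
  -- a fixed abscissa is impossible
  have key : ∀ Q : s58_Pt (s52q_W a b), (3 : ℕ) • Q = 0 → Q ≠ 0 → ∀ d : ℤ, ¬ (3 : ℤ) ∣ d →
      φ • Q = d • Q → False := by
    intro Q h3 h0 d hd hQ
    exact hno _ (s52q_absc_root Q h3 h0) (s52q_fix_of_eigen φ Q h3 d hd hQ)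
  obtain ⟨P, hP3, hP0⟩ := s52q_exists_point' hD
  by_cases hQ : φ • P - c' • P = 0
  · exact key P hP3 hP0 c' hc3 (sub_eq_zero.mp hQ)
  · have hφP3 : (3 : ℕ) • (φ • P) = 0 := s52q_smul_tors φ hP3
    have hQ3 : (3 : ℕ) • (φ • P - c' • P) = 0 :=
      s52q_tors_sub hφP3 (s52q_tors_zsmul hP3 c')
    have hrel := s52q_frob_rel (s52q_W a b) ℓ₀ hℓ hℓ3 hg A hA φ hφ P hP3
    have h2 := s52q_second hP3 c' t ℓ₀ hrel h3c
    refine key _ hQ3 hQ (t - c') hc3' ?_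
    rw [← h2, smul_sub, WeierstrassCurve.Affine.Point.algEquiv_smul_zsmul]

/-- **[FROB-NOFIX]** if `X² − a_ℓ₁ X + ℓ₁` has no root in `ZMod 3`, a Frobenius element `σ₁` at `ℓ₁`
fixes none of the four roots; if moreover `3 ∤ a_ℓ₁`, neither does `σ₁²`. -/
theorem s52q_frob_noFix (ℓ₁ : ℕ) (hℓ : ℓ₁.Prime) (hℓ3 : ℓ₁ ≠ 3)
    (hg : ¬ (ℓ₁ : ℤ) ∣ (s52q_W a b).Δ)
    (hirr : ∀ c : ZMod 3, c ^ 2 - ((s52q_W a b).apOfModel ℓ₁ : ZMod 3) * c + (ℓ₁ : ZMod 3) ≠ 0)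
    (A : ValuationSubring s52q_Qb) (hA : A.LiesOverPrime ℓ₁) (σ : s52q_G)
    (hσ : A.IsFrobeniusAt σ ℓ₁) :
    (∀ r, s52q_q a b r = 0 → σ r ≠ r) ∧
      (((s52q_W a b).apOfModel ℓ₁ : ZMod 3) ≠ 0 → ∀ r, s52q_q a b r = 0 → (σ * σ) r ≠ r) := by
  set t : ℤ := (s52q_W a b).apOfModel ℓ₁ with ht
  -- no eigenvector at all
  have key : ∀ P : s58_Pt (s52q_W a b), (3 : ℕ) • P = 0 → P ≠ 0 → ∀ c : ℤ, σ • P = c • P →
      False := by
    intro P h3 h0 c hc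
    exact hirr _ (s52q_eigen_zmod (s52q_W a b) ℓ₁ hℓ hℓ3 hg A hA σ hσ P h3 h0 c hc)
  constructor
  · intro r hr hfix
    obtain ⟨P, h3, h0, rfl⟩ := s52q_exists_point hD r hr
    have habs : s52q_absc (s52q_E a b) (σ • P) = s52q_absc (s52q_E a b) P := by
      rw [s52q_absc_smul, hfix]
    rcases s52q_eq_or_eq_neg_of_absc_eq h0 (s52q_smul_ne_zero σ h0) habs with e | e
    · exact key P h3 h0 1 (by rw [e, one_zsmul])
    · exact key P h3 h0 (-1) (by rw [e, neg_one_zsmul])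
  · intro ha r hr hfix
    obtain ⟨P, h3, h0, rfl⟩ := s52q_exists_point hD r hr
    have hσP3 : (3 : ℕ) • (σ • P) = 0 := s52q_smul_tors σ h3
    have habs : s52q_absc (s52q_E a b) (σ • σ • P) = s52q_absc (s52q_E a b) P := by
      rw [s52q_absc_smul, s52q_absc_smul]
      exact hfix
    have h0' : σ • σ • P ≠ 0 := s52q_smul_ne_zero σ (s52q_smul_ne_zero σ h0)
    have hrel := s52q_frob_rel (s52q_W a b) ℓ₁ hℓ hℓ3 hg A hA σ hσ P h3
    have ht3 : ¬ (3 : ℤ) ∣ t := by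
      intro h
      exact ha ((ZMod.intCast_zmod_eq_zero_iff_dvd _ 3).mpr h)
    have ht2 : (3 : ℤ) ∣ t * t - 1 := by
      have : ∃ k, t = 3 * k + 1 ∨ t = 3 * k + 2 := ⟨t / 3, by omega⟩
      obtain ⟨k, hk | hk⟩ := this
      · exact ⟨3 * k ^ 2 + 2 * k, by rw [hk]; ring⟩
      · exact ⟨3 * k ^ 2 + 4 * k + 1, by rw [hk]; ring⟩
    -- `σ²P = eP` with `e = ±1`
    have main : ∀ e : ℤ, σ • σ • P = e • P → False := by
      intro e he
      rw [he] at hrel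
      exact key P h3 h0 (t * (e + ℓ₁)) (s52q_third hσP3 e t ℓ₁ ht2 hrel)
    rcases s52q_eq_or_eq_neg_of_absc_eq h0 h0' habs with e | e
    · exact main 1 (by rw [e, one_zsmul])
    · exact main (-1) (by rw [e, neg_one_zsmul])

end four

/-! ### `√−3` and the main theorem -/

section main

variable {a b : ℤ}

/-- `s = 9δ / (16 (4a³+27b²))`, a square root of `−3` built from the four roots. -/
noncomputable def s52q_s (a b : ℤ) (x : Fin 4 → s52q_Qb) : s52q_Qb :=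
  9 * s52q_delta x / (16 * (4 * (a : s52q_Qb) ^ 3 + 27 * (b : s52q_Qb) ^ 2))

lemma s52q_D_ne (hD : 4 * a ^ 3 + 27 * b ^ 2 ≠ 0) :
    (4 * (a : s52q_Qb) ^ 3 + 27 * (b : s52q_Qb) ^ 2) ≠ 0 := by
  have h : ((4 * a ^ 3 + 27 * b ^ 2 : ℤ) : s52q_Qb) ≠ 0 := Int.cast_ne_zero.mpr hD
  push_cast at h
  exact h

theorem s52q_s_sq (hD : 4 * a ^ 3 + 27 * b ^ 2 ≠ 0) {x : Fin 4 → s52q_Qb}
    (hx : s52q_Enum a b x) : s52q_s a b x ^ 2 = -3 := by
  have hδ := s52q_delta_sq hx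
  have hD' := s52q_D_ne hD
  unfold s52q_s
  rw [div_pow, div_eq_iff (pow_ne_zero 2 (mul_ne_zero (by norm_num) hD'))]
  linear_combination 3 * hδ

theorem s52q_s_map {x : Fin 4 → s52q_Qb} (hx : s52q_Enum a b x) (τ : s52q_G) :
    τ (s52q_s a b x) = ((Equiv.Perm.sign (s52q_perm hx τ) : ℤˣ) : ℤ) * s52q_s a b x := by
  unfold s52q_s
  rw [map_div₀, map_mul, s52q_sign hx τ]
  simp only [map_mul, map_add, map_pow, map_ofNat, map_intCast]
  ring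

/-- **[MAIN]** there is a square root `s` of `−3` such that every normal subgroup of `G_ℚ`
containing an element which moves `s` contains an element fixing none of the four roots. -/
theorem s52q_main (hD : 4 * a ^ 3 + 27 * b ^ 2 ≠ 0) (ℓ₁ : ℕ) (hℓ : ℓ₁.Prime) (hℓ3 : ℓ₁ ≠ 3)
    (hg : ¬ (ℓ₁ : ℤ) ∣ (s52q_W a b).Δ)
    (hirr : ∀ c : ZMod 3, c ^ 2 - ((s52q_W a b).apOfModel ℓ₁ : ZMod 3) * c + (ℓ₁ : ZMod 3) ≠ 0)
    (ha : ((s52q_W a b).apOfModel ℓ₁ : ZMod 3) ≠ 0) :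
    ∃ s : s52q_Qb, s ^ 2 = -3 ∧ ∀ N : Subgroup s52q_G, N.Normal → ∀ τ ∈ N, τ s = -s →
      ∃ τ' ∈ N, ∀ r, s52q_q a b r = 0 → τ' r ≠ r := by
  obtain ⟨x, hx⟩ := s52q_exists_enum hD
  obtain ⟨A, σ₁, hA, hσ₁⟩ := Fermat.Agent.Lib.Frobenius.exists_isFrobeniusAt ℓ₁ hℓ
  obtain ⟨hf1, hf2⟩ := s52q_frob_noFix hD ℓ₁ hℓ hℓ3 hg hirr A hA σ₁ hσ₁
  have hs2 := s52q_s_sq hD hx
  refine ⟨s52q_s a b x, hs2, fun N hN τ hτN hτs => ?_⟩
  have hs0 : s52q_s a b x ≠ 0 := by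
    intro h0
    rw [h0] at hs2
    norm_num at hs2
  have hsign : Equiv.Perm.sign (s52q_perm hx τ) = -1 := by
    rcases Int.units_eq_one_or (Equiv.Perm.sign (s52q_perm hx τ)) with h | h
    · exfalso
      have h1 := s52q_s_map hx τ
      rw [h, hτs] at h1
      apply hs0
      have : (2 : s52q_Qb) * s52q_s a b x = 0 := by
        push_cast at h1
        linear_combination -h1
      rcases mul_eq_zero.mp this with h2 | h2
      · exact absurd h2 (by norm_num)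
      · exact h2
    · exact h
  have hc : ∀ i, s52q_perm hx σ₁ i ≠ i := (s52q_noFix_iff hx σ₁).mp hf1
  have hcc : ∀ i, (s52q_perm hx σ₁ * s52q_perm hx σ₁) i ≠ i := by
    rw [← s52q_perm_mul]
    exact (s52q_noFix_iff hx (σ₁ * σ₁)).mp (hf2 ha)
  rcases s52q_perm_main (s52q_perm hx σ₁) (s52q_perm hx τ) hc hcc hsign with h | h | h
  · exact ⟨τ, hτN, (s52q_noFix_iff hx τ).mpr h⟩
  · refine ⟨τ * (σ₁ * τ * σ₁⁻¹), N.mul_mem hτN (hN.conj_mem τ hτN σ₁), ?_⟩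
    rw [s52q_noFix_iff hx]
    simpa only [s52q_perm_mul, s52q_perm_inv] using h
  · refine ⟨τ * ((σ₁ * σ₁) * τ * (σ₁ * σ₁)⁻¹), N.mul_mem hτN (hN.conj_mem τ hτN (σ₁ * σ₁)), ?_⟩
    rw [s52q_noFix_iff hx]
    simpa only [s52q_perm_mul, s52q_perm_inv] using h

end main

end Fermat.Agent.Lib.S52
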