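/-
Programme K (S52), helper9, prefix `s52q_`.  Block D2-Q, part 7: NUMERALS for the auxiliary curve
`11a1 = 𝓔_{(1,1)}` in its short model `y² = x³ − 27·496 x − 54·20008`
(`= s52_sh 496 20008` of the interface file; `c₄ = 496`, `c₆ = 20008`, `Δ = −6¹²·11⁵`).

* `s52q_a11`, `s52q_b11`   : the coefficients `−27·496`, `−54·20008`;
* `s52q_num_D`             : `4a³ + 27b² ≠ 0`;
* `s52q_num_good5`         : `5 ∤ Δ`;
* `s52q_num_ap5`           : `a₅ = 1` (four affine points over `𝔽₅`);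
* `s52q_main11`            : `s52q_main` for this curve (`ℓ₁ = 5`: `X² − X + 5` has no root mod `3`,
                             `a₅ ≢ 0 mod 3`);
* `s52q_noRoot11`          : `s52q_noRoot` for this curve;
* `s52q_R11_finite`, `s52q_R11_stable` : the root set is finite and Galois-stable.
-/
import Mathlib
import Fermat.Agent.Lib.S52.PCount
import Fermat.Agent.Lib.S52.QMain

set_option autoImplicit false

namespace Fermat.Agent.Lib.S52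

open WeierstrassCurve

/-- `a = −27·496 = 27·H(1,1)`. -/
abbrev s52q_a11 : ℤ := -27 * 496

/-- `b = −54·20008 = 54·T(1,1)`. -/
abbrev s52q_b11 : ℤ := -54 * 20008

lemma s52q_W_eq (a b : ℤ) : s52q_W a b = ⟨0, 0, 0, a, b⟩ := rfl

theorem s52q_num_D : 4 * s52q_a11 ^ 3 + 27 * s52q_b11 ^ 2 ≠ 0 := by
  norm_num [s52q_a11, s52q_b11]

theorem s52q_num_Δ : (s52q_W s52q_a11 s52q_b11).Δ = -(6 ^ 12 * 11 ^ 5) := by
  rw [s52q_W_Δ]
  norm_num [s52q_a11, s52q_b11]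

theorem s52q_num_good5 : ¬ ((5 : ℕ) : ℤ) ∣ (s52q_W s52q_a11 s52q_b11).Δ := by
  rw [s52q_num_Δ]
  norm_num

/-- a prime `ℓ ∉ {2, 3, 11}` is good for the short model of `11a1`. -/
theorem s52q_num_good (ℓ : ℕ) (hℓ : ℓ.Prime) (h2 : ℓ ≠ 2) (h3 : ℓ ≠ 3) (h11 : ℓ ≠ 11) :
    ¬ (ℓ : ℤ) ∣ (s52q_W s52q_a11 s52q_b11).Δ := by
  rw [s52q_num_Δ, dvd_neg]
  intro h
  have h' : ℓ ∣ 6 ^ 12 * 11 ^ 5 := by exact_mod_cast h
  rcases (Nat.Prime.dvd_mul hℓ).mp h' with h6 | h11'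
  · have h6' := hℓ.dvd_of_dvd_pow h6
    have : ℓ ∣ 2 * 3 := by simpa using h6'
    rcases (Nat.Prime.dvd_mul hℓ).mp this with e | e
    · exact h2 ((Nat.prime_dvd_prime_iff_eq hℓ Nat.prime_two).mp e)
    · exact h3 ((Nat.prime_dvd_prime_iff_eq hℓ Nat.prime_three).mp e)
  · have := hℓ.dvd_of_dvd_pow h11'
    exact h11 ((Nat.prime_dvd_prime_iff_eq hℓ (by norm_num)).mp this)

set_option maxRecDepth 100000 in
theorem s52q_num_ap5 : (s52q_W s52q_a11 s52q_b11).apOfModel 5 = 1 := by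
  have h := s52p_apOfModel_eq (s52q_W s52q_a11 s52q_b11) 5 ⟨0, 0, 0, 3, 3⟩
    (by unfold s52q_W; simp only [WeierstrassCurve.map]; congr 1) 4 (by decide)
  rw [h]
  norm_num

theorem s52q_num_irr5 :
    ∀ c : ZMod 3, c ^ 2 - ((s52q_W s52q_a11 s52q_b11).apOfModel 5 : ZMod 3) * c +
      ((5 : ℕ) : ZMod 3) ≠ 0 := by
  rw [s52q_num_ap5]
  decide

theorem s52q_num_ap5_ne : ((s52q_W s52q_a11 s52q_b11).apOfModel 5 : ZMod 3) ≠ 0 := by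
  rw [s52q_num_ap5]
  decide

/-- **[MAIN] for `11a1`.** -/
theorem s52q_main11 :
    ∃ s : s52q_Qb, s ^ 2 = -3 ∧ ∀ N : Subgroup s52q_G, N.Normal → ∀ τ ∈ N, τ s = -s →
      ∃ τ' ∈ N, ∀ r, s52q_q s52q_a11 s52q_b11 r = 0 → τ' r ≠ r :=
  s52q_main s52q_num_D 5 (by norm_num) (by norm_num) s52q_num_good5 s52q_num_irr5
    s52q_num_ap5_ne

/-- **[NO-ROOT] for `11a1`**: a Frobenius element at `ℓ₀ ∉ {2, 3, 11}` fixing none of the four roots has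
`X² − a_ℓ₀ X + ℓ₀` without root mod `3`. -/
theorem s52q_noRoot11 (ℓ₀ : ℕ) (hℓ : ℓ₀.Prime) (h2 : ℓ₀ ≠ 2) (h3 : ℓ₀ ≠ 3) (h11 : ℓ₀ ≠ 11)
    (A : ValuationSubring s52q_Qb) (hA : A.LiesOverPrime ℓ₀) (φ : s52q_G)
    (hφ : A.IsFrobeniusAt φ ℓ₀)
    (hno : ∀ r ∈ s52q_R s52q_a11 s52q_b11, φ r ≠ r) :
    ∀ c : ZMod 3, c ^ 2 - ((s52q_W s52q_a11 s52q_b11).apOfModel ℓ₀ : ZMod 3) * c +
      (ℓ₀ : ZMod 3) ≠ 0 :=
  s52q_noRoot s52q_num_D ℓ₀ hℓ h3 (s52q_num_good ℓ₀ hℓ h2 h3 h11) A hA φ hφ hno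

theorem s52q_R11_finite : (s52q_R s52q_a11 s52q_b11).Finite := s52q_roots_finite s52q_num_D

theorem s52q_R11_stable (σ : s52q_G) (r : s52q_Qb) (hr : r ∈ s52q_R s52q_a11 s52q_b11) :
    σ r ∈ s52q_R s52q_a11 s52q_b11 := s52q_roots_stable _ _ σ r hr

end Fermat.Agent.Lib.S52
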