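/-
Programme K (S52), helper9, prefix `s52q_`.  KLEIN PACKAGE, part 1: THE EXPLICIT 5-TORSION POINTS OF
`𝓔_w : y² = x³ + 27 H(w) x + 54 T(w)` AS FORMS, AND THE POLYNOMIAL IDENTITIES BETWEEN THEM.
(GENERATED FILE: the cofactors of `z⁴+z³+z²+z+1` were computed by exact arithmetic, script `mkid.py`.)

`w = (u, v)`, `U = u⁵`, `V = v⁵`, `z` a root of `Φ₅`, `r5 = √5`, `ca = z − z⁴`, `cb = z² − z³`.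

* `P₁ = (X1, Y1)`            : integer forms of degree 10, 15 (the rational `ℤ/5`-part);
* `P₂ = (X2n/5, Y2n/5)`      : forms in `U, V` over `ℤ[z]` (the `T₅`-fixed part, "`μ₅`");
* on-curve identities, doubling (`2P₁ = P₁∘J`, `J(u,v) = (v,−u)`; `2P₂[z] = P₂[z²]`, `P₂[z⁴] = −P₂[z]`),
* `P₂ ∘ S = P₁` (`s52q_I6x/y`), `P₁ ∘ T₅ = P₁ − P₂` (`s52q_I7x/y`),
* independence: `(5 X1 − X2n) ∣ 180 f²`, `(5 X1∘J − X2n) ∣ 180 f²`.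
-/
import Mathlib
import Fermat.Agent.Lib.S52.MBezout

set_option autoImplicit false
set_option maxRecDepth 100000

namespace Fermat.Agent.Lib.S52

section forms

variable {R : Type*} [CommRing R]

/-- abscissa of the rational 5-torsion point `P₁` of `𝓔_w`. -/
def s52q_X1 (u v : R) : R :=
  3 * u ^ 10 - 36 * u ^ 9 * v + 72 * u ^ 8 * v ^ 2 - 108 * u ^ 7 * v ^ 3 + 180 * u ^ 6 * v ^ 4
    - 90 * u ^ 5 * v ^ 5 + 72 * u ^ 4 * v ^ 6 + 36 * u ^ 3 * v ^ 7 + 36 * u ^ 2 * v ^ 8 + 3 * v ^ 10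

/-- ordinate of `P₁`. -/
def s52q_Y1 (u v : R) : R :=
  -108 * u ^ 14 * v + 432 * u ^ 13 * v ^ 2 - 972 * u ^ 12 * v ^ 3 + 1620 * u ^ 11 * v ^ 4
    - 2700 * u ^ 10 * v ^ 5 + 3132 * u ^ 9 * v ^ 6 - 2268 * u ^ 8 * v ^ 7 + 648 * u ^ 7 * v ^ 8
    - 540 * u ^ 6 * v ^ 9 - 432 * u ^ 4 * v ^ 11 + 108 * u ^ 3 * v ^ 12 - 108 * u ^ 2 * v ^ 13

/-- `√5 = z + z⁴ − z² − z³` (reduced mod `Φ₅`). -/
def s52q_r5 (z : R) : R := -1 - 2 * z ^ 2 - 2 * z ^ 3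

/-- `z − z⁴` (reduced mod `Φ₅`). -/
def s52q_ca (z : R) : R := 1 + 2 * z + z ^ 2 + z ^ 3

/-- `z² − z³`. -/
def s52q_cb (z : R) : R := z ^ 2 - z ^ 3

def s52q_Gc (U V : R) : R := 2 * U ^ 3 + 23 * U ^ 2 * V + 9 * U * V ^ 2 - V ^ 3

/-- `5 ·` abscissa of `P₂` (in `U = u⁵`, `V = v⁵`). -/
def s52q_X2n (z U V : R) : R :=
  -75 * (U ^ 2 + V ^ 2) - 18 * s52q_r5 z * (U ^ 2 + 11 * U * V - V ^ 2)

/-- `5 ·` ordinate of `P₂`. -/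
def s52q_Y2n (z U V : R) : R :=
  -108 * (s52q_ca z * s52q_Gc U V + s52q_cb z * s52q_Gc V (-U))

/-- `H` in terms of `U = u⁵`, `V = v⁵`. -/
def s52q_Hh (U V : R) : R :=
  -(U ^ 4 + V ^ 4) + 228 * (U ^ 3 * V - U * V ^ 3) - 494 * U ^ 2 * V ^ 2

/-- `T` in terms of `U = u⁵`, `V = v⁵`. -/
def s52q_Th (U V : R) : R :=
  (U ^ 6 + V ^ 6) + 522 * (U ^ 5 * V - U * V ^ 5) - 10005 * (U ^ 4 * V ^ 2 + U ^ 2 * V ^ 4)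

/-- `X1 (z³u) (z²v)` with the exponents of `z` reduced mod 5. -/
def s52q_X1T (z u v : R) : R :=
  3 * u ^ 10 - 36 * u ^ 9 * v * z ^ 4 + 72 * u ^ 8 * v ^ 2 * z ^ 3 - 108 * u ^ 7 * v ^ 3 * z ^ 2 + 180 * u ^ 6 * v ^ 4 * z
    - 90 * u ^ 5 * v ^ 5 + 72 * u ^ 4 * v ^ 6 * z ^ 4 + 36 * u ^ 3 * v ^ 7 * z ^ 3 + 36 * u ^ 2 * v ^ 8 * z ^ 2
    + 3 * v ^ 10

/-- `Y1 (z³u) (z²v)` with the exponents of `z` reduced mod 5. -/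
def s52q_Y1T (z u v : R) : R :=
  -108 * u ^ 14 * v * z ^ 4 + 432 * u ^ 13 * v ^ 2 * z ^ 3 - 972 * u ^ 12 * v ^ 3 * z ^ 2 + 1620 * u ^ 11 * v ^ 4 * z
    - 2700 * u ^ 10 * v ^ 5 + 3132 * u ^ 9 * v ^ 6 * z ^ 4 - 2268 * u ^ 8 * v ^ 7 * z ^ 3 + 648 * u ^ 7 * v ^ 8 * z ^ 2
    - 540 * u ^ 6 * v ^ 9 * z - 432 * u ^ 4 * v ^ 11 * z ^ 4 + 108 * u ^ 3 * v ^ 12 * z ^ 3 - 108 * u ^ 2 * v ^ 13 * z ^ 2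

/-- `(−ca·u + cb·v)⁵` reduced mod `Φ₅`. -/
def s52q_Up (z u v : R) : R :=
  -10 * u ^ 5 - 20 * u ^ 5 * z - 15 * u ^ 5 * z ^ 2 - 5 * u ^ 5 * z ^ 3 + 25 * u ^ 4 * v + 50 * u ^ 4 * v * z
    + 50 * u ^ 4 * v * z ^ 2 - 50 * u ^ 3 * v ^ 2 - 100 * u ^ 3 * v ^ 2 * z - 50 * u ^ 3 * v ^ 2 * z ^ 2
    - 50 * u ^ 3 * v ^ 2 * z ^ 3 + 50 * u ^ 2 * v ^ 3 * z ^ 2 - 50 * u ^ 2 * v ^ 3 * z ^ 3 - 25 * u * v ^ 4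
    - 50 * u * v ^ 4 * z - 50 * u * v ^ 4 * z ^ 3 - 5 * v ^ 5 - 10 * v ^ 5 * z + 5 * v ^ 5 * z ^ 2
    - 15 * v ^ 5 * z ^ 3

/-- `(cb·u + ca·v)⁵` reduced mod `Φ₅`. -/
def s52q_Vp (z u v : R) : R :=
  -5 * u ^ 5 - 10 * u ^ 5 * z + 5 * u ^ 5 * z ^ 2 - 15 * u ^ 5 * z ^ 3 + 25 * u ^ 4 * v + 50 * u ^ 4 * v * z
    + 50 * u ^ 4 * v * z ^ 3 + 50 * u ^ 3 * v ^ 2 * z ^ 2 - 50 * u ^ 3 * v ^ 2 * z ^ 3 + 50 * u ^ 2 * v ^ 3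
    + 100 * u ^ 2 * v ^ 3 * z + 50 * u ^ 2 * v ^ 3 * z ^ 2 + 50 * u ^ 2 * v ^ 3 * z ^ 3 + 25 * u * v ^ 4
    + 50 * u * v ^ 4 * z + 50 * u * v ^ 4 * z ^ 2 + 10 * v ^ 5 + 20 * v ^ 5 * z + 15 * v ^ 5 * z ^ 2
    + 5 * v ^ 5 * z ^ 3

theorem s52q_kH_eq (u v : R) : s52m_kH u v = s52q_Hh (u ^ 5) (v ^ 5) := by
  unfold s52m_kH s52q_Hh; ring

theorem s52q_kT_eq (u v : R) : s52m_kT u v = s52q_Th (u ^ 5) (v ^ 5) := by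
  unfold s52m_kT s52q_Th; ring

/-! ### `P₁` (integer identities) -/

theorem s52q_P1_on (u v : R) :
    s52q_Y1 u v ^ 2 = s52q_X1 u v ^ 3 + 27 * s52m_kH u v * s52q_X1 u v + 54 * s52m_kT u v := by
  unfold s52q_Y1 s52q_X1 s52m_kH s52m_kT
  ring

theorem s52q_P1_dbl_x (u v : R) :
    (3 * s52q_X1 u v ^ 2 + 27 * s52m_kH u v) ^ 2 =
      4 * s52q_Y1 u v ^ 2 * (2 * s52q_X1 u v + s52q_X1 v (-u)) := by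
  unfold s52q_Y1 s52q_X1 s52m_kH
  ring

theorem s52q_P1_dbl_y (u v : R) :
    2 * s52q_Y1 u v * s52q_Y1 v (-u) + 2 * s52q_Y1 u v ^ 2 +
      (3 * s52q_X1 u v ^ 2 + 27 * s52m_kH u v) * (s52q_X1 v (-u) - s52q_X1 u v) = 0 := by
  unfold s52q_Y1 s52q_X1 s52m_kH
  ring

theorem s52q_X1_neg (u v : R) : s52q_X1 (-u) (-v) = s52q_X1 u v := by
  unfold s52q_X1; ring

theorem s52q_Y1_neg (u v : R) : s52q_Y1 (-u) (-v) = -s52q_Y1 u v := by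
  unfold s52q_Y1; ring

/-! ### identities modulo `Φ₅(z)` -/

variable (z : R) (hz : z ^ 4 + z ^ 3 + z ^ 2 + z + 1 = 0)
include hz

theorem s52q_z5  :
    z ^ 5 = 1 := by
  linear_combination (
      -1 + z
    ) * hz

theorem s52q_phi_sq  :
    (z ^ 2) ^ 4 + (z ^ 2) ^ 3 + (z ^ 2) ^ 2 + z ^ 2 + 1 = 0 := by
  linear_combination (
      1 - z + z ^ 2 - z ^ 3 + z ^ 4
    ) * hz

theorem s52q_phi_four  :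
    (z ^ 4) ^ 4 + (z ^ 4) ^ 3 + (z ^ 4) ^ 2 + z ^ 4 + 1 = 0 := by
  linear_combination (
      1 - z + z ^ 4 - z ^ 6 + z ^ 8 - z ^ 11 + z ^ 12
    ) * hz

theorem s52q_r5_sq  :
    s52q_r5 z ^ 2 = 5 := by
  unfold s52q_r5
  linear_combination (
      -4 + 4 * z + 4 * z ^ 2
    ) * hz

theorem s52q_r5_eq  :
    s52q_r5 z = z + z ^ 4 - z ^ 2 - z ^ 3 := by
  unfold s52q_r5
  linear_combination (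
      -1
    ) * hz

theorem s52q_ca_eq  :
    s52q_ca z = z - z ^ 4 := by
  unfold s52q_ca
  linear_combination (
      1
    ) * hz

theorem s52q_P2_on (U V : R) :
    5 * s52q_Y2n z U V ^ 2 =
      s52q_X2n z U V ^ 3 + 675 * s52q_Hh U V * s52q_X2n z U V + 6750 * s52q_Th U V := by
  unfold s52q_X2n s52q_Y2n s52q_r5 s52q_ca s52q_cb s52q_Gc s52q_Hh s52q_Th
  linear_combination (
      373248 * U ^ 6 + 559872 * U ^ 6 * z + 373248 * U ^ 6 * z ^ 2 - 93312 * U ^ 6 * z ^ 4 - 46656 * U ^ 6 * z ^ 5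
        + 8817984 * U ^ 5 * V + 12643776 * U ^ 5 * V * z + 8817984 * U ^ 5 * V * z ^ 2 - 3079296 * U ^ 5 * V * z ^ 4
        - 1539648 * U ^ 5 * V * z ^ 5 + 58553280 * U ^ 4 * V ^ 2 + 73249920 * U ^ 4 * V ^ 2 * z + 58553280 * U ^ 4 * V ^ 2 * z ^ 2
        - 33592320 * U ^ 4 * V ^ 2 * z ^ 4 - 16796160 * U ^ 4 * V ^ 2 * z ^ 5 + 81414720 * U ^ 3 * V ^ 3
        + 14230080 * U ^ 3 * V ^ 3 * z + 81414720 * U ^ 3 * V ^ 3 * z ^ 2 - 118039680 * U ^ 3 * V ^ 3 * z ^ 4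
        - 59019840 * U ^ 3 * V ^ 3 * z ^ 5 + 81414720 * U ^ 2 * V ^ 4 - 73249920 * U ^ 2 * V ^ 4 * z
        + 81414720 * U ^ 2 * V ^ 4 * z ^ 2 + 33592320 * U ^ 2 * V ^ 4 * z ^ 4 + 16796160 * U ^ 2 * V ^ 4 * z ^ 5
        - 16842816 * U * V ^ 5 + 12643776 * U * V ^ 5 * z - 16842816 * U * V ^ 5 * z ^ 2 - 3079296 * U * V ^ 5 * z ^ 4
        - 1539648 * U * V ^ 5 * z ^ 5 + 793152 * V ^ 6 - 559872 * V ^ 6 * z + 793152 * V ^ 6 * z ^ 2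
        + 93312 * V ^ 6 * z ^ 4 + 46656 * V ^ 6 * z ^ 5
    ) * hz

theorem s52q_P2_dbl_x (U V : R) :
    (3 * s52q_X2n z U V ^ 2 + 675 * s52q_Hh U V) ^ 2 =
      20 * s52q_Y2n z U V ^ 2 * (2 * s52q_X2n z U V + s52q_X2n (z ^ 2) U V) := by
  unfold s52q_X2n s52q_Y2n s52q_r5 s52q_ca s52q_cb s52q_Gc s52q_Hh
  linear_combination (
      241864704 * U ^ 8 + 396389376 * U ^ 8 * z + 188116992 * U ^ 8 * z ^ 2 - 268738560 * U ^ 8 * z ^ 3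
        - 429981696 * U ^ 8 * z ^ 4 - 277136640 * U ^ 8 * z ^ 5 - 70543872 * U ^ 8 * z ^ 6 + 3359232 * U ^ 8 * z ^ 7
        + 6718464 * U ^ 8 * z ^ 8 + 4679410176 * U ^ 7 * V + 7783340544 * U ^ 7 * V * z + 2860386048 * U ^ 7 * V * z ^ 2
        - 9137111040 * U ^ 7 * V * z ^ 3 - 14342241024 * U ^ 7 * V * z ^ 4 - 9296674560 * U ^ 7 * V * z ^ 5
        - 2096160768 * U ^ 7 * V * z ^ 6 + 525719808 * U ^ 7 * V * z ^ 7 + 337602816 * U ^ 7 * V * z ^ 8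
        + 14139007488 * U ^ 6 * V ^ 2 + 26062601472 * U ^ 6 * V ^ 2 * z - 6904901376 * U ^ 6 * V ^ 2 * z ^ 2
        - 105681438720 * U ^ 6 * V ^ 2 * z ^ 3 - 160163142912 * U ^ 6 * V ^ 2 * z ^ 4 - 104816436480 * U ^ 6 * V ^ 2 * z ^ 5
        - 18012201984 * U ^ 6 * V ^ 2 * z ^ 6 + 14980495104 * U ^ 6 * V ^ 2 * z ^ 7 + 6152433408 * U ^ 6 * V ^ 2 * z ^ 8
        - 92466220032 * U ^ 5 * V ^ 3 - 131325815808 * U ^ 5 * V ^ 3 * z - 183323367936 * U ^ 5 * V ^ 3 * z ^ 2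
        - 438917253120 * U ^ 5 * V ^ 3 * z ^ 3 - 609703967232 * U ^ 5 * V ^ 3 * z ^ 4 - 406937364480 * U ^ 5 * V ^ 3 * z ^ 5
        - 14552193024 * U ^ 5 * V ^ 3 * z ^ 6 + 156261394944 * U ^ 5 * V ^ 3 * z ^ 7 + 47227442688 * U ^ 5 * V ^ 3 * z ^ 8
        - 29888766720 * U ^ 4 * V ^ 4 - 44686183680 * U ^ 4 * V ^ 4 * z - 139256962560 * U ^ 4 * V ^ 4 * z ^ 2
        - 267394867200 * U ^ 4 * V ^ 4 * z ^ 3 - 155859966720 * U ^ 4 * V ^ 4 * z ^ 4 - 112618252800 * U ^ 4 * V ^ 4 * z ^ 5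
        + 223069800960 * U ^ 4 * V ^ 4 * z ^ 6 + 552618858240 * U ^ 4 * V ^ 4 * z ^ 7 + 111534900480 * U ^ 4 * V ^ 4 * z ^ 8
        + 122783288832 * U ^ 3 * V ^ 5 - 38315400192 * U ^ 3 * V ^ 5 * z - 113380798464 * U ^ 3 * V ^ 5 * z ^ 2
        + 2888939520 * U ^ 3 * V ^ 5 * z ^ 3 - 371359738368 * U ^ 3 * V ^ 5 * z ^ 4 - 29090949120 * U ^ 3 * V ^ 5 * z ^ 5
        - 421476120576 * U ^ 3 * V ^ 5 * z ^ 6 - 47254316544 * U ^ 3 * V ^ 5 * z ^ 7 - 156234521088 * U ^ 3 * V ^ 5 * z ^ 8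
        + 65409285888 * U ^ 2 * V ^ 6 - 46160886528 * U ^ 2 * V ^ 6 * z + 135316583424 * U ^ 2 * V ^ 6 * z ^ 2
        + 15586836480 * U ^ 2 * V ^ 6 * z ^ 3 + 112690476288 * U ^ 2 * V ^ 6 * z ^ 4 + 16451838720 * U ^ 2 * V ^ 6 * z ^ 5
        + 103256073216 * U ^ 2 * V ^ 6 * z ^ 6 - 15336573696 * U ^ 2 * V ^ 6 * z ^ 7 + 36469502208 * U ^ 2 * V ^ 6 * z ^ 8
        - 14673125376 * U * V ^ 7 + 9432723456 * U * V ^ 7 * z - 21168200448 * U * V ^ 7 * z ^ 2 - 1948354560 * U * V ^ 7 * z ^ 3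
        - 10600056576 * U * V ^ 7 * z ^ 4 - 1788791040 * U * V ^ 7 * z ^ 5 - 8989304832 * U * V ^ 7 * z ^ 6
        + 2245646592 * U * V ^ 7 * z ^ 7 - 3108969216 * U * V ^ 7 * z ^ 8 + 703759104 * V ^ 8 - 443418624 * V ^ 8 * z
        + 901953792 * V ^ 8 * z ^ 2 + 67184640 * V ^ 8 * z ^ 3 + 325845504 * V ^ 8 * z ^ 4 + 58786560 * V ^ 8 * z ^ 5
        + 265379328 * V ^ 8 * z ^ 6 - 80621568 * V ^ 8 * z ^ 7 + 90699264 * V ^ 8 * z ^ 8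
    ) * hz

theorem s52q_P2_dbl_y (U V : R) :
    10 * s52q_Y2n z U V * s52q_Y2n (z ^ 2) U V + 10 * s52q_Y2n z U V ^ 2 +
      (3 * s52q_X2n z U V ^ 2 + 675 * s52q_Hh U V) * (s52q_X2n (z ^ 2) U V - s52q_X2n z U V) = 0 := by
  unfold s52q_X2n s52q_Y2n s52q_r5 s52q_ca s52q_cb s52q_Gc s52q_Hh
  linear_combination (
      933120 * U ^ 6 + 1866240 * U ^ 6 * z + 1772928 * U ^ 6 * z ^ 2 + 466560 * U ^ 6 * z ^ 3 - 186624 * U ^ 6 * z ^ 4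
        - 466560 * U ^ 6 * z ^ 5 + 139968 * U ^ 6 * z ^ 7 + 139968 * U ^ 6 * z ^ 8 + 21461760 * U ^ 5 * V
        + 42923520 * U ^ 5 * V * z + 39844224 * U ^ 5 * V * z ^ 2 + 11897280 * U ^ 5 * V * z ^ 3 - 8491392 * U ^ 5 * V * z ^ 4
        - 9564480 * U ^ 5 * V * z ^ 5 + 4618944 * U ^ 5 * V * z ^ 7 + 4618944 * U ^ 5 * V * z ^ 8 + 131803200 * U ^ 4 * V ^ 2
        + 263606400 * U ^ 4 * V ^ 2 * z + 230014080 * U ^ 4 * V ^ 2 * z ^ 2 + 92145600 * U ^ 4 * V ^ 2 * z ^ 3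
        - 119672640 * U ^ 4 * V ^ 2 * z ^ 4 - 39657600 * U ^ 4 * V ^ 2 * z ^ 5 + 50388480 * U ^ 4 * V ^ 2 * z ^ 7
        + 50388480 * U ^ 4 * V ^ 2 * z ^ 8 + 95644800 * U ^ 3 * V ^ 3 + 191289600 * U ^ 3 * V ^ 3 * z
        + 73249920 * U ^ 3 * V ^ 3 * z ^ 2 + 199454400 * U ^ 3 * V ^ 3 * z ^ 3 - 539343360 * U ^ 3 * V ^ 3 * z ^ 4
        + 103809600 * U ^ 3 * V ^ 3 * z ^ 5 + 177059520 * U ^ 3 * V ^ 3 * z ^ 7 + 177059520 * U ^ 3 * V ^ 3 * z ^ 8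
        + 8164800 * U ^ 2 * V ^ 4 + 16329600 * U ^ 2 * V ^ 4 * z + 49921920 * U ^ 2 * V ^ 4 * z ^ 2
        + 47822400 * U ^ 2 * V ^ 4 * z ^ 3 - 20295360 * U ^ 2 * V ^ 4 * z ^ 4 + 39657600 * U ^ 2 * V ^ 4 * z ^ 5
        - 50388480 * U ^ 2 * V ^ 4 * z ^ 7 - 50388480 * U ^ 2 * V ^ 4 * z ^ 8 - 4199040 * U * V ^ 5
        - 8398080 * U * V ^ 5 * z - 11477376 * U * V ^ 5 * z ^ 2 - 13763520 * U * V ^ 5 * z ^ 3 + 17169408 * U * V ^ 5 * z ^ 4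
        - 9564480 * U * V ^ 5 * z ^ 5 + 4618944 * U * V ^ 5 * z ^ 7 + 4618944 * U * V ^ 5 * z ^ 8 + 233280 * V ^ 6
        + 466560 * V ^ 6 * z + 559872 * V ^ 6 * z ^ 2 + 699840 * V ^ 6 * z ^ 3 - 979776 * V ^ 6 * z ^ 4
        + 466560 * V ^ 6 * z ^ 5 - 139968 * V ^ 6 * z ^ 7 - 139968 * V ^ 6 * z ^ 8
    ) * hz

theorem s52q_X2n_four (U V : R) :
    s52q_X2n (z ^ 4) U V = s52q_X2n z U V := by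
  unfold s52q_X2n s52q_r5
  linear_combination (
      -36 * U ^ 2 * z ^ 2 + 36 * U ^ 2 * z ^ 4 - 36 * U ^ 2 * z ^ 7 + 36 * U ^ 2 * z ^ 8 - 396 * U * V * z ^ 2
        + 396 * U * V * z ^ 4 - 396 * U * V * z ^ 7 + 396 * U * V * z ^ 8 + 36 * V ^ 2 * z ^ 2 - 36 * V ^ 2 * z ^ 4
        + 36 * V ^ 2 * z ^ 7 - 36 * V ^ 2 * z ^ 8
    ) * hz

theorem s52q_Y2n_four (U V : R) :
    s52q_Y2n (z ^ 4) U V = -s52q_Y2n z U V := by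
  unfold s52q_Y2n s52q_ca s52q_cb s52q_Gc
  linear_combination (
      -432 * U ^ 3 + 108 * U ^ 3 * z ^ 2 + 216 * U ^ 3 * z ^ 3 - 324 * U ^ 3 * z ^ 4 + 108 * U ^ 3 * z ^ 7
        - 108 * U ^ 3 * z ^ 8 - 4968 * U ^ 2 * V + 1512 * U ^ 2 * V * z ^ 2 + 1944 * U ^ 2 * V * z ^ 3
        - 3456 * U ^ 2 * V * z ^ 4 + 1512 * U ^ 2 * V * z ^ 7 - 1512 * U ^ 2 * V * z ^ 8 - 1944 * U * V ^ 2
        + 3456 * U * V ^ 2 * z ^ 2 - 4968 * U * V ^ 2 * z ^ 3 + 1512 * U * V ^ 2 * z ^ 4 + 3456 * U * V ^ 2 * z ^ 7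
        - 3456 * U * V ^ 2 * z ^ 8 + 216 * V ^ 3 - 324 * V ^ 3 * z ^ 2 + 432 * V ^ 3 * z ^ 3 - 108 * V ^ 3 * z ^ 4
        - 324 * V ^ 3 * z ^ 7 + 324 * V ^ 3 * z ^ 8
    ) * hz

/-! ### `P₁ ∘ T₅ = P₁ − P₂` -/

omit hz in
theorem s52q_X1T_eq (u v : R) (hz5 : z ^ 5 = 1) :
    s52q_X1 (z ^ 3 * u) (z ^ 2 * v) = s52q_X1T z u v := by
  unfold s52q_X1 s52q_X1T
  linear_combination (
      3 * u ^ 10 + 3 * u ^ 10 * z ^ 5 + 3 * u ^ 10 * z ^ 10 + 3 * u ^ 10 * z ^ 15 + 3 * u ^ 10 * z ^ 20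
        + 3 * u ^ 10 * z ^ 25 - 36 * u ^ 9 * v * z ^ 4 - 36 * u ^ 9 * v * z ^ 9 - 36 * u ^ 9 * v * z ^ 14
        - 36 * u ^ 9 * v * z ^ 19 - 36 * u ^ 9 * v * z ^ 24 + 72 * u ^ 8 * v ^ 2 * z ^ 3 + 72 * u ^ 8 * v ^ 2 * z ^ 8
        + 72 * u ^ 8 * v ^ 2 * z ^ 13 + 72 * u ^ 8 * v ^ 2 * z ^ 18 + 72 * u ^ 8 * v ^ 2 * z ^ 23 - 108 * u ^ 7 * v ^ 3 * z ^ 2
        - 108 * u ^ 7 * v ^ 3 * z ^ 7 - 108 * u ^ 7 * v ^ 3 * z ^ 12 - 108 * u ^ 7 * v ^ 3 * z ^ 17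
        - 108 * u ^ 7 * v ^ 3 * z ^ 22 + 180 * u ^ 6 * v ^ 4 * z + 180 * u ^ 6 * v ^ 4 * z ^ 6 + 180 * u ^ 6 * v ^ 4 * z ^ 11
        + 180 * u ^ 6 * v ^ 4 * z ^ 16 + 180 * u ^ 6 * v ^ 4 * z ^ 21 - 90 * u ^ 5 * v ^ 5 - 90 * u ^ 5 * v ^ 5 * z ^ 5
        - 90 * u ^ 5 * v ^ 5 * z ^ 10 - 90 * u ^ 5 * v ^ 5 * z ^ 15 - 90 * u ^ 5 * v ^ 5 * z ^ 20 + 72 * u ^ 4 * v ^ 6 * z ^ 4
        + 72 * u ^ 4 * v ^ 6 * z ^ 9 + 72 * u ^ 4 * v ^ 6 * z ^ 14 + 72 * u ^ 4 * v ^ 6 * z ^ 19 + 36 * u ^ 3 * v ^ 7 * z ^ 3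
        + 36 * u ^ 3 * v ^ 7 * z ^ 8 + 36 * u ^ 3 * v ^ 7 * z ^ 13 + 36 * u ^ 3 * v ^ 7 * z ^ 18 + 36 * u ^ 2 * v ^ 8 * z ^ 2
        + 36 * u ^ 2 * v ^ 8 * z ^ 7 + 36 * u ^ 2 * v ^ 8 * z ^ 12 + 36 * u ^ 2 * v ^ 8 * z ^ 17 + 3 * v ^ 10
        + 3 * v ^ 10 * z ^ 5 + 3 * v ^ 10 * z ^ 10 + 3 * v ^ 10 * z ^ 15
    ) * hz5

omit hz in
theorem s52q_Y1T_eq (u v : R) (hz5 : z ^ 5 = 1) :
    s52q_Y1 (z ^ 3 * u) (z ^ 2 * v) = s52q_Y1T z u v := by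
  unfold s52q_Y1 s52q_Y1T
  linear_combination (
      -108 * u ^ 14 * v * z ^ 4 - 108 * u ^ 14 * v * z ^ 9 - 108 * u ^ 14 * v * z ^ 14 - 108 * u ^ 14 * v * z ^ 19
        - 108 * u ^ 14 * v * z ^ 24 - 108 * u ^ 14 * v * z ^ 29 - 108 * u ^ 14 * v * z ^ 34 - 108 * u ^ 14 * v * z ^ 39
        + 432 * u ^ 13 * v ^ 2 * z ^ 3 + 432 * u ^ 13 * v ^ 2 * z ^ 8 + 432 * u ^ 13 * v ^ 2 * z ^ 13
        + 432 * u ^ 13 * v ^ 2 * z ^ 18 + 432 * u ^ 13 * v ^ 2 * z ^ 23 + 432 * u ^ 13 * v ^ 2 * z ^ 28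
        + 432 * u ^ 13 * v ^ 2 * z ^ 33 + 432 * u ^ 13 * v ^ 2 * z ^ 38 - 972 * u ^ 12 * v ^ 3 * z ^ 2
        - 972 * u ^ 12 * v ^ 3 * z ^ 7 - 972 * u ^ 12 * v ^ 3 * z ^ 12 - 972 * u ^ 12 * v ^ 3 * z ^ 17
        - 972 * u ^ 12 * v ^ 3 * z ^ 22 - 972 * u ^ 12 * v ^ 3 * z ^ 27 - 972 * u ^ 12 * v ^ 3 * z ^ 32
        - 972 * u ^ 12 * v ^ 3 * z ^ 37 + 1620 * u ^ 11 * v ^ 4 * z + 1620 * u ^ 11 * v ^ 4 * z ^ 6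
        + 1620 * u ^ 11 * v ^ 4 * z ^ 11 + 1620 * u ^ 11 * v ^ 4 * z ^ 16 + 1620 * u ^ 11 * v ^ 4 * z ^ 21
        + 1620 * u ^ 11 * v ^ 4 * z ^ 26 + 1620 * u ^ 11 * v ^ 4 * z ^ 31 + 1620 * u ^ 11 * v ^ 4 * z ^ 36
        - 2700 * u ^ 10 * v ^ 5 - 2700 * u ^ 10 * v ^ 5 * z ^ 5 - 2700 * u ^ 10 * v ^ 5 * z ^ 10 - 2700 * u ^ 10 * v ^ 5 * z ^ 15
        - 2700 * u ^ 10 * v ^ 5 * z ^ 20 - 2700 * u ^ 10 * v ^ 5 * z ^ 25 - 2700 * u ^ 10 * v ^ 5 * z ^ 30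
        - 2700 * u ^ 10 * v ^ 5 * z ^ 35 + 3132 * u ^ 9 * v ^ 6 * z ^ 4 + 3132 * u ^ 9 * v ^ 6 * z ^ 9
        + 3132 * u ^ 9 * v ^ 6 * z ^ 14 + 3132 * u ^ 9 * v ^ 6 * z ^ 19 + 3132 * u ^ 9 * v ^ 6 * z ^ 24
        + 3132 * u ^ 9 * v ^ 6 * z ^ 29 + 3132 * u ^ 9 * v ^ 6 * z ^ 34 - 2268 * u ^ 8 * v ^ 7 * z ^ 3
        - 2268 * u ^ 8 * v ^ 7 * z ^ 8 - 2268 * u ^ 8 * v ^ 7 * z ^ 13 - 2268 * u ^ 8 * v ^ 7 * z ^ 18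
        - 2268 * u ^ 8 * v ^ 7 * z ^ 23 - 2268 * u ^ 8 * v ^ 7 * z ^ 28 - 2268 * u ^ 8 * v ^ 7 * z ^ 33
        + 648 * u ^ 7 * v ^ 8 * z ^ 2 + 648 * u ^ 7 * v ^ 8 * z ^ 7 + 648 * u ^ 7 * v ^ 8 * z ^ 12
        + 648 * u ^ 7 * v ^ 8 * z ^ 17 + 648 * u ^ 7 * v ^ 8 * z ^ 22 + 648 * u ^ 7 * v ^ 8 * z ^ 27
        + 648 * u ^ 7 * v ^ 8 * z ^ 32 - 540 * u ^ 6 * v ^ 9 * z - 540 * u ^ 6 * v ^ 9 * z ^ 6 - 540 * u ^ 6 * v ^ 9 * z ^ 11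
        - 540 * u ^ 6 * v ^ 9 * z ^ 16 - 540 * u ^ 6 * v ^ 9 * z ^ 21 - 540 * u ^ 6 * v ^ 9 * z ^ 26
        - 540 * u ^ 6 * v ^ 9 * z ^ 31 - 432 * u ^ 4 * v ^ 11 * z ^ 4 - 432 * u ^ 4 * v ^ 11 * z ^ 9
        - 432 * u ^ 4 * v ^ 11 * z ^ 14 - 432 * u ^ 4 * v ^ 11 * z ^ 19 - 432 * u ^ 4 * v ^ 11 * z ^ 24
        - 432 * u ^ 4 * v ^ 11 * z ^ 29 + 108 * u ^ 3 * v ^ 12 * z ^ 3 + 108 * u ^ 3 * v ^ 12 * z ^ 8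
        + 108 * u ^ 3 * v ^ 12 * z ^ 13 + 108 * u ^ 3 * v ^ 12 * z ^ 18 + 108 * u ^ 3 * v ^ 12 * z ^ 23
        + 108 * u ^ 3 * v ^ 12 * z ^ 28 - 108 * u ^ 2 * v ^ 13 * z ^ 2 - 108 * u ^ 2 * v ^ 13 * z ^ 7
        - 108 * u ^ 2 * v ^ 13 * z ^ 12 - 108 * u ^ 2 * v ^ 13 * z ^ 17 - 108 * u ^ 2 * v ^ 13 * z ^ 22
        - 108 * u ^ 2 * v ^ 13 * z ^ 27
    ) * hz5

theorem s52q_I7x_red (u v : R) :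
    5 * (5 * s52q_Y1 u v + s52q_Y2n z (u ^ 5) (v ^ 5)) ^ 2 =
      (5 * s52q_X1 u v + s52q_X2n z (u ^ 5) (v ^ 5) + 5 * s52q_X1T z u v) *
        (5 * s52q_X1 u v - s52q_X2n z (u ^ 5) (v ^ 5)) ^ 2 := by
  unfold s52q_Y1 s52q_X1 s52q_X1T s52q_X2n s52q_Y2n s52q_r5 s52q_ca s52q_cb s52q_Gc
  linear_combination (
      373248 * u ^ 30 + 559872 * u ^ 30 * z + 373248 * u ^ 30 * z ^ 2 - 93312 * u ^ 30 * z ^ 4 - 46656 * u ^ 30 * z ^ 5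
        + 1399680 * u ^ 29 * v + 933120 * u ^ 29 * v * z - 233280 * u ^ 29 * v * z ^ 2 - 1166400 * u ^ 29 * v * z ^ 3
        - 233280 * u ^ 29 * v * z ^ 4 + 233280 * u ^ 29 * v * z ^ 5 + 233280 * u ^ 29 * v * z ^ 6 - 7464960 * u ^ 28 * v ^ 2
        - 1866240 * u ^ 28 * v ^ 2 * z + 2799360 * u ^ 28 * v ^ 2 * z ^ 2 + 2799360 * u ^ 28 * v ^ 2 * z ^ 3
        - 466560 * u ^ 28 * v ^ 2 * z ^ 4 - 466560 * u ^ 28 * v ^ 2 * z ^ 5 + 20528640 * u ^ 27 * v ^ 3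
        + 466560 * u ^ 27 * v ^ 3 * z - 6065280 * u ^ 27 * v ^ 3 * z ^ 2 - 3965760 * u ^ 27 * v ^ 3 * z ^ 3
        + 699840 * u ^ 27 * v ^ 3 * z ^ 4 - 41990400 * u ^ 26 * v ^ 4 + 2332800 * u ^ 26 * v ^ 4 * z
        + 9331200 * u ^ 26 * v ^ 4 * z ^ 2 + 5832000 * u ^ 26 * v ^ 4 * z ^ 3 + 92798784 * u ^ 25 * v ^ 5
        + 10310976 * u ^ 25 * v ^ 5 * z - 5178816 * u ^ 25 * v ^ 5 * z ^ 2 - 11664000 * u ^ 25 * v ^ 5 * z ^ 3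
        - 3079296 * u ^ 25 * v ^ 5 * z ^ 4 - 1539648 * u ^ 25 * v ^ 5 * z ^ 5 - 137635200 * u ^ 24 * v ^ 6
        + 20995200 * u ^ 24 * v ^ 6 * z + 18662400 * u ^ 24 * v ^ 6 * z ^ 2 - 4665600 * u ^ 24 * v ^ 6 * z ^ 3
        - 4665600 * u ^ 24 * v ^ 6 * z ^ 4 + 4665600 * u ^ 24 * v ^ 6 * z ^ 5 + 4665600 * u ^ 24 * v ^ 6 * z ^ 6
        + 169128000 * u ^ 23 * v ^ 7 - 40824000 * u ^ 23 * v ^ 7 * z + 25660800 * u ^ 23 * v ^ 7 * z ^ 2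
        + 26827200 * u ^ 23 * v ^ 7 * z ^ 3 - 10497600 * u ^ 23 * v ^ 7 * z ^ 4 - 10497600 * u ^ 23 * v ^ 7 * z ^ 5
        - 190123200 * u ^ 22 * v ^ 8 + 9331200 * u ^ 22 * v ^ 8 * z - 74649600 * u ^ 22 * v ^ 8 * z ^ 2
        - 29160000 * u ^ 22 * v ^ 8 * z ^ 3 + 15163200 * u ^ 22 * v ^ 8 * z ^ 4 + 283435200 * u ^ 21 * v ^ 9
        + 51321600 * u ^ 21 * v ^ 9 * z + 111974400 * u ^ 21 * v ^ 9 * z ^ 2 + 34992000 * u ^ 21 * v ^ 9 * z ^ 3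
        - 321693120 * u ^ 20 * v ^ 10 + 21928320 * u ^ 20 * v ^ 10 * z - 97744320 * u ^ 20 * v ^ 10 * z ^ 2
        - 104976000 * u ^ 20 * v ^ 10 * z ^ 3 - 33592320 * u ^ 20 * v ^ 10 * z ^ 4 - 16796160 * u ^ 20 * v ^ 10 * z ^ 5
        + 508550400 * u ^ 19 * v ^ 11 + 121305600 * u ^ 19 * v ^ 11 * z + 250776000 * u ^ 19 * v ^ 11 * z ^ 2
        + 78148800 * u ^ 19 * v ^ 11 * z ^ 3 - 17496000 * u ^ 19 * v ^ 11 * z ^ 4 + 17496000 * u ^ 19 * v ^ 11 * z ^ 5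
        + 17496000 * u ^ 19 * v ^ 11 * z ^ 6 - 821145600 * u ^ 18 * v ^ 12 - 216950400 * u ^ 18 * v ^ 12 * z
        - 60652800 * u ^ 18 * v ^ 12 * z ^ 2 - 34992000 * u ^ 18 * v ^ 12 * z ^ 3 - 60652800 * u ^ 18 * v ^ 12 * z ^ 4
        - 60652800 * u ^ 18 * v ^ 12 * z ^ 5 + 1242216000 * u ^ 17 * v ^ 13 + 34992000 * u ^ 17 * v ^ 13 * z
        - 69984000 * u ^ 17 * v ^ 13 * z ^ 2 + 164462400 * u ^ 17 * v ^ 13 * z ^ 3 + 78148800 * u ^ 17 * v ^ 13 * z ^ 4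
        - 1217721600 * u ^ 16 * v ^ 14 + 277603200 * u ^ 16 * v ^ 14 * z + 95644800 * u ^ 16 * v ^ 14 * z ^ 2
        - 320760000 * u ^ 16 * v ^ 14 * z ^ 3 + 959713920 * u ^ 15 * v ^ 15 - 263373120 * u ^ 15 * v ^ 15 * z
        + 72083520 * u ^ 15 * v ^ 15 * z ^ 2 + 268272000 * u ^ 15 * v ^ 15 * z ^ 3 - 118039680 * u ^ 15 * v ^ 15 * z ^ 4
        - 59019840 * u ^ 15 * v ^ 15 * z ^ 5 - 501552000 * u ^ 14 * v ^ 16 + 34992000 * u ^ 14 * v ^ 16 * z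
        + 165628800 * u ^ 14 * v ^ 16 * z ^ 2 - 146966400 * u ^ 14 * v ^ 16 * z ^ 3 + 60652800 * u ^ 14 * v ^ 16 * z ^ 4
        - 60652800 * u ^ 14 * v ^ 16 * z ^ 5 - 60652800 * u ^ 14 * v ^ 16 * z ^ 6 + 327758400 * u ^ 13 * v ^ 17
        + 68817600 * u ^ 13 * v ^ 17 * z - 9331200 * u ^ 13 * v ^ 17 * z ^ 2 + 129470400 * u ^ 13 * v ^ 17 * z ^ 3
        - 17496000 * u ^ 13 * v ^ 17 * z ^ 4 - 17496000 * u ^ 13 * v ^ 17 * z ^ 5 - 246110400 * u ^ 12 * v ^ 18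
        - 121305600 * u ^ 12 * v ^ 18 * z + 130636800 * u ^ 12 * v ^ 18 * z ^ 2 + 1166400 * u ^ 12 * v ^ 18 * z ^ 3
        - 43156800 * u ^ 12 * v ^ 18 * z ^ 4 + 188956800 * u ^ 11 * v ^ 19 - 51321600 * u ^ 11 * v ^ 19 * z
        + 16329600 * u ^ 11 * v ^ 19 * z ^ 2 + 93312000 * u ^ 11 * v ^ 19 * z ^ 3 - 98210880 * u ^ 10 * v ^ 20
        - 21928320 * u ^ 10 * v ^ 20 * z + 109408320 * u ^ 10 * v ^ 20 * z ^ 2 - 23328000 * u ^ 10 * v ^ 20 * z ^ 3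
        + 33592320 * u ^ 10 * v ^ 20 * z ^ 4 + 16796160 * u ^ 10 * v ^ 20 * z ^ 5 + 50155200 * u ^ 9 * v ^ 21
        - 9331200 * u ^ 9 * v ^ 21 * z - 22161600 * u ^ 9 * v ^ 21 * z ^ 2 + 38491200 * u ^ 9 * v ^ 21 * z ^ 3
        - 10497600 * u ^ 9 * v ^ 21 * z ^ 4 + 10497600 * u ^ 9 * v ^ 21 * z ^ 5 + 10497600 * u ^ 9 * v ^ 21 * z ^ 6
        - 62985600 * u ^ 8 * v ^ 22 - 6998400 * u ^ 8 * v ^ 22 * z + 11664000 * u ^ 8 * v ^ 22 * z ^ 2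
        - 13996800 * u ^ 8 * v ^ 22 * z ^ 3 + 4665600 * u ^ 8 * v ^ 22 * z ^ 4 + 4665600 * u ^ 8 * v ^ 22 * z ^ 5
        - 3499200 * u ^ 7 * v ^ 23 + 20995200 * u ^ 7 * v ^ 23 * z - 16329600 * u ^ 7 * v ^ 23 * z ^ 2
        + 1166400 * u ^ 7 * v ^ 23 * z ^ 3 + 5832000 * u ^ 7 * v ^ 23 * z ^ 4 - 18662400 * u ^ 6 * v ^ 24
        + 2332800 * u ^ 6 * v ^ 24 * z - 2332800 * u ^ 6 * v ^ 24 * z ^ 2 - 5832000 * u ^ 6 * v ^ 24 * z ^ 3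
        - 14510016 * u ^ 5 * v ^ 25 + 10310976 * u ^ 5 * v ^ 25 * z - 19175616 * u ^ 5 * v ^ 25 * z ^ 2
        - 3079296 * u ^ 5 * v ^ 25 * z ^ 4 - 1539648 * u ^ 5 * v ^ 25 * z ^ 5 - 5132160 * u ^ 4 * v ^ 26
        + 466560 * u ^ 4 * v ^ 26 * z + 466560 * u ^ 4 * v ^ 26 * z ^ 2 - 2332800 * u ^ 4 * v ^ 26 * z ^ 3
        + 466560 * u ^ 4 * v ^ 26 * z ^ 4 - 466560 * u ^ 4 * v ^ 26 * z ^ 5 - 466560 * u ^ 4 * v ^ 26 * z ^ 6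
        + 933120 * u ^ 3 * v ^ 27 + 233280 * u ^ 3 * v ^ 27 * z - 933120 * u ^ 3 * v ^ 27 * z ^ 2 + 233280 * u ^ 3 * v ^ 27 * z ^ 3
        - 233280 * u ^ 3 * v ^ 27 * z ^ 4 - 233280 * u ^ 3 * v ^ 27 * z ^ 5 - 233280 * u ^ 2 * v ^ 28
        - 933120 * u ^ 2 * v ^ 28 * z + 466560 * u ^ 2 * v ^ 28 * z ^ 2 - 233280 * u ^ 2 * v ^ 28 * z ^ 3
        - 233280 * u ^ 2 * v ^ 28 * z ^ 4 + 793152 * v ^ 30 - 559872 * v ^ 30 * z + 793152 * v ^ 30 * z ^ 2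
        + 93312 * v ^ 30 * z ^ 4 + 46656 * v ^ 30 * z ^ 5
    ) * hz

theorem s52q_I7y_red (u v : R) :
    -(5 * s52q_Y1 u v + s52q_Y2n z (u ^ 5) (v ^ 5)) * (s52q_X1T z u v - s52q_X1 u v) -
      s52q_Y1 u v * (5 * s52q_X1 u v - s52q_X2n z (u ^ 5) (v ^ 5)) =
      s52q_Y1T z u v * (5 * s52q_X1 u v - s52q_X2n z (u ^ 5) (v ^ 5)) := by
  unfold s52q_Y1 s52q_X1 s52q_X1T s52q_Y1T s52q_X2n s52q_Y2n s52q_r5 s52q_ca s52q_cb s52q_Gc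
  linear_combination (
      15552 * u ^ 24 * v - 7776 * u ^ 24 * v * z ^ 2 - 7776 * u ^ 24 * v * z ^ 3 - 46656 * u ^ 23 * v ^ 2
        + 15552 * u ^ 23 * v ^ 2 * z + 23328 * u ^ 23 * v ^ 2 * z ^ 2 + 93312 * u ^ 22 * v ^ 3 - 46656 * u ^ 22 * v ^ 3 * z
        - 155520 * u ^ 21 * v ^ 4 + 388800 * u ^ 20 * v ^ 5 - 707616 * u ^ 19 * v ^ 6 - 116640 * u ^ 19 * v ^ 6 * z
        - 54432 * u ^ 19 * v ^ 6 * z ^ 2 + 23328 * u ^ 19 * v ^ 6 * z ^ 3 + 1228608 * u ^ 18 * v ^ 7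
        + 147744 * u ^ 18 * v ^ 7 * z + 202176 * u ^ 18 * v ^ 7 * z ^ 2 - 1874016 * u ^ 17 * v ^ 8
        - 520992 * u ^ 17 * v ^ 8 * z + 3071520 * u ^ 16 * v ^ 9 - 3499200 * u ^ 15 * v ^ 10 + 2900448 * u ^ 14 * v ^ 11
        - 1244160 * u ^ 14 * v ^ 11 * z + 318816 * u ^ 14 * v ^ 11 * z ^ 2 + 1213056 * u ^ 14 * v ^ 11 * z ^ 3
        - 1197504 * u ^ 13 * v ^ 12 - 287712 * u ^ 13 * v ^ 12 * z - 606528 * u ^ 13 * v ^ 12 * z ^ 2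
        + 1034208 * u ^ 12 * v ^ 13 - 31104 * u ^ 12 * v ^ 13 * z - 699840 * u ^ 11 * v ^ 14 + 583200 * u ^ 10 * v ^ 15
        - 692064 * u ^ 9 * v ^ 16 + 544320 * u ^ 9 * v ^ 16 * z - 373248 * u ^ 9 * v ^ 16 * z ^ 2 - 23328 * u ^ 9 * v ^ 16 * z ^ 3
        + 287712 * u ^ 8 * v ^ 17 - 147744 * u ^ 8 * v ^ 17 * z + 225504 * u ^ 8 * v ^ 17 * z ^ 2 - 186624 * u ^ 7 * v ^ 18
        + 93312 * u ^ 7 * v ^ 18 * z + 77760 * u ^ 6 * v ^ 19 + 54432 * u ^ 4 * v ^ 21 - 38880 * u ^ 4 * v ^ 21 * z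
        + 31104 * u ^ 4 * v ^ 21 * z ^ 2 - 7776 * u ^ 4 * v ^ 21 * z ^ 3 - 7776 * u ^ 3 * v ^ 22 + 15552 * u ^ 3 * v ^ 22 * z
        - 15552 * u ^ 3 * v ^ 22 * z ^ 2 + 15552 * u ^ 2 * v ^ 23 - 7776 * u ^ 2 * v ^ 23 * z
    ) * hz

/-- `x(P₁(w) − P₂(w)) = x(P₁(w·T₅))`. -/
theorem s52q_I7x (u v : R) :
    5 * (5 * s52q_Y1 u v + s52q_Y2n z (u ^ 5) (v ^ 5)) ^ 2 =
      (5 * s52q_X1 u v + s52q_X2n z (u ^ 5) (v ^ 5) + 5 * s52q_X1 (z ^ 3 * u) (z ^ 2 * v)) *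
        (5 * s52q_X1 u v - s52q_X2n z (u ^ 5) (v ^ 5)) ^ 2 := by
  rw [s52q_X1T_eq z u v (s52q_z5 z hz)]
  exact s52q_I7x_red z hz u v

/-- `y(P₁(w) − P₂(w)) = y(P₁(w·T₅))`. -/
theorem s52q_I7y (u v : R) :
    -(5 * s52q_Y1 u v + s52q_Y2n z (u ^ 5) (v ^ 5)) *
        (s52q_X1 (z ^ 3 * u) (z ^ 2 * v) - s52q_X1 u v) -
      s52q_Y1 u v * (5 * s52q_X1 u v - s52q_X2n z (u ^ 5) (v ^ 5)) =
      s52q_Y1 (z ^ 3 * u) (z ^ 2 * v) * (5 * s52q_X1 u v - s52q_X2n z (u ^ 5) (v ^ 5)) := by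
  rw [s52q_X1T_eq z u v (s52q_z5 z hz), s52q_Y1T_eq z u v (s52q_z5 z hz)]
  exact s52q_I7y_red z hz u v


end forms

end Fermat.Agent.Lib.S52
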