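/-
Programme K (S52), helper9, prefix `s52q_`.  KLEIN PACKAGE, part 1b (GENERATED, see `QTorsId.lean`):
`P₂ ∘ S = P₁` and the independence cofactors.
-/
import Mathlib
import Fermat.Agent.Lib.S52.QTorsId

set_option autoImplicit false
set_option maxRecDepth 100000

namespace Fermat.Agent.Lib.S52

section forms

variable {R : Type*} [CommRing R] (z : R) (hz : z ^ 4 + z ^ 3 + z ^ 2 + z + 1 = 0)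
include hz

/-! ### `P₂ ∘ S = P₁` -/

theorem s52q_Up_eq (u v : R) :
    (-s52q_ca z * u + s52q_cb z * v) ^ 5 = s52q_Up z u v := by
  unfold s52q_Up s52q_ca s52q_cb
  linear_combination (
      9 * u ^ 5 + u ^ 5 * z - 40 * u ^ 5 * z ^ 2 - 90 * u ^ 5 * z ^ 3 - 130 * u ^ 5 * z ^ 4 - 133 * u ^ 5 * z ^ 5
        - 107 * u ^ 5 * z ^ 6 - 70 * u ^ 5 * z ^ 7 - 35 * u ^ 5 * z ^ 8 - 15 * u ^ 5 * z ^ 9 - 4 * u ^ 5 * z ^ 10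
        - u ^ 5 * z ^ 11 - 25 * u ^ 4 * v - 25 * u ^ 4 * v * z + 5 * u ^ 4 * v * z ^ 2 + 80 * u ^ 4 * v * z ^ 3
        + 65 * u ^ 4 * v * z ^ 4 + 35 * u ^ 4 * v * z ^ 5 - 15 * u ^ 4 * v * z ^ 6 - 55 * u ^ 4 * v * z ^ 7
        - 40 * u ^ 4 * v * z ^ 8 - 35 * u ^ 4 * v * z ^ 9 - 10 * u ^ 4 * v * z ^ 10 - 5 * u ^ 4 * v * z ^ 11
        + 50 * u ^ 3 * v ^ 2 + 50 * u ^ 3 * v ^ 2 * z - 50 * u ^ 3 * v ^ 2 * z ^ 2 - 60 * u ^ 3 * v ^ 2 * z ^ 4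
        + 20 * u ^ 3 * v ^ 2 * z ^ 5 + 50 * u ^ 3 * v ^ 2 * z ^ 6 + 30 * u ^ 3 * v ^ 2 * z ^ 8 - 30 * u ^ 3 * v ^ 2 * z ^ 9
        - 10 * u ^ 3 * v ^ 2 * z ^ 11 - 50 * u ^ 2 * v ^ 3 * z ^ 2 + 100 * u ^ 2 * v ^ 3 * z ^ 3 - 50 * u ^ 2 * v ^ 3 * z ^ 4
        + 10 * u ^ 2 * v ^ 3 * z ^ 6 - 50 * u ^ 2 * v ^ 3 * z ^ 7 + 60 * u ^ 2 * v ^ 3 * z ^ 8 - 30 * u ^ 2 * v ^ 3 * z ^ 9
        + 20 * u ^ 2 * v ^ 3 * z ^ 10 - 10 * u ^ 2 * v ^ 3 * z ^ 11 + 25 * u * v ^ 4 + 25 * u * v ^ 4 * z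
        - 50 * u * v ^ 4 * z ^ 2 + 50 * u * v ^ 4 * z ^ 3 - 50 * u * v ^ 4 * z ^ 4 + 25 * u * v ^ 4 * z ^ 5
        + 25 * u * v ^ 4 * z ^ 6 - 50 * u * v ^ 4 * z ^ 7 + 45 * u * v ^ 4 * z ^ 8 - 35 * u * v ^ 4 * z ^ 9
        + 20 * u * v ^ 4 * z ^ 10 - 5 * u * v ^ 4 * z ^ 11 + 5 * v ^ 5 + 5 * v ^ 5 * z - 15 * v ^ 5 * z ^ 2
        + 20 * v ^ 5 * z ^ 3 - 15 * v ^ 5 * z ^ 4 + 5 * v ^ 5 * z ^ 5 + 5 * v ^ 5 * z ^ 6 - 15 * v ^ 5 * z ^ 7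
        + 20 * v ^ 5 * z ^ 8 - 15 * v ^ 5 * z ^ 9 + 6 * v ^ 5 * z ^ 10 - v ^ 5 * z ^ 11
    ) * hz

theorem s52q_Vp_eq (u v : R) :
    (s52q_cb z * u + s52q_ca z * v) ^ 5 = s52q_Vp z u v := by
  unfold s52q_Vp s52q_ca s52q_cb
  linear_combination (
      5 * u ^ 5 + 5 * u ^ 5 * z - 15 * u ^ 5 * z ^ 2 + 20 * u ^ 5 * z ^ 3 - 15 * u ^ 5 * z ^ 4 + 5 * u ^ 5 * z ^ 5
        + 5 * u ^ 5 * z ^ 6 - 15 * u ^ 5 * z ^ 7 + 20 * u ^ 5 * z ^ 8 - 15 * u ^ 5 * z ^ 9 + 6 * u ^ 5 * z ^ 10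
        - u ^ 5 * z ^ 11 - 25 * u ^ 4 * v - 25 * u ^ 4 * v * z + 50 * u ^ 4 * v * z ^ 2 - 50 * u ^ 4 * v * z ^ 3
        + 50 * u ^ 4 * v * z ^ 4 - 25 * u ^ 4 * v * z ^ 5 - 25 * u ^ 4 * v * z ^ 6 + 50 * u ^ 4 * v * z ^ 7
        - 45 * u ^ 4 * v * z ^ 8 + 35 * u ^ 4 * v * z ^ 9 - 20 * u ^ 4 * v * z ^ 10 + 5 * u ^ 4 * v * z ^ 11
        - 50 * u ^ 3 * v ^ 2 * z ^ 2 + 100 * u ^ 3 * v ^ 2 * z ^ 3 - 50 * u ^ 3 * v ^ 2 * z ^ 4 + 10 * u ^ 3 * v ^ 2 * z ^ 6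
        - 50 * u ^ 3 * v ^ 2 * z ^ 7 + 60 * u ^ 3 * v ^ 2 * z ^ 8 - 30 * u ^ 3 * v ^ 2 * z ^ 9 + 20 * u ^ 3 * v ^ 2 * z ^ 10
        - 10 * u ^ 3 * v ^ 2 * z ^ 11 - 50 * u ^ 2 * v ^ 3 - 50 * u ^ 2 * v ^ 3 * z + 50 * u ^ 2 * v ^ 3 * z ^ 2
        + 60 * u ^ 2 * v ^ 3 * z ^ 4 - 20 * u ^ 2 * v ^ 3 * z ^ 5 - 50 * u ^ 2 * v ^ 3 * z ^ 6 - 30 * u ^ 2 * v ^ 3 * z ^ 8
        + 30 * u ^ 2 * v ^ 3 * z ^ 9 + 10 * u ^ 2 * v ^ 3 * z ^ 11 - 25 * u * v ^ 4 - 25 * u * v ^ 4 * z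
        + 5 * u * v ^ 4 * z ^ 2 + 80 * u * v ^ 4 * z ^ 3 + 65 * u * v ^ 4 * z ^ 4 + 35 * u * v ^ 4 * z ^ 5
        - 15 * u * v ^ 4 * z ^ 6 - 55 * u * v ^ 4 * z ^ 7 - 40 * u * v ^ 4 * z ^ 8 - 35 * u * v ^ 4 * z ^ 9
        - 10 * u * v ^ 4 * z ^ 10 - 5 * u * v ^ 4 * z ^ 11 - 9 * v ^ 5 - v ^ 5 * z + 40 * v ^ 5 * z ^ 2
        + 90 * v ^ 5 * z ^ 3 + 130 * v ^ 5 * z ^ 4 + 133 * v ^ 5 * z ^ 5 + 107 * v ^ 5 * z ^ 6 + 70 * v ^ 5 * z ^ 7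
        + 35 * v ^ 5 * z ^ 8 + 15 * v ^ 5 * z ^ 9 + 4 * v ^ 5 * z ^ 10 + v ^ 5 * z ^ 11
    ) * hz

theorem s52q_I6x_red (u v : R) :
    15625 * s52q_X1 u v = s52q_X2n z (s52q_Up z u v) (s52q_Vp z u v) := by
  unfold s52q_X1 s52q_X2n s52q_Up s52q_Vp s52q_r5
  linear_combination (
      45000 * u ^ 10 - 52500 * u ^ 10 * z - 15000 * u ^ 10 * z ^ 2 - 90000 * u ^ 10 * z ^ 3 - 90000 * u ^ 10 * z ^ 4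
        - 22500 * u ^ 10 * z ^ 5 - 540000 * u ^ 9 * v + 630000 * u ^ 9 * v * z + 180000 * u ^ 9 * v * z ^ 2
        + 630000 * u ^ 9 * v * z ^ 3 + 630000 * u ^ 9 * v * z ^ 4 + 45000 * u ^ 9 * v * z ^ 5 + 1102500 * u ^ 8 * v ^ 2
        - 1192500 * u ^ 8 * v ^ 2 * z - 292500 * u ^ 8 * v ^ 2 * z ^ 2 - 1530000 * u ^ 8 * v ^ 2 * z ^ 3
        - 1530000 * u ^ 8 * v ^ 2 * z ^ 4 - 270000 * u ^ 8 * v ^ 2 * z ^ 5 - 1530000 * u ^ 7 * v ^ 3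
        + 2160000 * u ^ 7 * v ^ 3 * z + 810000 * u ^ 7 * v ^ 3 * z ^ 2 + 3060000 * u ^ 7 * v ^ 3 * z ^ 3
        + 3060000 * u ^ 7 * v ^ 3 * z ^ 4 + 540000 * u ^ 7 * v ^ 3 * z ^ 5 + 2970000 * u ^ 6 * v ^ 4
        - 2340000 * u ^ 6 * v ^ 4 * z - 90000 * u ^ 6 * v ^ 4 * z ^ 2 - 1890000 * u ^ 6 * v ^ 4 * z ^ 3
        - 1890000 * u ^ 6 * v ^ 4 * z ^ 4 - 135000 * u ^ 6 * v ^ 4 * z ^ 5 - 855000 * u ^ 5 * v ^ 5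
        + 3060000 * u ^ 5 * v ^ 5 * z + 1935000 * u ^ 5 * v ^ 5 * z ^ 2 + 4410000 * u ^ 5 * v ^ 5 * z ^ 3
        + 4410000 * u ^ 5 * v ^ 5 * z ^ 4 + 540000 * u ^ 5 * v ^ 5 * z ^ 5 + 1755000 * u ^ 4 * v ^ 6
        + 765000 * u ^ 4 * v ^ 6 * z + 1665000 * u ^ 4 * v ^ 6 * z ^ 2 + 1890000 * u ^ 4 * v ^ 6 * z ^ 3
        + 1890000 * u ^ 4 * v ^ 6 * z ^ 4 + 135000 * u ^ 4 * v ^ 6 * z ^ 5 + 1170000 * u ^ 3 * v ^ 7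
        + 1260000 * u ^ 3 * v ^ 7 * z + 1710000 * u ^ 3 * v ^ 7 * z ^ 2 + 3060000 * u ^ 3 * v ^ 7 * z ^ 3
        + 3060000 * u ^ 3 * v ^ 7 * z ^ 4 + 540000 * u ^ 3 * v ^ 7 * z ^ 5 + 922500 * u ^ 2 * v ^ 8
        + 517500 * u ^ 2 * v ^ 8 * z + 967500 * u ^ 2 * v ^ 8 * z ^ 2 + 1530000 * u ^ 2 * v ^ 8 * z ^ 3
        + 1530000 * u ^ 2 * v ^ 8 * z ^ 4 + 270000 * u ^ 2 * v ^ 8 * z ^ 5 + 135000 * u * v ^ 9 + 405000 * u * v ^ 9 * z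
        + 405000 * u * v ^ 9 * z ^ 2 + 630000 * u * v ^ 9 * z ^ 3 + 630000 * u * v ^ 9 * z ^ 4 + 45000 * u * v ^ 9 * z ^ 5
        + 67500 * v ^ 10 + 15000 * v ^ 10 * z + 52500 * v ^ 10 * z ^ 2 + 90000 * v ^ 10 * z ^ 3 + 90000 * v ^ 10 * z ^ 4
        + 22500 * v ^ 10 * z ^ 5
    ) * hz

theorem s52q_I6y_red (u v : R) :
    1953125 * s52q_Y1 u v = s52q_r5 z * s52q_Y2n z (s52q_Up z u v) (s52q_Vp z u v) := by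
  unfold s52q_Y1 s52q_Y2n s52q_Up s52q_Vp s52q_r5 s52q_ca s52q_cb s52q_Gc
  linear_combination (
      1687500 * u ^ 15 + 11812500 * u ^ 15 * z + 35437500 * u ^ 15 * z ^ 2 + 74250000 * u ^ 15 * z ^ 3
        + 138375000 * u ^ 15 * z ^ 4 + 199125000 * u ^ 15 * z ^ 5 + 209250000 * u ^ 15 * z ^ 6 + 192375000 * u ^ 15 * z ^ 7
        + 111375000 * u ^ 15 * z ^ 8 + 47250000 * u ^ 15 * z ^ 9 + 27000000 * u ^ 15 * z ^ 10 + 6750000 * u ^ 15 * z ^ 11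
        - 227812500 * u ^ 14 * v + 92812500 * u ^ 14 * v * z - 362812500 * u ^ 14 * v * z ^ 2 - 776250000 * u ^ 14 * v * z ^ 3
        - 1434375000 * u ^ 14 * v * z ^ 4 - 2278125000 * u ^ 14 * v * z ^ 5 - 1991250000 * u ^ 14 * v * z ^ 6
        - 1906875000 * u ^ 14 * v * z ^ 7 - 1029375000 * u ^ 14 * v * z ^ 8 - 371250000 * u ^ 14 * v * z ^ 9
        - 270000000 * u ^ 14 * v * z ^ 10 - 33750000 * u ^ 14 * v * z ^ 11 + 914625000 * u ^ 13 * v ^ 2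
        - 347625000 * u ^ 13 * v ^ 2 * z + 1522125000 * u ^ 13 * v ^ 2 * z ^ 2 + 3253500000 * u ^ 13 * v ^ 2 * z ^ 3
        + 6014250000 * u ^ 13 * v ^ 2 * z ^ 4 + 9510750000 * u ^ 13 * v ^ 2 * z ^ 5 + 8383500000 * u ^ 13 * v ^ 2 * z ^ 6
        + 8012250000 * u ^ 13 * v ^ 2 * z ^ 7 + 4340250000 * u ^ 13 * v ^ 2 * z ^ 8 + 1579500000 * u ^ 13 * v ^ 2 * z ^ 9
        + 1134000000 * u ^ 13 * v ^ 2 * z ^ 10 + 148500000 * u ^ 13 * v ^ 2 * z ^ 11 - 2092500000 * u ^ 12 * v ^ 3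
        + 540000000 * u ^ 12 * v ^ 3 * z - 4151250000 * u ^ 12 * v ^ 3 * z ^ 2 - 8842500000 * u ^ 12 * v ^ 3 * z ^ 3
        - 16368750000 * u ^ 12 * v ^ 3 * z ^ 4 - 25481250000 * u ^ 12 * v ^ 3 * z ^ 5 - 23152500000 * u ^ 12 * v ^ 3 * z ^ 6
        - 21971250000 * u ^ 12 * v ^ 3 * z ^ 7 - 12048750000 * u ^ 12 * v ^ 3 * z ^ 8 - 4522500000 * u ^ 12 * v ^ 3 * z ^ 9
        - 3105000000 * u ^ 12 * v ^ 3 * z ^ 10 - 472500000 * u ^ 12 * v ^ 3 * z ^ 11 + 3511687500 * u ^ 11 * v ^ 4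
        - 730687500 * u ^ 11 * v ^ 4 * z + 7426687500 * u ^ 11 * v ^ 4 * z ^ 2 + 15801750000 * u ^ 11 * v ^ 4 * z ^ 3
        + 29264625000 * u ^ 11 * v ^ 4 * z ^ 4 + 45322875000 * u ^ 11 * v ^ 4 * z ^ 5 + 41586750000 * u ^ 11 * v ^ 4 * z ^ 6
        + 39376125000 * u ^ 11 * v ^ 4 * z ^ 7 + 21677625000 * u ^ 11 * v ^ 4 * z ^ 8 + 8214750000 * u ^ 11 * v ^ 4 * z ^ 9
        + 5562000000 * u ^ 11 * v ^ 4 * z ^ 10 + 884250000 * u ^ 11 * v ^ 4 * z ^ 11 - 5761125000 * u ^ 10 * v ^ 5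
        + 1859625000 * u ^ 10 * v ^ 5 * z - 10452375000 * u ^ 10 * v ^ 5 * z ^ 2 - 22302000000 * u ^ 10 * v ^ 5 * z ^ 3
        - 41256000000 * u ^ 10 * v ^ 5 * z ^ 4 - 64719000000 * u ^ 10 * v ^ 5 * z ^ 5 - 57942000000 * u ^ 10 * v ^ 5 * z ^ 6
        - 55174500000 * u ^ 10 * v ^ 5 * z ^ 7 - 30078000000 * u ^ 10 * v ^ 5 * z ^ 8 - 11124000000 * u ^ 10 * v ^ 5 * z ^ 9
        - 7803000000 * u ^ 10 * v ^ 5 * z ^ 10 - 1107000000 * u ^ 10 * v ^ 5 * z ^ 11 + 6615000000 * u ^ 9 * v ^ 6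
        - 2632500000 * u ^ 9 * v ^ 6 * z + 10698750000 * u ^ 9 * v ^ 6 * z ^ 2 + 22882500000 * u ^ 9 * v ^ 6 * z ^ 3
        + 42288750000 * u ^ 9 * v ^ 6 * z ^ 4 + 67061250000 * u ^ 9 * v ^ 6 * z ^ 5 + 58792500000 * u ^ 9 * v ^ 6 * z ^ 6
        + 56261250000 * u ^ 9 * v ^ 6 * z ^ 7 + 30408750000 * u ^ 9 * v ^ 6 * z ^ 8 + 11002500000 * u ^ 9 * v ^ 6 * z ^ 9
        + 7965000000 * u ^ 9 * v ^ 6 * z ^ 10 + 1012500000 * u ^ 9 * v ^ 6 * z ^ 11 - 4839750000 * u ^ 8 * v ^ 7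
        + 1559250000 * u ^ 8 * v ^ 7 * z - 8788500000 * u ^ 8 * v ^ 7 * z ^ 2 - 18751500000 * u ^ 8 * v ^ 7 * z ^ 3
        - 34688250000 * u ^ 8 * v ^ 7 * z ^ 4 - 54411750000 * u ^ 8 * v ^ 7 * z ^ 5 - 48721500000 * u ^ 8 * v ^ 7 * z ^ 6
        - 46392750000 * u ^ 8 * v ^ 7 * z ^ 7 - 25292250000 * u ^ 8 * v ^ 7 * z ^ 8 - 9355500000 * u ^ 8 * v ^ 7 * z ^ 9
        - 6561000000 * u ^ 8 * v ^ 7 * z ^ 10 - 931500000 * u ^ 8 * v ^ 7 * z ^ 11 + 1468125000 * u ^ 7 * v ^ 8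
        + 151875000 * u ^ 7 * v ^ 8 * z + 4303125000 * u ^ 7 * v ^ 8 * z ^ 2 + 9112500000 * u ^ 7 * v ^ 8 * z ^ 3
        + 16908750000 * u ^ 7 * v ^ 8 * z ^ 4 + 25616250000 * u ^ 7 * v ^ 8 * z ^ 5 + 24502500000 * u ^ 7 * v ^ 8 * z ^ 6
        + 22983750000 * u ^ 7 * v ^ 8 * z ^ 7 + 12858750000 * u ^ 7 * v ^ 8 * z ^ 8 + 5062500000 * u ^ 7 * v ^ 8 * z ^ 9
        + 3240000000 * u ^ 7 * v ^ 8 * z ^ 10 + 607500000 * u ^ 7 * v ^ 8 * z ^ 11 - 1221750000 * u ^ 6 * v ^ 9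
        - 114750000 * u ^ 6 * v ^ 9 * z - 3550500000 * u ^ 6 * v ^ 9 * z ^ 2 - 7519500000 * u ^ 6 * v ^ 9 * z ^ 3
        - 13952250000 * u ^ 6 * v ^ 9 * z ^ 4 - 21147750000 * u ^ 6 * v ^ 9 * z ^ 5 - 20209500000 * u ^ 6 * v ^ 9 * z ^ 6
        - 18960750000 * u ^ 6 * v ^ 9 * z ^ 7 - 10604250000 * u ^ 6 * v ^ 9 * z ^ 8 - 4171500000 * u ^ 6 * v ^ 9 * z ^ 9
        - 2673000000 * u ^ 6 * v ^ 9 * z ^ 10 - 499500000 * u ^ 6 * v ^ 9 * z ^ 11 - 1687500 * u ^ 5 * v ^ 10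
        - 11812500 * u ^ 5 * v ^ 10 * z - 35437500 * u ^ 5 * v ^ 10 * z ^ 2 - 74250000 * u ^ 5 * v ^ 10 * z ^ 3
        - 138375000 * u ^ 5 * v ^ 10 * z ^ 4 - 199125000 * u ^ 5 * v ^ 10 * z ^ 5 - 209250000 * u ^ 5 * v ^ 10 * z ^ 6
        - 192375000 * u ^ 5 * v ^ 10 * z ^ 7 - 111375000 * u ^ 5 * v ^ 10 * z ^ 8 - 47250000 * u ^ 5 * v ^ 10 * z ^ 9
        - 27000000 * u ^ 5 * v ^ 10 * z ^ 10 - 6750000 * u ^ 5 * v ^ 10 * z ^ 11 - 885937500 * u ^ 4 * v ^ 11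
        + 548437500 * u ^ 4 * v ^ 11 * z - 919687500 * u ^ 4 * v ^ 11 * z ^ 2 - 1991250000 * u ^ 4 * v ^ 11 * z ^ 3
        - 3661875000 * u ^ 4 * v ^ 11 * z ^ 4 - 6125625000 * u ^ 4 * v ^ 11 * z ^ 5 - 4826250000 * u ^ 4 * v ^ 11 * z ^ 6
        - 4741875000 * u ^ 4 * v ^ 11 * z ^ 7 - 2446875000 * u ^ 4 * v ^ 11 * z ^ 8 - 776250000 * u ^ 4 * v ^ 11 * z ^ 9
        - 675000000 * u ^ 4 * v ^ 11 * z ^ 10 - 33750000 * u ^ 4 * v ^ 11 * z ^ 11 + 199125000 * u ^ 3 * v ^ 12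
        - 293625000 * u ^ 3 * v ^ 12 * z - 239625000 * u ^ 3 * v ^ 12 * z ^ 2 - 486000000 * u ^ 3 * v ^ 12 * z ^ 3
        - 918000000 * u ^ 3 * v ^ 12 * z ^ 4 - 1107000000 * u ^ 3 * v ^ 12 * z ^ 5 - 1566000000 * u ^ 3 * v ^ 12 * z ^ 6
        - 1363500000 * u ^ 3 * v ^ 12 * z ^ 7 - 864000000 * u ^ 3 * v ^ 12 * z ^ 8 - 432000000 * u ^ 3 * v ^ 12 * z ^ 9
        - 189000000 * u ^ 3 * v ^ 12 * z ^ 10 - 81000000 * u ^ 3 * v ^ 12 * z ^ 11 - 219375000 * u ^ 2 * v ^ 13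
        + 151875000 * u ^ 2 * v ^ 13 * z - 185625000 * u ^ 2 * v ^ 13 * z ^ 2 - 405000000 * u ^ 2 * v ^ 13 * z ^ 3
        - 742500000 * u ^ 2 * v ^ 13 * z ^ 4 - 1282500000 * u ^ 2 * v ^ 13 * z ^ 5 - 945000000 * u ^ 2 * v ^ 13 * z ^ 6
        - 945000000 * u ^ 2 * v ^ 13 * z ^ 7 - 472500000 * u ^ 2 * v ^ 13 * z ^ 8 - 135000000 * u ^ 2 * v ^ 13 * z ^ 9
        - 135000000 * u ^ 2 * v ^ 13 * z ^ 10 - 1687500 * u * v ^ 14 - 11812500 * u * v ^ 14 * z - 35437500 * u * v ^ 14 * z ^ 2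
        - 74250000 * u * v ^ 14 * z ^ 3 - 138375000 * u * v ^ 14 * z ^ 4 - 199125000 * u * v ^ 14 * z ^ 5
        - 209250000 * u * v ^ 14 * z ^ 6 - 192375000 * u * v ^ 14 * z ^ 7 - 111375000 * u * v ^ 14 * z ^ 8
        - 47250000 * u * v ^ 14 * z ^ 9 - 27000000 * u * v ^ 14 * z ^ 10 - 6750000 * u * v ^ 14 * z ^ 11
    ) * hz

/-- `5⁶ · x(P₁(w)) = 5 · x(P₂)` at `(−ca·u + cb·v, cb·u + ca·v)`. -/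
theorem s52q_I6x (u v : R) :
    15625 * s52q_X1 u v =
      s52q_X2n z ((-s52q_ca z * u + s52q_cb z * v) ^ 5) ((s52q_cb z * u + s52q_ca z * v) ^ 5) := by
  rw [s52q_Up_eq z hz, s52q_Vp_eq z hz]
  exact s52q_I6x_red z hz u v

theorem s52q_I6y (u v : R) :
    1953125 * s52q_Y1 u v =
      s52q_r5 z *
        s52q_Y2n z ((-s52q_ca z * u + s52q_cb z * v) ^ 5) ((s52q_cb z * u + s52q_ca z * v) ^ 5) := by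
  rw [s52q_Up_eq z hz, s52q_Vp_eq z hz]
  exact s52q_I6y_red z hz u v

/-! ### independence -/

/-- cofactor: `s52q_CofA · (5·X1 − X2n) = 180 f²`. -/
def s52q_CofA (z u v : R) : R :=
  3 * u ^ 12 * v ^ 2 + u ^ 12 * v ^ 2 * z ^ 2 + u ^ 12 * v ^ 2 * z ^ 3 + 10 * u ^ 11 * v ^ 3 + 5 * u ^ 11 * v ^ 3 * z ^ 2
    + 5 * u ^ 11 * v ^ 3 * z ^ 3 + 15 * u ^ 10 * v ^ 4 + 10 * u ^ 10 * v ^ 4 * z ^ 2 + 10 * u ^ 10 * v ^ 4 * z ^ 3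
    + 15 * u ^ 9 * v ^ 5 + 10 * u ^ 9 * v ^ 5 * z ^ 2 + 10 * u ^ 9 * v ^ 5 * z ^ 3 - 7 * u ^ 7 * v ^ 7
    - 14 * u ^ 7 * v ^ 7 * z ^ 2 - 14 * u ^ 7 * v ^ 7 * z ^ 3 + 5 * u ^ 6 * v ^ 8 - 10 * u ^ 6 * v ^ 8 * z ^ 2
    - 10 * u ^ 6 * v ^ 8 * z ^ 3 - 5 * u ^ 5 * v ^ 9 + 5 * u ^ 5 * v ^ 9 * z ^ 2 + 5 * u ^ 5 * v ^ 9 * z ^ 3
    - 5 * u ^ 4 * v ^ 10 + 5 * u ^ 4 * v ^ 10 * z ^ 2 + 5 * u ^ 4 * v ^ 10 * z ^ 3 + 2 * u ^ 2 * v ^ 12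
    - u ^ 2 * v ^ 12 * z ^ 2 - u ^ 2 * v ^ 12 * z ^ 3

theorem s52q_I8a (u v : R) :
    s52q_CofA z u v * (5 * s52q_X1 u v - s52q_X2n z (u ^ 5) (v ^ 5)) = 180 * s52m_kf u v ^ 2 := by
  unfold s52q_CofA s52q_X1 s52q_X2n s52q_r5 s52m_kf
  linear_combination (
      36 * u ^ 22 * v ^ 2 - 36 * u ^ 22 * v ^ 2 * z - 36 * u ^ 22 * v ^ 2 * z ^ 2 + 180 * u ^ 21 * v ^ 3
        - 180 * u ^ 21 * v ^ 3 * z - 180 * u ^ 21 * v ^ 3 * z ^ 2 + 360 * u ^ 20 * v ^ 4 - 360 * u ^ 20 * v ^ 4 * z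
        - 360 * u ^ 20 * v ^ 4 * z ^ 2 + 360 * u ^ 19 * v ^ 5 - 360 * u ^ 19 * v ^ 5 * z - 360 * u ^ 19 * v ^ 5 * z ^ 2
        - 108 * u ^ 17 * v ^ 7 + 108 * u ^ 17 * v ^ 7 * z + 108 * u ^ 17 * v ^ 7 * z ^ 2 + 1620 * u ^ 16 * v ^ 8
        - 1620 * u ^ 16 * v ^ 8 * z - 1620 * u ^ 16 * v ^ 8 * z ^ 2 + 4140 * u ^ 15 * v ^ 9 - 4140 * u ^ 15 * v ^ 9 * z
        - 4140 * u ^ 15 * v ^ 9 * z ^ 2 + 4140 * u ^ 14 * v ^ 10 - 4140 * u ^ 14 * v ^ 10 * z - 4140 * u ^ 14 * v ^ 10 * z ^ 2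
        - 5616 * u ^ 12 * v ^ 12 + 5616 * u ^ 12 * v ^ 12 * z + 5616 * u ^ 12 * v ^ 12 * z ^ 2 - 4140 * u ^ 11 * v ^ 13
        + 4140 * u ^ 11 * v ^ 13 * z + 4140 * u ^ 11 * v ^ 13 * z ^ 2 + 1620 * u ^ 10 * v ^ 14 - 1620 * u ^ 10 * v ^ 14 * z
        - 1620 * u ^ 10 * v ^ 14 * z ^ 2 + 1620 * u ^ 9 * v ^ 15 - 1620 * u ^ 9 * v ^ 15 * z - 1620 * u ^ 9 * v ^ 15 * z ^ 2
        + 108 * u ^ 7 * v ^ 17 - 108 * u ^ 7 * v ^ 17 * z - 108 * u ^ 7 * v ^ 17 * z ^ 2 + 360 * u ^ 6 * v ^ 18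
        - 360 * u ^ 6 * v ^ 18 * z - 360 * u ^ 6 * v ^ 18 * z ^ 2 - 180 * u ^ 5 * v ^ 19 + 180 * u ^ 5 * v ^ 19 * z
        + 180 * u ^ 5 * v ^ 19 * z ^ 2 - 180 * u ^ 4 * v ^ 20 + 180 * u ^ 4 * v ^ 20 * z + 180 * u ^ 4 * v ^ 20 * z ^ 2
        + 36 * u ^ 2 * v ^ 22 - 36 * u ^ 2 * v ^ 22 * z - 36 * u ^ 2 * v ^ 22 * z ^ 2
    ) * hz

/-- cofactor: `s52q_CofB · (5·X1∘J − X2n) = 180 f²`. -/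
def s52q_CofB (z u v : R) : R :=
  3 * u ^ 12 * v ^ 2 + u ^ 12 * v ^ 2 * z ^ 2 + u ^ 12 * v ^ 2 * z ^ 3 - 10 * u ^ 10 * v ^ 4 - 5 * u ^ 10 * v ^ 4 * z ^ 2
    - 5 * u ^ 10 * v ^ 4 * z ^ 3 + 10 * u ^ 9 * v ^ 5 + 5 * u ^ 9 * v ^ 5 * z ^ 2 + 5 * u ^ 9 * v ^ 5 * z ^ 3
    + 15 * u ^ 8 * v ^ 6 + 10 * u ^ 8 * v ^ 6 * z ^ 2 + 10 * u ^ 8 * v ^ 6 * z ^ 3 - 7 * u ^ 7 * v ^ 7
    - 14 * u ^ 7 * v ^ 7 * z ^ 2 - 14 * u ^ 7 * v ^ 7 * z ^ 3 - 5 * u ^ 5 * v ^ 9 + 10 * u ^ 5 * v ^ 9 * z ^ 2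
    + 10 * u ^ 5 * v ^ 9 * z ^ 3 + 5 * u ^ 4 * v ^ 10 - 10 * u ^ 4 * v ^ 10 * z ^ 2 - 10 * u ^ 4 * v ^ 10 * z ^ 3
    - 5 * u ^ 3 * v ^ 11 + 5 * u ^ 3 * v ^ 11 * z ^ 2 + 5 * u ^ 3 * v ^ 11 * z ^ 3 + 2 * u ^ 2 * v ^ 12
    - u ^ 2 * v ^ 12 * z ^ 2 - u ^ 2 * v ^ 12 * z ^ 3

theorem s52q_I8b (u v : R) :
    s52q_CofB z u v * (5 * s52q_X1 v (-u) - s52q_X2n z (u ^ 5) (v ^ 5)) = 180 * s52m_kf u v ^ 2 := by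
  unfold s52q_CofB s52q_X1 s52q_X2n s52q_r5 s52m_kf
  linear_combination (
      36 * u ^ 22 * v ^ 2 - 36 * u ^ 22 * v ^ 2 * z - 36 * u ^ 22 * v ^ 2 * z ^ 2 - 180 * u ^ 20 * v ^ 4
        + 180 * u ^ 20 * v ^ 4 * z + 180 * u ^ 20 * v ^ 4 * z ^ 2 + 180 * u ^ 19 * v ^ 5 - 180 * u ^ 19 * v ^ 5 * z
        - 180 * u ^ 19 * v ^ 5 * z ^ 2 + 360 * u ^ 18 * v ^ 6 - 360 * u ^ 18 * v ^ 6 * z - 360 * u ^ 18 * v ^ 6 * z ^ 2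
        - 108 * u ^ 17 * v ^ 7 + 108 * u ^ 17 * v ^ 7 * z + 108 * u ^ 17 * v ^ 7 * z ^ 2 - 1620 * u ^ 15 * v ^ 9
        + 1620 * u ^ 15 * v ^ 9 * z + 1620 * u ^ 15 * v ^ 9 * z ^ 2 + 1620 * u ^ 14 * v ^ 10 - 1620 * u ^ 14 * v ^ 10 * z
        - 1620 * u ^ 14 * v ^ 10 * z ^ 2 + 4140 * u ^ 13 * v ^ 11 - 4140 * u ^ 13 * v ^ 11 * z - 4140 * u ^ 13 * v ^ 11 * z ^ 2
        - 5616 * u ^ 12 * v ^ 12 + 5616 * u ^ 12 * v ^ 12 * z + 5616 * u ^ 12 * v ^ 12 * z ^ 2 + 4140 * u ^ 10 * v ^ 14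
        - 4140 * u ^ 10 * v ^ 14 * z - 4140 * u ^ 10 * v ^ 14 * z ^ 2 - 4140 * u ^ 9 * v ^ 15 + 4140 * u ^ 9 * v ^ 15 * z
        + 4140 * u ^ 9 * v ^ 15 * z ^ 2 + 1620 * u ^ 8 * v ^ 16 - 1620 * u ^ 8 * v ^ 16 * z - 1620 * u ^ 8 * v ^ 16 * z ^ 2
        + 108 * u ^ 7 * v ^ 17 - 108 * u ^ 7 * v ^ 17 * z - 108 * u ^ 7 * v ^ 17 * z ^ 2 - 360 * u ^ 5 * v ^ 19
        + 360 * u ^ 5 * v ^ 19 * z + 360 * u ^ 5 * v ^ 19 * z ^ 2 + 360 * u ^ 4 * v ^ 20 - 360 * u ^ 4 * v ^ 20 * z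
        - 360 * u ^ 4 * v ^ 20 * z ^ 2 - 180 * u ^ 3 * v ^ 21 + 180 * u ^ 3 * v ^ 21 * z + 180 * u ^ 3 * v ^ 21 * z ^ 2
        + 36 * u ^ 2 * v ^ 22 - 36 * u ^ 2 * v ^ 22 * z - 36 * u ^ 2 * v ^ 22 * z ^ 2
    ) * hz

end forms

end Fermat.Agent.Lib.S52
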