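/-
Programme K (S52), helper9, prefix `s52q_`.  KLEIN PACKAGE, part 2: POINT-LEVEL FORM OF THE IDENTITIES.

GENERAL PART: a short Weierstrass curve `E : y² = x³ + a₄x + a₆` over a field, `Δ ≠ 0`.

* `s52q_pt E x y`      : the point `(x, y)` if it lies on `E`, `0` otherwise (a TOTAL function);
* `s52q_pt_dbl`        : the duplication formula in polynomial form;
* `s52q_pt_add`        : the chord formula in polynomial form.
-/
import Mathlib
import Fermat.Agent.Lib.S52.QPsi

set_option autoImplicit false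

namespace Fermat.Agent.Lib.S52

open WeierstrassCurve

section short

variable {K : Type*} [Field K] [DecidableEq K] (E : Affine K)

open Classical in
/-- the point `(x, y)` if it lies on `E` (nonsingular), `0` otherwise. -/
noncomputable def s52q_pt (x y : K) : E.Point :=
  if h : E.Nonsingular x y then Affine.Point.some x y h else 0

variable {E}

lemma s52q_pt_of (x y : K) (h : E.Nonsingular x y) : s52q_pt E x y = Affine.Point.some x y h := by
  unfold s52q_pt
  rw [dif_pos h]

variable (h1 : E.a₁ = 0) (h2 : E.a₂ = 0) (h3 : E.a₃ = 0)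

include h1 h2 h3 in
lemma s52q_equation_iff (x y : K) : E.Equation x y ↔ y ^ 2 = x ^ 3 + E.a₄ * x + E.a₆ := by
  rw [Affine.equation_iff, h1, h2, h3]
  constructor <;> intro h <;> linear_combination h

include h1 h2 h3 in
lemma s52q_nonsingular_iff (hΔ : E.Δ ≠ 0) (x y : K) :
    E.Nonsingular x y ↔ y ^ 2 = x ^ 3 + E.a₄ * x + E.a₆ := by
  rw [← Affine.equation_iff_nonsingular_of_Δ_ne_zero hΔ, s52q_equation_iff h1 h2 h3]

include h1 h3 in
lemma s52q_negY (x y : K) : E.negY x y = -y := by
  rw [Affine.negY, h1, h3]; ring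

include h1 h3 in
lemma s52q_pt_neg (x y : K) : -s52q_pt E x y = s52q_pt E x (-y) := by
  by_cases h : E.Nonsingular x y
  · have h' : E.Nonsingular x (-y) := by
      have := (Affine.nonsingular_neg x y).mpr h
      rwa [s52q_negY h1 h3] at this
    rw [s52q_pt_of x y h, s52q_pt_of x (-y) h', Affine.Point.neg_some]
    congr 1
    exact s52q_negY h1 h3 x y
  · have h' : ¬ E.Nonsingular x (-y) := by
      intro h'
      apply h
      have := (Affine.nonsingular_neg x (-y)).mpr h'
      rwa [s52q_negY h1 h3, neg_neg] at this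
    unfold s52q_pt
    rw [dif_neg h, dif_neg h', neg_zero]

include h1 h2 h3 in
/-- on a nonsingular point with `y = 0` the derivative `3x² + a₄` does not vanish. -/
lemma s52q_deriv_ne {x y : K} (h : E.Nonsingular x y) (hy : y = 0) : 3 * x ^ 2 + E.a₄ ≠ 0 := by
  rw [Affine.nonsingular_iff'] at h
  rcases h.2 with h' | h'
  · rw [h1, h2] at h'
    intro h0
    apply h'
    linear_combination -h0
  · rw [h1, h3, hy] at h'
    exact absurd (by ring) h'

include h1 h2 h3 in
/-- **duplication formula** in polynomial form. -/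
theorem s52q_pt_dbl {x y x' y' : K} (h : E.Nonsingular x y)
    (hx : (3 * x ^ 2 + E.a₄) ^ 2 = 4 * y ^ 2 * (2 * x + x'))
    (hy : 2 * y * y' + 2 * y ^ 2 + (3 * x ^ 2 + E.a₄) * (x' - x) = 0) :
    s52q_pt E x y + s52q_pt E x y = s52q_pt E x' y' := by
  have hy0 : y ≠ 0 := by
    intro h0
    have := s52q_deriv_ne h1 h2 h3 h h0
    rw [h0] at hx
    apply this
    have : (3 * x ^ 2 + E.a₄) ^ 2 = 0 := by rw [hx]; ring
    exact pow_eq_zero_iff (two_ne_zero) |>.mp this
  have hne : y ≠ E.negY x y := by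
    rw [s52q_negY h1 h3]
    intro h0
    apply hy0
    have : (2 : K) * y = 0 := by linear_combination h0
    rcases mul_eq_zero.mp this with h2' | h2'
    · exfalso
      -- characteristic 2: then `y = -y` always; use the nonsingularity again
      have hy2 : (2 : K) * y * y' + 2 * y ^ 2 = 0 := by rw [h2']; ring
      have h5 : (3 * x ^ 2 + E.a₄) * (x' - x) = 0 := by linear_combination hy - hy2
      have h6 : (3 * x ^ 2 + E.a₄) ^ 2 = 0 := by
        rw [hx]
        have : (4 : K) = 2 * 2 := by norm_num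
        rw [this, h2']; ring
      have h7 : 3 * x ^ 2 + E.a₄ = 0 := pow_eq_zero_iff (two_ne_zero) |>.mp h6
      rw [Affine.nonsingular_iff'] at h
      rcases h.2 with h' | h'
      · rw [h1, h2] at h'
        apply h'
        linear_combination -h7
      · rw [h1, h3] at h'
        apply h'
        rw [h2']; ring
    · exact h2'
  have hy2 : y + y ≠ 0 := by
    intro h0
    apply hne
    rw [s52q_negY h1 h3]
    linear_combination h0
  rw [s52q_pt_of x y h, Affine.Point.add_self_of_Y_ne hne]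
  have h2ne : (2 : K) ≠ 0 := by
    intro h0
    apply hy2
    have : y + y = 2 * y := by ring
    rw [this, h0, zero_mul]
  have hD : 2 * y ≠ 0 := mul_ne_zero h2ne hy0
  have hsl : E.slope x x y y = (3 * x ^ 2 + E.a₄) / (2 * y) := by
    rw [Affine.slope_of_Y_ne rfl hne, s52q_negY h1 h3, h1, h2]
    congr 1 <;> ring
  have hL2 : (E.slope x x y y) ^ 2 = 2 * x + x' := by
    rw [hsl, div_pow, div_eq_iff (pow_ne_zero 2 hD)]
    linear_combination hx
  have hL1 : E.slope x x y y * (x' - x) = -y - y' := by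
    rw [hsl, div_mul_eq_mul_div, div_eq_iff hD]
    linear_combination hy
  have hX : E.addX x x (E.slope x x y y) = x' := by
    rw [Affine.addX, h1, h2]
    linear_combination hL2
  have hY : E.addY x x y (E.slope x x y y) = y' := by
    rw [Affine.addY, Affine.negAddY, s52q_negY h1 h3, hX]
    linear_combination -hL1
  have hns := Affine.nonsingular_add h h (fun hxy => hne hxy.right)
  have hns' : E.Nonsingular x' y' := by
    rw [hX, hY] at hns
    exact hns
  rw [s52q_pt_of x' y' hns']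
  congr 1

include h1 h2 h3 in
/-- **chord formula** in polynomial form. -/
theorem s52q_pt_add {x₁ y₁ x₂ y₂ x₃ y₃ : K} (hA : E.Nonsingular x₁ y₁) (hB : E.Nonsingular x₂ y₂)
    (hne : x₁ ≠ x₂)
    (hx : (y₁ - y₂) ^ 2 = (x₁ + x₂ + x₃) * (x₁ - x₂) ^ 2)
    (hy : -(y₁ - y₂) * (x₃ - x₁) - y₁ * (x₁ - x₂) = y₃ * (x₁ - x₂)) :
    s52q_pt E x₁ y₁ + s52q_pt E x₂ y₂ = s52q_pt E x₃ y₃ := by
  rw [s52q_pt_of x₁ y₁ hA, s52q_pt_of x₂ y₂ hB, Affine.Point.add_of_X_ne hne]
  have hd : x₁ - x₂ ≠ 0 := sub_ne_zero.mpr hne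
  have hsl : E.slope x₁ x₂ y₁ y₂ = (y₁ - y₂) / (x₁ - x₂) := Affine.slope_of_X_ne hne
  have hL2 : (E.slope x₁ x₂ y₁ y₂) ^ 2 = x₁ + x₂ + x₃ := by
    rw [hsl, div_pow, div_eq_iff (pow_ne_zero 2 hd)]
    linear_combination hx
  have hL1 : E.slope x₁ x₂ y₁ y₂ * (x₃ - x₁) = -y₁ - y₃ := by
    rw [hsl, div_mul_eq_mul_div, div_eq_iff hd]
    linear_combination -hy
  have hX : E.addX x₁ x₂ (E.slope x₁ x₂ y₁ y₂) = x₃ := by
    rw [Affine.addX, h1, h2]
    linear_combination hL2
  have hY : E.addY x₁ x₂ y₁ (E.slope x₁ x₂ y₁ y₂) = y₃ := by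
    rw [Affine.addY, Affine.negAddY, s52q_negY h1 h3, hX]
    linear_combination -hL1
  have hns := Affine.nonsingular_add hA hB (fun hxy => hne hxy.left)
  have hns' : E.Nonsingular x₃ y₃ := by
    rw [hX, hY] at hns
    exact hns
  rw [s52q_pt_of x₃ y₃ hns']
  congr 1

end short

/-! ### arithmetic in a group killed by `5` -/

section five

variable {M : Type*} [AddCommGroup M]

lemma s52q_int_prime_five : Prime (5 : ℤ) := Int.prime_iff_natAbs_prime.mpr (by norm_num)

lemma s52q_five_zsmul_of_dvd {P : M} (h5 : (5 : ℕ) • P = 0) {d e : ℤ} (h : (5 : ℤ) ∣ d - e) :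
    d • P = e • P := by
  obtain ⟨k, hk⟩ := h
  have hd : d = e + k * 5 := by linarith
  have h5' : (5 : ℤ) • P = 0 := by
    rw [← h5, ← natCast_zsmul]; rfl
  rw [hd, add_zsmul, mul_zsmul, h5', zsmul_zero, add_zero]

/-- independence of two points of order `5` from "`Q` is not a multiple of `P`". -/
theorem s52q_five_indep {P Q : M} (hP : (5 : ℕ) • P = 0) (hQ : (5 : ℕ) • Q = 0) (hP0 : P ≠ 0)
    (hQP : ∀ m : ℤ, Q ≠ m • P) (a b : ℤ) (hab : a • P + b • Q = 0) :
    (5 : ℤ) ∣ a ∧ (5 : ℤ) ∣ b := by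
  have hb : (5 : ℤ) ∣ b := by
    by_contra hb
    -- an inverse of `b` mod 5
    have hcop : IsCoprime b 5 := by
      rw [isCoprime_comm]
      exact (s52q_int_prime_five.irreducible.coprime_iff_not_dvd).mpr hb
    obtain ⟨s, t, hst⟩ := hcop
    apply hQP (-(s * a))
    have h1 : Q = (s * b) • Q := by
      rw [s52q_five_zsmul_of_dvd hQ (d := s * b) (e := 1) ⟨-t, by linarith⟩, one_zsmul]
    have h2 : b • Q = -(a • P) := by
      rw [eq_neg_iff_add_eq_zero, add_comm]; exact hab
    rw [h1, mul_zsmul, h2, zsmul_neg, ← mul_zsmul, neg_zsmul]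
  refine ⟨?_, hb⟩
  by_contra ha
  have h0 : b • Q = 0 := by
    rw [s52q_five_zsmul_of_dvd hQ (d := b) (e := 0) (by simpa using hb), zero_zsmul]
  rw [h0, add_zero] at hab
  have hcop : IsCoprime a 5 := by
    rw [isCoprime_comm]
    exact (s52q_int_prime_five.irreducible.coprime_iff_not_dvd).mpr ha
  obtain ⟨s, t, hst⟩ := hcop
  apply hP0
  have h1 : P = (s * a) • P := by
    rw [s52q_five_zsmul_of_dvd hP (d := s * a) (e := 1) ⟨-t, by linarith⟩, one_zsmul]
  rw [h1, mul_zsmul, hab, zsmul_zero]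

end five

end Fermat.Agent.Lib.S52
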