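/-
Programme K (S52), helper9, prefix `s52q_`.  KLEIN PACKAGE, part 3: THE BASIS `B c₄ c₆ w = ![P₁ w, P₂ w]`
OF THE 5-TORSION OF `𝓔_w = s52_sh c₄ c₆` (total functions of `w`, junk off the fibre).

* `s52q_Esh c4 c6`          : the curve `s52_sh c4 c6` over `ℚ̄` (its points are `s58_Pt (s52_sh c4 c6)`);
* `s52q_P1 c4 c6 w`         : the point `(X1 w, Y1 w)`;
* `s52q_P2z c4 c6 z w`      : the point `(X2n z (u⁵) (v⁵) / 5, Y2n z (u⁵) (v⁵) / 5)`, `z` a root of `Φ₅`;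
* `s52q_B c4 c6 w`          : `![P1 w, P2z s52_zeta w]`;
* on the fibre (`s52_OnFibre c4 c6 w`, `c4³ ≠ c6²`): both are affine (nonsingular) points.
-/
import Mathlib
import Fermat.Agent.Lib.S52.Iface
import Fermat.Agent.Lib.S52.QMain
import Fermat.Agent.Lib.S52.QTorsId2
import Fermat.Agent.Lib.S52.QTorsPt

set_option autoImplicit false

open scoped WeierstrassCurve.Affine

namespace Fermat.Agent.Lib.S52

open WeierstrassCurve Fermat.Agent.Lib.S58 Matrix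

local notation "Kb" => AlgebraicClosure ℚ

/-- the curve `s52_sh c4 c6` over `ℚ̄`. -/
noncomputable abbrev s52q_Esh (c4 c6 : ℤ) : Affine Kb :=
  ((s52_sh c4 c6).map (Int.castRingHom ℚ))⁄Kb

/-- `P₁(w)` (total). -/
noncomputable def s52q_P1 (c4 c6 : ℤ) (w : Fin 2 → Kb) : s58_Pt (s52_sh c4 c6) :=
  s52q_pt (s52q_Esh c4 c6) (s52q_X1 (w 0) (w 1)) (s52q_Y1 (w 0) (w 1))

/-- `P₂(w)` for the root `z` of `Φ₅` (total). -/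
noncomputable def s52q_P2z (c4 c6 : ℤ) (z : Kb) (w : Fin 2 → Kb) : s58_Pt (s52_sh c4 c6) :=
  s52q_pt (s52q_Esh c4 c6) (s52q_X2n z (w 0 ^ 5) (w 1 ^ 5) / 5) (s52q_Y2n z (w 0 ^ 5) (w 1 ^ 5) / 5)

/-- **the basis** `![P₁ w, P₂ w]`. -/
noncomputable def s52q_B (c4 c6 : ℤ) (w : Fin 2 → Kb) : Fin 2 → s58_Pt (s52_sh c4 c6) :=
  ![s52q_P1 c4 c6 w, s52q_P2z c4 c6 s52_zeta w]

section curve

variable (c4 c6 : ℤ)

lemma s52q_Esh_a₁ : (s52q_Esh c4 c6).a₁ = 0 := s52q_E_a₁ (-27 * c4) (-54 * c6)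
lemma s52q_Esh_a₂ : (s52q_Esh c4 c6).a₂ = 0 := s52q_E_a₂ (-27 * c4) (-54 * c6)
lemma s52q_Esh_a₃ : (s52q_Esh c4 c6).a₃ = 0 := s52q_E_a₃ (-27 * c4) (-54 * c6)

lemma s52q_Esh_Δ_ne (h : c4 ^ 3 ≠ c6 ^ 2) : (s52q_Esh c4 c6).Δ ≠ 0 := by
  refine s52q_E_Δ_ne (-27 * c4) (-54 * c6) ?_
  have : 4 * (-27 * c4) ^ 3 + 27 * (-54 * c6) ^ 2 = -78732 * (c4 ^ 3 - c6 ^ 2) := by ring
  rw [this]
  exact mul_ne_zero (by norm_num) (sub_ne_zero.mpr h)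

variable {c4 c6} {w : Fin 2 → Kb} (hw : s52_OnFibre c4 c6 w)

include hw in
lemma s52q_Esh_a₄ : (s52q_Esh c4 c6).a₄ = 27 * s52m_kH (w 0) (w 1) := by
  have h := s52q_E_a₄ (-27 * c4) (-54 * c6)
  have h1 : s52m_kH (w 0) (w 1) = -((c4 : ℤ) : Kb) := hw.1
  rw [h1]
  refine h.trans ?_
  push_cast
  ring

include hw in
lemma s52q_Esh_a₆ : (s52q_Esh c4 c6).a₆ = 54 * s52m_kT (w 0) (w 1) := by
  have h := s52q_E_a₆ (-27 * c4) (-54 * c6)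
  have h1 : s52m_kT (w 0) (w 1) = -((c6 : ℤ) : Kb) := hw.2
  rw [h1]
  refine h.trans ?_
  push_cast
  ring

include hw in
/-- on the fibre, nonsingular points are the solutions of `y² = x³ + 27 H(w) x + 54 T(w)`. -/
lemma s52q_Esh_ns_iff (h : c4 ^ 3 ≠ c6 ^ 2) (x y : Kb) :
    (s52q_Esh c4 c6).Nonsingular x y ↔
      y ^ 2 = x ^ 3 + 27 * s52m_kH (w 0) (w 1) * x + 54 * s52m_kT (w 0) (w 1) := by
  rw [s52q_nonsingular_iff (s52q_Esh_a₁ c4 c6) (s52q_Esh_a₂ c4 c6) (s52q_Esh_a₃ c4 c6)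
    (s52q_Esh_Δ_ne c4 c6 h), s52q_Esh_a₄ hw, s52q_Esh_a₆ hw]

include hw in
/-- `f(w) ≠ 0` on the fibre. -/
lemma s52q_kf_ne (h : c4 ^ 3 ≠ c6 ^ 2) : s52m_kf (w 0) (w 1) ≠ 0 := by
  intro h0
  have hs := s52m_klein_syzygy (w 0) (w 1)
  have h1 : s52m_kH (w 0) (w 1) = -((c4 : ℤ) : Kb) := hw.1
  have h2 : s52m_kT (w 0) (w 1) = -((c6 : ℤ) : Kb) := hw.2
  rw [h0, h1, h2] at hs
  apply h
  have h3 : ((c4 ^ 3 - c6 ^ 2 : ℤ) : Kb) = 0 := by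
    push_cast
    linear_combination -hs
  have := Int.cast_eq_zero.mp h3
  linarith

include hw in
lemma s52q_P1_ns (h : c4 ^ 3 ≠ c6 ^ 2) :
    (s52q_Esh c4 c6).Nonsingular (s52q_X1 (w 0) (w 1)) (s52q_Y1 (w 0) (w 1)) :=
  (s52q_Esh_ns_iff hw h _ _).mpr (s52q_P1_on (w 0) (w 1))

include hw in
lemma s52q_P2_ns (h : c4 ^ 3 ≠ c6 ^ 2) (z : Kb) (hz : z ^ 4 + z ^ 3 + z ^ 2 + z + 1 = 0) :
    (s52q_Esh c4 c6).Nonsingular (s52q_X2n z (w 0 ^ 5) (w 1 ^ 5) / 5)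
      (s52q_Y2n z (w 0 ^ 5) (w 1 ^ 5) / 5) := by
  rw [s52q_Esh_ns_iff hw h, s52q_kH_eq, s52q_kT_eq]
  have := s52q_P2_on z hz (w 0 ^ 5) (w 1 ^ 5)
  linear_combination (1 / 125 : Kb) * this

include hw in
lemma s52q_P1_eq (h : c4 ^ 3 ≠ c6 ^ 2) :
    s52q_P1 c4 c6 w = Affine.Point.some _ _ (s52q_P1_ns hw h) :=
  s52q_pt_of _ _ _

include hw in
lemma s52q_P2z_eq (h : c4 ^ 3 ≠ c6 ^ 2) (z : Kb) (hz : z ^ 4 + z ^ 3 + z ^ 2 + z + 1 = 0) :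
    s52q_P2z c4 c6 z w = Affine.Point.some _ _ (s52q_P2_ns hw h z hz) :=
  s52q_pt_of _ _ _

include hw in
lemma s52q_P1_ne_zero (h : c4 ^ 3 ≠ c6 ^ 2) : s52q_P1 c4 c6 w ≠ 0 := by
  rw [s52q_P1_eq hw h]
  exact Affine.Point.some_ne_zero _

include hw in
lemma s52q_P2z_ne_zero (h : c4 ^ 3 ≠ c6 ^ 2) (z : Kb) (hz : z ^ 4 + z ^ 3 + z ^ 2 + z + 1 = 0) :
    s52q_P2z c4 c6 z w ≠ 0 := by
  rw [s52q_P2z_eq hw h z hz]
  exact Affine.Point.some_ne_zero _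

end curve

end Fermat.Agent.Lib.S52
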