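/-
Programme K (S52), helper9, prefix `s52q_`.  KLEIN PACKAGE, part 4: THE POINT-LEVEL FACTS ABOUT THE BASIS
`s52q_B c₄ c₆ w = ![P₁ w, P₂ w]` (the hypotheses of `s52m_final3` / `s52d_kleinIso_of`):

* `s52q_htors`  : `5 • B w i = 0`;
* `s52q_hind`   : `a • B w 0 + b • B w 1 = 0 → 5 ∣ a ∧ 5 ∣ b`;
* `s52q_hS`, `s52q_hZ` : the transformation rules under `S` (matrix `!![0,-1;1,0]`) and `ζ·I` (matrix `1`);
* `s52q_hGalzeta`, `s52q_hGal` : the Galois rules.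
(`s52q_hT`, the rule under `T₅` with matrix `!![1,-1;0,1]`, is in `QTorsT.lean`.)
-/
import Mathlib
import Fermat.Agent.Lib.S52.QTorsB

set_option autoImplicit false

open scoped WeierstrassCurve.Affine

namespace Fermat.Agent.Lib.S52

open WeierstrassCurve Fermat.Agent.Lib.S58 Matrix

local notation "Kb" => AlgebraicClosure ℚ

/-! ### the generators acting on row vectors -/

lemma s52q_vecMul_Z (w : Fin 2 → Kb) (i : Fin 2) : (w ᵥ* s52_Zmat) i = s52_zeta * w i := by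
  fin_cases i <;> simp [s52_Zmat, vecMul, dotProduct, Fin.sum_univ_two, mul_comm]

lemma s52q_vecMul_T_zero (w : Fin 2 → Kb) : (w ᵥ* s52_Tmat) 0 = s52_zeta ^ 3 * w 0 := by
  simp [s52_Tmat, vecMul, dotProduct, Fin.sum_univ_two, mul_comm]

lemma s52q_vecMul_T_one (w : Fin 2 → Kb) : (w ᵥ* s52_Tmat) 1 = s52_zeta ^ 2 * w 1 := by
  simp [s52_Tmat, vecMul, dotProduct, Fin.sum_univ_two, mul_comm]

lemma s52q_vecMul_S_zero (w : Fin 2 → Kb) :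
    (w ᵥ* s52_Smat) 0 = (s52q_r5 s52_zeta / 5) *
      (-s52q_ca s52_zeta * w 0 + s52q_cb s52_zeta * w 1) := by
  rw [s52q_r5_eq _ s52_zeta_spec, s52q_ca_eq _ s52_zeta_spec]
  simp [s52_Smat, s52q_cb, vecMul, dotProduct, Fin.sum_univ_two]
  ring

lemma s52q_vecMul_S_one (w : Fin 2 → Kb) :
    (w ᵥ* s52_Smat) 1 = (s52q_r5 s52_zeta / 5) *
      (s52q_cb s52_zeta * w 0 + s52q_ca s52_zeta * w 1) := by
  rw [s52q_r5_eq _ s52_zeta_spec, s52q_ca_eq _ s52_zeta_spec]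
  simp [s52_Smat, s52q_cb, vecMul, dotProduct, Fin.sum_univ_two]
  ring

/-! ### homogeneity -/

section homog

variable {R : Type*} [CommRing R]

lemma s52q_X1_smul (t u v : R) : s52q_X1 (t * u) (t * v) = t ^ 10 * s52q_X1 u v := by
  unfold s52q_X1; ring

lemma s52q_Y1_smul (t u v : R) : s52q_Y1 (t * u) (t * v) = t ^ 15 * s52q_Y1 u v := by
  unfold s52q_Y1; ring

lemma s52q_X2n_smul (z t U V : R) : s52q_X2n z (t * U) (t * V) = t ^ 2 * s52q_X2n z U V := by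
  unfold s52q_X2n; ring

lemma s52q_Y2n_smul (z t U V : R) : s52q_Y2n z (t * U) (t * V) = t ^ 3 * s52q_Y2n z U V := by
  unfold s52q_Y2n s52q_Gc; ring

lemma s52q_ca_sq_add (z : R) (hz : z ^ 4 + z ^ 3 + z ^ 2 + z + 1 = 0) :
    s52q_ca z ^ 2 + s52q_cb z ^ 2 = -5 := by
  unfold s52q_ca s52q_cb
  linear_combination (6 - 2 * z + 2 * z ^ 2) * hz

/-- the roots of `Φ₅` are the powers of one of them. -/
lemma s52q_root_cases {K : Type*} [Field K] (z y : K) (hz : z ^ 4 + z ^ 3 + z ^ 2 + z + 1 = 0)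
    (hy : y ^ 4 + y ^ 3 + y ^ 2 + y + 1 = 0) : y = z ∨ y = z ^ 2 ∨ y = z ^ 3 ∨ y = z ^ 4 := by
  have h : (y - z) * (y - z ^ 2) * (y - z ^ 3) * (y - z ^ 4) = 0 := by
    linear_combination hy + (-y ^ 3 - y ^ 2 + y ^ 2 * z + y ^ 2 * z ^ 3 - y + y * z - y * z ^ 5
      - 1 + z - z ^ 5 + z ^ 6) * hz
  rcases mul_eq_zero.mp h with h | h
  · rcases mul_eq_zero.mp h with h | h
    · rcases mul_eq_zero.mp h with h | h
      · exact Or.inl (sub_eq_zero.mp h)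
      · exact Or.inr (Or.inl (sub_eq_zero.mp h))
    · exact Or.inr (Or.inr (Or.inl (sub_eq_zero.mp h)))
  · exact Or.inr (Or.inr (Or.inr (sub_eq_zero.mp h)))

end homog

/-! ### the fibre is stable under `J`, `−1`, Galois -/

section fibre

variable {c4 c6 : ℤ} {w : Fin 2 → Kb}

lemma s52q_onFibre_J (hw : s52_OnFibre c4 c6 w) : s52_OnFibre c4 c6 ![w 1, -w 0] := by
  refine ⟨?_, ?_⟩
  · show s52m_kH (w 1) (-w 0) = _
    rw [s52m_kH_swap]; exact hw.1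
  · show s52m_kT (w 1) (-w 0) = _
    rw [s52m_kT_swap]; exact hw.2

lemma s52q_onFibre_galois (hw : s52_OnFibre c4 c6 w) (σ : s58_G) :
    s52_OnFibre c4 c6 (fun k => σ (w k)) := by
  refine ⟨?_, ?_⟩
  · show s52m_kH (σ (w 0)) (σ (w 1)) = _
    have h : s52m_kH (σ (w 0)) (σ (w 1)) = σ (s52m_kH (w 0) (w 1)) := by
      unfold s52m_kH
      simp only [map_sub, map_add, map_mul, map_pow, map_neg, map_ofNat]
    rw [h, show s52m_kH (w 0) (w 1) = -((c4 : ℤ) : Kb) from hw.1, map_neg, map_intCast]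
  · show s52m_kT (σ (w 0)) (σ (w 1)) = _
    have h : s52m_kT (σ (w 0)) (σ (w 1)) = σ (s52m_kT (w 0) (w 1)) := by
      unfold s52m_kT
      simp only [map_sub, map_add, map_mul, map_pow, map_neg, map_ofNat]
    rw [h, show s52m_kT (w 0) (w 1) = -((c6 : ℤ) : Kb) from hw.2, map_neg, map_intCast]

end fibre

/-! ### torsion -/

section tors

variable {c4 c6 : ℤ} {w : Fin 2 → Kb} (hw : s52_OnFibre c4 c6 w) (h : c4 ^ 3 ≠ c6 ^ 2)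

include hw h

/-- `2 P₁(w) = P₁(J w)`. -/
theorem s52q_P1_dbl : s52q_P1 c4 c6 w + s52q_P1 c4 c6 w = s52q_P1 c4 c6 ![w 1, -w 0] := by
  unfold s52q_P1
  refine s52q_pt_dbl (s52q_Esh_a₁ c4 c6) (s52q_Esh_a₂ c4 c6) (s52q_Esh_a₃ c4 c6)
    (s52q_P1_ns hw h) ?_ ?_
  · rw [s52q_Esh_a₄ hw]
    exact s52q_P1_dbl_x (w 0) (w 1)
  · rw [s52q_Esh_a₄ hw]
    exact s52q_P1_dbl_y (w 0) (w 1)

omit hw h in
/-- `P₁(−w) = −P₁(w)`. -/
theorem s52q_P1_neg_arg : s52q_P1 c4 c6 ![-w 0, -w 1] = -s52q_P1 c4 c6 w := by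
  unfold s52q_P1
  rw [s52q_pt_neg (s52q_Esh_a₁ c4 c6) (s52q_Esh_a₃ c4 c6)]
  show s52q_pt _ (s52q_X1 (-w 0) (-w 1)) (s52q_Y1 (-w 0) (-w 1)) = _
  rw [s52q_X1_neg, s52q_Y1_neg]

theorem s52q_P1_tors : 5 • s52q_P1 c4 c6 w = 0 := by
  have h2 := s52q_P1_dbl hw h
  have h4 := s52q_P1_dbl (s52q_onFibre_J hw) h
  have hJJ : (![(![w 1, -w 0] : Fin 2 → Kb) 1, -(![w 1, -w 0] : Fin 2 → Kb) 0] : Fin 2 → Kb) =
      ![-w 0, -w 1] := by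
    simp
  rw [hJJ, s52q_P1_neg_arg, ← h2] at h4
  have : (5 : ℕ) • s52q_P1 c4 c6 w =
      (s52q_P1 c4 c6 w + s52q_P1 c4 c6 w + (s52q_P1 c4 c6 w + s52q_P1 c4 c6 w)) +
        s52q_P1 c4 c6 w := by
    abel
  rw [this, h4, neg_add_cancel]

/-- `2 P₂[z](w) = P₂[z²](w)`. -/
theorem s52q_P2z_dbl (z : Kb) (hz : z ^ 4 + z ^ 3 + z ^ 2 + z + 1 = 0) :
    s52q_P2z c4 c6 z w + s52q_P2z c4 c6 z w = s52q_P2z c4 c6 (z ^ 2) w := by
  unfold s52q_P2z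
  refine s52q_pt_dbl (s52q_Esh_a₁ c4 c6) (s52q_Esh_a₂ c4 c6) (s52q_Esh_a₃ c4 c6)
    (s52q_P2_ns hw h z hz) ?_ ?_
  · rw [s52q_Esh_a₄ hw, s52q_kH_eq]
    linear_combination (1 / 625 : Kb) * s52q_P2_dbl_x z hz (w 0 ^ 5) (w 1 ^ 5)
  · rw [s52q_Esh_a₄ hw, s52q_kH_eq]
    linear_combination (1 / 125 : Kb) * s52q_P2_dbl_y z hz (w 0 ^ 5) (w 1 ^ 5)

omit hw h in
/-- `P₂[z⁴](w) = −P₂[z](w)`. -/
theorem s52q_P2z_four (z : Kb) (hz : z ^ 4 + z ^ 3 + z ^ 2 + z + 1 = 0) :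
    s52q_P2z c4 c6 (z ^ 4) w = -s52q_P2z c4 c6 z w := by
  unfold s52q_P2z
  rw [s52q_pt_neg (s52q_Esh_a₁ c4 c6) (s52q_Esh_a₃ c4 c6), s52q_X2n_four z hz,
    s52q_Y2n_four z hz, neg_div]

theorem s52q_P2z_tors (z : Kb) (hz : z ^ 4 + z ^ 3 + z ^ 2 + z + 1 = 0) :
    5 • s52q_P2z c4 c6 z w = 0 := by
  have h2 := s52q_P2z_dbl hw h z hz
  have h4 := s52q_P2z_dbl hw h (z ^ 2) (s52q_phi_sq z hz)
  have e : (z ^ 2) ^ 2 = z ^ 4 := by ring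
  rw [e, s52q_P2z_four z hz, ← h2] at h4
  have : (5 : ℕ) • s52q_P2z c4 c6 z w =
      (s52q_P2z c4 c6 z w + s52q_P2z c4 c6 z w +
        (s52q_P2z c4 c6 z w + s52q_P2z c4 c6 z w)) + s52q_P2z c4 c6 z w := by
    abel
  rw [this, h4, neg_add_cancel]

/-- the multiples of `P₁(w)`. -/
lemma s52q_P1_multiples (m : ℤ) :
    m • s52q_P1 c4 c6 w = 0 ∨ m • s52q_P1 c4 c6 w = s52q_P1 c4 c6 w ∨
      m • s52q_P1 c4 c6 w = -s52q_P1 c4 c6 w ∨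
      m • s52q_P1 c4 c6 w = s52q_P1 c4 c6 ![w 1, -w 0] ∨
      m • s52q_P1 c4 c6 w = -s52q_P1 c4 c6 ![w 1, -w 0] := by
  have h5 := s52q_P1_tors hw h
  have h2 := s52q_P1_dbl hw h
  have hc : (5 : ℤ) ∣ m - 0 ∨ (5 : ℤ) ∣ m - 1 ∨ (5 : ℤ) ∣ m - (-1) ∨ (5 : ℤ) ∣ m - 2 ∨
      (5 : ℤ) ∣ m - (-2) := by omega
  rcases hc with hc | hc | hc | hc | hc
  · left
    rw [s52q_five_zsmul_of_dvd h5 hc, zero_zsmul]
  · right; left
    rw [s52q_five_zsmul_of_dvd h5 hc, one_zsmul]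
  · right; right; left
    rw [s52q_five_zsmul_of_dvd h5 hc, neg_one_zsmul]
  · right; right; right; left
    rw [s52q_five_zsmul_of_dvd h5 hc, two_zsmul, h2]
  · right; right; right; right
    rw [s52q_five_zsmul_of_dvd h5 hc, neg_zsmul, two_zsmul, h2]

/-- `P₂(w)` is not a multiple of `P₁(w)`. -/
theorem s52q_P2_not_multiple (z : Kb) (hz : z ^ 4 + z ^ 3 + z ^ 2 + z + 1 = 0) (m : ℤ) :
    s52q_P2z c4 c6 z w ≠ m • s52q_P1 c4 c6 w := by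
  intro hm
  have hf := s52q_kf_ne hw h
  have hJ := s52q_onFibre_J hw
  -- abscissae
  have hx2 : s52q_absc (s52q_Esh c4 c6) (s52q_P2z c4 c6 z w) =
      s52q_X2n z (w 0 ^ 5) (w 1 ^ 5) / 5 := by
    rw [s52q_P2z_eq hw h z hz]; rfl
  have hx1 : s52q_absc (s52q_Esh c4 c6) (s52q_P1 c4 c6 w) = s52q_X1 (w 0) (w 1) := by
    rw [s52q_P1_eq hw h]; rfl
  have hx1J : s52q_absc (s52q_Esh c4 c6) (s52q_P1 c4 c6 ![w 1, -w 0]) =
      s52q_X1 (w 1) (-w 0) := by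
    rw [s52q_P1_eq hJ h]; rfl
  have ha : s52q_X2n z (w 0 ^ 5) (w 1 ^ 5) / 5 ≠ s52q_X1 (w 0) (w 1) := by
    intro e
    have h8 := s52q_I8a z hz (w 0) (w 1)
    have e' : 5 * s52q_X1 (w 0) (w 1) - s52q_X2n z (w 0 ^ 5) (w 1 ^ 5) = 0 := by
      rw [← e]; ring
    rw [e', mul_zero] at h8
    have : s52m_kf (w 0) (w 1) ^ 2 = 0 := by
      have h180 : (180 : Kb) ≠ 0 := by norm_num
      exact (mul_eq_zero.mp h8.symm).resolve_left h180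
    exact hf (pow_eq_zero_iff (two_ne_zero) |>.mp this)
  have hb : s52q_X2n z (w 0 ^ 5) (w 1 ^ 5) / 5 ≠ s52q_X1 (w 1) (-w 0) := by
    intro e
    have h8 := s52q_I8b z hz (w 0) (w 1)
    have e' : 5 * s52q_X1 (w 1) (-w 0) - s52q_X2n z (w 0 ^ 5) (w 1 ^ 5) = 0 := by
      rw [← e]; ring
    rw [e', mul_zero] at h8
    have : s52m_kf (w 0) (w 1) ^ 2 = 0 := by
      have h180 : (180 : Kb) ≠ 0 := by norm_num
      exact (mul_eq_zero.mp h8.symm).resolve_left h180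
    exact hf (pow_eq_zero_iff (two_ne_zero) |>.mp this)
  rcases s52q_P1_multiples hw h m with e | e | e | e | e
  · rw [e] at hm
    exact s52q_P2z_ne_zero hw h z hz hm
  · rw [e] at hm
    apply ha
    rw [← hx2, hm, hx1]
  · rw [e] at hm
    apply ha
    rw [← hx2, hm, s52q_absc_neg, hx1]
  · rw [e] at hm
    apply hb
    rw [← hx2, hm, hx1J]
  · rw [e] at hm
    apply hb
    rw [← hx2, hm, s52q_absc_neg, hx1J]

/-- **[hind]** -/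
theorem s52q_hind_aux (a b : ℤ) (hab : a • s52q_B c4 c6 w 0 + b • s52q_B c4 c6 w 1 = 0) :
    (5 : ℤ) ∣ a ∧ (5 : ℤ) ∣ b :=
  s52q_five_indep (s52q_P1_tors hw h) (s52q_P2z_tors hw h s52_zeta s52_zeta_spec)
    (s52q_P1_ne_zero hw h) (s52q_P2_not_multiple hw h s52_zeta s52_zeta_spec) a b hab

/-- **[htors]** -/
theorem s52q_htors_aux (i : Fin 2) : 5 • s52q_B c4 c6 w i = 0 := by
  fin_cases i
  · exact s52q_P1_tors hw h
  · exact s52q_P2z_tors hw h s52_zeta s52_zeta_spec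

end tors

/-! ### the rules under `ζ·I` and `S` -/

section rules

variable (c4 c6 : ℤ) (w : Fin 2 → Kb)

lemma s52q_zeta_pow_five : s52_zeta ^ 5 = 1 := s52q_z5 s52_zeta s52_zeta_spec

theorem s52q_P1_Z : s52q_P1 c4 c6 (w ᵥ* s52_Zmat) = s52q_P1 c4 c6 w := by
  unfold s52q_P1
  rw [s52q_vecMul_Z, s52q_vecMul_Z, s52q_X1_smul, s52q_Y1_smul]
  have h10 : s52_zeta ^ 10 = 1 := by
    rw [show (10 : ℕ) = 5 * 2 by norm_num, pow_mul, s52q_zeta_pow_five, one_pow]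
  have h15 : s52_zeta ^ 15 = 1 := by
    rw [show (15 : ℕ) = 5 * 3 by norm_num, pow_mul, s52q_zeta_pow_five, one_pow]
  rw [h10, h15, one_mul, one_mul]

theorem s52q_P2z_Z (z : Kb) : s52q_P2z c4 c6 z (w ᵥ* s52_Zmat) = s52q_P2z c4 c6 z w := by
  unfold s52q_P2z
  rw [s52q_vecMul_Z, s52q_vecMul_Z, mul_pow, mul_pow, s52q_zeta_pow_five, one_mul, one_mul]

/-- **[hZ]** -/
theorem s52q_hZ : ∀ c4 c6 : ℤ, c4 ^ 3 ≠ c6 ^ 2 → ∀ w : Fin 2 → Kb, s52_OnFibre c4 c6 w →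
    ∀ i, s52q_B c4 c6 (w ᵥ* s52_Zmat) i =
      ∑ j, (1 : Matrix (Fin 2) (Fin 2) ℤ) i j • s52q_B c4 c6 w j := by
  intro c4 c6 _ w _ i
  fin_cases i
  · show s52q_B c4 c6 (w ᵥ* s52_Zmat) 0 =
      ∑ j, (1 : Matrix (Fin 2) (Fin 2) ℤ) 0 j • s52q_B c4 c6 w j
    rw [Fin.sum_univ_two, Matrix.one_apply_eq, Matrix.one_apply_ne (by decide), one_zsmul,
      zero_zsmul, add_zero]
    exact s52q_P1_Z c4 c6 w
  · show s52q_B c4 c6 (w ᵥ* s52_Zmat) 1 =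
      ∑ j, (1 : Matrix (Fin 2) (Fin 2) ℤ) 1 j • s52q_B c4 c6 w j
    rw [Fin.sum_univ_two, Matrix.one_apply_eq, Matrix.one_apply_ne (by decide), one_zsmul,
      zero_zsmul, zero_add]
    exact s52q_P2z_Z c4 c6 w s52_zeta

lemma s52q_c_sq : (s52q_r5 s52_zeta / 5) ^ 2 = (1 / 5 : Kb) := by
  rw [div_pow, s52q_r5_sq _ s52_zeta_spec]
  norm_num

/-- `P₂(w·S) = P₁(w)`. -/
theorem s52q_P2z_S : s52q_P2z c4 c6 s52_zeta (w ᵥ* s52_Smat) = s52q_P1 c4 c6 w := by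
  unfold s52q_P2z s52q_P1
  have hX : s52q_X2n s52_zeta ((w ᵥ* s52_Smat) 0 ^ 5) ((w ᵥ* s52_Smat) 1 ^ 5) / 5 =
      s52q_X1 (w 0) (w 1) := by
    rw [s52q_vecMul_S_zero, s52q_vecMul_S_one, mul_pow, mul_pow, s52q_X2n_smul,
      ← s52q_I6x s52_zeta s52_zeta_spec]
    have e : ((s52q_r5 s52_zeta / 5) ^ 5) ^ 2 = ((s52q_r5 s52_zeta / 5) ^ 2) ^ 5 := by ring
    rw [e, s52q_c_sq]
    ring
  have hY : s52q_Y2n s52_zeta ((w ᵥ* s52_Smat) 0 ^ 5) ((w ᵥ* s52_Smat) 1 ^ 5) / 5 =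
      s52q_Y1 (w 0) (w 1) := by
    rw [s52q_vecMul_S_zero, s52q_vecMul_S_one, mul_pow, mul_pow, s52q_Y2n_smul]
    have h6 := s52q_I6y s52_zeta s52_zeta_spec (w 0) (w 1)
    have e : ((s52q_r5 s52_zeta / 5) ^ 5) ^ 3 =
        (s52q_r5 s52_zeta / 5) * ((s52q_r5 s52_zeta / 5) ^ 2) ^ 7 := by ring
    rw [e, s52q_c_sq]
    linear_combination (-(1 / 1953125 : Kb)) * h6
  rw [hX, hY]

/-- `(w·S)·S = −w`. -/
lemma s52q_vecMul_S_S : (w ᵥ* s52_Smat) ᵥ* s52_Smat = -w := by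
  have hc := s52q_c_sq
  have hs := s52q_ca_sq_add s52_zeta s52_zeta_spec
  funext i
  fin_cases i
  · show ((w ᵥ* s52_Smat) ᵥ* s52_Smat) 0 = -w 0
    rw [s52q_vecMul_S_zero, s52q_vecMul_S_zero, s52q_vecMul_S_one]
    linear_combination (w 0) * (s52q_ca s52_zeta ^ 2 + s52q_cb s52_zeta ^ 2) * hc +
      (1 / 5 : Kb) * (w 0) * hs
  · show ((w ᵥ* s52_Smat) ᵥ* s52_Smat) 1 = -w 1
    rw [s52q_vecMul_S_one, s52q_vecMul_S_zero, s52q_vecMul_S_one]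
    linear_combination (w 1) * (s52q_ca s52_zeta ^ 2 + s52q_cb s52_zeta ^ 2) * hc +
      (1 / 5 : Kb) * (w 1) * hs

lemma s52q_X2n_neg {R : Type*} [CommRing R] (z U V : R) :
    s52q_X2n z (-U) (-V) = s52q_X2n z U V := by
  unfold s52q_X2n; ring

lemma s52q_Y2n_neg {R : Type*} [CommRing R] (z U V : R) :
    s52q_Y2n z (-U) (-V) = -s52q_Y2n z U V := by
  unfold s52q_Y2n s52q_Gc; ring

/-- `P₂(−w) = −P₂(w)`. -/
theorem s52q_P2z_neg_arg (z : Kb) : s52q_P2z c4 c6 z (-w) = -s52q_P2z c4 c6 z w := by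
  unfold s52q_P2z
  rw [s52q_pt_neg (s52q_Esh_a₁ c4 c6) (s52q_Esh_a₃ c4 c6)]
  have e0 : (-w) 0 ^ 5 = -(w 0 ^ 5) := by
    rw [Pi.neg_apply]; ring
  have e1 : (-w) 1 ^ 5 = -(w 1 ^ 5) := by
    rw [Pi.neg_apply]; ring
  rw [e0, e1, s52q_X2n_neg, s52q_Y2n_neg, neg_div]

/-- `P₁(w·S) = −P₂(w)`. -/
theorem s52q_P1_S : s52q_P1 c4 c6 (w ᵥ* s52_Smat) = -s52q_P2z c4 c6 s52_zeta w := by
  rw [← s52q_P2z_S c4 c6 (w ᵥ* s52_Smat), s52q_vecMul_S_S, s52q_P2z_neg_arg]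

/-- **[hS]** -/
theorem s52q_hS : ∀ c4 c6 : ℤ, c4 ^ 3 ≠ c6 ^ 2 → ∀ w : Fin 2 → Kb, s52_OnFibre c4 c6 w →
    ∀ i, s52q_B c4 c6 (w ᵥ* s52_Smat) i =
      ∑ j, (!![0, -1; 1, 0] : Matrix (Fin 2) (Fin 2) ℤ) i j • s52q_B c4 c6 w j := by
  intro c4 c6 _ w _ i
  fin_cases i
  · simp [Fin.sum_univ_two, s52q_B, s52q_P1_S]
  · simp [Fin.sum_univ_two, s52q_B, s52q_P2z_S]

end rules

/-! ### the Galois rules -/

section galois

variable {c4 c6 : ℤ}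

/-- Galois acts on `s52q_pt` coordinatewise. -/
lemma s52q_smul_pt (σ : s58_G) (x y : Kb) :
    σ • s52q_pt (s52q_Esh c4 c6) x y = s52q_pt (s52q_Esh c4 c6) (σ x) (σ y) := by
  have hiff : (s52q_Esh c4 c6).Nonsingular (σ x) (σ y) ↔ (s52q_Esh c4 c6).Nonsingular x y :=
    WeierstrassCurve.Affine.baseChange_nonsingular
      (W := ((s52_sh c4 c6).map (Int.castRingHom ℚ)).toAffine)
      (f := (σ.toAlgHom : Kb →ₐ[ℚ] Kb)) σ.toAlgHom.injective x y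
  unfold s52q_pt
  by_cases h : (s52q_Esh c4 c6).Nonsingular x y
  · have h' : (s52q_Esh c4 c6).Nonsingular (σ x) (σ y) := hiff.mpr h
    rw [dif_pos h, dif_pos h']
    rfl
  · have h' : ¬ (s52q_Esh c4 c6).Nonsingular (σ x) (σ y) := fun h' => h (hiff.mp h')
    rw [dif_neg h, dif_neg h']
    exact smul_zero (A := s58_Pt (s52_sh c4 c6)) σ

lemma s52q_smul_P1 (σ : s58_G) (w : Fin 2 → Kb) :
    σ • s52q_P1 c4 c6 w = s52q_P1 c4 c6 (fun k => σ (w k)) := by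
  unfold s52q_P1
  rw [s52q_smul_pt]
  congr 1
  · unfold s52q_X1
    simp only [map_sub, map_add, map_mul, map_pow, map_neg, map_ofNat]
  · unfold s52q_Y1
    simp only [map_sub, map_add, map_mul, map_pow, map_neg, map_ofNat]

lemma s52q_smul_P2z (σ : s58_G) (z : Kb) (w : Fin 2 → Kb) :
    σ • s52q_P2z c4 c6 z w = s52q_P2z c4 c6 (σ z) (fun k => σ (w k)) := by
  unfold s52q_P2z
  rw [s52q_smul_pt]
  congr 1
  · unfold s52q_X2n s52q_r5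
    simp only [map_div₀, map_sub, map_add, map_mul, map_pow, map_neg, map_ofNat, map_one]
  · unfold s52q_Y2n s52q_ca s52q_cb s52q_Gc
    simp only [map_div₀, map_sub, map_add, map_mul, map_pow, map_neg, map_ofNat, map_one]

/-- `P₂[ζᵏ] = k • P₂[ζ]` in the form needed: for every root `y` of `Φ₅` there is an integer `k`. -/
lemma s52q_P2z_root (y : Kb) (hy : y ^ 4 + y ^ 3 + y ^ 2 + y + 1 = 0) :
    ∃ k : ℤ, ∀ c4 c6 : ℤ, c4 ^ 3 ≠ c6 ^ 2 → ∀ w : Fin 2 → Kb, s52_OnFibre c4 c6 w →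
      s52q_P2z c4 c6 y w = k • s52q_P2z c4 c6 s52_zeta w := by
  have hζ := s52_zeta_spec
  rcases s52q_root_cases s52_zeta y hζ hy with e | e | e | e
  · exact ⟨1, fun c4 c6 _ w _ => by rw [e, one_zsmul]⟩
  · refine ⟨2, fun c4 c6 h w hw => ?_⟩
    rw [e, ← s52q_P2z_dbl hw h s52_zeta hζ, two_zsmul]
  · refine ⟨-2, fun c4 c6 h w hw => ?_⟩
    have e3 : s52_zeta ^ 3 = (s52_zeta ^ 4) ^ 2 := by
      have h5 := s52q_zeta_pow_five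
      linear_combination (-(s52_zeta ^ 3)) * h5
    rw [e, e3, ← s52q_P2z_dbl hw h (s52_zeta ^ 4) (s52q_phi_four s52_zeta hζ),
      s52q_P2z_four s52_zeta hζ, neg_zsmul, two_zsmul, neg_add]
  · exact ⟨-1, fun c4 c6 _ w _ => by rw [e, s52q_P2z_four s52_zeta hζ, neg_one_zsmul]⟩

/-- **[hGalζ]** -/
theorem s52q_hGalzeta : ∀ σ : s58_G, σ s52_zeta = s52_zeta → ∀ c4 c6 : ℤ, c4 ^ 3 ≠ c6 ^ 2 →
    ∀ w : Fin 2 → Kb, s52_OnFibre c4 c6 w →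
      ∀ i, σ • s52q_B c4 c6 w i = s52q_B c4 c6 (fun k => σ (w k)) i := by
  intro σ hσ c4 c6 _ w _ i
  fin_cases i
  · exact s52q_smul_P1 σ w
  · show σ • s52q_P2z c4 c6 s52_zeta w = s52q_P2z c4 c6 s52_zeta (fun k => σ (w k))
    rw [s52q_smul_P2z, hσ]

/-- **[hGal]** -/
theorem s52q_hGal : ∀ σ : s58_G, ∃ N : Matrix (Fin 2) (Fin 2) ℤ, ∀ c4 c6 : ℤ, c4 ^ 3 ≠ c6 ^ 2 →
    ∀ w : Fin 2 → Kb, s52_OnFibre c4 c6 w →
      ∀ i, σ • s52q_B c4 c6 w i = ∑ j, N i j • s52q_B c4 c6 (fun k => σ (w k)) j := by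
  intro σ
  have hy : (σ s52_zeta) ^ 4 + (σ s52_zeta) ^ 3 + (σ s52_zeta) ^ 2 + σ s52_zeta + 1 = 0 := by
    have := congrArg σ s52_zeta_spec
    simpa only [map_add, map_pow, map_one, map_zero] using this
  obtain ⟨k, hk⟩ := s52q_P2z_root (σ s52_zeta) hy
  refine ⟨!![1, 0; 0, k], fun c4 c6 h w hw i => ?_⟩
  have hσw := s52q_onFibre_galois hw σ
  fin_cases i
  · show σ • s52q_B c4 c6 w 0 =
      ∑ j, (!![1, 0; 0, k] : Matrix (Fin 2) (Fin 2) ℤ) 0 j • s52q_B c4 c6 (fun k => σ (w k)) j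
    rw [Fin.sum_univ_two]
    simp only [Matrix.of_apply, Matrix.cons_val_zero, Matrix.cons_val_one, Matrix.cons_val',
      Matrix.cons_val_fin_one, one_zsmul, zero_zsmul, add_zero]
    exact s52q_smul_P1 σ w
  · show σ • s52q_B c4 c6 w 1 =
      ∑ j, (!![1, 0; 0, k] : Matrix (Fin 2) (Fin 2) ℤ) 1 j • s52q_B c4 c6 (fun k => σ (w k)) j
    rw [Fin.sum_univ_two]
    simp only [Matrix.of_apply, Matrix.cons_val_zero, Matrix.cons_val_one, Matrix.cons_val',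
      Matrix.cons_val_fin_one, zero_zsmul, zero_add]
    show σ • s52q_P2z c4 c6 s52_zeta w = k • s52q_P2z c4 c6 s52_zeta (fun k => σ (w k))
    rw [s52q_smul_P2z, hk c4 c6 h _ hσw]

/-- **[htors]** -/
theorem s52q_htors : ∀ c4 c6 : ℤ, c4 ^ 3 ≠ c6 ^ 2 → ∀ w : Fin 2 → Kb, s52_OnFibre c4 c6 w →
    ∀ i, 5 • s52q_B c4 c6 w i = 0 :=
  fun _ _ h _ hw i => s52q_htors_aux hw h i

/-- **[hind]** -/
theorem s52q_hind : ∀ c4 c6 : ℤ, c4 ^ 3 ≠ c6 ^ 2 → ∀ w : Fin 2 → Kb, s52_OnFibre c4 c6 w →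
    ∀ a b : ℤ, a • s52q_B c4 c6 w 0 + b • s52q_B c4 c6 w 1 = 0 → (5 : ℤ) ∣ a ∧ (5 : ℤ) ∣ b :=
  fun _ _ h _ hw a b hab => s52q_hind_aux hw h a b hab

end galois

end Fermat.Agent.Lib.S52
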