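/-
Programme K (S52), helper9, prefix `s52q_`.  KLEIN PACKAGE, part 5: THE RULE UNDER `T₅`:
`P₁(w·T₅) = P₁(w) − P₂(w)`, `P₂(w·T₅) = P₂(w)`  (matrix `!![1,-1;0,1]`).
-/
import Mathlib
import Fermat.Agent.Lib.S52.QTorsRules

set_option autoImplicit false

open scoped WeierstrassCurve.Affine

namespace Fermat.Agent.Lib.S52

open WeierstrassCurve Fermat.Agent.Lib.S58 Matrix

local notation "Kb" => AlgebraicClosure ℚ

section ruleT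

variable {c4 c6 : ℤ} {w : Fin 2 → Kb}

/-- `P₂(w·T₅) = P₂(w)`. -/
theorem s52q_P2z_T (z : Kb) : s52q_P2z c4 c6 z (w ᵥ* s52_Tmat) = s52q_P2z c4 c6 z w := by
  unfold s52q_P2z
  have h5 := s52q_zeta_pow_five
  have e0 : (w ᵥ* s52_Tmat) 0 ^ 5 = w 0 ^ 5 := by
    rw [s52q_vecMul_T_zero, mul_pow, ← pow_mul, show 3 * 5 = 5 * 3 by norm_num, pow_mul, h5,
      one_pow, one_mul]
  have e1 : (w ᵥ* s52_Tmat) 1 ^ 5 = w 1 ^ 5 := by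
    rw [s52q_vecMul_T_one, mul_pow, ← pow_mul, show 2 * 5 = 5 * 2 by norm_num, pow_mul, h5,
      one_pow, one_mul]
  rw [e0, e1]

/-- `P₁(w·T₅) = P₁(w) − P₂(w)`. -/
theorem s52q_P1_T (hw : s52_OnFibre c4 c6 w) (h : c4 ^ 3 ≠ c6 ^ 2) :
    s52q_P1 c4 c6 (w ᵥ* s52_Tmat) = s52q_P1 c4 c6 w - s52q_P2z c4 c6 s52_zeta w := by
  have hζ := s52_zeta_spec
  have hf := s52q_kf_ne hw h
  rw [sub_eq_add_neg]
  symm
  unfold s52q_P1 s52q_P2z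
  rw [s52q_pt_neg (s52q_Esh_a₁ c4 c6) (s52q_Esh_a₃ c4 c6), s52q_vecMul_T_zero,
    s52q_vecMul_T_one]
  have hns2 := s52q_P2_ns hw h s52_zeta hζ
  have hns2' : (s52q_Esh c4 c6).Nonsingular (s52q_X2n s52_zeta (w 0 ^ 5) (w 1 ^ 5) / 5)
      (-(s52q_Y2n s52_zeta (w 0 ^ 5) (w 1 ^ 5) / 5)) := by
    have := (Affine.nonsingular_neg _ _).mpr hns2
    rwa [s52q_negY (s52q_Esh_a₁ c4 c6) (s52q_Esh_a₃ c4 c6)] at this
  have hne : s52q_X1 (w 0) (w 1) ≠ s52q_X2n s52_zeta (w 0 ^ 5) (w 1 ^ 5) / 5 := by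
    intro e
    have h8 := s52q_I8a s52_zeta hζ (w 0) (w 1)
    have e' : 5 * s52q_X1 (w 0) (w 1) - s52q_X2n s52_zeta (w 0 ^ 5) (w 1 ^ 5) = 0 := by
      rw [e]; ring
    rw [e', mul_zero] at h8
    have : s52m_kf (w 0) (w 1) ^ 2 = 0 := by
      have h180 : (180 : Kb) ≠ 0 := by norm_num
      exact (mul_eq_zero.mp h8.symm).resolve_left h180
    exact hf (pow_eq_zero_iff (two_ne_zero) |>.mp this)
  refine s52q_pt_add (s52q_Esh_a₁ c4 c6) (s52q_Esh_a₂ c4 c6) (s52q_Esh_a₃ c4 c6)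
    (s52q_P1_ns hw h) hns2' hne ?_ ?_
  · linear_combination (1 / 125 : Kb) * s52q_I7x s52_zeta hζ (w 0) (w 1)
  · linear_combination (1 / 5 : Kb) * s52q_I7y s52_zeta hζ (w 0) (w 1)

end ruleT

/-- **[hT]** -/
theorem s52q_hT : ∀ c4 c6 : ℤ, c4 ^ 3 ≠ c6 ^ 2 → ∀ w : Fin 2 → Kb, s52_OnFibre c4 c6 w →
    ∀ i, s52q_B c4 c6 (w ᵥ* s52_Tmat) i =
      ∑ j, (!![1, -1; 0, 1] : Matrix (Fin 2) (Fin 2) ℤ) i j • s52q_B c4 c6 w j := by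
  intro c4 c6 h w hw i
  fin_cases i
  · show s52q_B c4 c6 (w ᵥ* s52_Tmat) 0 =
      ∑ j, (!![1, -1; 0, 1] : Matrix (Fin 2) (Fin 2) ℤ) 0 j • s52q_B c4 c6 w j
    rw [Fin.sum_univ_two]
    simp only [Matrix.of_apply, Matrix.cons_val_zero, Matrix.cons_val_one, Matrix.cons_val',
      Matrix.cons_val_fin_one, one_zsmul, neg_zsmul]
    show s52q_P1 c4 c6 (w ᵥ* s52_Tmat) = s52q_P1 c4 c6 w + -s52q_P2z c4 c6 s52_zeta w
    rw [s52q_P1_T hw h, sub_eq_add_neg]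
  · show s52q_B c4 c6 (w ᵥ* s52_Tmat) 1 =
      ∑ j, (!![1, -1; 0, 1] : Matrix (Fin 2) (Fin 2) ℤ) 1 j • s52q_B c4 c6 w j
    rw [Fin.sum_univ_two]
    simp only [Matrix.of_apply, Matrix.cons_val_zero, Matrix.cons_val_one, Matrix.cons_val',
      Matrix.cons_val_fin_one, one_zsmul, zero_zsmul, zero_add]
    exact s52q_P2z_T s52_zeta

end Fermat.Agent.Lib.S52
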