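/-
Programme K (S52, the 3-5 switch): THE TOP ASSEMBLY (helper3, prefix `s52m_`).

`s52m_top` proves the S52 statement from

* `s52_Twist`, `s52_C4C6Ne`, `s52_ShortIso` (`Lib/S52/Iface.lean`, v2);
* `s52m_D2`     : the auxiliary prime `ℓ₀ ∉ S'` whose Frobenius elements fix the field
  `ℚ(ζ₅, δ, W[5])` pointwise and have `X² − a_{ℓ₀}(11a1) X + ℓ₀` without root mod 3
  (helper9's four-roots block + helper6's normal subgroup + helper1's Chebotarev wiring);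
* `s52m_RedAt`  : reduction of a matrix with Frobenius-fixed integral entries at one place
  (helper1, `s52b_reduction_at`);
* `s52m_DenNat` : finitely many algebraic numbers are integral outside a finite set of primes
  (helper1, `s52b_exists_den_nat`).

Inside: `s52m_hcop_of_matrix` (Bezout certificate), `s52m_choice` (choice of `(X, Y)` and of the model
`W'`), `s52c_irred_three` (mod-3 irreducibility from the Frobenius at `ℓ₀`), `s52c_apCong` with the chain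
`W'[5] ≅ (short W')[5] ≅ (short W)[5] ≅ W[5]`.
-/
import Fermat.Agent.Lib.S52.Iface
import Fermat.Agent.Lib.S52.MChoice
import Fermat.Agent.Lib.S52.MCop
import Fermat.Agent.Lib.S52.CFrob

set_option autoImplicit false

noncomputable section

namespace Fermat.Agent.Lib.S52

open Fermat.Agent.Lib.S58 Matrix WeierstrassCurve

local notation "Kb" => AlgebraicClosure ℚ

/-- **[D2]** the auxiliary prime. -/
def s52m_D2 : Prop :=
  ∀ W : WeierstrassCurve ℤ, W.Δ ≠ 0 → W.IsSemistableModel →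
    ∀ δ : Kb, δ ^ 5 = ((W.Δ : ℤ) : Kb) → ∀ S' : Finset ℕ,
    ∃ ℓ₀ : ℕ, ℓ₀.Prime ∧ ℓ₀ ∉ S' ∧
      ∀ O : ValuationSubring Kb, O.LiesOverPrime ℓ₀ → ∀ φ : s58_G, O.IsFrobeniusAt φ ℓ₀ →
        (∀ x : Kb, (∀ σ : s58_G, σ s52_zeta = s52_zeta → σ δ = δ →
          (∀ P : s58_Pt W, 5 • P = 0 → σ • P = P) → σ x = x) → φ x = x) ∧
        ∀ c : ZMod 3, c ^ 2 - (s52_E11.apOfModel ℓ₀ : ZMod 3) * c + (ℓ₀ : ZMod 3) ≠ 0

/-- **[RED-AT]** reduction at one place (helper1's `s52b_reduction_at`, `n = Fin 2`). -/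
def s52m_RedAt : Prop :=
  ∀ (O : ValuationSubring Kb) (ℓ : ℕ), ℓ.Prime → O.LiesOverPrime ℓ →
    ∀ φ : s58_G, O.IsFrobeniusAt φ ℓ →
    ∀ A : Matrix (Fin 2) (Fin 2) Kb, (∀ i j, A i j ∈ O) → (∀ i j, φ (A i j) = A i j) →
      A.det ≠ 0 → (A.det)⁻¹ ∈ O → ∀ t : Fin 2 → ℤ,
    ∃ w₀ : Fin 2 → ℤ, ∀ w : Fin 2 → ℤ, (∀ i, w i ≡ w₀ i [ZMOD (ℓ : ℤ)]) →
      ∀ (P : MvPolynomial (Fin 2) ℤ) (r : ℚ),
        MvPolynomial.aeval (Matrix.vecMul (fun i => ((w i : ℤ) : Kb)) A) P = algebraMap ℚ Kb r →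
        ¬ (ℓ : ℤ) ∣ r.den ∧ (ℓ : ℤ) ∣ r.num - MvPolynomial.aeval t P * r.den

/-- **[DEN]** integrality outside a finite set of primes (helper1's `s52b_exists_den_nat`). -/
def s52m_DenNat : Prop :=
  ∀ (ι : Type) [Finite ι] (x : ι → Kb),
    ∃ M₀ : ℕ, 0 < M₀ ∧ ∀ ℓ : ℕ, ℓ.Prime → ¬ ℓ ∣ M₀ → ∀ O : ValuationSubring Kb,
      O.LiesOverPrime ℓ → ∀ i, x i ∈ O

/-- Klein's `H` and `T` as integer polynomials in two variables. -/
def s52m_PH : MvPolynomial (Fin 2) ℤ := s52m_kH (MvPolynomial.X 0) (MvPolynomial.X 1)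

def s52m_PT : MvPolynomial (Fin 2) ℤ := s52m_kT (MvPolynomial.X 0) (MvPolynomial.X 1)

theorem s52m_aeval_PH_Kb (ω : Fin 2 → Kb) :
    MvPolynomial.aeval ω s52m_PH = s52m_kH (ω 0) (ω 1) := by
  unfold s52m_PH s52m_kH
  simp only [map_sub, map_add, map_neg, map_mul, map_pow, map_ofNat, MvPolynomial.aeval_X]

theorem s52m_aeval_PT_Kb (ω : Fin 2 → Kb) :
    MvPolynomial.aeval ω s52m_PT = s52m_kT (ω 0) (ω 1) := by
  unfold s52m_PT s52m_kT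
  simp only [map_sub, map_add, map_mul, map_pow, map_ofNat, MvPolynomial.aeval_X]

theorem s52m_aeval_PH_int (ω : Fin 2 → ℤ) :
    MvPolynomial.aeval ω s52m_PH = s52m_kH (ω 0) (ω 1) := by
  unfold s52m_PH s52m_kH
  simp only [map_sub, map_add, map_neg, map_mul, map_pow, map_ofNat, MvPolynomial.aeval_X]

theorem s52m_aeval_PT_int (ω : Fin 2 → ℤ) :
    MvPolynomial.aeval ω s52m_PT = s52m_kT (ω 0) (ω 1) := by
  unfold s52m_PT s52m_kT
  simp only [map_sub, map_add, map_mul, map_pow, map_ofNat, MvPolynomial.aeval_X]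

theorem s52m_E11_c₄ : s52_E11.c₄ = 496 := by
  simp only [s52_E11, WeierstrassCurve.c₄, WeierstrassCurve.b₂, WeierstrassCurve.b₄]
  norm_num

theorem s52m_E11_c₆ : s52_E11.c₆ = 20008 := by
  simp only [s52_E11, WeierstrassCurve.c₆, WeierstrassCurve.b₂, WeierstrassCurve.b₄,
    WeierstrassCurve.b₆]
  norm_num

theorem s52m_E11_Δ : s52_E11.Δ = -161051 := by
  simp only [s52_E11, WeierstrassCurve.Δ, WeierstrassCurve.b₂, WeierstrassCurve.b₄,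
    WeierstrassCurve.b₆, WeierstrassCurve.b₈]
  norm_num

theorem s52m_kH_one : s52m_kH (1 : ℤ) 1 = -496 := by
  unfold s52m_kH; norm_num

theorem s52m_kT_one : s52m_kT (1 : ℤ) 1 = -20008 := by
  unfold s52m_kT; norm_num

theorem s52m_castVecKb (X Y : ℤ) :
    (fun i => (((![X, Y] : Fin 2 → ℤ) i : ℤ) : Kb)) = ![(X : Kb), (Y : Kb)] := by
  funext i
  fin_cases i <;> rfl

/-- **The S52 statement from the contracts.** -/
theorem s52m_top (hTwist : s52_Twist) (hC4C6 : s52_C4C6Ne) (hShort : s52_ShortIso)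
    (hD2 : s52m_D2) (hRed : s52m_RedAt) (hDen : s52m_DenNat)
    (W : WeierstrassCurve ℤ) (hΔ : W.Δ ≠ 0) (hW : W.IsSemistableModel) :
    ∃ W' : WeierstrassCurve ℤ, W'.Δ ≠ 0 ∧ W'.IsSemistableModel ∧ W'.ModRepIsIrreducible 3 ∧
      ∀ ℓ : ℕ, ℓ.Prime → W.IsGoodPrimeFor ℓ → W'.IsGoodPrimeFor ℓ → ℓ ≠ 5 →
        (5 : ℤ) ∣ (W'.apOfModel ℓ - W.apOfModel ℓ) := by
  obtain ⟨hc4, hc6⟩ := hC4C6 W hΔ hW
  obtain ⟨A, δ, h, t, x₀, y₀, hdet, hδ, hfield, hh, ht, h0, t0, hiso⟩ := hTwist W hΔ hc4 hc6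
  have hdet0 : A.det ≠ 0 := hdet.ne_zero
  -- integrality of `A`, `(det A)⁻¹` outside `N₀`
  obtain ⟨N₀, hN₀, hint⟩ := hDen (Option (Fin 2 × Fin 2))
    (fun x => match x with
      | none => (A.det)⁻¹
      | some (i, j) => A i j)
  have hintA : ∀ q : ℕ, q.Prime → ¬ q ∣ N₀ → ∀ O : ValuationSubring Kb, O.LiesOverPrime q →
      (∀ i j, A i j ∈ O) ∧ (A.det)⁻¹ ∈ O := by
    intro q hq hqN O hO
    exact ⟨fun i j => hint q hq hqN O hO (some (i, j)), hint q hq hqN O hO none⟩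
  -- the inverse matrix
  set B : Matrix (Fin 2) (Fin 2) Kb := A⁻¹ with hB
  have hAB : A * B = 1 := Matrix.mul_nonsing_inv A hdet
  have hBent : ∀ i j, B i j = (A.det)⁻¹ * A.adjugate i j := by
    intro i j
    rw [hB, Matrix.inv_def, Ring.inverse_eq_inv', Matrix.smul_apply, smul_eq_mul]
  have hintB : ∀ q : ℕ, q.Prime → ¬ q ∣ N₀ → ∀ O : ValuationSubring Kb, O.LiesOverPrime q →
      (∀ i j, A i j ∈ O) ∧ (∀ i j, B i j ∈ O) := by
    intro q hq hqN O hO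
    obtain ⟨hA, hd⟩ := hintA q hq hqN O hO
    refine ⟨hA, fun i j => ?_⟩
    rw [hBent]
    apply O.mul_mem _ _ hd
    rw [Matrix.adjugate_fin_two]
    fin_cases i <;> fin_cases j
    · exact hA 1 1
    · exact O.neg_mem _ (hA 0 1)
    · exact O.neg_mem _ (hA 1 0)
    · exact hA 0 0
  -- the values of `h`, `t` at integer points
  have hh' : ∀ X Y : ℤ, algebraMap ℚ Kb (MvPolynomial.eval ![(X : ℚ), (Y : ℚ)] h) =
      -(((1 : ℤ) : Kb)) ^ 4 * s52m_kH (s52m_om A X Y 0) (s52m_om A X Y 1) := by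
    intro X Y
    have h1 := hh X Y
    rw [eq_ratCast, h1]
    simp only [Rat.cast_intCast, Int.cast_one, one_pow, neg_mul, one_mul]
    rfl
  have ht' : ∀ X Y : ℤ, algebraMap ℚ Kb (MvPolynomial.eval ![(X : ℚ), (Y : ℚ)] t) =
      -(((1 : ℤ) : Kb)) ^ 6 * s52m_kT (s52m_om A X Y 0) (s52m_om A X Y 1) := by
    intro X Y
    have h1 := ht X Y
    rw [eq_ratCast, h1]
    simp only [Rat.cast_intCast, Int.cast_one, one_pow, neg_mul, one_mul]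
    rfl
  have hcop := s52m_hcop_of_matrix A B hAB N₀ hintB 1 h t hh' ht'
  have hNpos : 0 < 30 * (1 : ℤ).natAbs * N₀ := by
    have : (1 : ℤ).natAbs = 1 := rfl
    rw [this]; positivity
  obtain ⟨M₀, hM₀, hNM, hchoice⟩ := s52m_choice W hW h t x₀ y₀ h0 t0 _ hNpos hcop
  -- the auxiliary prime
  obtain ⟨ℓ₀, hℓ₀, hℓS, hFrob⟩ := hD2 W hΔ hW δ hδ (M₀ * 11).primeFactors
  have hℓM11 : ¬ ℓ₀ ∣ M₀ * 11 := by
    intro hd
    exact hℓS (Nat.mem_primeFactors.mpr ⟨hℓ₀, hd, by positivity⟩)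
  have hℓM : ¬ ℓ₀ ∣ M₀ := fun hd => hℓM11 (Dvd.dvd.mul_right hd _)
  have hℓ11 : ℓ₀ ≠ 11 := by
    rintro rfl
    exact hℓM11 (Dvd.intro_left _ rfl)
  have hℓN₀ : ¬ ℓ₀ ∣ N₀ := fun hd => hℓM (dvd_trans (Dvd.dvd.mul_left hd _) hNM)
  have hℓ30 : ¬ ℓ₀ ∣ 30 := by
    intro hd
    apply hℓM
    refine dvd_trans ?_ hNM
    exact Dvd.dvd.mul_right (Dvd.dvd.mul_right hd _) _
  have hℓ3 : ℓ₀ ≠ 3 := by
    rintro rfl
    exact hℓ30 (by norm_num)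
  obtain ⟨O, hO⟩ := Fermat.Agent.Lib.Frobenius.exists_liesOverPrime ℓ₀ hℓ₀
  obtain ⟨φ, hφ⟩ := Fermat.Agent.Lib.Frobenius.exists_isFrobeniusAt_of_liesOverPrime O ℓ₀ hℓ₀ hO
  obtain ⟨hfix, hroot⟩ := hFrob O hO φ hφ
  have hAfix : ∀ i j, φ (A i j) = A i j := fun i j =>
    hfix (A i j) (fun σ h1 h2 h3 => hfield σ h1 h2 h3 i j)
  obtain ⟨hAO, hdO⟩ := hintA ℓ₀ hℓ₀ hℓN₀ O hO
  obtain ⟨w₀, hw₀⟩ := hRed O ℓ₀ hℓ₀ hO φ hφ A hAO hAfix hdet0 hdO ![1, 1]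
  -- `11a1` has good reduction at `ℓ₀`
  have hE11good : ¬ (ℓ₀ : ℤ) ∣ s52_E11.Δ := by
    rw [s52m_E11_Δ]
    intro hd
    have h1 : (ℓ₀ : ℤ) ∣ 161051 := (dvd_neg).mp hd
    have h2 : ℓ₀ ∣ 11 ^ 5 := by
      have : (161051 : ℤ) = ((11 ^ 5 : ℕ) : ℤ) := by norm_num
      rw [this] at h1
      exact Int.natCast_dvd_natCast.mp h1
    exact hℓ11 ((Nat.prime_dvd_prime_iff_eq hℓ₀ (by norm_num)).mp (hℓ₀.dvd_of_dvd_pow h2))
  -- the congruences modulo `ℓ₀`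
  have hcong : ∀ X Y c₄' c₆' : ℤ, X ≡ w₀ 0 [ZMOD ℓ₀] → Y ≡ w₀ 1 [ZMOD ℓ₀] →
      MvPolynomial.eval ![(X : ℚ), (Y : ℚ)] h = c₄' → MvPolynomial.eval ![(X : ℚ), (Y : ℚ)] t = c₆' →
      (ℓ₀ : ℤ) ∣ c₄' - s52_E11.c₄ ∧ (ℓ₀ : ℤ) ∣ c₆' - s52_E11.c₆ := by
    intro X Y c₄' c₆' hX hY he4 he6
    have hw : ∀ i, (![X, Y] : Fin 2 → ℤ) i ≡ w₀ i [ZMOD (ℓ₀ : ℤ)] := by
      intro i
      fin_cases i
      · exact hX
      · exact hY
    have hval := hw₀ ![X, Y] hw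
    rw [s52m_castVecKb] at hval
    have e1 : MvPolynomial.aeval (![1, 1] : Fin 2 → ℤ) s52m_PH = -496 := by
      rw [s52m_aeval_PH_int]; exact s52m_kH_one
    have e2 : MvPolynomial.aeval (![1, 1] : Fin 2 → ℤ) s52m_PT = -20008 := by
      rw [s52m_aeval_PT_int]; exact s52m_kT_one
    constructor
    · have h1 := hval (-s52m_PH) (c₄' : ℚ) (by
        rw [map_neg, s52m_aeval_PH_Kb, eq_ratCast, ← he4, hh X Y]
        simp only [Rat.cast_intCast])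
      obtain ⟨-, h2⟩ := h1
      rw [Rat.num_intCast, Rat.den_intCast, map_neg, e1] at h2
      rw [s52m_E11_c₄]
      have e3 : c₄' - - -496 * ((1 : ℕ) : ℤ) = c₄' - 496 := by norm_num
      rw [← e3]; exact h2
    · have h1 := hval (-s52m_PT) (c₆' : ℚ) (by
        rw [map_neg, s52m_aeval_PT_Kb, eq_ratCast, ← he6, ht X Y]
        simp only [Rat.cast_intCast])
      obtain ⟨-, h2⟩ := h1
      rw [Rat.num_intCast, Rat.den_intCast, map_neg, e2] at h2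
      rw [s52m_E11_c₆]
      have e3 : c₆' - - -20008 * ((1 : ℕ) : ℤ) = c₆' - 20008 := by norm_num
      rw [← e3]; exact h2
  obtain ⟨X, Y, W', hW'4, hW'6, hΔ', hss', hgood', hap⟩ :=
    hchoice ℓ₀ hℓ₀ hℓM s52_E11 hE11good (w₀ 0) (w₀ 1) hcong
  refine ⟨W', hΔ', hss', ?_, ?_⟩
  · -- irreducibility mod 3
    apply s52c_irred_three W' hΔ' ℓ₀ hℓ₀ hℓ3 hgood'
    rw [hap]
    exact hroot
  · -- the congruences mod 5
    have hne : W'.c₄ ^ 3 ≠ W'.c₆ ^ 2 := by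
      intro heq
      have := W'.c_relation
      rw [heq, sub_self] at this
      exact hΔ' (by
        rcases mul_eq_zero.mp this with h | h
        · norm_num at h
        · exact h)
    have hiso' : s52_TorsIso (s52_short W') (s52_short W) 5 :=
      hiso (X : ℚ) (Y : ℚ) W'.c₄ W'.c₆ hW'4 hW'6 hne
    exact s52c_apCong W W' hΔ' (s52c_torsIso_of_short hShort W W' hΔ hΔ' 5 hiso')

end Fermat.Agent.Lib.S52

end
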