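/-
Programme K (S52): the auxiliary prime, `s52m_d2 : s52m_D2` (helper3, prefix `s52m_`).

Wiring of: helper9's four-roots block (`s52q_main11`, `s52q_noRoot11`, `Lib/S52/QNum.lean`), helper6's
normal subgroup `N = Gal(ℚ̄/ℚ(μ₅, δ, W[5]))` and `[INERTIA3]` (`Lib/S52/ENormal.lean`), helper1's
Chebotarev wiring (`s52d_cheb_noFix`, `Lib/S52/DCheb.lean`), and `a_ℓ(short 11a1) = a_ℓ(11a1)`
(`s52e_shortAp`, `Lib/S52/EShort.lean`).
-/
import Fermat.Agent.Lib.S52.Top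
import Fermat.Agent.Lib.S52.ENormal
import Fermat.Agent.Lib.S52.EShort
import Fermat.Agent.Lib.S52.QNum
import Fermat.Agent.Lib.S52.DCheb

set_option autoImplicit false

noncomputable section

namespace Fermat.Agent.Lib.S52

open Fermat.Agent.Lib.S58 WeierstrassCurve

local notation "Kb" => AlgebraicClosure ℚ

theorem s52m_zeta_pow_five : s52_zeta ^ 5 = 1 := by
  have h := s52_zeta_spec
  linear_combination (s52_zeta - 1) * h

/-- the short model of `11a1` is helper9's curve. -/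
theorem s52m_short_E11 : s52_short s52_E11 = s52q_W s52q_a11 s52q_b11 := by
  unfold s52_short s52_sh
  rw [s52m_E11_c₄, s52m_E11_c₆]
  rfl

/-- **[D2]** -/
theorem s52m_d2 : s52m_D2 := by
  intro W hΔ hW δ hδ S'
  -- an element of `N` fixing no root of the 3-division quartic of `11a1`
  obtain ⟨τ', hτ'N, hτ'R⟩ := s52e_sigma0_of_main W hΔ hW δ hδ
    (fun τ => ∀ r, s52q_q s52q_a11 s52q_b11 r = 0 → τ r ≠ r) s52q_main11
  -- Chebotarev
  obtain ⟨ℓ₀, hℓ₀, hℓS, hfrob⟩ := s52d_cheb_noFix (s52e_K W δ) (s52e_K_finite W hΔ δ)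
    (fun σ x hx => s52e_K_stable W δ hδ σ hx) (s52q_R s52q_a11 s52q_b11) s52q_R11_finite
    s52q_R11_stable τ' (fun x hx => s52e_K_fix hτ'N hx) (fun r hr => hτ'R r hr)
    (S' ∪ {2, 3, 11})
  have hℓS' : ℓ₀ ∉ S' := fun h => hℓS (Finset.mem_union_left _ h)
  have hℓ2 : ℓ₀ ≠ 2 := by
    rintro rfl
    exact hℓS (Finset.mem_union_right _ (by simp))
  have hℓ3 : ℓ₀ ≠ 3 := by
    rintro rfl
    exact hℓS (Finset.mem_union_right _ (by simp))
  have hℓ11 : ℓ₀ ≠ 11 := by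
    rintro rfl
    exact hℓS (Finset.mem_union_right _ (by simp))
  refine ⟨ℓ₀, hℓ₀, hℓS', ?_⟩
  intro O hO φ hφ
  obtain ⟨hK, hR⟩ := hfrob O hO φ hφ
  constructor
  · intro x hx
    apply hK x
    rw [s52e_mem_K]
    intro σ hσ
    obtain ⟨h1, h2, h3⟩ := s52e_mem_N.mp hσ
    exact hx σ (h1 s52_zeta s52m_zeta_pow_five) h2 h3
  · have h := s52q_noRoot11 ℓ₀ hℓ₀ hℓ2 hℓ3 hℓ11 O hO φ hφ hR
    rw [← s52m_short_E11, s52e_shortAp s52_E11 ℓ₀ hℓ₀ hℓ2 hℓ3] at h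
    exact h

end Fermat.Agent.Lib.S52

end
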