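/-
Programme K (S52): the S52 statement from the Klein package alone (helper3, prefix `s52m_`).

`s52m_final : s52_KleinGroup → s52_KleinOrbit → s52_KleinIso → s52_KleinFix → (S52 statement)`:
`s52m_top` (Top.lean) fed with `s52h_twist` (helper7) + `s52k_kleinExist` (helper4) + `s52e_shortIso`
(helper6), `s52c_c4c6Ne`, `s52m_d2` (TopD2.lean), and helper1's reduction lemmas
(`s52d_reduction_at`, `s52d_exists_den_finset`).
-/
import Fermat.Agent.Lib.S52.TopD2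
import Fermat.Agent.Lib.S52.CModel
import Fermat.Agent.Lib.S52.DRed
import Fermat.Agent.Lib.S52.HTwist
import Fermat.Agent.Lib.S52.KFibre

set_option autoImplicit false

noncomputable section

namespace Fermat.Agent.Lib.S52

open Fermat.Agent.Lib.S58 WeierstrassCurve

local notation "Kb" => AlgebraicClosure ℚ

/-- **[RED-AT]** (helper1's `s52d_reduction_at`). -/
theorem s52m_redAt : s52m_RedAt :=
  fun O _ hℓ hO _ hφ A h1 h2 h3 h4 t => s52d_reduction_at O hℓ hO hφ A h1 h2 h3 h4 t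

/-- **[DEN]** (helper1's `s52d_exists_den_finset`). -/
theorem s52m_denNat : s52m_DenNat := by
  intro ι _ x
  obtain ⟨S₀, hS₀⟩ := s52d_exists_den_finset x
  refine ⟨∏ p ∈ S₀.filter Nat.Prime, p, Finset.prod_pos fun p hp =>
    (Finset.mem_filter.mp hp).2.pos, ?_⟩
  intro ℓ hℓ hℓM O hO i
  refine hS₀ ℓ hℓ (fun hmem => hℓM ?_) O hO i
  exact Finset.dvd_prod_of_mem _ (Finset.mem_filter.mpr ⟨hmem, hℓ⟩)

/-- **S52 from [TWIST].** -/
theorem s52m_of_twist (hTwist : s52_Twist) (W : WeierstrassCurve ℤ) (hΔ : W.Δ ≠ 0)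
    (hW : W.IsSemistableModel) :
    ∃ W' : WeierstrassCurve ℤ, W'.Δ ≠ 0 ∧ W'.IsSemistableModel ∧ W'.ModRepIsIrreducible 3 ∧
      ∀ ℓ : ℕ, ℓ.Prime → W.IsGoodPrimeFor ℓ → W'.IsGoodPrimeFor ℓ → ℓ ≠ 5 →
        (5 : ℤ) ∣ (W'.apOfModel ℓ - W.apOfModel ℓ) :=
  s52m_top hTwist s52c_c4c6Ne s52e_shortIso s52m_d2 s52m_redAt s52m_denNat W hΔ hW

/-- **S52 from the Klein package.** -/
theorem s52m_final (hG : s52_KleinGroup) (hO : s52_KleinOrbit) (hI : s52_KleinIso)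
    (hF : s52_KleinFix) (W : WeierstrassCurve ℤ) (hΔ : W.Δ ≠ 0) (hW : W.IsSemistableModel) :
    ∃ W' : WeierstrassCurve ℤ, W'.Δ ≠ 0 ∧ W'.IsSemistableModel ∧ W'.ModRepIsIrreducible 3 ∧
      ∀ ℓ : ℕ, ℓ.Prime → W.IsGoodPrimeFor ℓ → W'.IsGoodPrimeFor ℓ → ℓ ≠ 5 →
        (5 : ℤ) ∣ (W'.apOfModel ℓ - W.apOfModel ℓ) :=
  s52m_of_twist (s52h_twist hG hO hI hF s52k_kleinExist s52e_shortIso) W hΔ hW

end Fermat.Agent.Lib.S52

end
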