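/-
Programme K (S52), helper3: the S52 statement from [KLEIN-GROUP] + [KLEIN-TORS] + [KLEIN-ISO].

`s52m_kleinOrbit`, `s52m_kleinFix` : the contracts [KLEIN-ORBIT], [KLEIN-FIX] from `s52_KleinGroup`
and the torsion package `s52m_KleinTors` (MOrbit.lean), using helper6's `s52e_free`, `s52e_fv_S`
and helper4's `s52k_kleinCount`, `s52k_sl25`.
`s52m_final2 : s52_KleinGroup → s52m_KleinTors → s52_KleinIso → (S52 statement)`.
`s52m_final3 : s52_KleinGroup → (point-level facts about ONE family `B c₄ c₆ w = ![P₁ w, P₂ w]`) →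
(S52 statement)`, through helper1's `s52d_kleinIso_of` (DIso.lean).
-/
import Fermat.Agent.Lib.S52.TopFinal
import Fermat.Agent.Lib.S52.MOrbit
import Fermat.Agent.Lib.S52.EFree
import Fermat.Agent.Lib.S52.KGroups
import Fermat.Agent.Lib.S52.DIso

set_option autoImplicit false

noncomputable section

namespace Fermat.Agent.Lib.S52

open Fermat.Agent.Lib.S58 WeierstrassCurve

local notation "Kb" => AlgebraicClosure ℚ

/-- **[KLEIN-ORBIT]** from [KLEIN-GROUP] and the torsion package. -/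
theorem s52m_kleinOrbit (hG : s52_KleinGroup) (hT : s52m_KleinTors) : s52_KleinOrbit :=
  s52m_kleinOrbit_of hG s52k_kleinCount s52k_sl25 s52e_fv_S hT
    (fun c4 c6 h4 h6 hne w hw => s52e_free hG s52k_kleinCount c4 c6 h4 h6 hne w hw)

/-- **[KLEIN-FIX]** from [KLEIN-GROUP] and the torsion package. -/
theorem s52m_kleinFix (hG : s52_KleinGroup) (hT : s52m_KleinTors) : s52_KleinFix :=
  s52m_kleinFix_of hG s52k_kleinCount s52k_sl25 s52e_fv_S hT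

/-- the S52 statement from [KLEIN-GROUP], [KLEIN-TORS], [KLEIN-ISO]. -/
theorem s52m_final2 (hG : s52_KleinGroup) (hT : s52m_KleinTors) (hI : s52_KleinIso)
    (W : WeierstrassCurve ℤ) (hΔ : W.Δ ≠ 0) (hW : W.IsSemistableModel) :
    ∃ W' : WeierstrassCurve ℤ, W'.Δ ≠ 0 ∧ W'.IsSemistableModel ∧ W'.ModRepIsIrreducible 3 ∧
      ∀ ℓ : ℕ, ℓ.Prime → W.IsGoodPrimeFor ℓ → W'.IsGoodPrimeFor ℓ → ℓ ≠ 5 →
        (5 : ℤ) ∣ (W'.apOfModel ℓ - W.apOfModel ℓ) :=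
  s52m_final hG (s52m_kleinOrbit hG hT) hI (s52m_kleinFix hG hT) W hΔ hW

/-- the torsion package `s52m_KleinTors` from the point-level facts about one family of bases. -/
theorem s52m_kleinTors_of_pts
    (B : ∀ c4 c6 : ℤ, (Fin 2 → Kb) → Fin 2 → s58_Pt (s52_sh c4 c6))
    (mS mT : Matrix (Fin 2) (Fin 2) ℤ) (hgen : s52m_Gen mS mT)
    (htors : ∀ c4 c6 : ℤ, c4 ^ 3 ≠ c6 ^ 2 → ∀ w : Fin 2 → Kb, s52_OnFibre c4 c6 w →
      ∀ i, 5 • B c4 c6 w i = 0)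
    (hind : ∀ c4 c6 : ℤ, c4 ^ 3 ≠ c6 ^ 2 → ∀ w : Fin 2 → Kb, s52_OnFibre c4 c6 w →
      ∀ a b : ℤ, a • B c4 c6 w 0 + b • B c4 c6 w 1 = 0 → (5 : ℤ) ∣ a ∧ (5 : ℤ) ∣ b)
    (hS : s52d_Rule B s52_Smat mS) (hT : s52d_Rule B s52_Tmat mT) (hZ : s52d_Rule B s52_Zmat 1)
    (hGalζ : ∀ σ : s58_G, σ s52_zeta = s52_zeta → ∀ c4 c6 : ℤ, c4 ^ 3 ≠ c6 ^ 2 →
      ∀ w : Fin 2 → Kb, s52_OnFibre c4 c6 w →
        ∀ i, σ • B c4 c6 w i = B c4 c6 (fun k => σ (w k)) i) :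
    s52m_KleinTors := by
  intro c4 c6 _ _ hne
  refine ⟨mS, mT, B c4 c6, hgen, ⟨?_, ?_, ?_, ?_, ?_⟩, ?_⟩
  · exact fun w hw i => htors c4 c6 hne w hw i
  · exact fun w hw a b h => hind c4 c6 hne w hw a b h
  · intro w hw
    funext i
    exact hS c4 c6 hne w hw i
  · intro w hw
    funext i
    exact hT c4 c6 hne w hw i
  · intro w hw
    funext i
    rw [hZ c4 c6 hne w hw i, s52d_sum_one]
  · intro σ hσ w hw
    funext i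
    exact (hGalζ σ hσ c4 c6 hne w hw i).symm

/-- **the S52 statement from [KLEIN-GROUP] and the point-level facts** about one family of bases
`B c₄ c₆ w = ![P₁ w, P₂ w]` of `(s52_sh c₄ c₆)[5]`. -/
theorem s52m_final3 (hG : s52_KleinGroup)
    (B : ∀ c4 c6 : ℤ, (Fin 2 → Kb) → Fin 2 → s58_Pt (s52_sh c4 c6))
    (mS mT : Matrix (Fin 2) (Fin 2) ℤ) (hgen : s52m_Gen mS mT)
    (htors : ∀ c4 c6 : ℤ, c4 ^ 3 ≠ c6 ^ 2 → ∀ w : Fin 2 → Kb, s52_OnFibre c4 c6 w →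
      ∀ i, 5 • B c4 c6 w i = 0)
    (hind : ∀ c4 c6 : ℤ, c4 ^ 3 ≠ c6 ^ 2 → ∀ w : Fin 2 → Kb, s52_OnFibre c4 c6 w →
      ∀ a b : ℤ, a • B c4 c6 w 0 + b • B c4 c6 w 1 = 0 → (5 : ℤ) ∣ a ∧ (5 : ℤ) ∣ b)
    (hS : s52d_Rule B s52_Smat mS) (hT : s52d_Rule B s52_Tmat mT) (hZ : s52d_Rule B s52_Zmat 1)
    (hGalζ : ∀ σ : s58_G, σ s52_zeta = s52_zeta → ∀ c4 c6 : ℤ, c4 ^ 3 ≠ c6 ^ 2 →
      ∀ w : Fin 2 → Kb, s52_OnFibre c4 c6 w →
        ∀ i, σ • B c4 c6 w i = B c4 c6 (fun k => σ (w k)) i)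
    (hGal : ∀ σ : s58_G, ∃ N : Matrix (Fin 2) (Fin 2) ℤ, ∀ c4 c6 : ℤ, c4 ^ 3 ≠ c6 ^ 2 →
      ∀ w : Fin 2 → Kb, s52_OnFibre c4 c6 w →
        ∀ i, σ • B c4 c6 w i = ∑ j, N i j • B c4 c6 (fun k => σ (w k)) j)
    (W : WeierstrassCurve ℤ) (hΔ : W.Δ ≠ 0) (hW : W.IsSemistableModel) :
    ∃ W' : WeierstrassCurve ℤ, W'.Δ ≠ 0 ∧ W'.IsSemistableModel ∧ W'.ModRepIsIrreducible 3 ∧
      ∀ ℓ : ℕ, ℓ.Prime → W.IsGoodPrimeFor ℓ → W'.IsGoodPrimeFor ℓ → ℓ ≠ 5 →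
        (5 : ℤ) ∣ (W'.apOfModel ℓ - W.apOfModel ℓ) :=
  s52m_final2 hG (s52m_kleinTors_of_pts B mS mT hgen htors hind hS hT hZ hGalζ)
    (s52d_kleinIso_of B mS mT 1 hG.2.1 htors hind hS hT hZ hGal) W hΔ hW

/-- `s52m_Gen` for the matrices of helper9's basis. -/
theorem s52m_gen_std : s52m_Gen !![0, -1; 1, 0] !![1, -1; 0, 1] :=
  s52m_gen_of_sl25 s52k_sl25 _ _ rfl ⟨-1, by norm_num, Or.inl rfl⟩

end Fermat.Agent.Lib.S52

end
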